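/-
Programme DS (S48), chapter G-ESRED (helper52): THE CHAPTER INTERFACE of the generic twins of
`ES/RED` and `ES/KRON`.

A *generator datum* `D : GenData` is a set `D.gens` of Laurent series with INTEGER coefficients
containing the `q`-expansion `jqModC ℤ` of `j`.  For every field `k` it defines the subfield

  `D.FC k := k(ĝ : g ∈ D.gens) ⊆ k((q))`      (`ĝ` = coefficientwise image of `g` in `k((q))`),

functorially in `k` (`coeffMap_mem_FC`).  `D.FQ := D.FC ℚ` is the rational function field of the
modular curve, `D.FC L = laurentBaseChange L D.FQ` for `L / ℚ` (`laurentBaseChange_FQ_eq`), and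
`D.FC k` for `k` of characteristic `p` is the function field of the special fibre at the good
primes `p`.

All twins `Fermat/Agent/DS/G/ES/RED/<File>.lean` are the originals `Fermat/Agent/ES/RED/<File>.lean`
with `(M : ℕ) [NeZero M]` replaced by `(D : GenData)`, `modularFunctionFieldFullC k M` by `D.FC k`,
`modularFunctionFieldFull M` by `D.FQ`.  The old objects are the instance `X0gens M`
(`X0gens_FC`, `X0gens_FQ`).
-/
import Mathlib
import Fermat.Prelude.Def_ModularCurve_ReductionModL

set_option autoImplicit false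

noncomputable section

open HahnSeries ModularCurve IntermediateField

namespace Fermat.Agent.DS.G.ES.RED.Iface

/-- **Generator datum**: integral `q`-expansions generating the function fields of a modular
curve in all characteristics. -/
structure GenData where
  /-- the generators, as Laurent series with integer coefficients -/
  gens : Set (LaurentSeries ℤ)
  /-- `j` is one of them -/
  jq_mem : jqModC ℤ ∈ gens

/-! ### generalities on `coeffMap` -/

section CoeffMap

variable {R S : Type*} [CommRing R] [CommRing S]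

theorem coeffMap_intCast_comp (f : R →+* S) (g : LaurentSeries ℤ) :
    coeffMap f (coeffMap (Int.castRingHom R) g) = coeffMap (Int.castRingHom S) g := by
  rw [coeffMap_coeffMap]
  exact coeffMap_congr (RingHom.ext_int _ _) g

variable {k κ : Type*} [Field k] [Field κ]

theorem coeffMap_algebraMap' (φ : k →+* κ) (c : k) :
    coeffMap φ (algebraMap k (LaurentSeries k) c) = algebraMap κ (LaurentSeries κ) (φ c) := by
  rw [algebraMap_laurentSeries_eq_single, algebraMap_laurentSeries_eq_single, coeffMap_single]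

/-- A ring hom `Φ : E → E'` lying over `φ : k → κ` maps `k(S)` into `κ(Φ S)`. -/
theorem map_mem_adjoin {E E' : Type*} [Field E] [Field E'] [Algebra k E] [Algebra κ E']
    (φ : k →+* κ) (Φ : E →+* E')
    (hΦ : ∀ c : k, Φ (algebraMap k E c) = algebraMap κ E' (φ c))
    (T : Set E) {x : E} (hx : x ∈ adjoin k T) : Φ x ∈ adjoin κ (Φ '' T) := by
  have h : Subfield.closure (Set.range (algebraMap k E) ∪ T) ≤
      (adjoin κ (Φ '' T)).toSubfield.comap Φ := by
    rw [Subfield.closure_le]
    rintro y (⟨c, rfl⟩ | hy)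
    · show Φ _ ∈ adjoin κ (Φ '' T)
      rw [hΦ]
      exact IntermediateField.algebraMap_mem _ _
    · exact subset_adjoin κ _ ⟨y, hy, rfl⟩
  exact h hx

end CoeffMap

namespace GenData

variable (D : GenData)

/-- the generators over a commutative ring `R`. -/
def gensC (R : Type*) [CommRing R] : Set (LaurentSeries R) :=
  ⇑(coeffMap (Int.castRingHom R)) '' D.gens

theorem mem_gensC {R : Type*} [CommRing R] {g : LaurentSeries ℤ} (hg : g ∈ D.gens) :
    coeffMap (Int.castRingHom R) g ∈ D.gensC R := ⟨g, hg, rfl⟩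

/-- base change of the generators. -/
theorem image_gensC {R S : Type*} [CommRing R] [CommRing S] (f : R →+* S) :
    ⇑(coeffMap f) '' D.gensC R = D.gensC S := by
  ext y
  constructor
  · rintro ⟨x, ⟨g, hg, rfl⟩, rfl⟩
    exact ⟨g, hg, (coeffMap_intCast_comp f g).symm⟩
  · rintro ⟨g, hg, rfl⟩
    exact ⟨coeffMap (Int.castRingHom R) g, ⟨g, hg, rfl⟩, coeffMap_intCast_comp f g⟩

theorem jqModC_mem_gensC (R : Type*) [CommRing R] : jqModC R ∈ D.gensC R :=
  ⟨jqModC ℤ, D.jq_mem, coeffMap_jqModC (Int.castRingHom R)⟩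

/-- **the function field over `k`**: `k(ĝ : g ∈ gens) ⊆ k((q))`. -/
def FC (k : Type*) [Field k] : IntermediateField k (LaurentSeries k) :=
  IntermediateField.adjoin k (D.gensC k)

variable {k κ : Type*} [Field k] [Field κ]

theorem gen_mem_FC {g : LaurentSeries ℤ} (hg : g ∈ D.gens) :
    coeffMap (Int.castRingHom k) g ∈ D.FC k :=
  subset_adjoin k _ (D.mem_gensC hg)

theorem jqModC_mem_FC : jqModC k ∈ D.FC k :=
  subset_adjoin k _ (D.jqModC_mem_gensC k)

/-- **Functoriality**: `coeffMap φ` maps `D.FC k` into `D.FC κ`, for every `φ : k →+* κ`. -/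
theorem coeffMap_mem_FC (φ : k →+* κ) {x : LaurentSeries k} (hx : x ∈ D.FC k) :
    coeffMap φ x ∈ D.FC κ := by
  have h := map_mem_adjoin φ (coeffMap φ) (coeffMap_algebraMap' φ) (D.gensC k) hx
  rwa [D.image_gensC φ] at h

/-- In particular `D.FC k` is stable under the coefficientwise ring endomorphisms. -/
theorem coeffMap_mem_FC_self (σ : k →+* k) {x : LaurentSeries k} (hx : x ∈ D.FC k) :
    coeffMap σ x ∈ D.FC k :=
  D.coeffMap_mem_FC σ hx

/-- monotonicity in the generators. -/
theorem FC_mono {D₁ D₂ : GenData} (h : D₁.gens ⊆ D₂.gens) (k : Type*) [Field k] :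
    D₁.FC k ≤ D₂.FC k :=
  IntermediateField.adjoin.mono k _ _ (Set.image_mono h)

/-- the rational function field. -/
abbrev FQ : IntermediateField ℚ (LaurentSeries ℚ) := D.FC ℚ

/-- `L · D.FQ = D.FC L` inside `L((q))`. -/
theorem laurentBaseChange_FQ_eq (L : Type*) [Field L] [Algebra ℚ L] :
    laurentBaseChange L D.FQ = D.FC L := by
  have himg : ⇑(coeffEmb L) '' D.gensC ℚ = D.gensC L := D.image_gensC (algebraMap ℚ L)
  apply le_antisymm
  · rw [laurentBaseChange, adjoin_le_iff]
    rintro _ ⟨x, hx, rfl⟩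
    exact D.coeffMap_mem_FC (algebraMap ℚ L) hx
  · rw [FC, adjoin_le_iff, ← himg]
    rintro _ ⟨x, hx, rfl⟩
    exact coeffEmb_mem_laurentBaseChange L (subset_adjoin ℚ _ hx)

/-- the function field over `ℚ̄`. -/
abbrev Fbar : IntermediateField (AlgebraicClosure ℚ) (LaurentSeries (AlgebraicClosure ℚ)) :=
  laurentBaseChange (AlgebraicClosure ℚ) D.FQ

theorem Fbar_eq : D.Fbar = D.FC (AlgebraicClosure ℚ) :=
  D.laurentBaseChange_FQ_eq (AlgebraicClosure ℚ)

end GenData

/-! ### the instance `X₀(N)` -/

section X0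

/-- the generators `j(q^d)`, `d ∣ N`, of the function field of `X₀(N)`. -/
def X0gens (N : ℕ) : GenData where
  gens := {x | ∃ (d : ℕ) (_ : NeZero d), d ∣ N ∧ x = qExpand ℤ d (jqModC ℤ)}
  jq_mem := ⟨1, ⟨one_ne_zero⟩, one_dvd N, (qExpand_one_apply _).symm⟩

theorem X0gens_gensC (N : ℕ) (R : Type*) [CommRing R] :
    (X0gens N).gensC R = {x | ∃ (d : ℕ) (_ : NeZero d), d ∣ N ∧ x = qExpand R d (jqModC R)} := by
  ext y
  constructor
  · rintro ⟨g, ⟨d, hne, hd, rfl⟩, rfl⟩
    refine ⟨d, hne, hd, ?_⟩
    rw [coeffMap_qExpand, coeffMap_jqModC]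
  · rintro ⟨d, hne, hd, rfl⟩
    refine ⟨qExpand ℤ d (jqModC ℤ), ⟨d, hne, hd, rfl⟩, ?_⟩
    rw [coeffMap_qExpand, coeffMap_jqModC]

/-- **the old special-fibre field is an instance.** -/
theorem X0gens_FC (N : ℕ) (k : Type*) [Field k] :
    (X0gens N).FC k = modularFunctionFieldFullC k N := by
  rw [GenData.FC, X0gens_gensC]
  rfl

/-- **the old rational function field is an instance.** -/
theorem X0gens_FQ (N : ℕ) : (X0gens N).FQ = modularFunctionFieldFull N := by
  rw [GenData.FQ, X0gens_FC]
  rfl

end X0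

end Fermat.Agent.DS.G.ES.RED.Iface
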