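/-
Programme DS (S48), chapter G-ESRED, brick E02 (helper52): generic twin of `ES/RED/RedAssembly15`
(helper15): ASSEMBLY of the generic predicate `IsPlaceReductionAlongG A π F₀ Ft r`
(`DS/G/RED/Defs.lean`, helper28) from the abstract one-chart theorem
`R2Abstract14.r2_chart_mapDomain` on TWO charts covering the special fibre.

The pair `(modularFunctionFieldFull N, modularFunctionFieldFullC k N)` of the original is replaced by
an arbitrary pair `(F₀, Ft)`, `F₀ ≤ ℚ((q))`, `Ft ≤ k((q))` (in the chapter: `F₀ = D.FQ`,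
`Ft = D.FC k` for a generator datum `D : GenData`).  Same theorem names as the original;
`finDiv_of_hasPrincipalDivisors` is generic and is taken from the original file.
-/
import Mathlib
import Fermat.Agent.DS.G.RED.Defs
import Fermat.Agent.ES.RED.RedAssembly15

set_option autoImplicit false

open AlgebraicCurve ModularCurve HahnSeries

noncomputable section

namespace Fermat.Agent.DS.G.ES.RED.RedAssembly15

open Fermat.Agent.ES.RED.R2Abstract14 Fermat.Agent.DS.G.RED.Defs

section Abstract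

variable {L : Type*} [Field L] [Algebra ℚ L] (A : ValuationSubring L)
variable {k : Type*} [Field k] (π : A →+* k)
variable (F₀ : IntermediateField ℚ (LaurentSeries ℚ)) (Ft : IntermediateField k (LaurentSeries k))

/-- The bridge between the `A`-integral `q`-expansions and the Gauss ring `G` with its
reduction `red`. -/
def GaussBridge (G : Subring ↥(laurentBaseChange L F₀)) (red : G →+* ↥Ft) : Prop :=
  ∀ (y : LaurentSeries A)
    (hy : coeffMap A.subtype y ∈ laurentBaseChange L F₀)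
    (hyk : coeffMap π y ∈ Ft),
    ∃ g : G, (g : ↥(laurentBaseChange L F₀)) = ⟨coeffMap A.subtype y, hy⟩ ∧
      red g = ⟨coeffMap π y, hyk⟩

variable {A π F₀ Ft}

/-- **RED-Z, abstract form**: two charts covering the special fibre give
`IsPlaceReductionAlongG`. -/
theorem isPlaceReductionAlong_of_charts [IsAlgClosed L]
    (r : Place L ↥(laurentBaseChange L F₀) → Place k ↥Ft)
    (G : Subring ↥(laurentBaseChange L F₀)) (red : G →+* ↥Ft)
    (hbridge : GaussBridge A π F₀ Ft G red) (hfin : FinDiv L ↥(laurentBaseChange L F₀))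
    (hdeg : ∀ P, (r P).deg = P.deg)
    {B₀ B₁ : Subring ↥(laurentBaseChange L F₀)} {x₀ x₁ : G} {n₀ n₁ : ℕ}
    {S₀ S₁ : Set (Place L ↥(laurentBaseChange L F₀))}
    {St₀ St₁ : Set (Place k ↥Ft)}
    (h₀ : ChartHyp A π G red r B₀ x₀ n₀ S₀ St₀) (h₁ : ChartHyp A π G red r B₁ x₁ n₁ S₁ St₁)
    (hcov : ∀ Q : Place k ↥Ft, Q ∈ St₀ ∨ Q ∈ St₁) :
    IsPlaceReductionAlongG A π F₀ Ft r := by
  refine ⟨hdeg, ?_⟩
  intro y hy hyk hne D hD Q
  obtain ⟨g, hg, hred⟩ := hbridge y hy hyk
  have hredne : red g ≠ 0 := by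
    rw [hred]
    intro h0
    exact hne (congrArg Subtype.val h0)
  have hD' : ∀ P, D P = P.ord (g : ↥(laurentBaseChange L F₀)) := by
    intro P
    rw [hD P, hg]
  rw [← hred]
  rcases hcov Q with hQ | hQ
  · exact r2_chart_mapDomain h₀ hfin hQ g hredne D hD'
  · exact r2_chart_mapDomain h₁ hfin hQ g hredne D hD'

/-- **RED-Z, abstract form**, packaged as `ReductionInputsAlongG`. -/
theorem reductionInputsAlong_of_charts [IsAlgClosed L]
    (r : Place L ↥(laurentBaseChange L F₀) → Place k ↥Ft)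
    (G : Subring ↥(laurentBaseChange L F₀)) (red : G →+* ↥Ft)
    (hbridge : GaussBridge A π F₀ Ft G red) (hfin : FinDiv L ↥(laurentBaseChange L F₀))
    (hdeg : ∀ P, (r P).deg = P.deg)
    {B₀ B₁ : Subring ↥(laurentBaseChange L F₀)} {x₀ x₁ : G} {n₀ n₁ : ℕ}
    {S₀ S₁ : Set (Place L ↥(laurentBaseChange L F₀))}
    {St₀ St₁ : Set (Place k ↥Ft)}
    (h₀ : ChartHyp A π G red r B₀ x₀ n₀ S₀ St₀) (h₁ : ChartHyp A π G red r B₁ x₁ n₁ S₁ St₁)
    (hcov : ∀ Q : Place k ↥Ft, Q ∈ St₀ ∨ Q ∈ St₁)
    (hgen : PrincipalGeneratedByIntegralG A π F₀ Ft) :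
    ReductionInputsAlongG A π F₀ Ft :=
  ⟨r, isPlaceReductionAlong_of_charts r G red hbridge hfin hdeg h₀ h₁ hcov, hgen⟩

end Abstract

end Fermat.Agent.DS.G.ES.RED.RedAssembly15
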