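/-
Programme DS (S48), chapter G-ESRED, brick E02 (helper52): generic twin of `ES/RED/GaussRing15`
(helper15).  The `Generic` section of the original (`gaussRing A π E Et`, `gaussRed`, `gaussRed_eq`,
`mem_gaussRing_of_coeffMap`, `gaussRed_mk`, constants, `le_gaussRing_of_forall`) is already generic
and is used as is (`open Fermat.Agent.ES.RED.GaussRing15`); this file twins the `Prelude` section
for an arbitrary pair `(F₀, Ft)` (in the chapter: `F₀ = D.FQ`, `Ft = D.FC k`).
-/
import Mathlib
import Fermat.Agent.ES.RED.GaussRing15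
import Fermat.Agent.DS.G.ES.RED.RedAssembly15

set_option autoImplicit false

open AlgebraicCurve ModularCurve HahnSeries

noncomputable section

namespace Fermat.Agent.DS.G.ES.RED.GaussRing15

open Fermat.Agent.ES.RED.GaussRing15 Fermat.Agent.DS.G.ES.RED.RedAssembly15

section Prelude

variable {L : Type*} [Field L] [Algebra ℚ L] (A : ValuationSubring L) {k : Type*} [Field k]
  (π : ↥A →+* k)
  (F₀ : IntermediateField ℚ (LaurentSeries ℚ)) (Ft : IntermediateField k (LaurentSeries k))

/-- The Gauss ring of `F = L · F₀` relative to `F~ = Ft`. -/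
abbrev gaussRingN : Subring ↥(laurentBaseChange L F₀) :=
  gaussRing A π (laurentBaseChange L F₀) Ft

/-- Its reduction. -/
abbrev gaussRedN : ↥(gaussRingN A π F₀ Ft) →+* ↥Ft :=
  gaussRed A π (laurentBaseChange L F₀) Ft

/-- The bridge to `IsPlaceReductionAlongG` holds by construction. -/
theorem gaussBridge : GaussBridge A π F₀ Ft (gaussRingN A π F₀ Ft) (gaussRedN A π F₀ Ft) := by
  intro y hy hyk
  exact ⟨⟨⟨coeffMap A.subtype y, hy⟩, mem_gaussRing_of_coeffMap A π _ _ y hy hyk⟩, rfl,
    gaussRed_mk A π _ _ y hy hyk⟩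

end Prelude

end Fermat.Agent.DS.G.ES.RED.GaussRing15
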