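/-
Programme DS (S48), chapter G-ESRED, brick E02 (helper52): generic twin of `ES/RED/RedCharts15`
(helper15): assembly of `IsPlaceReductionAlongG` / `ReductionInputsAlongG` (`DS/G/RED/Defs.lean`)
from TWO charts of `Contract8.ChartSpec`, for an arbitrary pair `(F₀, Ft)` (sections `Compat`,
`Main`) and, at `ℚbar`, for a generator datum `D : GenData` (section `Qbar`: `F₀ = D.FQ`,
`Ft = D.FC (kA A)`).

Differences with the original: `(N)` ↦ `(F₀, Ft)` resp. `(D : GenData)`; the two `X0`-specific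
inputs `FbarFacts20.hasPrincipalDivisors_bar`, `FbarFacts20.deg_eq_one_bar` are replaced by their
sources `FFGenus.hasPrincipalDivisors hx`, `FF.deg_eq_one hx` for the generator `x` of the chart
contract (`hx : FF.IsGen Qb x` is a parameter of `ChartSpec`); `(Rgen)` is a hypothesis in
`reductionInputsModL_of_chartSpecs` (supplied by the `GaussUnit25` twin).
-/
import Mathlib
import Fermat.Agent.DS.G.ES.RED.Iface
import Fermat.Agent.DS.G.ES.RED.GaussRing15
import Fermat.Agent.ES.RED.ChangeG15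
import Fermat.Agent.ES.RED.Contract8
import Fermat.Agent.ES.KRON.KronInst10
import Fermat.Agent.X0.FFGenus

set_option autoImplicit false

open AlgebraicCurve ModularCurve HahnSeries

noncomputable section

namespace Fermat.Agent.DS.G.ES.RED.RedCharts15

open Fermat.Agent.ES.RED.R2Abstract14 Fermat.Agent.ES.RED.R2Peel14
open Fermat.Agent.ES.RED.GaussRing15
open Fermat.Agent.DS.G.ES.RED.RedAssembly15 Fermat.Agent.DS.G.ES.RED.GaussRing15
open Fermat.Agent.ES.RED.Contract8 Fermat.Agent.ES.RED.ChangeG15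
open Fermat.Agent.X0 Fermat.Agent.DS.G.RED.Defs Fermat.Agent.DS.G.ES.RED.Iface

/-! ### compatibility of a chart with the common Gauss ring -/

section Compat

variable {L : Type*} [Field L] [Algebra ℚ L] [IsAlgClosed L] (A : ValuationSubring L)
variable (F₀ : IntermediateField ℚ (LaurentSeries ℚ))
variable (Ft : IntermediateField (kA A) (LaurentSeries (kA A)))
variable {x : ↥(laurentBaseChange L F₀)} {hx : FF.IsGen L x}
variable (S : ChartSpec A hx ↥Ft)

/-- **Compatibility of a chart with `q`-expansions**: every element of the chart ring has an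
`A`-integral `q`-expansion, and the chart's reduction is its coefficientwise reduction. -/
def Compat : Prop :=
  ∀ b : ↥S.B, ∃ Y : LaurentSeries ↥A,
    coeffMap A.subtype Y =
      (((b : ↥(laurentBaseChange L F₀)) : LaurentSeries L)) ∧
    ((S.red b : ↥Ft) : LaurentSeries (kA A)) = coeffMap (resA A) Y

variable {A F₀ Ft S}

theorem Compat.le_gaussRingN (hS : Compat A F₀ Ft S) : S.B ≤ gaussRingN A (resA A) F₀ Ft := by
  intro b hb
  obtain ⟨Y, hY, hYr⟩ := hS ⟨b, hb⟩
  refine ⟨Y, hY, ?_⟩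
  rw [← hYr]
  exact (S.red ⟨b, hb⟩).2

theorem Compat.gaussRedN_eq (hS : Compat A F₀ Ft S)
    (b : ↥(laurentBaseChange L F₀)) (hb : b ∈ S.B) :
    gaussRedN A (resA A) F₀ Ft ⟨b, hS.le_gaussRingN hb⟩ = S.red ⟨b, hb⟩ := by
  obtain ⟨Y, hY, hYr⟩ := hS ⟨b, hb⟩
  apply Subtype.ext
  rw [gaussRed_eq A (resA A) _ _ _ (Y := Y) hY, hYr]

end Compat

/-! ### the assembly from two `Contract8.ChartSpec`s -/

section Main

variable {L : Type*} [Field L] [Algebra ℚ L] [IsAlgClosed L] {A : ValuationSubring L}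
variable {F₀ : IntermediateField ℚ (LaurentSeries ℚ)}
variable {Ft : IntermediateField (kA A) (LaurentSeries (kA A))}
variable {x : ↥(laurentBaseChange L F₀)} {hx : FF.IsGen L x}
variable {S₀ S₁ : ChartSpec A hx ↥Ft}

/-- **RED-Z from two charts of `Contract8`**: the adapter's `ChartHypA` on each chart (with
`G := B`, `red := S.red`), compatibility with `q`-expansions, and `s₁~ = s₀~⁻¹` give
`IsPlaceReductionAlongG`. -/
theorem isPlaceReductionAlong_of_chartSpecs
    (r : Place L ↥(laurentBaseChange L F₀) → Place (kA A) ↥Ft)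
    (hS₀ : Compat A F₀ Ft S₀) (hS₁ : Compat A F₀ Ft S₁) {n₀ n₁ : ℕ}
    (h₀ : ChartHypA A (resA A) S₀.B S₀.red r S₀.B S₀.sB n₀ {P | S₀.InChart P}
      {Q | 0 ≤ Q.ord (S₀.red S₀.sB)})
    (h₁ : ChartHypA A (resA A) S₁.B S₁.red r S₁.B S₁.sB n₁ {P | S₁.InChart P}
      {Q | 0 ≤ Q.ord (S₁.red S₁.sB)})
    (hinv : S₁.red S₁.sB = (S₀.red S₀.sB)⁻¹)
    (hfin : FinDiv L ↥(laurentBaseChange L F₀))
    (hdeg : ∀ P, (r P).deg = P.deg) :
    IsPlaceReductionAlongG A (resA A) F₀ Ft r := by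
  have g₀ := changeG h₀ (gaussRingN A (resA A) F₀ Ft) (gaussRedN A (resA A) F₀ Ft)
    hS₀.le_gaussRingN (fun b hb => hS₀.gaussRedN_eq b hb)
  have g₁ := changeG h₁ (gaussRingN A (resA A) F₀ Ft) (gaussRedN A (resA A) F₀ Ft)
    hS₁.le_gaussRingN (fun b hb => hS₁.gaussRedN_eq b hb)
  refine isPlaceReductionAlong_of_charts r _ _ (gaussBridge A (resA A) F₀ Ft) hfin hdeg
    g₀.toChartHyp g₁.toChartHyp ?_
  intro Q
  rcases le_total 0 (Q.ord (S₀.red S₀.sB)) with h | h
  · exact Or.inl h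
  · right
    show 0 ≤ Q.ord (S₁.red S₁.sB)
    rw [hinv, Q.ord_inv]
    omega

end Main

/-! ### at `ℚbar` -/

section Qbar

/-- `ℚbar`. -/
abbrev Qb : Type := AlgebraicClosure ℚ

variable {A : ValuationSubring Qb} {D : GenData}
variable {x : ↥(laurentBaseChange Qb D.FQ)} {hx : FF.IsGen Qb x}
variable {S₀ S₁ : ChartSpec A hx ↥(D.FC (kA A))}

/-- **RED-Z at `ℚbar`**: `IsPlaceReductionAlongG A (resA A) D.FQ (D.FC (kA A)) r` and
`ReductionInputsAlongG …` from the two charts, a generator `xt` of the special fibre (all places of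
degree one) and `(Rgen)`. -/
theorem reductionInputsModL_of_chartSpecs
    (r : Place Qb ↥(laurentBaseChange Qb D.FQ) → Place (kA A) ↥(D.FC (kA A)))
    (hS₀ : Compat A D.FQ (D.FC (kA A)) S₀) (hS₁ : Compat A D.FQ (D.FC (kA A)) S₁) {n₀ n₁ : ℕ}
    (h₀ : ChartHypA A (resA A) S₀.B S₀.red r S₀.B S₀.sB n₀ {P | S₀.InChart P}
      {Q | 0 ≤ Q.ord (S₀.red S₀.sB)})
    (h₁ : ChartHypA A (resA A) S₁.B S₁.red r S₁.B S₁.sB n₁ {P | S₁.InChart P}
      {Q | 0 ≤ Q.ord (S₁.red S₁.sB)})
    (hinv : S₁.red S₁.sB = (S₀.red S₀.sB)⁻¹)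
    {xt : ↥(D.FC (kA A))} (hxt : FF.IsGen (kA A) xt)
    (hgen : PrincipalGeneratedByIntegralG A (resA A) D.FQ (D.FC (kA A))) :
    IsPlaceReductionAlongG A (resA A) D.FQ (D.FC (kA A)) r ∧
      ReductionInputsAlongG A (resA A) D.FQ (D.FC (kA A)) := by
  have : IsAlgClosed (kA A) := Fermat.Agent.ES.KRON.KronInst10.isAlgClosed_residueField A
  have := FFGenus.hasPrincipalDivisors hx
  have hdeg : ∀ P, (r P).deg = P.deg := fun P => by
    rw [FF.deg_eq_one hxt (r P), FF.deg_eq_one hx P]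
  have hr : IsPlaceReductionAlongG A (resA A) D.FQ (D.FC (kA A)) r :=
    isPlaceReductionAlong_of_chartSpecs r hS₀ hS₁ h₀ h₁ hinv
      Fermat.Agent.ES.RED.RedAssembly15.finDiv_of_hasPrincipalDivisors hdeg
  exact ⟨hr, r, hr, hgen⟩

end Qbar

end Fermat.Agent.DS.G.ES.RED.RedCharts15
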