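/-
Programme DS (S48), chapter G-ESRED, brick E02 (helper52): generic twin of `ES/RED/RedMain15`
(helper15): THE ASSEMBLY `IsPlaceReductionAlongG A (residue A) F₀ Ft T.r` for the global reduction
map `T.r` of `TwoCharts8.TwoCharts`, for an arbitrary pair `(F₀, Ft)` (section `Generic`) and at
`ℚbar` for a generator datum `D : GenData` (section `Qbar`).

Same names as the original; `(N)` ↦ `(F₀, Ft)` resp. `(D : GenData)`.  In
`reductionInputsModL_twoCharts` the `(Rgen)` input is a hypothesis (`GaussUnit25` twin), and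
`FbarFacts20.hasPrincipalDivisors_bar / deg_eq_one_bar` are replaced by
`FFGenus.hasPrincipalDivisors hx`, `FF.deg_eq_one hx` for the generator `x` of the contract.
-/
import Mathlib
import Fermat.Agent.DS.G.ES.RED.RedCharts15
import Fermat.Agent.ES.RED.R2Adapter9
import Fermat.Agent.ES.RED.TwoCharts8

set_option autoImplicit false

open AlgebraicCurve ModularCurve HahnSeries Polynomial IntermediateField

noncomputable section

namespace Fermat.Agent.DS.G.ES.RED.RedMain15

open Fermat.Agent.ES.RED.R2Abstract14 Fermat.Agent.ES.RED.R2Peel14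
open Fermat.Agent.DS.G.ES.RED.RedAssembly15 Fermat.Agent.DS.G.ES.RED.GaussRing15
open Fermat.Agent.ES.RED.Contract8 Fermat.Agent.DS.G.ES.RED.RedCharts15
open Fermat.Agent.ES.RED.TwoCharts8 Fermat.Agent.ES.RED.R2Adapter9
open Fermat.Agent.X0 Fermat.Agent.X0.FF
open Fermat.Agent.DS.G.RED.Defs Fermat.Agent.DS.G.ES.RED.Iface

section Generic

variable {L : Type*} [Field L] [Algebra ℚ L] [IsAlgClosed L] (A : ValuationSubring L)
variable (F₀ : IntermediateField ℚ (LaurentSeries ℚ))
variable (Ft : IntermediateField (kA A) (LaurentSeries (kA A)))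
variable {x : ↥(laurentBaseChange L F₀)} {hx : IsGen L x}

/-- The analytic inputs on one chart. -/
structure ChartInputs (S : ChartSpec A hx ↥Ft) : Prop where
  compat : Compat A F₀ Ft S
  gen : IsGen L S.s
  gent : IsGen (kA A) (S.red S.sB)
  sep : Algebra.IsSeparable (kA A)⟮S.red S.sB⟯ ↥Ft
  peel : ∀ (P : Place L ↥(laurentBaseChange L F₀))
    (hP : S.InChart P), S.PeelA P hP
  int : ∀ b : ↥S.B, IsIntegral (Algebra.adjoin (kA A) {S.red S.sB}) (S.red b)
  norm : ∀ z : ↥S.B, z ≠ 0 → ∃ z' : ↥S.B, z' ≠ 0 ∧ ∃ p : L[X],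
    ((z : ↥(laurentBaseChange L F₀)) *
      (z' : ↥(laurentBaseChange L F₀))) = aeval S.s p
  deg : Module.finrank L⟮S.s⟯ ↥(laurentBaseChange L F₀) =
    Module.finrank (kA A)⟮S.red S.sB⟯ ↥Ft

variable {A F₀ Ft}
variable (T : TwoCharts A hx ↥Ft)

/-- chart consistency in chart 0: `r P` has valuation ring `O_{rP}`. -/
theorem hr0 (P : Place L ↥(laurentBaseChange L F₀))
    (hP : T.S0.InChart P) (y : ↥Ft) :
    y ∈ (T.r P).toValuationSubring ↔ y ∈ T.S0.rSubring P hP := by
  rw [T.r_eq0 P hP]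
  exact Iff.rfl

/-- chart consistency in chart 1. -/
theorem hr1 [IsAlgClosed (kA A)] {xt : ↥Ft}
    (hxt : IsGen (kA A) xt)
    (P : Place L ↥(laurentBaseChange L F₀))
    (hP : T.S1.InChart P) (y : ↥Ft) :
    y ∈ (T.r P).toValuationSubring ↔ y ∈ T.S1.rSubring P hP := by
  rw [T.r_eq1 hxt P hP]
  exact Iff.rfl

/-- tube condition in chart 0. -/
theorem hrmem0 [IsAlgClosed (kA A)] {xt : ↥Ft}
    (hxt : IsGen (kA A) xt)
    (P : Place L ↥(laurentBaseChange L F₀)) :
    0 ≤ (T.r P).ord (T.S0.red T.S0.sB) ↔ T.S0.InChart P := by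
  constructor
  · intro h
    exact T.inChart0_of_red_mem hxt P (FF.mem_of_ord_nonneg _ h)
  · intro hP
    apply FF.ord_nonneg_of_mem
    rw [T.r_eq0 P hP]
    exact red_mem_rAt T.places0 T.tr0 P hP _

/-- tube condition in chart 1. -/
theorem hrmem1 [IsAlgClosed (kA A)] {xt : ↥Ft}
    (hxt : IsGen (kA A) xt)
    (P : Place L ↥(laurentBaseChange L F₀)) :
    0 ≤ (T.r P).ord (T.S1.red T.S1.sB) ↔ T.S1.InChart P := by
  constructor
  · intro h
    exact T.inChart1_of_red_mem hxt P (FF.mem_of_ord_nonneg _ h)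
  · intro hP
    apply FF.ord_nonneg_of_mem
    rw [T.r_eq1 hxt P hP]
    exact red_mem_rAt T.places1 T.tr1 P hP _

/-- **RED-Z**: the global reduction map of two charts satisfying the analytic inputs is a place
reduction in the sense of `DS/G/RED/Defs.lean`. -/
theorem isPlaceReductionAlong_twoCharts [CharZero L] [IsAlgClosed (kA A)]
    (h0 : ChartInputs A F₀ Ft T.S0) (h1 : ChartInputs A F₀ Ft T.S1)
    (hfin : FinDiv L ↥(laurentBaseChange L F₀))
    (hdeg : ∀ P, (T.r P).deg = P.deg) :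
    IsPlaceReductionAlongG A (resA A) F₀ Ft T.r := by
  have := h0.sep
  have := h1.sep
  have c0 := chartHypA_of_chartSpec_self T.S0 h0.gen h0.gent T.r (hr0 T)
    (hrmem0 T h0.gent) h0.peel h0.int h0.norm h0.deg
  have c1 := chartHypA_of_chartSpec_self T.S1 h1.gen h1.gent T.r (hr1 T h0.gent)
    (hrmem1 T h0.gent) h1.peel h1.int h1.norm h1.deg
  exact isPlaceReductionAlong_of_chartSpecs T.r h0.compat h1.compat c0 c1 T.red_s1_eq hfin hdeg

end Generic

section Qbar

variable {A : ValuationSubring Qb} {D : GenData}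
variable {x : ↥(laurentBaseChange Qb D.FQ)} {hx : IsGen Qb x}
variable (T : TwoCharts A hx ↥(D.FC (kA A)))

/-- **RED-Z at `ℚbar`**. -/
theorem isPlaceReductionModL_twoCharts
    (h0 : ChartInputs A D.FQ (D.FC (kA A)) T.S0) (h1 : ChartInputs A D.FQ (D.FC (kA A)) T.S1) :
    IsPlaceReductionAlongG A (resA A) D.FQ (D.FC (kA A)) T.r := by
  have : IsAlgClosed (kA A) := Fermat.Agent.ES.KRON.KronInst10.isAlgClosed_residueField A
  have := FFGenus.hasPrincipalDivisors hx
  have hdeg : ∀ P, (T.r P).deg = P.deg := fun P => by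
    rw [FF.deg_eq_one h0.gent (T.r P), FF.deg_eq_one hx P]
  exact isPlaceReductionAlong_twoCharts T h0 h1
    Fermat.Agent.ES.RED.RedAssembly15.finDiv_of_hasPrincipalDivisors hdeg

/-- **RED-Z at `ℚbar`**, packaged: `ReductionInputsAlongG A (residue A) D.FQ (D.FC (kA A))`, given
`(Rgen)` (from the `GaussUnit25` twin). -/
theorem reductionInputsModL_twoCharts
    (h0 : ChartInputs A D.FQ (D.FC (kA A)) T.S0) (h1 : ChartInputs A D.FQ (D.FC (kA A)) T.S1)
    (hgen : PrincipalGeneratedByIntegralG A (resA A) D.FQ (D.FC (kA A))) :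
    ReductionInputsAlongG A (resA A) D.FQ (D.FC (kA A)) :=
  ⟨T.r, isPlaceReductionModL_twoCharts T h0 h1, hgen⟩

end Qbar

end Fermat.Agent.DS.G.ES.RED.RedMain15
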