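/-
DS programme (S48), GEO half, chapter G-ESRED, brick DIAPLACE (helper95): **reduction of an
automorphism of the generic fibre (diamond operator) at the level of charts.**

Setting of `ES/RED/Contract8` (generic in `F`, `Ft`): `L` algebraically closed, `A ⊂ L` a valuation
subring with residue field `k`, `F / L` a function field, `Ft / k` the function field of the special
fibre, `S : ChartSpec A hx Ft` a chart (`B ⊂ F`, `red : B → Ft`, coordinate `s`).

An `L`-algebra automorphism `δ` of `F` is an *automorphism of the chart* (`ChartAut S δ`) if `δ` and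
`δ⁻¹` preserve the chart ring and `δ s = s` (automatic when `B` is the integral closure of `A[s]`,
`chartAut_of_integralClosure`).  If moreover every element of `Ft` is a fraction of reductions of
elements of `B` (`FracRed S`, = (L4) of the level systems), then `δ` has a *reduction*

  `redDia S δ h hfrac : Ft ≃ₐ[k] Ft`,   `redDia (S.red b) = S.red (δ b)`   (`redDia_red`),

which fixes the reduced coordinate (`redDia_red_s`) and gives a `ChartSym S (ofAlgAut δ)
(ofAlgAut (redDia …))` (`chartSym`).  For `T : TwoCharts A hx Ft` the same `redDia` (built from chart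
`0`) is compatible with chart `1` (`redDia_red₁`, from the overlap condition `T.ov0`), hence

  `r_smul : T.r (ofAlgAut δ • P) = ofAlgAut (redDia …) • T.r P`      (reduction of places commutes
  with the diamond), and `red_pair₀/₁` (the shape `Red b (red b) ∧ Red (δ b) (δ̄ • red b)`),

and the reduction commutes with the reduction of every chart symmetry `(g, h)` of chart `0` whose `g`
commutes with `δ` (`redDia_comm`: the reduced diamond commutes with Frobenius).

WARNING (see the message of helper95, 10:15Z): the statement "`f` has an `A`-integral `q`-expansion ⇒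
`δ f` has one" is FALSE for general `f` (only true on the chart rings); consumers must restrict their
`Red` relation to the chart rings, which is all the Kronecker argument needs.
-/
import Mathlib
import Fermat.Agent.ES.RED.TwoCharts8
import Fermat.Agent.ES.RED.GaloisContract21
import Fermat.Agent.ES.RED.GaloisGlobal21

set_option autoImplicit false
set_option linter.unusedSectionVars false

noncomputable section

open AlgebraicCurve

namespace Fermat.Agent.DS.G.ES.RED.DiaPlace

/-! ### Extending an endomorphism along fractions -/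

section Frac

variable {B Ft : Type*} [CommRing B] [Field Ft] (ρ : B →+* Ft)

/-- every element of `Ft` is a fraction of values of `ρ`. -/
def FracSurj : Prop := ∀ y : Ft, ∃ a b : B, ρ b ≠ 0 ∧ y * ρ b = ρ a

/-- `τ` is compatible with `ρ`: it preserves the kernel of `ρ` and its complement. -/
structure Compat (τ : B →+* B) : Prop where
  ker : ∀ b : B, ρ b = 0 → ρ (τ b) = 0
  ne : ∀ b : B, ρ b ≠ 0 → ρ (τ b) ≠ 0

variable {ρ}

/-- the underlying function of the extension. -/
def extFun (hf : FracSurj ρ) (τ : B →+* B) (y : Ft) : Ft :=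
  ρ (τ (hf y).choose) / ρ (τ (hf y).choose_spec.choose)

theorem extFun_spec (hf : FracSurj ρ) {τ : B →+* B} (hτ : Compat ρ τ) (y : Ft) (a b : B)
    (_hb : ρ b ≠ 0) (hab : y * ρ b = ρ a) : extFun hf τ y * ρ (τ b) = ρ (τ a) := by
  obtain ⟨hb₀, hab₀⟩ := (hf y).choose_spec.choose_spec
  set a₀ := (hf y).choose with ha₀
  set b₀ := (hf y).choose_spec.choose with hb₀'
  have h1 : ρ (a * b₀ - a₀ * b) = 0 := by
    rw [map_sub, map_mul, map_mul, ← hab, ← hab₀]; ring
  have h2 := hτ.ker _ h1
  rw [map_sub, map_sub, map_mul, map_mul, map_mul, map_mul, sub_eq_zero] at h2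
  have h3 : ρ (τ b₀) ≠ 0 := hτ.ne _ hb₀
  show ρ (τ a₀) / ρ (τ b₀) * ρ (τ b) = ρ (τ a)
  rw [div_mul_eq_mul_div, div_eq_iff h3, ← h2]

theorem extFun_unique (hf : FracSurj ρ) {τ : B →+* B} (hτ : Compat ρ τ) (y z : Ft) (a b : B)
    (hb : ρ b ≠ 0) (hab : y * ρ b = ρ a) (hz : z * ρ (τ b) = ρ (τ a)) : extFun hf τ y = z := by
  have h := extFun_spec hf hτ y a b hb hab
  exact mul_right_cancel₀ (hτ.ne _ hb) (h.trans hz.symm)

/-- **the extension of `τ` to `Ft`**. -/
def ext (hf : FracSurj ρ) {τ : B →+* B} (hτ : Compat ρ τ) : Ft →+* Ft where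
  toFun := extFun hf τ
  map_one' := by
    refine extFun_unique hf hτ 1 1 1 1 (by rw [map_one]; exact one_ne_zero) (by rw [one_mul]) ?_
    rw [one_mul]
  map_mul' y z := by
    obtain ⟨a, b, hb, hab⟩ := hf y
    obtain ⟨a', b', hb', hab'⟩ := hf z
    refine extFun_unique hf hτ (y * z) _ (a * a') (b * b')
      (by rw [map_mul]; exact mul_ne_zero hb hb') (by rw [map_mul, map_mul, ← hab, ← hab']; ring) ?_
    rw [map_mul, map_mul, map_mul, map_mul, ← extFun_spec hf hτ y a b hb hab,
      ← extFun_spec hf hτ z a' b' hb' hab']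
    ring
  map_zero' := by
    refine extFun_unique hf hτ 0 0 0 1 (by rw [map_one]; exact one_ne_zero)
      (by rw [zero_mul, map_zero]) ?_
    rw [zero_mul, map_zero, map_zero]
  map_add' y z := by
    obtain ⟨a, b, hb, hab⟩ := hf y
    obtain ⟨a', b', hb', hab'⟩ := hf z
    refine extFun_unique hf hτ (y + z) _ (a * b' + a' * b) (b * b')
      (by rw [map_mul]; exact mul_ne_zero hb hb')
      (by rw [map_mul, map_add, map_mul, map_mul, ← hab, ← hab']; ring) ?_
    rw [map_mul, map_mul, map_add, map_add, map_mul, map_mul, map_mul, map_mul,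
      ← extFun_spec hf hτ y a b hb hab, ← extFun_spec hf hτ z a' b' hb' hab']
    ring

theorem ext_spec (hf : FracSurj ρ) {τ : B →+* B} (hτ : Compat ρ τ) (y : Ft) (a b : B)
    (hb : ρ b ≠ 0) (hab : y * ρ b = ρ a) : ext hf hτ y * ρ (τ b) = ρ (τ a) :=
  extFun_spec hf hτ y a b hb hab

/-- **characterisation**: `ext (ρ b) = ρ (τ b)`. -/
theorem ext_apply (hf : FracSurj ρ) {τ : B →+* B} (hτ : Compat ρ τ) (b : B) :
    ext hf hτ (ρ b) = ρ (τ b) := by
  have h := ext_spec hf hτ (ρ b) b 1 (by rw [map_one]; exact one_ne_zero)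
    (by rw [map_one, mul_one])
  rwa [map_one, map_one, mul_one] at h

/-- a ring endomorphism of `Ft` is determined by its values on the image of `ρ`. -/
theorem ringHom_ext_of_fracSurj (hf : FracSurj ρ) {f g : Ft →+* Ft}
    (h : ∀ b : B, f (ρ b) = g (ρ b)) (y : Ft) : f y = g y := by
  obtain ⟨a, b, hb, hab⟩ := hf y
  have h1 : f y * f (ρ b) = g y * f (ρ b) := by
    rw [← map_mul, hab, h a, h b, ← map_mul, hab]
  have h2 : f (ρ b) ≠ 0 := by
    intro h0
    exact hb ((map_eq_zero f).mp h0)
  exact mul_right_cancel₀ h2 h1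

theorem ext_ext (hf : FracSurj ρ) {τ τ' : B →+* B} (hτ : Compat ρ τ) (hτ' : Compat ρ τ')
    (h : ∀ b : B, ρ (τ' (τ b)) = ρ b) (y : Ft) : ext hf hτ' (ext hf hτ y) = y := by
  have := ringHom_ext_of_fracSurj hf (f := (ext hf hτ').comp (ext hf hτ)) (g := RingHom.id Ft)
    (fun b => by
      rw [RingHom.comp_apply, ext_apply, ext_apply, RingHom.id_apply, h]) y
  exact this

end Frac

/-! ### Automorphisms of a chart and their reduction -/

open Fermat.Agent.X0.FF Fermat.Agent.ES.RED.PlaceValue13 Fermat.Agent.ES.RED.Contract8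
  Fermat.Agent.ES.RED.TwoCharts8 Fermat.Agent.ES.RED.GaloisContract21

variable {L : Type*} [Field L] [IsAlgClosed L] {A : ValuationSubring L}
variable {F : Type*} [Field F] [Algebra L F] {x : F} {hx : IsGen L x}
variable {Ft : Type*} [Field Ft] [Algebra (kA A) Ft]

/-- `δ` is an automorphism of the chart `S`: it preserves the chart ring (in both directions) and
fixes the coordinate. -/
structure ChartAut (S : ChartSpec A hx Ft) (δ : F ≃ₐ[L] F) : Prop where
  map_mem : ∀ b ∈ S.B, δ b ∈ S.B
  symm_mem : ∀ b ∈ S.B, δ.symm b ∈ S.B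
  map_s : δ S.s = S.s

/-- (L4): every element of `Ft` is a fraction of reductions of elements of the chart ring. -/
abbrev FracRed (S : ChartSpec A hx Ft) : Prop := FracSurj S.red

namespace ChartAut

variable {S : ChartSpec A hx Ft} {δ : F ≃ₐ[L] F}

theorem symm (h : ChartAut S δ) : ChartAut S δ.symm where
  map_mem := h.symm_mem
  symm_mem := fun b hb => by
    have : δ.symm.symm = δ := AlgEquiv.symm_symm δ
    rw [this]
    exact h.map_mem b hb
  map_s := by
    conv_lhs => rw [← h.map_s]
    exact δ.symm_apply_apply S.s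

/-- the action of `δ` on the chart ring. -/
def toB (h : ChartAut S δ) : ↥S.B →+* ↥S.B where
  toFun b := ⟨δ (b : F), h.map_mem b b.2⟩
  map_one' := Subtype.ext (map_one δ)
  map_mul' a b := Subtype.ext (map_mul δ (a : F) (b : F))
  map_zero' := Subtype.ext (map_zero δ)
  map_add' a b := Subtype.ext (map_add δ (a : F) (b : F))

@[simp] theorem coe_toB (h : ChartAut S δ) (b : ↥S.B) : ((h.toB b : ↥S.B) : F) = δ (b : F) := rfl

theorem symm_toB_toB (h : ChartAut S δ) (b : ↥S.B) : h.symm.toB (h.toB b) = b :=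
  Subtype.ext (δ.symm_apply_apply (b : F))

theorem toB_symm_toB (h : ChartAut S δ) (b : ↥S.B) : h.toB (h.symm.toB b) = b :=
  Subtype.ext (δ.apply_symm_apply (b : F))

theorem toB_const (h : ChartAut S δ) (a : ↥A) : h.toB (S.const a) = S.const a :=
  Subtype.ext (δ.commutes (a : L))

theorem toB_sB (h : ChartAut S δ) : h.toB S.sB = S.sB := Subtype.ext h.map_s

/-- the kernel of the reduction is stable (by saturation). -/
theorem red_toB_eq_zero (h : ChartAut S δ) (b : ↥S.B) (hb : S.red b = 0) :
    S.red (h.toB b) = 0 := by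
  rcases eq_or_ne b 0 with rfl | hb0
  · rw [map_zero, map_zero]
  obtain ⟨c, b', hbc, hb'⟩ := S.sat b hb0
  have h1 : b = S.const c * b' := Subtype.ext (by rw [hbc]; rfl)
  rw [h1, S.red_const_mul] at hb
  have h2 : algebraMap (kA A) Ft (resA A c) = 0 := by
    rcases mul_eq_zero.mp hb with h0 | h0
    · exact h0
    · exact absurd h0 hb'
  rw [h1, map_mul, toB_const, S.red_const_mul, h2, zero_mul]

theorem compat (h : ChartAut S δ) : Compat S.red h.toB where
  ker := h.red_toB_eq_zero
  ne := fun b hb h0 => by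
    apply hb
    have := h.symm.red_toB_eq_zero _ h0
    rwa [symm_toB_toB] at this

end ChartAut

section RedDia

variable (S : ChartSpec A hx Ft) (δ : F ≃ₐ[L] F) (h : ChartAut S δ) (hfrac : FracRed S)

/-- **The reduction of the chart automorphism `δ`**: a `k`-algebra automorphism of `Ft`. -/
def redDia : Ft ≃ₐ[kA A] Ft where
  toFun := ext hfrac h.compat
  invFun := ext hfrac h.symm.compat
  left_inv := ext_ext hfrac h.compat h.symm.compat
    (fun b => by rw [ChartAut.symm_toB_toB])
  right_inv := ext_ext hfrac h.symm.compat h.compat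
    (fun b => by rw [ChartAut.toB_symm_toB])
  map_mul' := map_mul _
  map_add' := map_add _
  commutes' c := by
    obtain ⟨a, rfl⟩ := IsLocalRing.residue_surjective c
    show ext hfrac h.compat (algebraMap (kA A) Ft (resA A a)) = algebraMap (kA A) Ft (resA A a)
    rw [← S.red_const' a, ext_apply, ChartAut.toB_const]

/-- **characterisation**: `redDia (red b) = red (δ b)`. -/
theorem redDia_red (b : ↥S.B) : redDia S δ h hfrac (S.red b) = S.red (h.toB b) :=
  ext_apply hfrac h.compat b

theorem redDia_symm_red (b : ↥S.B) :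
    (redDia S δ h hfrac).symm (S.red b) = S.red (h.symm.toB b) :=
  ext_apply hfrac h.symm.compat b

/-- the reduced coordinate is fixed. -/
theorem redDia_red_s : redDia S δ h hfrac (S.red S.sB) = S.red S.sB := by
  rw [redDia_red, ChartAut.toB_sB]

/-- the reduction is determined by `redDia_red`. -/
theorem redDia_unique (f : Ft ≃ₐ[kA A] Ft) (hf : ∀ b : ↥S.B, f (S.red b) = S.red (h.toB b)) :
    f = redDia S δ h hfrac := by
  ext y
  exact ringHom_ext_of_fracSurj hfrac (f := (f : Ft →+* Ft))
    (g := ((redDia S δ h hfrac : Ft ≃ₐ[kA A] Ft) : Ft →+* Ft))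
    (fun b => by
      show f (S.red b) = redDia S δ h hfrac (S.red b)
      rw [hf, redDia_red]) y

/-- **the chart symmetry of a chart automorphism.** -/
def chartSym : ChartSym S (SemilinearAut.ofAlgAut δ)
    (SemilinearAut.ofAlgAut (redDia S δ h hfrac)) where
  τB :=
    { toFun := h.toB
      invFun := h.symm.toB
      left_inv := h.symm_toB_toB
      right_inv := h.toB_symm_toB }
  coe_τB _ := rfl
  red_τB b := (redDia_red S δ h hfrac b).symm
  smul_s := h.map_s
  base_mem a := a.2
  res_base _ := rfl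

end RedDia

/-! ### A second chart with the same reduction -/

section Second

variable (S : ChartSpec A hx Ft) (δ : F ≃ₐ[L] F) (h : ChartAut S δ) (hfrac : FracRed S)
variable (S₁ : ChartSpec A hx Ft) (h₁ : ChartAut S₁ δ)

/-- If the chart ring of `S₁` lies in the localisation of the chart ring of `S` at the generic point
of the special fibre, compatibly with the reductions, then the reduction of `δ` computed in `S` is
also its reduction in `S₁`. -/
theorem redDia_red_of_loc
    (hloc : ∀ b₁ : ↥S₁.B, ∃ a b : ↥S.B, S.red b ≠ 0 ∧ (b₁ : F) * (b : F) = (a : F) ∧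
      S₁.red b₁ * S.red b = S.red a)
    (b₁ : ↥S₁.B) : redDia S δ h hfrac (S₁.red b₁) = S₁.red (h₁.toB b₁) := by
  obtain ⟨a, b, hb, hF, hred⟩ := hloc b₁
  -- the same relation for `δ b₁`
  obtain ⟨a', b', hb', hF', hred'⟩ := hloc (h₁.toB b₁)
  -- `δ b₁ * δ b = δ a` and `δ b₁ * b' = a'` give `δ a * b' = a' * δ b` in `B`
  have e1 : h.toB a * b' = a' * h.toB b := by
    apply Subtype.ext
    show δ (a : F) * (b' : F) = (a' : F) * δ (b : F)
    rw [← hF, ← hF', map_mul]
    show δ (b₁ : F) * δ (b : F) * (b' : F) = δ (b₁ : F) * (b' : F) * δ (b : F)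
    ring
  have e2 := congrArg S.red e1
  rw [map_mul, map_mul, ← hred'] at e2
  have hδb : S.red (h.toB b) ≠ 0 := h.compat.ne b hb
  have key : redDia S δ h hfrac (S₁.red b₁) * S.red (h.toB b) = S.red (h.toB a) := by
    rw [← redDia_red S δ h hfrac b, ← map_mul, hred, redDia_red]
  apply mul_right_cancel₀ (mul_ne_zero hδb hb')
  calc redDia S δ h hfrac (S₁.red b₁) * (S.red (h.toB b) * S.red b')
      = S.red (h.toB a) * S.red b' := by rw [← mul_assoc, key]
    _ = S₁.red (h₁.toB b₁) * S.red b' * S.red (h.toB b) := e2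
    _ = S₁.red (h₁.toB b₁) * (S.red (h.toB b) * S.red b') := by ring

/-- the chart symmetry of the second chart, for the reduction computed in the first. -/
def chartSymOfLoc
    (hloc : ∀ b₁ : ↥S₁.B, ∃ a b : ↥S.B, S.red b ≠ 0 ∧ (b₁ : F) * (b : F) = (a : F) ∧
      S₁.red b₁ * S.red b = S.red a) :
    ChartSym S₁ (SemilinearAut.ofAlgAut δ) (SemilinearAut.ofAlgAut (redDia S δ h hfrac)) where
  τB :=
    { toFun := h₁.toB
      invFun := h₁.symm.toB
      left_inv := h₁.symm_toB_toB
      right_inv := h₁.toB_symm_toB }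
  coe_τB _ := rfl
  red_τB b := (redDia_red_of_loc S δ h hfrac S₁ h₁ hloc b).symm
  smul_s := h₁.map_s
  base_mem a := a.2
  res_base _ := rfl

end Second

/-! ### Two charts: the reduction of places commutes with the automorphism -/

section TwoChartsSec

variable (T : TwoCharts A hx Ft) (δ : F ≃ₐ[L] F) (h0 : ChartAut T.S0 δ) (h1 : ChartAut T.S1 δ)
  (hfrac : FracRed T.S0)

/-- the overlap condition of a `TwoCharts` gives the localisation hypothesis. -/
theorem loc_of_twoCharts (b₁ : ↥T.S1.B) : ∃ a b : ↥T.S0.B, T.S0.red b ≠ 0 ∧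
    (b₁ : F) * (b : F) = (a : F) ∧ T.S1.red b₁ * T.S0.red b = T.S0.red a := by
  obtain ⟨n, b0, hb0, hred⟩ := T.ov0 b₁
  refine ⟨b0, T.S0.sB ^ n, ?_, ?_, ?_⟩
  · rw [map_pow]
    exact pow_ne_zero _ T.red_s0_ne_zero
  · rw [hb0, mul_comm]
    rfl
  · rw [hred, map_pow, mul_comm]

/-- **the reduced automorphism is also the reduction in chart `1`.** -/
theorem redDia_red₁ (b₁ : ↥T.S1.B) :
    redDia T.S0 δ h0 hfrac (T.S1.red b₁) = T.S1.red (h1.toB b₁) :=
  redDia_red_of_loc T.S0 δ h0 hfrac T.S1 h1 (loc_of_twoCharts T) b₁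

/-- the chart symmetries of both charts. -/
def chartSym₀ : ChartSym T.S0 (SemilinearAut.ofAlgAut δ)
    (SemilinearAut.ofAlgAut (redDia T.S0 δ h0 hfrac)) :=
  chartSym T.S0 δ h0 hfrac

def chartSym₁ : ChartSym T.S1 (SemilinearAut.ofAlgAut δ)
    (SemilinearAut.ofAlgAut (redDia T.S0 δ h0 hfrac)) :=
  chartSymOfLoc T.S0 δ h0 hfrac T.S1 h1 (loc_of_twoCharts T)

include h1 in
/-- **The reduction of places commutes with the automorphism**:
`r (δ • P) = δ̄ • r P`  (`hd` of `PhiCore.frobenius_relation_core'`). -/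
theorem r_smul [IsAlgClosed (kA A)] {xt : Ft} (hxt : IsGen (kA A) xt) (P : Place L F) :
    T.r (SemilinearAut.ofAlgAut δ • P) =
      SemilinearAut.ofAlgAut (redDia T.S0 δ h0 hfrac) • T.r P :=
  Fermat.Agent.ES.RED.GaloisGlobal21.r_smul T hxt (chartSym₀ T δ h0 hfrac)
    (chartSym₁ T δ h0 h1 hfrac) P

include h0 in
/-- the automorphism of chart `1` follows from the one of chart `0` and stability of `B₁`. -/
theorem chartAut₁_of (hmem : ∀ b ∈ T.S1.B, δ b ∈ T.S1.B) (hmem' : ∀ b ∈ T.S1.B, δ.symm b ∈ T.S1.B) :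
    ChartAut T.S1 δ where
  map_mem := hmem
  symm_mem := hmem'
  map_s := by rw [T.s_inv, map_inv₀, h0.map_s]

end TwoChartsSec

/-! ### Commutation with other chart symmetries (Frobenius) -/

section Comm

variable (S : ChartSpec A hx Ft) (δ : F ≃ₐ[L] F) (h : ChartAut S δ) (hfrac : FracRed S)

/-- **The reduced automorphism commutes with the reduction of every chart symmetry `(g, g̃)`
commuting with `δ`** (e.g. `g` = a Frobenius lift acting coefficientwise, `g̃` = the coefficientwise
Frobenius of the special fibre; `hcomm` = `Diamond.arithmeticGalois_smul_dia`). -/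
theorem redDia_comm {g : SemilinearAut L F} {gt : SemilinearAut (kA A) Ft} (Tg : ChartSym S g gt)
    (hcomm : ∀ f : F, δ (g • f) = g • δ f) (y : Ft) :
    redDia S δ h hfrac (gt • y) = gt • redDia S δ h hfrac y := by
  have key : ∀ b : ↥S.B, redDia S δ h hfrac (gt • S.red b) = gt • redDia S δ h hfrac (S.red b) := by
    intro b
    rw [← Tg.red_τB, redDia_red, redDia_red, ← Tg.red_τB]
    congr 1
    apply Subtype.ext
    rw [Tg.coe_τB, ChartAut.coe_toB, ChartAut.coe_toB, Tg.coe_τB]
    exact hcomm (b : F)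
  exact ringHom_ext_of_fracSurj hfrac
    (f := ((redDia S δ h hfrac : Ft ≃ₐ[kA A] Ft) : Ft →+* Ft).comp
      ((SemilinearAut.toRingAut gt : Ft ≃+* Ft) : Ft →+* Ft))
    (g := ((SemilinearAut.toRingAut gt : Ft ≃+* Ft) : Ft →+* Ft).comp
      ((redDia S δ h hfrac : Ft ≃ₐ[kA A] Ft) : Ft →+* Ft))
    (fun b => key b) y

/-- the same in the group of semilinear automorphisms. -/
theorem ofAlgAut_redDia_mul_comm {g : SemilinearAut L F} {gt : SemilinearAut (kA A) Ft}
    (Tg : ChartSym S g gt) (hcomm : ∀ f : F, δ (g • f) = g • δ f) :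
    SemilinearAut.ofAlgAut (redDia S δ h hfrac) * gt =
      gt * SemilinearAut.ofAlgAut (redDia S δ h hfrac) := by
  apply Subtype.ext
  refine Prod.ext (RingEquiv.ext fun y => ?_) ?_
  · exact redDia_comm S δ h hfrac Tg hcomm y
  · show (1 : RingAut (kA A)) * _ = _ * (1 : RingAut (kA A))
    rw [one_mul, mul_one]

end Comm

/-! ### Chart rings that are integral closures -/

section IntegralClosure

variable (S : ChartSpec A hx Ft) (δ : F ≃ₐ[L] F)

/-- If the chart ring is the integral closure of `A[s]` in `F` and `δ s = s`, then `δ` is an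
automorphism of the chart. -/
theorem chartAut_of_integralClosure
    (hB : ∀ b : F, b ∈ S.B ↔ IsIntegral (Algebra.adjoin ↥A {S.s}) b) (hs : δ S.s = S.s) :
    ChartAut S δ := by
  have key : ∀ (ε : F ≃ₐ[L] F), ε S.s = S.s → ∀ b : F,
      IsIntegral (Algebra.adjoin ↥A {S.s}) b → IsIntegral (Algebra.adjoin ↥A {S.s}) (ε b) := by
    intro ε hε b hb
    -- `ε` restricted to `A`-scalars is an `A[s]`-algebra map since it fixes `A[s]` pointwise
    have hfix : ∀ z ∈ Algebra.adjoin ↥A {S.s}, ε z = z := by
      intro z hz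
      induction hz using Algebra.adjoin_induction with
      | mem z hz =>
        rw [Set.mem_singleton_iff] at hz
        rw [hz, hε]
      | algebraMap a => exact ε.commutes (a : L)
      | add z w _ _ hz hw => rw [map_add, hz, hw]
      | mul z w _ _ hz hw => rw [map_mul, hz, hw]
    obtain ⟨p, hp, hpb⟩ := hb
    refine ⟨p, hp, ?_⟩
    have h1 : Polynomial.eval₂ (algebraMap (Algebra.adjoin ↥A {S.s}) F) (ε b) p =
        ε (Polynomial.eval₂ (algebraMap (Algebra.adjoin ↥A {S.s}) F) b p) := by
      rw [Polynomial.eval₂_eq_sum_range, Polynomial.eval₂_eq_sum_range, map_sum]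
      refine Finset.sum_congr rfl fun i _ => ?_
      rw [map_mul, map_pow]
      congr 1
      exact (hfix _ (p.coeff i).2).symm
    rw [h1, hpb, map_zero]
  refine ⟨fun b hb => (hB _).mpr (key δ hs b ((hB b).mp hb)),
    fun b hb => (hB _).mpr (key δ.symm ?_ b ((hB b).mp hb)), hs⟩
  conv_lhs => rw [← hs]
  exact δ.symm_apply_apply S.s

end IntegralClosure

end Fermat.Agent.DS.G.ES.RED.DiaPlace
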