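/-
Programme DS (S48), chapter G-ESRED, brick E03 (helper56): GENERIC TWIN of
`Fermat/Agent/ES/RED/GaloisRed21.lean` (helper21), with `(M : ℕ) [NeZero M]` replaced by a generator
datum `D : GenData` (`DS/G/ES/RED/Iface`), `modularFunctionFieldFull M` by `D.FQ`,
`modularFunctionFieldFullC κ M` by `D.FC κ`, and `ES/KRON/FrobPlace13` by its twin
`DS/G/ES/KRON/FrobPlace13`.  Same theorem names.

* the level-free part of the original (`sigmaA`, `psiRes`, `coeffMap_subtype_sigmaA`,
  `coeffMap_residue_sigmaA`, `psiRes_eq_one_of_mem_inertia`, `psiRes_of_isFrobeniusAt`,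
  `map_mem_adjoin_of_semilinear`, `map_mem_chart_of_semilinear`, …) is RE-EXPORTED, not copied;
* `mapDomain_smul`, `reductionPic0Along_smul`, `reductionPic0Along_smul_of_fixed` : equivariance of the
  push-forward of divisors and of ANY additive map `red : Pic⁰(F) →+ Pic⁰(Ft)` which is the push-forward
  along `r` on classes, for ARBITRARY function fields `F / L`, `Ft / k` (no reduction predicate needed;
  plug `reductionPic0AlongG r hr hgen` with `hred := fun D => ⟨_, rfl⟩`);
* `RedAt`, `redAt_smul`, `r_smul_eq`, `coeffSemi_psiRes_of_mem_inertia`,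
  `coeffSemi_psiRes_of_isFrobeniusAt`, `r_smul_eq_of_mem_inertia`, `r_smul_eq_of_isFrobeniusAt` :
  the formal part of (R3) at `D`.
-/
import Mathlib
import Fermat.Agent.ES.RED.GaloisRed21
import Fermat.Agent.DS.G.ES.KRON.FrobPlace13

set_option autoImplicit false
set_option linter.unusedSectionVars false

noncomputable section

open HahnSeries IntermediateField AlgebraicCurve ModularCurve Polynomial

namespace Fermat.Agent.DS.G.ES.RED.GaloisRed21

open Fermat.Agent.DS.G.ES.RED.Iface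

export Fermat.Agent.ES.RED.GaloisRed21 (sigmaA psiRes coe_sigmaA psiRes_apply psiRes_residue
  subtype_comp_sigmaA residue_comp_sigmaA coeffMap_subtype_sigmaA coeffMap_residue_sigmaA
  sigmaA_mul sigmaA_inv_sigmaA sigmaA_sigmaA_inv coeffMap_sigmaA_inv_sigmaA
  coeffMap_sigmaA_sigmaA_inv psiRes_eq_one_of_mem_inertia psiRes_of_isFrobeniusAt
  map_mem_adjoin_of_semilinear map_mem_chart_of_semilinear)

/-- cached instance (typeclass search for it takes seconds at these types). -/
local instance (priority := 5000) algkFC {L : Type*} [Field L] (A : ValuationSubring L)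
    (D : GenData) : Algebra (IsLocalRing.ResidueField ↥A) ↥(D.FC (IsLocalRing.ResidueField ↥A)) :=
  inferInstance

/-- cached instance (typeclass search for it takes seconds at these types). -/
local instance (priority := 5000) algLF {L : Type*} [Field L] [Algebra ℚ L]
    (F₀ : IntermediateField ℚ (LaurentSeries ℚ)) :
    Algebra L ↥(ModularCurve.laurentBaseChange L F₀) :=
  inferInstance

/-! ### Equivariance of the push-forward of divisors (arbitrary function fields) -/

section Equivariance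

variable {L : Type*} [Field L] {F : Type*} [Field F] [Algebra L F]
variable {k : Type*} [Field k] {Ft : Type*} [Field Ft] [Algebra k Ft]
variable (r : Place L F → Place k Ft)

/-- if `r (g • P) = h • r P` for all places `P`, then `r_* (g • D) = h • r_* D` on divisors. -/
theorem mapDomain_smul (g : SemilinearAut L F) (h : SemilinearAut k Ft)
    (hgh : ∀ P, r (g • P) = h • r P) (D : Divisor L F) :
    Finsupp.mapDomain r (g • D) = h • Finsupp.mapDomain r D := by
  rw [SemilinearAut.divisor_smul_def, SemilinearAut.divisor_smul_def, ← Finsupp.mapDomain_comp,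
    ← Finsupp.mapDomain_comp]
  congr 1
  funext P
  exact hgh P

/-- the case `h = 1`. -/
theorem mapDomain_smul_of_fixed (g : SemilinearAut L F) (hg : ∀ P, r (g • P) = r P)
    (D : Divisor L F) : Finsupp.mapDomain r (g • D) = Finsupp.mapDomain r D := by
  rw [SemilinearAut.divisor_smul_def, ← Finsupp.mapDomain_comp]
  congr 1
  funext P
  exact hg P

/-- **Equivariance on `Pic⁰`, abstract form.**  `red : Pic⁰(F) → Pic⁰(Ft)` is any additive map
which on classes is the push-forward of divisors along `r` (plug: `reductionPic0AlongG_mk`, by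
`rfl`).  If `r (g • P) = h • r P` for all places `P`, then `red` intertwines `g` and `h`.
(Twin of `reductionPic0Along_smul`.) -/
theorem reductionPic0Along_smul (red : Pic0 L F →+ Pic0 k Ft)
    (hred : ∀ D : Divisor.degZero (K := L) (F := F),
      ∃ h, red (Pic0.mk D) = Pic0.mk ⟨Finsupp.mapDomain r (D : Divisor L F), h⟩)
    (g : SemilinearAut L F) (h : SemilinearAut k Ft) (hgh : ∀ P, r (g • P) = h • r P)
    (x : Pic0 L F) : red (g • x) = h • red x := by
  obtain ⟨D, rfl⟩ := Pic0.mk_surjective x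
  rw [SemilinearAut.pic0_smul_mk]
  obtain ⟨h1, e1⟩ := hred (SemilinearAut.degZeroSMulHom g D)
  obtain ⟨h2, e2⟩ := hred D
  rw [e1, e2, SemilinearAut.pic0_smul_mk]
  congr 1
  apply Subtype.ext
  show Finsupp.mapDomain r (g • (D : Divisor L F)) = h • Finsupp.mapDomain r (D : Divisor L F)
  exact mapDomain_smul r g h hgh _

/-- the case `h = 1`: `r (g • P) = r P` for all `P` implies `red (g • x) = red x`. -/
theorem reductionPic0Along_smul_of_fixed (red : Pic0 L F →+ Pic0 k Ft)
    (hred : ∀ D : Divisor.degZero (K := L) (F := F),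
      ∃ h, red (Pic0.mk D) = Pic0.mk ⟨Finsupp.mapDomain r (D : Divisor L F), h⟩)
    (g : SemilinearAut L F) (hg : ∀ P, r (g • P) = r P) (x : Pic0 L F) :
    red (g • x) = red x := by
  have := reductionPic0Along_smul r red hred g 1 (fun P => by rw [hg P, one_smul]) x
  rwa [one_smul] at this

end Equivariance

/-! ### (R3), formal part: from the characterisation of `r P` through a chart ring -/

section R3

variable {L : Type*} [Field L] [Algebra ℚ L] (A : ValuationSubring L) (D : GenData)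

set_option quotPrecheck false in
local notation "κ" => IsLocalRing.ResidueField (Subtype (Membership.mem A))
set_option quotPrecheck false in
local notation "FL" => laurentBaseChange L (GenData.FQ D)
set_option quotPrecheck false in
local notation "Fκ" =>
  GenData.FC D (IsLocalRing.ResidueField (Subtype (Membership.mem A)))

/-- The characterisation of the reduction `Q` of `P` through a chart ring, in order form:
`C` is the set of `A`-integral `q`-expansions `Y` of the elements of the chart ring `B^A`; every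
`Ỹ` is regular at `Q`, and `Y(P) = 0` implies `Ỹ(Q) = 0`. -/
def RedAt (C : Set (LaurentSeries ↥A)) (hF : ∀ Y ∈ C, coeffMap A.subtype Y ∈ FL)
    (hFκ : ∀ Y ∈ C, coeffMap (IsLocalRing.residue ↥A) Y ∈ Fκ)
    (P : Place L FL) (Q : Place κ Fκ) : Prop :=
  ∀ (Y : LaurentSeries ↥A) (hY : Y ∈ C),
    0 ≤ Q.ord (⟨_, hFκ Y hY⟩ : Fκ) ∧
      (0 < P.ord (⟨_, hF Y hY⟩ : FL) →
        coeffMap (IsLocalRing.residue ↥A) Y = 0 ∨ 0 < Q.ord (⟨_, hFκ Y hY⟩ : Fκ))

variable {A D}

/-- **(R3), formal part.**  If the chart ring `C` is stable under `g⁻¹ ∈ D_A` and `Q` is a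
reduction of `P` through `C`, then `g_ψ • Q` (`ψ` the automorphism of the residue field induced
by `g`) is a reduction of `g • P` through `C`. -/
theorem redAt_smul (C : Set (LaurentSeries ↥A)) (hF : ∀ Y ∈ C, coeffMap A.subtype Y ∈ FL)
    (hFκ : ∀ Y ∈ C, coeffMap (IsLocalRing.residue ↥A) Y ∈ Fκ)
    (g : A.decompositionSubgroup ℚ) (hC : ∀ Y ∈ C, coeffMap (sigmaA A g⁻¹) Y ∈ C)
    (P : Place L FL) (Q : Place κ Fκ) (h : RedAt A D C hF hFκ P Q) :
    RedAt A D C hF hFκ
      (arithmeticGalois (L := L) (GenData.FQ D) (g : L ≃ₐ[ℚ] L) • P)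
      (Fermat.Agent.DS.G.ES.KRON.FrobPlace13.coeffSemi κ D (psiRes A g) • Q) := by
  intro Y hY
  set Y' := coeffMap (sigmaA A g⁻¹) Y with hY'
  have hY'C : Y' ∈ C := hC Y hY
  obtain ⟨h1, h2⟩ := h Y' hY'C
  -- the two transport identities
  have eL : (arithmeticGalois (L := L) (GenData.FQ D) (g : L ≃ₐ[ℚ] L)) •
      (⟨_, hF Y' hY'C⟩ : FL) = (⟨_, hF Y hY⟩ : FL) := by
    apply Subtype.ext
    rw [coe_arithmeticGalois_smul]
    show coeffMap _ (coeffMap A.subtype (coeffMap (sigmaA A g⁻¹) Y)) = _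
    have := coeffMap_subtype_sigmaA A g (coeffMap (sigmaA A g⁻¹) Y)
    rw [coeffMap_sigmaA_sigmaA_inv] at this
    exact this.symm
  have eκ : (Fermat.Agent.DS.G.ES.KRON.FrobPlace13.coeffSemi κ D (psiRes A g)) •
      (⟨_, hFκ Y' hY'C⟩ : Fκ) = (⟨_, hFκ Y hY⟩ : Fκ) := by
    apply Subtype.ext
    rw [Fermat.Agent.DS.G.ES.KRON.FrobPlace13.coe_coeffSemi_smul]
    show coeffMap _ (coeffMap (IsLocalRing.residue ↥A) (coeffMap (sigmaA A g⁻¹) Y)) = _
    have := coeffMap_residue_sigmaA A g (coeffMap (sigmaA A g⁻¹) Y)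
    rw [coeffMap_sigmaA_sigmaA_inv] at this
    exact this.symm
  have oL : (arithmeticGalois (L := L) (GenData.FQ D) (g : L ≃ₐ[ℚ] L) • P).ord
      (⟨_, hF Y hY⟩ : FL) = P.ord (⟨_, hF Y' hY'C⟩ : FL) := by
    rw [← eL, SemilinearAut.ord_smul]
  have oκ : (Fermat.Agent.DS.G.ES.KRON.FrobPlace13.coeffSemi κ D (psiRes A g) • Q).ord
      (⟨_, hFκ Y hY⟩ : Fκ) = Q.ord (⟨_, hFκ Y' hY'C⟩ : Fκ) := by
    rw [← eκ, SemilinearAut.ord_smul]
  rw [oκ, oL]
  refine ⟨h1, fun hpos => ?_⟩
  rcases h2 hpos with h0 | h0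
  · left
    have := congrArg (fun z : Fκ => (z : LaurentSeries κ)) eκ
    simp only at this
    rw [← this, Fermat.Agent.DS.G.ES.KRON.FrobPlace13.coe_coeffSemi_smul]
    show coeffMap _ (coeffMap (IsLocalRing.residue ↥A) Y') = 0
    rw [h0, map_zero]
  · right
    exact h0

/-- **(R3) from uniqueness.**  If `r P` is a reduction of `P` through `C` and the reduction of
`g • P` through `C` is unique, then `r (g • P) = g_ψ • r P`. -/
theorem r_smul_eq (r : Place L FL → Place κ Fκ)
    (C : Set (LaurentSeries ↥A)) (hF : ∀ Y ∈ C, coeffMap A.subtype Y ∈ FL)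
    (hFκ : ∀ Y ∈ C, coeffMap (IsLocalRing.residue ↥A) Y ∈ Fκ)
    (g : A.decompositionSubgroup ℚ) (hC : ∀ Y ∈ C, coeffMap (sigmaA A g⁻¹) Y ∈ C)
    (P : Place L FL) (hR1 : RedAt A D C hF hFκ P (r P))
    (hR1u : ∀ Q : Place κ Fκ, RedAt A D C hF hFκ
      (arithmeticGalois (L := L) (GenData.FQ D) (g : L ≃ₐ[ℚ] L) • P) Q →
      Q = r (arithmeticGalois (L := L) (GenData.FQ D) (g : L ≃ₐ[ℚ] L) • P)) :
    r (arithmeticGalois (L := L) (GenData.FQ D) (g : L ≃ₐ[ℚ] L) • P) =
      Fermat.Agent.DS.G.ES.KRON.FrobPlace13.coeffSemi κ D (psiRes A g) • r P :=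
  (hR1u _ (redAt_smul C hF hFκ g hC P (r P) hR1)).symm

/-- inertia elements induce the trivial semilinear automorphism of the special fibre. -/
theorem coeffSemi_psiRes_of_mem_inertia {τ : L ≃ₐ[ℚ] L} (hτ : τ ∈ A.inertiaSubgroupIn ℚ) :
    ∃ h : τ ∈ A.decompositionSubgroup ℚ,
      Fermat.Agent.DS.G.ES.KRON.FrobPlace13.coeffSemi κ D (psiRes A ⟨τ, h⟩) = 1 := by
  obtain ⟨h, hψ⟩ := psiRes_eq_one_of_mem_inertia A hτ
  refine ⟨h, ?_⟩
  rw [hψ]
  exact (Fermat.Agent.DS.G.ES.KRON.FrobPlace13.coeffSemiHom κ D).map_one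

/-- Frobenius elements induce the coefficientwise Frobenius of the special fibre. -/
theorem coeffSemi_psiRes_of_isFrobeniusAt {σ : L ≃ₐ[ℚ] L} {ℓ : ℕ} [ExpChar κ ℓ] [PerfectField κ]
    (h : A.IsFrobeniusAt σ ℓ) :
    Fermat.Agent.DS.G.ES.KRON.FrobPlace13.coeffSemi κ D
        (psiRes A ⟨σ, h.mem_decompositionSubgroup⟩) =
      Fermat.Agent.DS.G.ES.KRON.FrobPlace13.frobSemi κ ℓ D := by
  have : psiRes A ⟨σ, h.mem_decompositionSubgroup⟩ = frobeniusEquiv κ ℓ := by
    ext x
    rw [psiRes_of_isFrobeniusAt A h x, frobeniusEquiv_apply, frobenius_def]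
  rw [this]
  rfl

/-- **(R3) for inertia.** -/
theorem r_smul_eq_of_mem_inertia (r : Place L FL → Place κ Fκ)
    (C : Set (LaurentSeries ↥A)) (hF : ∀ Y ∈ C, coeffMap A.subtype Y ∈ FL)
    (hFκ : ∀ Y ∈ C, coeffMap (IsLocalRing.residue ↥A) Y ∈ Fκ)
    (hC : ∀ g : A.decompositionSubgroup ℚ, ∀ Y ∈ C, coeffMap (sigmaA A g) Y ∈ C)
    {τ : L ≃ₐ[ℚ] L} (hτ : τ ∈ A.inertiaSubgroupIn ℚ)
    (P : Place L FL) (hR1 : RedAt A D C hF hFκ P (r P))
    (hR1u : ∀ Q : Place κ Fκ, RedAt A D C hF hFκ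
      (arithmeticGalois (L := L) (GenData.FQ D) τ • P) Q →
      Q = r (arithmeticGalois (L := L) (GenData.FQ D) τ • P)) :
    r (arithmeticGalois (L := L) (GenData.FQ D) τ • P) = r P := by
  obtain ⟨h, h1⟩ := coeffSemi_psiRes_of_mem_inertia (D := D) hτ
  have := r_smul_eq r C hF hFκ ⟨τ, h⟩ (hC _) P hR1 hR1u
  rw [h1, one_smul] at this
  exact this

/-- **(R3) for Frobenius elements.** -/
theorem r_smul_eq_of_isFrobeniusAt (r : Place L FL → Place κ Fκ)
    (C : Set (LaurentSeries ↥A)) (hF : ∀ Y ∈ C, coeffMap A.subtype Y ∈ FL)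
    (hFκ : ∀ Y ∈ C, coeffMap (IsLocalRing.residue ↥A) Y ∈ Fκ)
    (hC : ∀ g : A.decompositionSubgroup ℚ, ∀ Y ∈ C, coeffMap (sigmaA A g) Y ∈ C)
    {σ : L ≃ₐ[ℚ] L} {ℓ : ℕ} [ExpChar κ ℓ] [PerfectField κ] (hσ : A.IsFrobeniusAt σ ℓ)
    (P : Place L FL) (hR1 : RedAt A D C hF hFκ P (r P))
    (hR1u : ∀ Q : Place κ Fκ, RedAt A D C hF hFκ
      (arithmeticGalois (L := L) (GenData.FQ D) σ • P) Q →
      Q = r (arithmeticGalois (L := L) (GenData.FQ D) σ • P)) :
    r (arithmeticGalois (L := L) (GenData.FQ D) σ • P) =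
      Fermat.Agent.DS.G.ES.KRON.FrobPlace13.frobSemi κ ℓ D • r P := by
  have := r_smul_eq r C hF hFκ ⟨σ, hσ.mem_decompositionSubgroup⟩ (hC _) P hR1 hR1u
  rw [coeffSemi_psiRes_of_isFrobeniusAt (D := D) hσ] at this
  exact this

end R3

end Fermat.Agent.DS.G.ES.RED.GaloisRed21
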