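/-
Programme DS (S48), chapter G-ESRED, brick E03 (helper56): GENERIC TWIN of
`Fermat/Agent/ES/RED/GaloisContract21.lean` (helper21): **(R3) against the RED contract**, at a generator
datum `D : GenData` (special fibre field `D.FC κ_A` instead of `modularFunctionFieldFullC κ_A M`).

The abstract part of the original (`ChartSym`, `ChartSym.inChart_smul`, `…rPlace_smul`, …) is level-free and
is RE-EXPORTED (import the original; `ChartSym` is `Fermat.Agent.ES.RED.GaloisContract21.ChartSym`).
Twinned here: the section `Modular`: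
* `ChartSym.ofDecomposition` : the chart symmetry induced by `g ∈ D_A`;
* `rPlace_smul_of_mem_inertia`, `rPlace_smul_of_isFrobeniusAt` : (R3) for one chart.
-/
import Mathlib
import Fermat.Agent.ES.RED.GaloisContract21
import Fermat.Agent.DS.G.ES.RED.GaloisRed21

set_option autoImplicit false
set_option linter.unusedSectionVars false

noncomputable section

open AlgebraicCurve

namespace Fermat.Agent.DS.G.ES.RED.GaloisContract21

open Fermat.Agent.X0.FF Fermat.Agent.ES.RED.PlaceValue13 Fermat.Agent.ES.RED.Contract8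
  Fermat.Agent.ES.RED.GaloisLocal21 Fermat.Agent.DS.G.ES.RED.Iface

export Fermat.Agent.ES.RED.GaloisContract21 (ChartSym)

/-- cached instance (typeclass search for it takes seconds at these types). -/
local instance (priority := 5000) algkFC {L : Type*} [Field L] (A : ValuationSubring L)
    (D : GenData) : Algebra (IsLocalRing.ResidueField ↥A) ↥(D.FC (IsLocalRing.ResidueField ↥A)) :=
  inferInstance

/-- cached instance (typeclass search for it takes seconds at these types). -/
local instance (priority := 5000) algLF {L : Type*} [Field L] [Algebra ℚ L]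
    (F₀ : IntermediateField ℚ (LaurentSeries ℚ)) :
    Algebra L ↥(ModularCurve.laurentBaseChange L F₀) :=
  inferInstance

section Modular

open ModularCurve HahnSeries Fermat.Agent.DS.G.ES.RED.GaloisRed21
  Fermat.Agent.DS.G.ES.KRON.FrobPlace13

variable {L : Type*} [Field L] [Algebra ℚ L] [IsAlgClosed L] {A : ValuationSubring L}
  {F₀ : IntermediateField ℚ (LaurentSeries ℚ)} {x : ↥(laurentBaseChange L F₀)} {hx : IsGen L x}
  {D : GenData}

/-- **the chart symmetry induced by `g ∈ D_A`**, from elementary hypotheses: `B` is stable under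
the coefficientwise action of `g^{±1}`, the coordinate has `g`-invariant coefficients, and the
reduction commutes with the coefficientwise actions. -/
def ChartSym.ofDecomposition
    (S : ChartSpec A hx ↥(D.FC (kA A))) (g : A.decompositionSubgroup ℚ)
    (hB : ∀ b : ↥(laurentBaseChange L F₀), b ∈ S.B →
      arithmeticGalois (L := L) F₀ (g : L ≃ₐ[ℚ] L) • b ∈ S.B)
    (hB' : ∀ b : ↥(laurentBaseChange L F₀), b ∈ S.B →
      (arithmeticGalois (L := L) F₀ (g : L ≃ₐ[ℚ] L))⁻¹ • b ∈ S.B)
    (hs : arithmeticGalois (L := L) F₀ (g : L ≃ₐ[ℚ] L) • S.s = S.s)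
    (hred : ∀ b : ↥S.B,
      ((S.red ⟨arithmeticGalois (L := L) F₀ (g : L ≃ₐ[ℚ] L) • (b : ↥(laurentBaseChange L F₀)),
          hB b b.2⟩ : ↥(D.FC (kA A))) : LaurentSeries (kA A)) =
        coeffMap ((psiRes A g : kA A ≃+* kA A) : kA A →+* kA A)
          ((S.red b : ↥(D.FC (kA A))) : LaurentSeries (kA A))) :
    Fermat.Agent.ES.RED.GaloisContract21.ChartSym S (arithmeticGalois (L := L) F₀ (g : L ≃ₐ[ℚ] L))
      (coeffSemi (kA A) D (psiRes A g)) where
  τB :=
    { toFun := fun b => ⟨arithmeticGalois (L := L) F₀ (g : L ≃ₐ[ℚ] L) • (b : ↥(laurentBaseChange L F₀)),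
        hB b b.2⟩
      invFun := fun b => ⟨(arithmeticGalois (L := L) F₀ (g : L ≃ₐ[ℚ] L))⁻¹ •
        (b : ↥(laurentBaseChange L F₀)), hB' b b.2⟩
      left_inv := fun b => Subtype.ext (inv_smul_smul _ _)
      right_inv := fun b => Subtype.ext (smul_inv_smul _ _) }
  coe_τB _ := rfl
  red_τB b := Subtype.ext (hred b)
  smul_s := hs
  base_mem a := (sigmaA A g a).2
  res_base _ := rfl

variable (S : ChartSpec A hx ↥(D.FC (kA A)))

/-- **(R3) for inertia, one chart.** -/
theorem rPlace_smul_of_mem_inertia {τ : L ≃ₐ[ℚ] L} (hτ : τ ∈ A.inertiaSubgroupIn ℚ)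
    (T : ∀ h : τ ∈ A.decompositionSubgroup ℚ,
      Fermat.Agent.ES.RED.GaloisContract21.ChartSym S (arithmeticGalois (L := L) F₀ τ)
        (coeffSemi (kA A) D (psiRes A ⟨τ, h⟩)))
    (P : Place L ↥(laurentBaseChange L F₀)) (hP : S.InChart P) (hval : S.Val P hP)
    (hne : S.rVS P hP hval ≠ ⊤) (hpir : IsPrincipalIdealRing ↥(S.rVS P hP hval))
    (hP' : S.InChart (arithmeticGalois (L := L) F₀ τ • P)) (hval' : S.Val (arithmeticGalois (L := L) F₀ τ • P) hP')
    (hne' : S.rVS (arithmeticGalois (L := L) F₀ τ • P) hP' hval' ≠ ⊤)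
    (hpir' : IsPrincipalIdealRing ↥(S.rVS (arithmeticGalois (L := L) F₀ τ • P) hP' hval')) :
    S.rPlace (arithmeticGalois (L := L) F₀ τ • P) hP' hval' hne' hpir' = S.rPlace P hP hval hne hpir := by
  obtain ⟨h, h1⟩ := coeffSemi_psiRes_of_mem_inertia (D := D) hτ
  have := (T h).rPlace_smul P hP hval hne hpir hP' hval' hne' hpir'
  rw [h1, one_smul] at this
  exact this

/-- **(R3) for Frobenius elements, one chart.** -/
theorem rPlace_smul_of_isFrobeniusAt {σ : L ≃ₐ[ℚ] L} {ℓ : ℕ} [ExpChar (kA A) ℓ]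
    [PerfectField (kA A)] (hσ : A.IsFrobeniusAt σ ℓ)
    (T : Fermat.Agent.ES.RED.GaloisContract21.ChartSym S (arithmeticGalois (L := L) F₀ σ)
      (coeffSemi (kA A) D (psiRes A ⟨σ, hσ.mem_decompositionSubgroup⟩)))
    (P : Place L ↥(laurentBaseChange L F₀)) (hP : S.InChart P) (hval : S.Val P hP)
    (hne : S.rVS P hP hval ≠ ⊤) (hpir : IsPrincipalIdealRing ↥(S.rVS P hP hval))
    (hP' : S.InChart (arithmeticGalois (L := L) F₀ σ • P)) (hval' : S.Val (arithmeticGalois (L := L) F₀ σ • P) hP')
    (hne' : S.rVS (arithmeticGalois (L := L) F₀ σ • P) hP' hval' ≠ ⊤)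
    (hpir' : IsPrincipalIdealRing ↥(S.rVS (arithmeticGalois (L := L) F₀ σ • P) hP' hval')) :
    S.rPlace (arithmeticGalois (L := L) F₀ σ • P) hP' hval' hne' hpir' =
      frobSemi (kA A) ℓ D • S.rPlace P hP hval hne hpir := by
  have := T.rPlace_smul P hP hval hne hpir hP' hval' hne' hpir'
  rw [coeffSemi_psiRes_of_isFrobeniusAt (D := D) hσ] at this
  exact this

end Modular

end Fermat.Agent.DS.G.ES.RED.GaloisContract21
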