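/-
Programme DS (S48), chapter G-ESRED, brick E03 (helper56): GENERIC TWIN of
`Fermat/Agent/ES/RED/GaloisGlobal21.lean` (helper21): **(R3) for the global reduction map**
`TwoCharts8.TwoCharts.r`, and its consequences on `Pic⁰`, at a generator datum `D : GenData`
(`F = L · D.FQ`, `Ft = D.FC κ_A`).

The abstract part of the original (`rAt_smul`, `r_smul`) is level-free and RE-EXPORTED.  Twinned: section
`Modular`:
* `r_smul_decomposition`, `r_smul_of_mem_inertia` (`r (τ P) = r P`),
  `r_smul_of_isFrobeniusAt` (`r (σ P) = Fr (r P)`);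
* on `Pic⁰`, for ANY additive `red : Pic⁰(F) →+ Pic⁰(Ft)` which is the push-forward along `T.r` on classes
  (plug `reductionPic0AlongG T.r hr hgen`, `hred := fun D => ⟨_, rfl⟩`):
  `red_smul_of_mem_inertia` (`red (τ • y) = red y`, the shape of (Φ1)),
  `red_smul_of_isFrobeniusAt` (`red (σ • y) = Fr_* (red y)`).
-/
import Mathlib
import Fermat.Agent.ES.RED.GaloisGlobal21
import Fermat.Agent.DS.G.ES.RED.GaloisContract21

set_option autoImplicit false
set_option linter.unusedSectionVars false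

noncomputable section

open AlgebraicCurve

namespace Fermat.Agent.DS.G.ES.RED.GaloisGlobal21

open Fermat.Agent.X0.FF Fermat.Agent.ES.RED.PlaceValue13 Fermat.Agent.ES.RED.Contract8
  Fermat.Agent.ES.RED.TwoCharts8 Fermat.Agent.DS.G.ES.RED.Iface

export Fermat.Agent.ES.RED.GaloisGlobal21 (rAt_smul r_smul)

/-- cached instance (typeclass search for it takes seconds at these types). -/
local instance (priority := 5000) algkFC {L : Type*} [Field L] (A : ValuationSubring L)
    (D : GenData) : Algebra (IsLocalRing.ResidueField ↥A) ↥(D.FC (IsLocalRing.ResidueField ↥A)) :=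
  inferInstance

/-- cached instance (typeclass search for it takes seconds at these types). -/
local instance (priority := 5000) algLF {L : Type*} [Field L] [Algebra ℚ L]
    (F₀ : IntermediateField ℚ (LaurentSeries ℚ)) :
    Algebra L ↥(ModularCurve.laurentBaseChange L F₀) :=
  inferInstance

section Modular

open ModularCurve HahnSeries Fermat.Agent.DS.G.ES.RED.GaloisRed21
  Fermat.Agent.DS.G.ES.KRON.FrobPlace13

variable {L : Type*} [Field L] [Algebra ℚ L] [IsAlgClosed L] {A : ValuationSubring L}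
  {D : GenData}
  {x : ↥(laurentBaseChange L D.FQ)} {hx : IsGen L x}
  (T : TwoCharts A hx ↥(D.FC (kA A)))
  [IsAlgClosed (kA A)] {xt : ↥(D.FC (kA A))} (hxt : IsGen (kA A) xt)

include hxt in
/-- (R3) for `g ∈ D_A`. -/
theorem r_smul_decomposition (g : A.decompositionSubgroup ℚ)
    (T0 : Fermat.Agent.ES.RED.GaloisContract21.ChartSym T.S0
      (arithmeticGalois (L := L) D.FQ (g : L ≃ₐ[ℚ] L)) (coeffSemi (kA A) D (psiRes A g)))
    (T1 : Fermat.Agent.ES.RED.GaloisContract21.ChartSym T.S1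
      (arithmeticGalois (L := L) D.FQ (g : L ≃ₐ[ℚ] L)) (coeffSemi (kA A) D (psiRes A g)))
    (P : Place L ↥(laurentBaseChange L D.FQ)) :
    T.r (arithmeticGalois (L := L) D.FQ (g : L ≃ₐ[ℚ] L) • P) =
      coeffSemi (kA A) D (psiRes A g) • T.r P :=
  r_smul T hxt T0 T1 P

include hxt in
/-- **(R3) for inertia**: `r (τ P) = r P`. -/
theorem r_smul_of_mem_inertia {τ : L ≃ₐ[ℚ] L} (hτ : τ ∈ A.inertiaSubgroupIn ℚ)
    (T0 : ∀ h : τ ∈ A.decompositionSubgroup ℚ,
      Fermat.Agent.ES.RED.GaloisContract21.ChartSym T.S0 (arithmeticGalois (L := L) D.FQ τ)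
        (coeffSemi (kA A) D (psiRes A ⟨τ, h⟩)))
    (T1 : ∀ h : τ ∈ A.decompositionSubgroup ℚ,
      Fermat.Agent.ES.RED.GaloisContract21.ChartSym T.S1 (arithmeticGalois (L := L) D.FQ τ)
        (coeffSemi (kA A) D (psiRes A ⟨τ, h⟩)))
    (P : Place L ↥(laurentBaseChange L D.FQ)) :
    T.r (arithmeticGalois (L := L) D.FQ τ • P) = T.r P := by
  obtain ⟨h, h1⟩ := coeffSemi_psiRes_of_mem_inertia (D := D) hτ
  have := r_smul T hxt (T0 h) (T1 h) P
  rw [h1, one_smul] at this
  exact this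

include hxt in
/-- **(R3) for Frobenius elements**: `r (σ P) = Fr (r P)`. -/
theorem r_smul_of_isFrobeniusAt {σ : L ≃ₐ[ℚ] L} {ℓ : ℕ} [ExpChar (kA A) ℓ] [PerfectField (kA A)]
    (hσ : A.IsFrobeniusAt σ ℓ)
    (T0 : Fermat.Agent.ES.RED.GaloisContract21.ChartSym T.S0 (arithmeticGalois (L := L) D.FQ σ)
      (coeffSemi (kA A) D (psiRes A ⟨σ, hσ.mem_decompositionSubgroup⟩)))
    (T1 : Fermat.Agent.ES.RED.GaloisContract21.ChartSym T.S1 (arithmeticGalois (L := L) D.FQ σ)
      (coeffSemi (kA A) D (psiRes A ⟨σ, hσ.mem_decompositionSubgroup⟩)))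
    (P : Place L ↥(laurentBaseChange L D.FQ)) :
    T.r (arithmeticGalois (L := L) D.FQ σ • P) = frobSemi (kA A) ℓ D • T.r P := by
  have := r_smul T hxt T0 T1 P
  rw [coeffSemi_psiRes_of_isFrobeniusAt (D := D) hσ] at this
  exact this

/-! ### consequences on `Pic⁰` -/

variable (red : Pic0 L ↥(laurentBaseChange L D.FQ) →+ Pic0 (kA A) ↥(D.FC (kA A)))
  (hred : ∀ E : Divisor.degZero (K := L) (F := ↥(laurentBaseChange L D.FQ)),
    ∃ h, red (Pic0.mk E) =
      Pic0.mk ⟨Finsupp.mapDomain T.r (E : Divisor L ↥(laurentBaseChange L D.FQ)), h⟩)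

include hxt hred in
/-- **(Φ1)-shape**: the reduction of divisor classes is inertia-invariant. -/
theorem red_smul_of_mem_inertia
    {τ : L ≃ₐ[ℚ] L} (hτ : τ ∈ A.inertiaSubgroupIn ℚ)
    (T0 : ∀ h : τ ∈ A.decompositionSubgroup ℚ,
      Fermat.Agent.ES.RED.GaloisContract21.ChartSym T.S0 (arithmeticGalois (L := L) D.FQ τ)
        (coeffSemi (kA A) D (psiRes A ⟨τ, h⟩)))
    (T1 : ∀ h : τ ∈ A.decompositionSubgroup ℚ,
      Fermat.Agent.ES.RED.GaloisContract21.ChartSym T.S1 (arithmeticGalois (L := L) D.FQ τ)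
        (coeffSemi (kA A) D (psiRes A ⟨τ, h⟩)))
    (y : Pic0 L ↥(laurentBaseChange L D.FQ)) :
    red (τ • y) = red y := by
  rw [galois_smul_pic0_def]
  exact reductionPic0Along_smul_of_fixed T.r red hred _
    (fun P => r_smul_of_mem_inertia T hxt hτ T0 T1 P) y

include hxt hred in
/-- the reduction of divisor classes intertwines a Frobenius element with the coefficientwise
Frobenius of the special fibre. -/
theorem red_smul_of_isFrobeniusAt
    {σ : L ≃ₐ[ℚ] L} {ℓ : ℕ} [ExpChar (kA A) ℓ] [PerfectField (kA A)]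
    (hσ : A.IsFrobeniusAt σ ℓ)
    (T0 : Fermat.Agent.ES.RED.GaloisContract21.ChartSym T.S0 (arithmeticGalois (L := L) D.FQ σ)
      (coeffSemi (kA A) D (psiRes A ⟨σ, hσ.mem_decompositionSubgroup⟩)))
    (T1 : Fermat.Agent.ES.RED.GaloisContract21.ChartSym T.S1 (arithmeticGalois (L := L) D.FQ σ)
      (coeffSemi (kA A) D (psiRes A ⟨σ, hσ.mem_decompositionSubgroup⟩)))
    (y : Pic0 L ↥(laurentBaseChange L D.FQ)) :
    red (σ • y) = frobSemi (kA A) ℓ D • red y := by
  rw [galois_smul_pic0_def]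
  exact reductionPic0Along_smul T.r red hred _ _
    (fun P => r_smul_of_isFrobeniusAt T hxt hσ T0 T1 P) y

end Modular

end Fermat.Agent.DS.G.ES.RED.GaloisGlobal21
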