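/-
Programme DS (S48), chapter G-ESRED, brick E03 (helper56): GENERIC TWIN of
`Fermat/Agent/ES/RED/GaloisInst21.lean` (helper21).  **(R3): the chart symmetries of the decomposition
group for coefficientwise charts**, at a generator datum `D : GenData`.

`S : ChartSpec A hx Ft` at `F = L · F₀`, `Ft = D.FC κ_A`, such that
* the chart ring is the integral closure of `A[s]` (`hB : b ∈ S.B ↔ b ∈ chart ↥A S.s`),
* the coordinate `s` has rational (`g`-invariant) coefficients,
* every element of the chart ring has an `A`-integral `q`-expansion `Y`, and `red b` is the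
  coefficientwise reduction of `Y`.
Then every `g ∈ D_A` gives a `ChartSym S (arithmeticGalois F₀ g) (coeffSemi κ_A D (psiRes A g))`
(`chartSymOfCoeff`); consequently (R3) holds for the global reduction map of two such charts
(`r_smul_of_mem_inertia'`, `r_smul_of_isFrobeniusAt'`, `r_smul_decomposition'`) and on `Pic⁰`
(`red_smul_of_mem_inertia'`, `red_smul_of_isFrobeniusAt'`, for any additive `red` which is the push-forward
along `T.r` on classes).  `smul_mem_chart`, `arithmeticGalois_inv_coe` are level-free and RE-EXPORTED.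
-/
import Mathlib
import Fermat.Agent.ES.RED.GaloisInst21
import Fermat.Agent.DS.G.ES.RED.GaloisGlobal21

set_option autoImplicit false
set_option linter.unusedSectionVars false

noncomputable section

open AlgebraicCurve ModularCurve HahnSeries

namespace Fermat.Agent.DS.G.ES.RED.GaloisInst21

open Fermat.Agent.X0.FF Fermat.Agent.ES.RED.PlaceValue13 Fermat.Agent.ES.RED.Contract8
  Fermat.Agent.ES.RED.TwoCharts8
  Fermat.Agent.DS.G.ES.RED.GaloisRed21 Fermat.Agent.DS.G.ES.KRON.FrobPlace13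
  Fermat.Agent.RED.PUR.ChartGeneric22 Fermat.Agent.DS.G.ES.RED.Iface

export Fermat.Agent.ES.RED.GaloisInst21 (smul_mem_chart arithmeticGalois_inv_coe)

/-- cached instance (typeclass search for it takes seconds at these types). -/
local instance (priority := 5000) algkFC {L : Type*} [Field L] (A : ValuationSubring L)
    (D : GenData) : Algebra (IsLocalRing.ResidueField ↥A) ↥(D.FC (IsLocalRing.ResidueField ↥A)) :=
  inferInstance

/-- cached instance (typeclass search for it takes seconds at these types). -/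
local instance (priority := 5000) algLF {L : Type*} [Field L] [Algebra ℚ L]
    (F₀ : IntermediateField ℚ (LaurentSeries ℚ)) :
    Algebra L ↥(ModularCurve.laurentBaseChange L F₀) :=
  inferInstance

variable {L : Type*} [Field L] [Algebra ℚ L] [IsAlgClosed L] {A : ValuationSubring L}
  {F₀ : IntermediateField ℚ (LaurentSeries ℚ)} {x : ↥(laurentBaseChange L F₀)} {hx : IsGen L x}
  {D : GenData}

/-- **the chart symmetry of `g ∈ D_A` for a coefficientwise chart.** -/
def chartSymOfCoeff (S : ChartSpec A hx ↥(D.FC (kA A)))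
    (hB : ∀ b : ↥(laurentBaseChange L F₀), b ∈ S.B ↔ b ∈ chart ↥A S.s)
    (hs : ∀ σ : L ≃ₐ[ℚ] L, arithmeticGalois (L := L) F₀ σ • S.s = S.s)
    (hint : ∀ b : ↥S.B, ∃ Y : LaurentSeries ↥A,
      coeffMap A.subtype Y = ((b : ↥(laurentBaseChange L F₀)) : LaurentSeries L))
    (hredY : ∀ (b : ↥S.B) (Y : LaurentSeries ↥A),
      coeffMap A.subtype Y = ((b : ↥(laurentBaseChange L F₀)) : LaurentSeries L) →
      ((S.red b : ↥(D.FC (kA A))) : LaurentSeries (kA A)) = coeffMap (resA A) Y)
    (g : A.decompositionSubgroup ℚ) :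
    Fermat.Agent.ES.RED.GaloisContract21.ChartSym S (arithmeticGalois (L := L) F₀ (g : L ≃ₐ[ℚ] L))
      (coeffSemi (kA A) D (psiRes A g)) :=
  Fermat.Agent.DS.G.ES.RED.GaloisContract21.ChartSym.ofDecomposition S g
    (fun b hb => (hB _).mpr (smul_mem_chart g (hs _) ((hB b).mp hb)))
    (fun b hb => by
      rw [arithmeticGalois_inv_coe]
      exact (hB _).mpr (smul_mem_chart g⁻¹ (hs _) ((hB b).mp hb)))
    (hs _)
    (fun b => by
      obtain ⟨Y, hY⟩ := hint b
      rw [hredY b Y hY, ← coeffMap_residue_sigmaA A g Y]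
      refine hredY _ (coeffMap (sigmaA A g) Y) ?_
      rw [coeffMap_subtype_sigmaA, hY]
      rfl)

section Global

/-- the four elementary facts about a chart needed for (R3). -/
structure CoeffChart (S : ChartSpec A hx ↥(D.FC (kA A))) : Prop where
  mem_iff : ∀ b : ↥(laurentBaseChange L F₀), b ∈ S.B ↔ b ∈ chart ↥A S.s
  smul_s : ∀ σ : L ≃ₐ[ℚ] L, arithmeticGalois (L := L) F₀ σ • S.s = S.s
  exists_series : ∀ b : ↥S.B, ∃ Y : LaurentSeries ↥A,
    coeffMap A.subtype Y = ((b : ↥(laurentBaseChange L F₀)) : LaurentSeries L)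
  red_eq : ∀ (b : ↥S.B) (Y : LaurentSeries ↥A),
    coeffMap A.subtype Y = ((b : ↥(laurentBaseChange L F₀)) : LaurentSeries L) →
    ((S.red b : ↥(D.FC (kA A))) : LaurentSeries (kA A)) = coeffMap (resA A) Y

/-- the chart symmetry from a `CoeffChart`. -/
def CoeffChart.sym {S : ChartSpec A hx ↥(D.FC (kA A))}
    (hS : CoeffChart (F₀ := F₀) S) (g : A.decompositionSubgroup ℚ) :
    Fermat.Agent.ES.RED.GaloisContract21.ChartSym S (arithmeticGalois (L := L) F₀ (g : L ≃ₐ[ℚ] L))
      (coeffSemi (kA A) D (psiRes A g)) :=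
  chartSymOfCoeff S hS.mem_iff hS.smul_s hS.exists_series hS.red_eq g

end Global

section Final

open Fermat.Agent.DS.G.ES.RED.GaloisGlobal21

variable {L : Type*} [Field L] [Algebra ℚ L] [IsAlgClosed L] {A : ValuationSubring L}
  {D : GenData}
  {x : ↥(laurentBaseChange L D.FQ)} {hx : IsGen L x}
  (T : TwoCharts A hx ↥(D.FC (kA A)))
  [IsAlgClosed (kA A)] {xt : ↥(D.FC (kA A))} (hxt : IsGen (kA A) xt)
  (h0 : CoeffChart (F₀ := D.FQ) T.S0)
  (h1 : CoeffChart (F₀ := D.FQ) T.S1)

include hxt h0 h1 in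
/-- **(R3), inertia**: `r (τ P) = r P` for the global reduction map of two coefficientwise
charts. -/
theorem r_smul_of_mem_inertia' {τ : L ≃ₐ[ℚ] L} (hτ : τ ∈ A.inertiaSubgroupIn ℚ)
    (P : Place L ↥(laurentBaseChange L D.FQ)) :
    T.r (arithmeticGalois (L := L) D.FQ τ • P) = T.r P :=
  r_smul_of_mem_inertia T hxt hτ (fun h => h0.sym ⟨τ, h⟩) (fun h => h1.sym ⟨τ, h⟩) P

include hxt h0 h1 in
/-- **(R3), Frobenius**: `r (σ P) = Fr (r P)`. -/
theorem r_smul_of_isFrobeniusAt' {σ : L ≃ₐ[ℚ] L} {ℓ : ℕ} [ExpChar (kA A) ℓ]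
    [PerfectField (kA A)] (hσ : A.IsFrobeniusAt σ ℓ)
    (P : Place L ↥(laurentBaseChange L D.FQ)) :
    T.r (arithmeticGalois (L := L) D.FQ σ • P) = frobSemi (kA A) ℓ D • T.r P :=
  r_smul_of_isFrobeniusAt T hxt hσ (h0.sym ⟨σ, hσ.mem_decompositionSubgroup⟩)
    (h1.sym ⟨σ, hσ.mem_decompositionSubgroup⟩) P

include hxt h0 h1 in
/-- **(R3), decomposition group**: `r (g P) = g̃ (r P)`. -/
theorem r_smul_decomposition' (g : A.decompositionSubgroup ℚ)
    (P : Place L ↥(laurentBaseChange L D.FQ)) :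
    T.r (arithmeticGalois (L := L) D.FQ (g : L ≃ₐ[ℚ] L) • P) =
      coeffSemi (kA A) D (psiRes A g) • T.r P :=
  r_smul_decomposition T hxt g (h0.sym g) (h1.sym g) P

variable (red : Pic0 L ↥(laurentBaseChange L D.FQ) →+ Pic0 (kA A) ↥(D.FC (kA A)))
  (hred : ∀ E : Divisor.degZero (K := L) (F := ↥(laurentBaseChange L D.FQ)),
    ∃ h, red (Pic0.mk E) =
      Pic0.mk ⟨Finsupp.mapDomain T.r (E : Divisor L ↥(laurentBaseChange L D.FQ)), h⟩)

include hxt h0 h1 hred in
/-- **(Φ1)-shape**: inertia-invariance of the reduction of divisor classes. -/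
theorem red_smul_of_mem_inertia'
    {τ : L ≃ₐ[ℚ] L} (hτ : τ ∈ A.inertiaSubgroupIn ℚ)
    (y : Pic0 L ↥(laurentBaseChange L D.FQ)) :
    red (τ • y) = red y :=
  red_smul_of_mem_inertia T hxt red hred hτ (fun h => h0.sym ⟨τ, h⟩) (fun h => h1.sym ⟨τ, h⟩) y

include hxt h0 h1 hred in
/-- Frobenius-equivariance of the reduction of divisor classes. -/
theorem red_smul_of_isFrobeniusAt'
    {σ : L ≃ₐ[ℚ] L} {ℓ : ℕ} [ExpChar (kA A) ℓ] [PerfectField (kA A)]
    (hσ : A.IsFrobeniusAt σ ℓ)
    (y : Pic0 L ↥(laurentBaseChange L D.FQ)) :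
    red (σ • y) = frobSemi (kA A) ℓ D • red y :=
  red_smul_of_isFrobeniusAt T hxt red hred hσ (h0.sym ⟨σ, hσ.mem_decompositionSubgroup⟩)
    (h1.sym ⟨σ, hσ.mem_decompositionSubgroup⟩) y

end Final

end Fermat.Agent.DS.G.ES.RED.GaloisInst21
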