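/-
DS programme (S48), GEO half, chapter G-ESRED, brick DIAPLACE, INSTANCE layer (helper95):
the reduced diamond at a generator datum `D : GenData`, in the shape consumed by
`DS/G/Top/TorsionGaloisKron.localInputsOfKronDia` (helper54: `dt`, `hcomm`, `hdia`) and by the
KRON-D instance (helper3: `hδ_i`, `hfixδ`).

Setting of the E03 twins (`DS/G/ES/RED/GaloisInst21`): `L / ℚ` algebraically closed,
`A ⊂ L` a valuation subring, `F = laurentBaseChange L D.FQ`, `Ft = D.FC (kA A)`,
`T : TwoCharts A hx Ft` with both charts coefficientwise (`CoeffChart`: chart ring = integral closure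
of `A[s]`, `red` = coefficientwise reduction of the `A`-integral `q`-expansion).

Let `δ : F ≃ₐ[L] F` fix the chart coordinate (`hs : δ T.S0.s = T.S0.s`) and let (L4) hold for chart `0`
(`hfrac`).  Then with `dt := reducedDia … : SemilinearAut (kA A) Ft` (`= ofAlgAut (redDia …)`):

* `hdia`       : `T.r (δ • P) = dt • T.r P`                       (Prelude `AlgEquiv` action upstairs);
* `hdia'`      : the same with `SemilinearAut.ofAlgAut δ • P`;
* `commute_frobSemi` : `Commute dt (frobSemi (kA A) ℓ D)` when `δ` commutes with the arithmetic Galois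
  action and a Frobenius element at `A` exists;
* `red_dia₀/₁` : for `b` in the chart ring, `δ b` has an `A`-integral `q`-expansion reducing to
  `dt • red b ≠ 0` (`hδ_i` of the two-relation `KronInput`);
* `smul_red_s` : `dt • T.S0.red T.S0.sB = T.S0.red T.S0.sB` (`hfixδ`).
-/
import Mathlib
import Fermat.Agent.DS.G.ES.RED.DiaPlace
import Fermat.Agent.DS.G.ES.RED.GaloisInst21

set_option autoImplicit false
set_option linter.unusedSectionVars false

noncomputable section

open AlgebraicCurve ModularCurve HahnSeries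

namespace Fermat.Agent.DS.G.ES.RED.DiaPlaceInst

open Fermat.Agent.X0.FF Fermat.Agent.ES.RED.PlaceValue13 Fermat.Agent.ES.RED.Contract8
  Fermat.Agent.ES.RED.TwoCharts8
  Fermat.Agent.DS.G.ES.RED.GaloisRed21 Fermat.Agent.DS.G.ES.KRON.FrobPlace13
  Fermat.Agent.RED.PUR.ChartGeneric22 Fermat.Agent.DS.G.ES.RED.Iface
  Fermat.Agent.DS.G.ES.RED.GaloisInst21 Fermat.Agent.DS.G.ES.RED.DiaPlace

/-! ### the two actions of an algebra automorphism on places agree -/

section Bridge

variable {K F : Type*} [Field K] [Field F] [Algebra K F]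

/-- the `SemilinearAut` action of `ofAlgAut σ` on places is the `AlgEquiv` action of `σ`. -/
theorem ofAlgAut_smul_place (σ : F ≃ₐ[K] F) (v : Place K F) :
    SemilinearAut.ofAlgAut σ • v = σ • v := by
  apply Place.ext
  rw [SemilinearAut.smul_toValuationSubring, Place.smul_toValuationSubring]
  ext y
  rw [ValuationSubring.mem_pointwise_smul_iff_inv_smul_mem,
    ValuationSubring.mem_pointwise_smul_iff_inv_smul_mem]
  rfl

/-- an algebra automorphism fixing a set pointwise fixes the field generated by it. -/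
theorem map_eq_self_of_mem_adjoin (δ : F ≃ₐ[K] F) (S : Set F) (hS : ∀ g ∈ S, δ g = g) {y : F}
    (hy : y ∈ IntermediateField.adjoin K S) : δ y = y := by
  let E : IntermediateField K F :=
    { carrier := {z | δ z = z}
      mul_mem' := fun {a b} ha hb => by
        show δ (a * b) = a * b
        rw [map_mul, ha, hb]
      one_mem' := map_one δ
      add_mem' := fun {a b} ha hb => by
        show δ (a + b) = a + b
        rw [map_add, ha, hb]
      zero_mem' := map_zero δ
      algebraMap_mem' := fun c => δ.commutes c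
      inv_mem' := fun a ha => by
        show δ a⁻¹ = a⁻¹
        rw [map_inv₀, ha] }
  have hle : IntermediateField.adjoin K S ≤ E :=
    IntermediateField.adjoin_le_iff.mpr fun g hg => hS g hg
  exact hle hy

end Bridge

/-- cached instance (typeclass search for it takes seconds at these types). -/
local instance (priority := 5000) algkFC {L : Type*} [Field L] [IsAlgClosed L]
    (A : ValuationSubring L) (D : GenData) : Algebra (kA A) ↥(D.FC (kA A)) := inferInstance

variable {L : Type*} [Field L] [Algebra ℚ L] [IsAlgClosed L] {A : ValuationSubring L}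
  {D : GenData}
  {x : ↥(laurentBaseChange L D.FQ)} {hx : IsGen L x}
  (T : TwoCharts A hx ↥(D.FC (kA A)))
  (h0 : CoeffChart (F₀ := D.FQ) T.S0)
  (h1 : CoeffChart (F₀ := D.FQ) T.S1)
  (δ : ↥(laurentBaseChange L D.FQ) ≃ₐ[L] ↥(laurentBaseChange L D.FQ))
  (hs : δ T.S0.s = T.S0.s)
  (hfrac : FracRed T.S0)

include h0 hs in
/-- `δ` is an automorphism of chart `0`. -/
theorem chartAut₀ : ChartAut T.S0 δ :=
  chartAut_of_integralClosure T.S0 δ (fun b => h0.mem_iff b) hs

include h0 h1 hs in
/-- `δ` is an automorphism of chart `1`. -/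
theorem chartAut₁ : ChartAut T.S1 δ :=
  chartAut_of_integralClosure T.S1 δ (fun b => h1.mem_iff b)
    (by rw [T.s_inv, map_inv₀, hs])

/-- **the reduced diamond**, a `kA A`-algebra automorphism of the special fibre field. -/
def reducedDiaAlg : ↥(D.FC (kA A)) ≃ₐ[kA A] ↥(D.FC (kA A)) :=
  redDia T.S0 δ (chartAut₀ T h0 δ hs) hfrac

/-- **the reduced diamond** as a semilinear automorphism (`dt`). -/
def reducedDia : SemilinearAut (kA A) ↥(D.FC (kA A)) :=
  SemilinearAut.ofAlgAut (reducedDiaAlg T h0 δ hs hfrac)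

theorem reducedDia_smul (y : ↥(D.FC (kA A))) :
    reducedDia T h0 δ hs hfrac • y = reducedDiaAlg T h0 δ hs hfrac y := rfl

theorem baseAut_reducedDia : SemilinearAut.baseAut (reducedDia T h0 δ hs hfrac) = 1 := rfl

/-- `dt • red b = red (δ b)` in chart `0`. -/
theorem reducedDia_smul_red₀ (b : ↥T.S0.B) :
    reducedDia T h0 δ hs hfrac • T.S0.red b = T.S0.red ((chartAut₀ T h0 δ hs).toB b) :=
  redDia_red T.S0 δ (chartAut₀ T h0 δ hs) hfrac b

/-- `dt • red b = red (δ b)` in chart `1`. -/
theorem reducedDia_smul_red₁ (b : ↥T.S1.B) :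
    reducedDia T h0 δ hs hfrac • T.S1.red b = T.S1.red ((chartAut₁ T h0 h1 δ hs).toB b) :=
  redDia_red₁ T δ (chartAut₀ T h0 δ hs) (chartAut₁ T h0 h1 δ hs) hfrac b

/-- **(hfixδ)**: the reduced diamond fixes the reduced chart coordinate. -/
theorem smul_red_s : reducedDia T h0 δ hs hfrac • T.S0.red T.S0.sB = T.S0.red T.S0.sB :=
  redDia_red_s T.S0 δ (chartAut₀ T h0 δ hs) hfrac

section Places

variable [IsAlgClosed (kA A)] {xt : ↥(D.FC (kA A))} (hxt : IsGen (kA A) xt)

include h1 hxt in
/-- **(hdia), semilinear form**: the reduction of places commutes with the diamond. -/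
theorem hdia' (P : Place L ↥(laurentBaseChange L D.FQ)) :
    T.r (SemilinearAut.ofAlgAut δ • P) = reducedDia T h0 δ hs hfrac • T.r P :=
  r_smul T δ (chartAut₀ T h0 δ hs) (chartAut₁ T h0 h1 δ hs) hfrac hxt P

include h1 hxt in
/-- **(hdia)** in the shape of `TorsionGaloisKron.localInputsOfKronDia` (the Prelude's `AlgEquiv`
action on places upstairs). -/
theorem hdia (P : Place L ↥(laurentBaseChange L D.FQ)) :
    T.r (δ • P) = reducedDia T h0 δ hs hfrac • T.r P := by
  rw [← ofAlgAut_smul_place]
  exact hdia' T h0 h1 δ hs hfrac hxt P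

end Places

/-! ### commutation with Frobenius -/

section Frobenius

variable (hcomm : ∀ (σ : L ≃ₐ[ℚ] L) (f : ↥(laurentBaseChange L D.FQ)),
  δ (arithmeticGalois D.FQ σ • f) = arithmeticGalois D.FQ σ • δ f)

include hcomm in
/-- the reduced diamond commutes with the semilinear automorphism induced by any element of the
decomposition group. -/
theorem reducedDia_mul_coeffSemi (g : A.decompositionSubgroup ℚ) :
    reducedDia T h0 δ hs hfrac * coeffSemi (kA A) D (psiRes A g) =
      coeffSemi (kA A) D (psiRes A g) * reducedDia T h0 δ hs hfrac :=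
  ofAlgAut_redDia_mul_comm T.S0 δ (chartAut₀ T h0 δ hs) hfrac (h0.sym g)
    (fun f => hcomm (g : L ≃ₐ[ℚ] L) f)

include hcomm in
/-- **(hcomm)**: the reduced diamond commutes with the coefficientwise Frobenius, as soon as `A` has
a Frobenius element. -/
theorem commute_frobSemi {σ : L ≃ₐ[ℚ] L} {ℓ : ℕ} [ExpChar (kA A) ℓ] [PerfectField (kA A)]
    (hσ : A.IsFrobeniusAt σ ℓ) :
    Commute (reducedDia T h0 δ hs hfrac) (frobSemi (kA A) ℓ D) := by
  have h := reducedDia_mul_coeffSemi T h0 δ hs hfrac hcomm ⟨σ, hσ.mem_decompositionSubgroup⟩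
  rw [coeffSemi_psiRes_of_isFrobeniusAt hσ] at h
  exact h

end Frobenius

/-! ### the chart-ring form of `hδ` (two-relation `KronInput`) -/

section Series

/-- **(hδ₀)**: for `b` in the chart ring `B₀` with non-zero reduction, `δ b` has an `A`-integral
`q`-expansion whose reduction is `dt • red b ≠ 0`  (`= KronInputOf.Red A (resA A) (δ b) (dt • red b)`
unfolded). -/
theorem red_dia₀ (b : ↥T.S0.B) (hb : T.S0.red b ≠ 0) :
    ∃ y : LaurentSeries ↥A,
      coeffMap A.subtype y = ((δ (b : ↥(laurentBaseChange L D.FQ)) :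
        ↥(laurentBaseChange L D.FQ)) : LaurentSeries L) ∧
      coeffMap (resA A) y =
        ((reducedDia T h0 δ hs hfrac • T.S0.red b : ↥(D.FC (kA A))) : LaurentSeries (kA A)) ∧
      reducedDia T h0 δ hs hfrac • T.S0.red b ≠ 0 := by
  obtain ⟨y, hy⟩ := h0.exists_series ((chartAut₀ T h0 δ hs).toB b)
  refine ⟨y, hy, ?_, ?_⟩
  · rw [reducedDia_smul_red₀, h0.red_eq _ y hy]
  · exact (smul_ne_zero_iff_ne _).mpr hb

include h1 in
/-- **(hδ₁)**: the same in chart `1`. -/
theorem red_dia₁ (b : ↥T.S1.B) (hb : T.S1.red b ≠ 0) :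
    ∃ y : LaurentSeries ↥A,
      coeffMap A.subtype y = ((δ (b : ↥(laurentBaseChange L D.FQ)) :
        ↥(laurentBaseChange L D.FQ)) : LaurentSeries L) ∧
      coeffMap (resA A) y =
        ((reducedDia T h0 δ hs hfrac • T.S1.red b : ↥(D.FC (kA A))) : LaurentSeries (kA A)) ∧
      reducedDia T h0 δ hs hfrac • T.S1.red b ≠ 0 := by
  obtain ⟨y, hy⟩ := h1.exists_series ((chartAut₁ T h0 h1 δ hs).toB b)
  refine ⟨y, hy, ?_, ?_⟩
  · rw [reducedDia_smul_red₁ T h0 h1, h1.red_eq _ y hy]
  · exact (smul_ne_zero_iff_ne _).mpr hb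

end Series

end Fermat.Agent.DS.G.ES.RED.DiaPlaceInst
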