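/-
Programme DS (S48), chapter G-ESRED, brick E08 (helper55): generic twin of `ES/RED/GaussUnit25`
((GB2) + (Rgen)) for a generator datum `D : GenData` (`DS/G/ES/RED/Iface.lean`).

* (RES) `FC_le_resField` : `κ(ĝ : g ∈ gens) ⊆ resField O (K(ĝ : g ∈ gens))`  (any valuation
  subring `O ⊂ K`): every generator is the residue of its integral lift.
* (GB2) is the reverse inclusion `resField O (D.FC K) ≤ D.FC (Res O)`.  For `X₀(M)` it is a theorem
  (`ES/RED/GaussUnit25.resField_fullC_eq`, via the degree `ψ(M)` in both characteristics); for a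
  general datum it is an INPUT (Igusa, chapter IGU), packaged here as `GB2Step D A` = (GB2) for
  all number fields `K ⊇ K₀`; `resField_FC_eq_of_le`, `resField_FKG_eq`.
* `isIntFrac_of_mem_FC`, `exists_integral_fraction` : every nonzero `f ∈ D.FC K` is `c · a / b`
  with `c ∈ Kˣ`, `a, b ∈ O((q)) ∩ D.FC K` of NONZERO reduction.
* (Rgen) `principalGeneratedByIntegral` : principal divisors of `D.Fbar` are generated by the
  divisors of `A`-integral functions with nonzero reduction in `D.FC (Res A)`
  (the unfolded form of `PrincipalGeneratedByIntegralG A (residue A) D.FQ (D.FC _)` of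
  `DS/G/RED/Defs.lean`), from `GB2Step D A` and `HasPrincipalDivisors Qbar D.Fbar`.
-/
import Mathlib
import Fermat.Prelude.Def_ModularCurve_ReductionModL
import Fermat.Agent.DS.G.ES.RED.Iface
import Fermat.Agent.RED.PUR.GaussBridge10
import Fermat.Agent.RED.DESC.NumberFieldDVR27
import Fermat.Agent.RED.DESC.CoeffDescent1
import Fermat.Agent.X0.FFDict

set_option autoImplicit false
set_option linter.style.haveILetI false
set_option linter.unusedSectionVars false

noncomputable section

open HahnSeries ModularCurve IntermediateField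

namespace Fermat.Agent.DS.G.ES.RED.GaussUnit25

open Fermat.Agent.DS.G.ES.RED.Iface
open Fermat.Agent.RED.PUR.GaussGen8 Fermat.Agent.RED.PUR.GaussBridge10

/-! ### generators over a valuation ring -/

section Generators

variable (D : GenData) {K : Type*} [Field K] (O : ValuationSubring K)

/-- the integral lift of a generator. -/
def genO (g : LaurentSeries ℤ) : LaurentSeries ↥O := coeffMap (Int.castRingHom ↥O) g

theorem embK_genO (g : LaurentSeries ℤ) :
    embK O (genO O g) = coeffMap (Int.castRingHom K) g := by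
  unfold genO embK
  exact coeffMap_intCast_comp _ g

theorem redL_genO (g : LaurentSeries ℤ) :
    redL O (genO O g) = coeffMap (Int.castRingHom (Res O)) g := by
  unfold genO redL
  exact coeffMap_intCast_comp _ g

/-- the generators lie in the Gauss ring. -/
theorem gen_mem_gaussRing (g : LaurentSeries ℤ) :
    coeffMap (Int.castRingHom K) g ∈ gaussRing O := by
  rw [← embK_genO O g]; exact embK_mem O _

theorem gaussRed_gen (g : LaurentSeries ℤ) :
    gaussRed O ⟨coeffMap (Int.castRingHom K) g, gen_mem_gaussRing O g⟩ =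
      coeffMap (Int.castRingHom (Res O)) g := by
  have h : (⟨coeffMap (Int.castRingHom K) g, gen_mem_gaussRing O g⟩ : gaussRing O) =
      ⟨embK O (genO O g), embK_mem O _⟩ := Subtype.ext (embK_genO O g).symm
  rw [h, gaussRed_embK, redL_genO]

/-- **(GB1)** `D.FC K ⊂ Frac O((q))`. -/
theorem FC_le_fracField : D.FC K ≤ fracField O := by
  unfold GenData.FC
  rw [IntermediateField.adjoin_le_iff]
  rintro _ ⟨g, _, rfl⟩
  rw [← embK_genO O g]
  exact embK_mem_fracField O _

/-- **(RES)** every element of `κ(ĝ : g ∈ gens)` is the residue of an element of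
`gaussRing O ∩ K(ĝ : g ∈ gens)`. -/
theorem FC_le_resField : D.FC (Res O) ≤ resField O (D.FC K) := by
  unfold GenData.FC
  rw [IntermediateField.adjoin_le_iff]
  rintro _ ⟨g, hg, rfl⟩
  exact ⟨coeffMap (Int.castRingHom K) g, gen_mem_gaussRing O g,
    IntermediateField.subset_adjoin K _ (D.mem_gensC hg), gaussRed_gen O g⟩

/-- **(GB2)** from the nontrivial inclusion. -/
theorem resField_FC_eq_of_le (h : resField O (D.FC K) ≤ D.FC (Res O)) :
    resField O (D.FC K) = D.FC (Res O) :=
  le_antisymm h (FC_le_resField D O)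

end Generators

/-! ### integral fractions -/

section Fraction

variable (D : GenData) {K : Type*} [Field K] (O : ValuationSubring K)

/-- `f = a / b` with `a, b ∈ O((q)) ∩ E`. -/
def IsIntFrac (E : IntermediateField K (LaurentSeries K)) (f : LaurentSeries K) : Prop :=
  ∃ a b : LaurentSeries ↥O, b ≠ 0 ∧ embK O a ∈ E ∧ embK O b ∈ E ∧ f * embK O b = embK O a

theorem embK_C_mem (E : IntermediateField K (LaurentSeries K)) (r : ↥O) :
    embK O (HahnSeries.C r) ∈ E := by
  rw [embK_C, ← algebraMap_eq_C (K := K)]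
  exact E.algebraMap_mem _

theorem isIntFrac_of_embK (E : IntermediateField K (LaurentSeries K)) (a : LaurentSeries ↥O)
    (ha : embK O a ∈ E) : IsIntFrac O E (embK O a) :=
  ⟨a, 1, one_ne_zero, ha, by rw [map_one]; exact one_mem _, by rw [map_one, mul_one]⟩

theorem isIntFrac_algebraMap (E : IntermediateField K (LaurentSeries K)) (c : K) :
    IsIntFrac O E (algebraMap K (LaurentSeries K) c) := by
  rcases O.mem_or_inv_mem c with hc | hc
  · have := isIntFrac_of_embK O E (HahnSeries.C (⟨c, hc⟩ : ↥O)) (embK_C_mem O E _)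
    rwa [embK_C, ← algebraMap_eq_C (K := K)] at this
  · by_cases hc0 : c = 0
    · rw [hc0, map_zero]
      have := isIntFrac_of_embK O E 0 (by rw [map_zero]; exact zero_mem _)
      rwa [map_zero] at this
    refine ⟨1, HahnSeries.C (⟨c⁻¹, hc⟩ : ↥O), ?_, by rw [map_one]; exact one_mem _,
      embK_C_mem O E _, ?_⟩
    · intro h0
      have h1 := congrArg (embK O) h0
      rw [embK_C, map_zero] at h1
      have h2 : (HahnSeries.C (c⁻¹) : LaurentSeries K).coeff 0 = 0 := by
        change (HahnSeries.C ((⟨c⁻¹, hc⟩ : ↥O) : K) : LaurentSeries K).coeff 0 = 0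
        rw [h1]; rfl
      rw [HahnSeries.C_apply, HahnSeries.coeff_single_same] at h2
      exact inv_ne_zero hc0 h2
    · rw [embK_C, map_one, algebraMap_eq_C (K := K), ← map_mul]
      show HahnSeries.C (c * c⁻¹) = 1
      rw [mul_inv_cancel₀ hc0, map_one]

variable {O}

theorem IsIntFrac.add {E : IntermediateField K (LaurentSeries K)} {f g : LaurentSeries K}
    (hf : IsIntFrac O E f) (hg : IsIntFrac O E g) : IsIntFrac O E (f + g) := by
  obtain ⟨a, b, hb, haE, hbE, h⟩ := hf
  obtain ⟨a', b', hb', haE', hbE', h'⟩ := hg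
  refine ⟨a * b' + a' * b, b * b', mul_ne_zero hb hb', ?_, ?_, ?_⟩
  · rw [map_add, map_mul, map_mul]
    exact add_mem (mul_mem haE hbE') (mul_mem haE' hbE)
  · rw [map_mul]; exact mul_mem hbE hbE'
  · rw [map_add, map_mul, map_mul, map_mul, ← h, ← h']; ring

theorem IsIntFrac.mul {E : IntermediateField K (LaurentSeries K)} {f g : LaurentSeries K}
    (hf : IsIntFrac O E f) (hg : IsIntFrac O E g) : IsIntFrac O E (f * g) := by
  obtain ⟨a, b, hb, haE, hbE, h⟩ := hf
  obtain ⟨a', b', hb', haE', hbE', h'⟩ := hg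
  refine ⟨a * a', b * b', mul_ne_zero hb hb', ?_, ?_, ?_⟩
  · rw [map_mul]; exact mul_mem haE haE'
  · rw [map_mul]; exact mul_mem hbE hbE'
  · rw [map_mul, map_mul, ← h, ← h']; ring

theorem IsIntFrac.inv {E : IntermediateField K (LaurentSeries K)} {f : LaurentSeries K}
    (hf : IsIntFrac O E f) : IsIntFrac O E f⁻¹ := by
  obtain ⟨a, b, hb, haE, hbE, h⟩ := hf
  by_cases ha : a = 0
  · have hb' : embK O b ≠ 0 := fun hh => hb ((embK_eq_zero_iff O b).mp hh)
    rw [ha, map_zero] at h
    have hf0 : f = 0 := (mul_eq_zero.mp h).resolve_right hb'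
    rw [hf0, inv_zero]
    have := isIntFrac_of_embK O E 0 (by rw [map_zero]; exact zero_mem _)
    rwa [map_zero] at this
  · have ha' : embK O a ≠ 0 := fun hh => ha ((embK_eq_zero_iff O a).mp hh)
    have hb' : embK O b ≠ 0 := fun hh => hb ((embK_eq_zero_iff O b).mp hh)
    have hf0 : f ≠ 0 := by
      rintro rfl
      rw [zero_mul] at h
      exact ha' h.symm
    refine ⟨b, a, ha, hbE, haE, ?_⟩
    rw [← h]
    field_simp

/-- every element of `D.FC K` is a quotient of elements of `O((q)) ∩ D.FC K`. -/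
theorem isIntFrac_of_mem_FC {f : LaurentSeries K} (hf : f ∈ D.FC K) :
    IsIntFrac O (D.FC K) f := by
  unfold GenData.FC at hf
  induction hf using IntermediateField.adjoin_induction with
  | mem x hx =>
    obtain ⟨g, hg, rfl⟩ := hx
    rw [← embK_genO O g]
    refine isIntFrac_of_embK O _ _ ?_
    rw [embK_genO O g]
    exact D.gen_mem_FC hg
  | algebraMap c => exact isIntFrac_algebraMap O _ c
  | add x y _ _ hx hy => exact hx.add hy
  | inv x _ hx => exact hx.inv
  | mul x y _ _ hx hy => exact hx.mul hy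

/-- **Integral fraction with Gauss units**: every nonzero `f ∈ E = D.FC K` is `c · a / b` with
`c ∈ Kˣ` and `a, b ∈ O((q)) ∩ E` of nonzero reduction. -/
theorem exists_integral_fraction {π : ↥O} (hπ : IsUnif O π)
    {f : LaurentSeries K} (hf : f ∈ D.FC K) (hf0 : f ≠ 0) :
    ∃ (c : K) (a b : LaurentSeries ↥O), c ≠ 0 ∧
      embK O a ∈ D.FC K ∧ embK O b ∈ D.FC K ∧
      redL O a ≠ 0 ∧ redL O b ≠ 0 ∧ f * embK O b = HahnSeries.C c * embK O a := by
  obtain ⟨a, b, hb, haE, hbE, h⟩ := isIntFrac_of_mem_FC D (O := O) hf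
  have hb' : embK O b ≠ 0 := fun hh => hb ((embK_eq_zero_iff O b).mp hh)
  have ha : a ≠ 0 := by
    rintro rfl
    rw [map_zero] at h
    exact hf0 ((mul_eq_zero.mp h).resolve_right hb')
  obtain ⟨i, a₀, rfl, ha₀⟩ := exists_eq_pow_mul hπ a ha
  obtain ⟨j, b₀, rfl, hb₀⟩ := exists_eq_pow_mul hπ b hb
  have hπK : ((π : ↥O) : K) ≠ 0 := fun h0 => hπ.ne_zero (Subtype.ext h0)
  have hCπ : (HahnSeries.C ((π : ↥O) : K) : LaurentSeries K) ≠ 0 := by
    intro h0
    have := congrArg (fun z : LaurentSeries K => z.coeff 0) h0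
    simp only [HahnSeries.C_apply, HahnSeries.coeff_single_same, HahnSeries.coeff_zero] at this
    exact hπK this
  have hCmem : (HahnSeries.C ((π : ↥O) : K) : LaurentSeries K) ∈ D.FC K := by
    rw [← algebraMap_eq_C (K := K)]
    exact (D.FC K).algebraMap_mem _
  simp only [map_mul, map_pow, embK_C] at haE hbE h
  have ha₀E : embK O a₀ ∈ D.FC K := by
    have := mul_mem (inv_mem (pow_mem hCmem i)) haE
    rwa [← mul_assoc, inv_mul_cancel₀ (pow_ne_zero i hCπ), one_mul] at this
  have hb₀E : embK O b₀ ∈ D.FC K := by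
    have := mul_mem (inv_mem (pow_mem hCmem j)) hbE
    rwa [← mul_assoc, inv_mul_cancel₀ (pow_ne_zero j hCπ), one_mul] at this
  refine ⟨((π : ↥O) : K) ^ i * (((π : ↥O) : K) ^ j)⁻¹, a₀, b₀,
    mul_ne_zero (pow_ne_zero i hπK) (inv_ne_zero (pow_ne_zero j hπK)), ha₀E, hb₀E, ha₀, hb₀, ?_⟩
  rw [map_mul, map_pow, map_inv₀, map_pow]
  have hj := pow_ne_zero j hCπ
  field_simp
  rw [← h]
  ring

end Fraction

/-! ### the contract objects over `ℚ̄` -/

section Concrete

open Fermat.Agent.RED.Interface4 Fermat.Agent.RED.DESC Fermat.Agent.RED.DESC.NumberFieldDVR27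
open AlgebraicCurve

variable (D : GenData) (A : ValuationSubring Qbar) (K : IntermediateField ℚ Qbar)

/-- **(GB2) for all large number fields** — the Igusa input of the chapter: the residue field of
the Gauss valuation on `K·F` is `κ·F̃`, for every number field `K ⊇ K₀`. -/
def GB2Step : Prop :=
  ∃ K₀ : IntermediateField ℚ Qbar, FiniteDimensional ℚ K₀ ∧
    ∀ K : IntermediateField ℚ Qbar, FiniteDimensional ℚ K → K₀ ≤ K →
      resField (AK A K) (D.FC K) ≤ D.FC (Res (AK A K))

/-- `GB2Step` from (GB2) at all number fields. -/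
theorem gb2Step_of_forall
    (h : ∀ K : IntermediateField ℚ Qbar, FiniteDimensional ℚ K →
      resField (AK A K) (D.FC K) ≤ D.FC (Res (AK A K))) : GB2Step D A :=
  ⟨⊥, inferInstance, fun K hK _ => h K hK⟩

/-- the level-`K` field `K·F` of the contract is `D.FC K`. -/
theorem FKG_eq : laurentBaseChange ↥K D.FQ = D.FC ↥K := D.laurentBaseChange_FQ_eq ↥K

theorem subtype_comp_incl :
    (A.subtype : ↥A →+* Qbar).comp (incl A K) = (algebraMap K Qbar).comp (AK A K).subtype :=
  RingHom.ext fun _ => rfl

theorem residue_comp_incl :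
    (IsLocalRing.residue ↥A).comp (incl A K) = (resMap A K).comp (IsLocalRing.residue ↥(AK A K)) :=
  RingHom.ext fun x => (resMap_residue A K x).symm

/-- the `Qbar`-series of an integral series over `A ∩ K`. -/
theorem coeffMap_subtype_incl (a : LaurentSeries ↥(AK A K)) :
    coeffMap A.subtype (coeffMap (incl A K) a) =
      coeffMap (algebraMap K Qbar) (embK (AK A K) a) := by
  unfold embK
  rw [coeffMap_coeffMap, coeffMap_coeffMap]
  exact coeffMap_congr (subtype_comp_incl A K) a

theorem coeffMap_residue_incl (a : LaurentSeries ↥(AK A K)) :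
    coeffMap (IsLocalRing.residue ↥A) (coeffMap (incl A K) a) =
      coeffMap (resMap A K) (redL (AK A K) a) := by
  unfold redL
  rw [coeffMap_coeffMap, coeffMap_coeffMap]
  exact coeffMap_congr (residue_comp_incl A K) a

/-- **(GB2)** for the contract objects: the residue field of the Gauss valuation on `K·F`. -/
theorem resField_FKG_eq (hGB2 : resField (AK A K) (D.FC K) ≤ D.FC (Res (AK A K))) :
    resField (AK A K) (laurentBaseChange ↥K D.FQ) = D.FC (Res (AK A K)) := by
  rw [FKG_eq]
  exact resField_FC_eq_of_le D (AK A K) hGB2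

/-- the set of divisors of `A`-integral functions of `D.Fbar` with nonzero reduction in
`D.FC (Res A)` (the unfolded `integralPrincipalDivisorsG A (residue A) D.FQ (D.FC (Res A))`). -/
def integralPrincipalDivisorsFC : Set (Divisor Qbar ↥D.Fbar) :=
  {Dv | ∃ (y : LaurentSeries ↥A) (hy : coeffMap A.subtype y ∈ D.Fbar),
      coeffMap (IsLocalRing.residue ↥A) y ∈ D.FC (IsLocalRing.ResidueField ↥A) ∧
      coeffMap (IsLocalRing.residue ↥A) y ≠ 0 ∧
        ∀ P, Dv P = P.ord (⟨coeffMap A.subtype y, hy⟩ : ↥D.Fbar)}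

/-- An integral series over `A ∩ K` lying in `K·F` with nonzero reduction gives an element of
`integralPrincipalDivisorsFC`. -/
theorem mem_integralPrincipalDivisors
    (hGB2 : resField (AK A K) (D.FC K) ≤ D.FC (Res (AK A K)))
    (a : LaurentSeries ↥(AK A K)) (haE : embK (AK A K) a ∈ D.FC ↥K)
    (hared : redL (AK A K) a ≠ 0)
    (hy : coeffMap A.subtype (coeffMap (incl A K) a) ∈ D.Fbar)
    (Dv : Divisor Qbar ↥D.Fbar)
    (hD : ∀ P, Dv P = P.ord (⟨coeffMap A.subtype (coeffMap (incl A K) a), hy⟩ : ↥D.Fbar)) :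
    Dv ∈ integralPrincipalDivisorsFC D A := by
  refine ⟨coeffMap (incl A K) a, hy, ?_, ?_, hD⟩
  · rw [coeffMap_residue_incl]
    refine D.coeffMap_mem_FC (resMap A K) ?_
    exact hGB2 ⟨embK (AK A K) a, embK_mem _ a, haE, gaussRed_embK _ a⟩
  · rw [coeffMap_residue_incl]
    intro h
    apply hared
    exact CoeffDescent1.coeffMap_injective_of_injective (resMap A K) (resMap_injective A K)
      (h.trans (map_zero _).symm)

/-- **(Rgen)** Principal divisors of `D.Fbar` are generated by the divisors of integral functions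
with nonzero reduction in `D.FC (Res A)`, for `A` over a prime `ℓ`, given (GB2) at all large number
fields. -/
theorem principalGeneratedByIntegral (ℓ : ℕ) [Fact ℓ.Prime] (hA : A.LiesOverPrime ℓ)
    (hpd : HasPrincipalDivisors Qbar ↥D.Fbar) (hGB2 : GB2Step D A) :
    Divisor.principal (K := Qbar) (F := ↥D.Fbar) ≤
      AddSubgroup.closure (integralPrincipalDivisorsFC D A) := by
  intro Dv hD
  obtain ⟨f, hf0, hDf⟩ := hD
  obtain ⟨K₀, hK₀fin, hK₀⟩ := hGB2
  haveI := hK₀fin
  haveI := isAlgebraic_Qbar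
  obtain ⟨K, hK₀K, hfin, x', hx', hx'f⟩ :=
    CoeffDescent1.exists_finite_descent (L := Qbar) (F₀ := D.FQ) K₀ f.2
  haveI := hfin
  have hGB2K := hK₀ K hfin hK₀K
  haveI : IsDiscreteValuationRing ↥(AK A K) :=
    isDiscreteValuationRing_AK A K (Fact.out : ℓ.Prime).ne_zero hA
  obtain ⟨π, hπ⟩ := IsDiscreteValuationRing.exists_irreducible ↥(AK A K)
  have hu := isUnif_of_irreducible (AK A K) hπ
  have hx'C : x' ∈ D.FC ↥K := by
    rw [← FKG_eq]; exact hx'
  have hx'0 : x' ≠ 0 := by
    rintro rfl
    rw [map_zero] at hx'f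
    exact hf0 (Subtype.ext hx'f.symm)
  obtain ⟨c, a, b, hc0, haE, hbE, hared, hbred, hrel⟩ := exists_integral_fraction D hu hx'C hx'0
  -- the two integral functions over `Qbar`
  have hmemQ : ∀ z : LaurentSeries ↥(AK A K), embK (AK A K) z ∈ D.FC ↥K →
      coeffMap A.subtype (coeffMap (incl A K) z) ∈ D.Fbar := by
    intro z hz
    rw [coeffMap_subtype_incl]
    refine CoeffDescent1.coeffMap_mem_laurentBaseChange_of_algHom (algebraMap K Qbar) D.FQ ?_
    rw [FKG_eq]; exact hz
  have hya := hmemQ a haE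
  have hyb := hmemQ b hbE
  set ya : ↥D.Fbar := ⟨coeffMap A.subtype (coeffMap (incl A K) a), hya⟩ with hyadef
  set yb : ↥D.Fbar := ⟨coeffMap A.subtype (coeffMap (incl A K) b), hyb⟩ with hybdef
  have hne : ∀ z : LaurentSeries ↥(AK A K), redL (AK A K) z ≠ 0 →
      coeffMap A.subtype (coeffMap (incl A K) z) ≠ 0 := by
    intro z hz h0
    apply hz
    rw [coeffMap_subtype_incl] at h0
    have h1 : embK (AK A K) z = 0 :=
      CoeffDescent1.coeffMap_injective_of_injective (algebraMap K Qbar)
        (algebraMap K Qbar).injective (h0.trans (map_zero _).symm)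
    rw [(embK_eq_zero_iff (AK A K) z).mp h1, map_zero]
  have hya0 : ya ≠ 0 := fun h => hne a hared (congrArg Subtype.val h)
  have hyb0 : yb ≠ 0 := fun h => hne b hbred (congrArg Subtype.val h)
  -- the relation `f * yb = c * ya`
  have hrelQ : f * yb = algebraMap Qbar _ (algebraMap K Qbar c) * ya := by
    apply Subtype.ext
    show (f : LaurentSeries Qbar) * coeffMap A.subtype (coeffMap (incl A K) b) =
      algebraMap Qbar (LaurentSeries Qbar) (algebraMap K Qbar c) *
        coeffMap A.subtype (coeffMap (incl A K) a)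
    rw [coeffMap_subtype_incl, coeffMap_subtype_incl, ← hx'f, ← map_mul, hrel, map_mul,
      coeffMap_C, algebraMap_eq_C (K := Qbar)]
  have hcQ : algebraMap K Qbar c ≠ 0 := by
    rw [Ne, map_eq_zero]; exact hc0
  -- divisors
  obtain ⟨Da, hDa, -⟩ := hpd.exists_divisor ya hya0
  obtain ⟨Db, hDb, -⟩ := hpd.exists_divisor yb hyb0
  have hDeq : Dv = Da - Db := by
    ext P
    rw [Finsupp.sub_apply, hDf P, hDa P, hDb P]
    have h1 := congrArg P.ord hrelQ
    rw [P.ord_mul hf0 hyb0,
      P.ord_mul (by rw [Ne, map_eq_zero]; exact hcQ) hya0,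
      Fermat.Agent.X0.FF.ord_algebraMap] at h1
    omega
  rw [hDeq]
  refine AddSubgroup.sub_mem _ (AddSubgroup.subset_closure ?_) (AddSubgroup.subset_closure ?_)
  · exact mem_integralPrincipalDivisors D A K hGB2K a haE hared hya Da hDa
  · exact mem_integralPrincipalDivisors D A K hGB2K b hbE hbred hyb Db hDb

end Concrete

end Fermat.Agent.DS.G.ES.RED.GaussUnit25
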