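/-
Programme DS (S48), chapter G-ESRED, brick E05 (helper13): base-change glue at a generator datum
`D : GenData` (`DS/G/ES/RED/Iface.lean`), generic twins of the level-`M` glue used by
`ES/RED/ChartUnion1`, `ChartIntegralA1` (`FKQ M K`, `PlaceExtend27.baseChangeHom`,
`UnifDescent14.exists_descent_ge`, `GaussBridge10.FK_le_fracField`, `OvK`, `mem_OvK_iff`):

* `FKG D K := laurentBaseChange K D.FQ` for a number field `K ≤ ℚbar`, `FKG_eq : FKG D K = D.FC K`;
* `baseChangeHom D K : FKG D K →+* D.Fbar` (coefficientwise `K → ℚbar`), `_algebraMap`,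
  `_injective`;
* `exists_descent_ge D K₀ x` : every `x ∈ D.Fbar` descends to all large number fields;
* `FKG_le_fracField D A K`, `OvK D A K hπ` (Gauss valuation subring), `mem_OvK_iff`,
  `algebraAKFKG`.
(Same API as the file `Base79` announced by helper79, which never landed.)
-/
import Mathlib
import Fermat.Agent.DS.G.ES.RED.Iface
import Fermat.Agent.DS.G.ES.RED.GaussUnit25
import Fermat.Agent.RED.PUR.GaussBridge10
import Fermat.Agent.RED.DESC.NumberFieldDVR27
import Fermat.Agent.RED.DESC.CoeffDescent1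

set_option autoImplicit false

noncomputable section

open HahnSeries ModularCurve IntermediateField

namespace Fermat.Agent.DS.G.ES.RED.Base13

open Fermat.Agent.DS.G.ES.RED.Iface Fermat.Agent.RED.Interface4 Fermat.Agent.RED.DESC
  Fermat.Agent.RED.PUR.GaussGen8 Fermat.Agent.RED.PUR.GaussBridge10

variable (D : GenData)

abbrev FKG (K : IntermediateField ℚ Qbar) : IntermediateField K (LaurentSeries K) :=
  laurentBaseChange ↥K D.FQ

theorem FKG_eq (K : IntermediateField ℚ Qbar) : FKG D K = D.FC ↥K := D.laurentBaseChange_FQ_eq ↥K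

def baseChangeHom (K : IntermediateField ℚ Qbar) : ↥(FKG D K) →+* ↥D.Fbar :=
  RingHom.codRestrict ((coeffMap (algebraMap K Qbar)).comp (FKG D K).val.toRingHom) D.Fbar
    (fun f => CoeffDescent1.coeffMap_mem_laurentBaseChange_of_algHom (algebraMap K Qbar)
      D.FQ f.2)

@[simp] theorem coe_baseChangeHom (K : IntermediateField ℚ Qbar) (f : FKG D K) :
    ((baseChangeHom D K f : D.Fbar) : LaurentSeries Qbar) =
      coeffMap (algebraMap K Qbar) (f : LaurentSeries K) := rfl

theorem baseChangeHom_algebraMap (K : IntermediateField ℚ Qbar) (c : K) :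
    baseChangeHom D K (algebraMap K (FKG D K) c) = algebraMap Qbar D.Fbar (c : Qbar) := by
  apply Subtype.ext
  rw [coe_baseChangeHom]
  exact CoeffDescent1.coeffMap_algebraMap_of_ringHom (algebraMap K Qbar) c

theorem baseChangeHom_injective (K : IntermediateField ℚ Qbar) :
    Function.Injective (baseChangeHom D K) :=
  (baseChangeHom D K).injective

theorem exists_descent_ge (K₀ : IntermediateField ℚ Qbar) [FiniteDimensional ℚ K₀]
    (x : D.Fbar) :
    ∃ K₁ : IntermediateField ℚ Qbar, FiniteDimensional ℚ K₁ ∧ K₀ ≤ K₁ ∧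
      ∀ K : IntermediateField ℚ Qbar, K₁ ≤ K → ∃ x' : FKG D K, baseChangeHom D K x' = x := by
  have := NumberFieldDVR27.isAlgebraic_Qbar
  obtain ⟨K₁, hK₀, hfin, x', hx', hxx⟩ :=
    CoeffDescent1.exists_finite_descent (L := Qbar) (F₀ := D.FQ) K₀ x.2
  refine ⟨K₁, hfin, hK₀, fun K hK => ?_⟩
  obtain ⟨x'', hx'', h''⟩ := CoeffDescent1.exists_lift_of_le hK hx'
  refine ⟨⟨x'', hx''⟩, Subtype.ext ?_⟩
  rw [coe_baseChangeHom]
  exact h''.trans hxx

theorem FKG_le_fracField (A : ValuationSubring Qbar) (K : IntermediateField ℚ Qbar) :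
    FKG D K ≤ fracField (AK A K) := by
  rw [FKG_eq]
  exact Fermat.Agent.DS.G.ES.RED.GaussUnit25.FC_le_fracField D (AK A K)

def OvK (A : ValuationSubring Qbar) (K : IntermediateField ℚ Qbar) {π : ↥(AK A K)}
    (hπ : IsUnif (AK A K) π) : ValuationSubring (FKG D K) :=
  gaussVS hπ (FKG D K) (FKG_le_fracField D A K)

theorem mem_OvK_iff (A : ValuationSubring Qbar) (K : IntermediateField ℚ Qbar) {π : ↥(AK A K)}
    (hπ : IsUnif (AK A K) π) (f : FKG D K) :
    f ∈ OvK D A K hπ ↔ (f : LaurentSeries K) ∈ gaussRing (AK A K) :=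
  mem_gaussVS_iff hπ (FKG D K) (FKG_le_fracField D A K) f

@[reducible] def algebraAKFKG (A : ValuationSubring Qbar) (K : IntermediateField ℚ Qbar) :
    Algebra ↥(AK A K) ↥(FKG D K) := inferInstance

end Fermat.Agent.DS.G.ES.RED.Base13
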