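/-
Programme DS (S48), chapter G-ESRED, bricks E05/E06 (helper79): the COMMON BASE of the generic twins
of the "union over number fields" and "level system" files of `ES/RED`.

For a generator datum `D : GenData` (`DS/G/ES/RED/Iface.lean`) and a subfield `K ⊆ ℚ̄`:

* `FKG D K := laurentBaseChange K D.FQ` (`= D.FC K`, `FKG_eq`), the twin of `Interface4.FK M K`
  (an `abbrev`, so it is interchangeable with the unfolded form and with `G.RED.Iface.FKG D.FQ K`);
* `baseChangeHom D K : FKG D K →+* D.Fbar` (coefficientwise base change), `coe_baseChangeHom`,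
  `baseChangeHom_algebraMap`, `baseChangeHom_injective`  (twin of `RED/DESC/PlaceExtend27` §Concrete);
* `exists_descent_ge`  (twin of `RED/DESC/UnifDescent14.exists_descent_ge`);
* `FKG_le_fracField`, `OvK`, `mem_OvK_iff`, `FC_le_resField_FKG`
  (twins of `RED/PUR/GaussBridge10` §Concrete: `FK_le_fracField`, `OvK`, `mem_OvK_iff`,
  `fullC_le_resField_FK`);
* `algebraAKFKG` : the shortcut instance `Algebra ↥(AK A K) ↥(FKG D K)`;
* the Hauptmodul `t = tq n e` of `X₀(n)`, `(n, e) = (4, 8)` or `(9, 3)`, at the datum `D`: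
  `TMem n e D` (`tK n e ∈ D.Fbar`; twin of `RED/BASE/Interface12.TMem`), `tF D h : D.Fbar`,
  `exists_tq_mem` (twin of `RED/BASE/TBridge15.exists_tq_mem`), `baseChangeHom_eq_tF`
  (twin of `RED/CUSP/RankConcrete16.baseChangeHom_eq_tF`);
* `DegIrrStep D A` : the Igusa input **(DEG)+(IRR)** at all large number fields, in the literal shape
  of `RED/PUR/GaussInst25.exists_degLe_irr_FK` (a THEOREM for `X₀(M)`, an INPUT for a general datum:
  chapter IGU).
-/
import Mathlib
import Fermat.Agent.DS.G.ES.RED.Iface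
import Fermat.Agent.DS.G.ES.RED.GaussUnit25
import Fermat.Agent.RED.PUR.GaussBridge10
import Fermat.Agent.RED.DESC.NumberFieldDVR27
import Fermat.Agent.RED.DESC.CoeffDescent1
import Fermat.Agent.RED.BASE.Interface12
import Fermat.Agent.RED.PUR.G1Package8

set_option autoImplicit false
set_option linter.unusedSectionVars false
set_option linter.style.haveILetI false

noncomputable section

open HahnSeries ModularCurve IntermediateField

namespace Fermat.Agent.DS.G.ES.RED.Base79

open Fermat.Agent.DS.G.ES.RED.Iface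
open Fermat.Agent.RED.Interface4 Fermat.Agent.RED.DESC
open Fermat.Agent.RED.PUR.GaussGen8 Fermat.Agent.RED.PUR.GaussBridge10

section Main

variable (D : GenData)

/-- The function field `K·D.FQ ⊂ K((q))` over a subfield `K ⊂ ℚ̄` (twin of `Interface4.FK`). -/
abbrev FKG (K : IntermediateField ℚ Qbar) : IntermediateField ↥K (LaurentSeries ↥K) :=
  laurentBaseChange ↥K D.FQ

theorem FKG_eq (K : IntermediateField ℚ Qbar) : FKG D K = D.FC ↥K :=
  D.laurentBaseChange_FQ_eq ↥K

section BaseChange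

variable (K : IntermediateField ℚ Qbar)

/-- Coefficientwise base change `K·D.FQ → ℚ̄·D.FQ`. -/
def baseChangeHom : ↥(FKG D K) →+* ↥D.Fbar :=
  RingHom.codRestrict ((coeffMap (algebraMap ↥K Qbar)).comp (FKG D K).val.toRingHom) D.Fbar
    (fun f => CoeffDescent1.coeffMap_mem_laurentBaseChange_of_algHom (algebraMap ↥K Qbar)
      D.FQ f.2)

@[simp] theorem coe_baseChangeHom (f : ↥(FKG D K)) :
    ((baseChangeHom D K f : ↥D.Fbar) : LaurentSeries Qbar) =
      coeffMap (algebraMap ↥K Qbar) (f : LaurentSeries ↥K) := rfl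

theorem baseChangeHom_algebraMap (c : ↥K) :
    baseChangeHom D K (algebraMap ↥K ↥(FKG D K) c) = algebraMap Qbar ↥D.Fbar (c : Qbar) := by
  apply Subtype.ext
  rw [coe_baseChangeHom]
  exact CoeffDescent1.coeffMap_algebraMap_of_ringHom (algebraMap ↥K Qbar) c

theorem baseChangeHom_injective : Function.Injective (baseChangeHom D K) :=
  (baseChangeHom D K).injective

end BaseChange

/-- A fixed element of `D.Fbar` descends to a number field above `K₀`, and to all larger fields. -/
theorem exists_descent_ge (K₀ : IntermediateField ℚ Qbar) [FiniteDimensional ℚ K₀]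
    (x : ↥D.Fbar) :
    ∃ K₁ : IntermediateField ℚ Qbar, FiniteDimensional ℚ K₁ ∧ K₀ ≤ K₁ ∧
      ∀ K : IntermediateField ℚ Qbar, K₁ ≤ K → ∃ x' : ↥(FKG D K), baseChangeHom D K x' = x := by
  have := NumberFieldDVR27.isAlgebraic_Qbar
  obtain ⟨K₁, hK₀, hfin, x', hx', hxx⟩ :=
    CoeffDescent1.exists_finite_descent (L := Qbar) (F₀ := D.FQ) K₀ x.2
  refine ⟨K₁, hfin, hK₀, fun K hK => ?_⟩
  obtain ⟨x'', hx'', h''⟩ := CoeffDescent1.exists_lift_of_le hK hx'
  refine ⟨⟨x'', hx''⟩, Subtype.ext ?_⟩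
  rw [coe_baseChangeHom]
  exact h''.trans hxx

section Gauss

variable (A : ValuationSubring Qbar) (K : IntermediateField ℚ Qbar)

/-- **(GB1)** for the contract objects: `K·D.FQ ⊂ Frac A_K((q))`. -/
theorem FKG_le_fracField : FKG D K ≤ fracField (AK A K) := by
  rw [FKG_eq]
  exact GaussUnit25.FC_le_fracField D (AK A K)

/-- **(RES)** for the contract objects. -/
theorem FC_le_resField_FKG : D.FC (Res (AK A K)) ≤ resField (AK A K) (FKG D K) := by
  rw [FKG_eq]
  exact GaussUnit25.FC_le_resField D (AK A K)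

/-- The Gauss valuation ring of `K·D.FQ` over `A_K`. -/
def OvK {π : ↥(AK A K)} (hπ : IsUnif (AK A K) π) : ValuationSubring ↥(FKG D K) :=
  gaussVS hπ (FKG D K) (FKG_le_fracField D A K)

theorem mem_OvK_iff {π : ↥(AK A K)} (hπ : IsUnif (AK A K) π) (f : ↥(FKG D K)) :
    f ∈ OvK D A K hπ ↔ (f : LaurentSeries ↥K) ∈ gaussRing (AK A K) :=
  mem_gaussVS_iff hπ (FKG D K) (FKG_le_fracField D A K) f

/-- Shortcut for the (slow) instance search `Algebra ↥(A ∩ K) ↥(K·D.FQ)`; it is the instance found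
by `inferInstance`. -/
@[reducible] def algebraAKFKG (K : IntermediateField ℚ Qbar) : Algebra ↥(AK A K) ↥(FKG D K) :=
  Algebra.ofSubsemiring (AK A K)

end Gauss

end Main

/-! ### the Hauptmodul -/

section Hauptmodul

open Fermat.Agent.RED.BASE.EtaQuot12
open Fermat.Agent.RED.BASE.Interface12 (tK)

variable (n e : ℕ) [NeZero n] (D : GenData)

/-- (B2) `t ∈ ℚ̄·D.FQ` (twin of `Interface12.TMem`). -/
def TMem : Prop := tK n e ∈ D.Fbar

variable {n e}

/-- `t` as an element of `D.Fbar` (twin of `Interface12.tF`). -/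
def tF (h : TMem n e D) : ↥D.Fbar := ⟨tK n e, h⟩

@[simp] theorem coe_tF (h : TMem n e D) :
    ((tF D h : ↥D.Fbar) : LaurentSeries Qbar) = tq Qbar n e := rfl

variable (n e)

/-- **(T1)** if `tq ℚ̄ n e ∈ D.Fbar` then `tq K n e ∈ K·D.FQ` for every number field `K ⊂ ℚ̄`
containing a suitable number field `K₁`. -/
theorem exists_tq_mem (h : TMem n e D) :
    ∃ K₁ : IntermediateField ℚ Qbar, FiniteDimensional ℚ K₁ ∧
      ∀ K : IntermediateField ℚ Qbar, K₁ ≤ K → tq ↥K n e ∈ FKG D K := by
  have : Algebra.IsAlgebraic ℚ Qbar := AlgebraicClosure.isAlgebraic ℚ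
  have h' : tq Qbar n e ∈ laurentBaseChange Qbar D.FQ := h
  obtain ⟨K₁, -, hfin, x', hx', hx⟩ :=
    CoeffDescent1.exists_finite_descent (F₀ := D.FQ) (⊥ : IntermediateField ℚ Qbar) h'
  refine ⟨K₁, hfin, fun K hK => ?_⟩
  obtain ⟨x'', hx'', h''⟩ := CoeffDescent1.exists_lift_of_le hK hx'
  have hcm : coeffMap (algebraMap ↥K Qbar) x'' = coeffMap (algebraMap ↥K Qbar) (tq ↥K n e) := by
    rw [h'', hx, coeffMap_tq]
  have : x'' = tq ↥K n e := CoeffDescent1.coeffMap_injective (algebraMap ↥K Qbar) hcm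
  rw [← this]
  exact hx''

variable {n e}

/-- The Hauptmodul over `K` maps to the Hauptmodul over `ℚ̄`. -/
theorem baseChangeHom_eq_tF (K : IntermediateField ℚ Qbar) (h : TMem n e D) (t : ↥(FKG D K))
    (ht : (t : LaurentSeries ↥K) = tq ↥K n e) :
    baseChangeHom D K t = tF D h := by
  apply Subtype.ext
  rw [coe_baseChangeHom, ht]
  exact coeffMap_tq ↥K (algebraMap ↥K Qbar) n e

end Hauptmodul

/-! ### the Igusa input -/

section Igusa

open Fermat.Agent.RED.PUR.KtGauss8 Fermat.Agent.RED.PUR.G1Package8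

variable (D : GenData)

/-- **(DEG)+(IRR) at all large number fields** — the Igusa input of the chapter, in the literal
shape of `RED/PUR/GaussInst25.exists_degLe_irr_FK`: for every number field `K ⊇ K₀` such that
`A ∩ K` is a discrete valuation ring, and every Gauss-integral `t ∈ K·D.FQ` with `j ∈ K(t)` and
transcendental reduction, the Gauss package `DegLe` / `Irr` holds for some `n ≠ 0`.  It is the field
`degLe_irr` of `DS/G/RED/ModelMain4.GaussInputsAt D.FQ A K` (helper77) at all large `K`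
(`DS/G/ES/RED/Bridge79.degIrrStep_of_gaussInputs`). -/
def DegIrrStep (A : ValuationSubring Qbar) : Prop :=
  ∃ K₀ : IntermediateField ℚ Qbar, FiniteDimensional ℚ K₀ ∧
    ∀ K : IntermediateField ℚ Qbar, FiniteDimensional ℚ K → K₀ ≤ K →
      ∀ [IsDiscreteValuationRing ↥(AK A K)] (tG : ↥(gaussRing (AK A K))),
        (tG : LaurentSeries ↥K) ∈ FKG D K → jqModC ↥K ∈ Kt (AK A K) tG →
        Transcendental (Res (AK A K)) (gaussRed (AK A K) tG) →
        ∃ n : ℕ, n ≠ 0 ∧ DegLe (AK A K) (FKG D K) tG n ∧ Irr (AK A K) (FKG D K) tG n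

end Igusa

end Fermat.Agent.DS.G.ES.RED.Base79
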