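/-
Programme DS (S48), chapter G-ESRED, brick E06 (helper79): BRIDGES between the hypothesis shapes of
the E06 twins (`DS/G/ES/RED/Base79`, unfolded targets of `ModelExplicit26`, `TOP/LevelsHyp12`) and the
named inputs of the neighbouring chapters:

* `degIrrStep_of_gaussInputs` : helper77's `DS/G/RED/ModelMain4.GaussInputs D.FQ A` (output of the
  Igusa chapter, `Igu77.Final`) gives `Base79.DegIrrStep D A`;
* `explicitModelStep_of_targets'`, `exists_models'` : `ModelExplicit26.explicitModelStep_of_targets`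
  and `TOP/LevelsHyp12.exists_models` with the smoothness targets in the NAMED form
  `DS/G/RED/ModelTargets4.OffTarget / OverTarget / InfTarget D.FQ n e A cv` and the Igusa input in the
  form `GaussInputs D.FQ A`;
* `tMem_iff` : `Base79.TMem n e D` is `tq ℚ̄ n e ∈ laurentBaseChange ℚ̄ D.FQ` (the hypothesis of
  `DS/G/RED/ModelMain4.tTarget` and of `SpecialDegree25.exists_tq_mem`), `Iff.rfl`.
-/
import Mathlib
import Fermat.Agent.DS.G.RED.ModelMain4
import Fermat.Agent.DS.G.ES.TOP.LevelsHyp12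

set_option autoImplicit false
set_option linter.unusedSectionVars false

noncomputable section

open HahnSeries ModularCurve IntermediateField
open scoped MatrixGroups

namespace Fermat.Agent.DS.G.ES.RED.Bridge79

open Fermat.Agent.DS.G.ES.RED.Iface Fermat.Agent.DS.G.ES.RED.Base79
open Fermat.Agent.RED.Interface4 (Qbar AK)
open Fermat.Agent.RED.PUR.GaussGen8 Fermat.Agent.RED.CORE.CoreIface24
  Fermat.Agent.RED.PUR.ChartGeneric22 Fermat.Agent.RED.BASE.EtaQuot12 Fermat.Agent.X0
open Fermat.Agent.RED.BASE.Interface12 (TGenBase)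
open Fermat.Agent.DS.G.RED.ModelMain4 (GaussInputs)
open Fermat.Agent.DS.G.RED.ModelTargets4 (OffTarget OverTarget InfTarget)

variable {D : GenData} {A : ValuationSubring Qbar}

/-- the Igusa input of the E06 twins from helper77's `GaussInputs`. -/
theorem degIrrStep_of_gaussInputs (h : GaussInputs D.FQ A) : DegIrrStep D A := by
  obtain ⟨K₀, hK₀, H⟩ := h
  exact ⟨K₀, hK₀, fun K hK hle _ tG htE hjt htr => (H K hK hle).degLe_irr tG htE hjt htr⟩

theorem tMem_iff (n e : ℕ) [NeZero n] :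
    TMem n e D ↔ tq Qbar n e ∈ laurentBaseChange Qbar D.FQ := Iff.rfl

variable {n e : ℕ} [NeZero n]

/-- `ModelExplicit26.explicitModelStep_of_targets` with named targets. -/
theorem explicitModelStep_of_targets' {ℓ : ℕ} [Fact ℓ.Prime] (hG : GaussInputs D.FQ A)
    (hA : A.LiesOverPrime ℓ) (cv : SL(2, ℤ) → Option Kbar)
    (hmem : TMem n e D) (hgen : TGenBase n e)
    (hoff : OffTarget D.FQ n e A cv) (hover : OverTarget D.FQ n e A cv)
    (hinf : InfTarget D.FQ n e A) :
    ∃ K₀ : IntermediateField ℚ Qbar, FiniteDimensional ℚ K₀ ∧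
      ∀ K : IntermediateField ℚ Qbar, FiniteDimensional ℚ K → K₀ ≤ K →
        IsDiscreteValuationRing ↥(AK A K) ∧
        ∀ (ϖ : ↥(AK A K)) (_ : Irreducible ϖ) (hu : IsUnif (AK A K) ϖ) (t : ↥(FKG D K)),
          (t : LaurentSeries ↥K) = tq ↥K n e →
          TwoChartModel ↥(AK A K) ↥K ↥(FKG D K) ϖ t (chart ↥(AK A K) t) (chart ↥(AK A K) t⁻¹)
            (OvK D A K hu) := by
  obtain ⟨K₁, hfd₁, hT'⟩ := exists_tq_mem n e D hmem
  obtain ⟨K₂, hK₂, hJ⟩ := Fermat.Agent.RED.BASE.JInKt25.exists_j_mem_adjoin n e hgen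
  exact ModelExplicit26.explicitModelStep_of_targets (degIrrStep_of_gaussInputs hG) hA cv
    ⟨K₁, hfd₁, fun K _ hK => hT' K hK⟩ ⟨K₂, hK₂, fun K _ hle => hJ K hle⟩ hoff hover hinf

/-- `TOP/LevelsHyp12.exists_models` with named targets. -/
theorem exists_models' {ℓ : ℕ} [Fact ℓ.Prime] (hG : GaussInputs D.FQ A)
    (hA : A.LiesOverPrime ℓ) (cv : SL(2, ℤ) → Option Kbar)
    (hmem : TMem n e D) (hgen : TGenBase n e)
    (hoff : OffTarget D.FQ n e A cv) (hover : OverTarget D.FQ n e A cv)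
    (hinf : InfTarget D.FQ n e A) :
    ∃ K₀ : IntermediateField ℚ Qbar, FiniteDimensional ℚ K₀ ∧
      ∀ K : IntermediateField ℚ Qbar, FiniteDimensional ℚ K → K₀ ≤ K →
        ∃ (ϖ : ↥(AK A K)) (hu : IsUnif (AK A K) ϖ) (t : ↥(FKG D K)),
          baseChangeHom D K t = tF D hmem ∧
          TwoChartModel ↥(AK A K) ↥K ↥(FKG D K) ϖ t (chart ↥(AK A K) t) (chart ↥(AK A K) t⁻¹)
            (OvK D A K hu) :=
  Fermat.Agent.DS.G.ES.TOP.LevelsHyp12.exists_models D ℓ A hA (degIrrStep_of_gaussInputs hG) hmem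
    hgen cv hoff hover hinf

end Fermat.Agent.DS.G.ES.RED.Bridge79
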