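/-
Programme DS (S48), chapter G-ESRED, brick E02 (helper99, for helper52): generic twin of
`ES/RED/ChartInputsOf15` (helper15) for a generator datum `D : GenData`: `RedMain15.ChartInputs` for
a COEFFICIENTWISE chart.

For `S : ChartSpec A hx ↥(D.FC (kA A))` at `F = L · F₀` with `GaloisInst21.CoeffChart S` (twin; chart
ring = integral closure of `A[s]`, every element has an `A`-integral `q`-expansion, `red` =
coefficientwise reduction) the fields `compat`, `int`, `norm` of `ChartInputs A F₀ (D.FC (kA A)) S`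
are automatic; what remains are the generators / separability / degree facts (`SpecialGen25` twin)
and (PEEL-a).

Same names as in the original file; `(M)` replaced by `{D : GenData}` (implicit, read off `S`), the
generic fibre is `laurentBaseChange L F₀` for an arbitrary `F₀` (consumers: `F₀ := D.FQ`).
-/
import Mathlib
import Fermat.Agent.DS.G.ES.RED.RedMain15
import Fermat.Agent.DS.G.ES.RED.GaloisInst21
import Fermat.Agent.ES.RED.ChartFacts9
import Fermat.Agent.ES.RED.NormFrac18

set_option autoImplicit false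
set_option linter.unusedSectionVars false

open AlgebraicCurve ModularCurve HahnSeries Polynomial IntermediateField

noncomputable section

namespace Fermat.Agent.DS.G.ES.RED.ChartInputsOf15

open Fermat.Agent.ES.RED.Contract8 Fermat.Agent.DS.G.ES.RED.RedCharts15
  Fermat.Agent.DS.G.ES.RED.RedMain15
open Fermat.Agent.DS.G.ES.RED.GaloisInst21 Fermat.Agent.ES.RED.ChartFacts9
open Fermat.Agent.RED.PUR.ChartGeneric22 Fermat.Agent.X0.FF Fermat.Agent.DS.G.ES.RED.Iface

variable {L : Type*} [Field L] [Algebra ℚ L] [IsAlgClosed L] {A : ValuationSubring L}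
  {F₀ : IntermediateField ℚ (LaurentSeries ℚ)} {D : GenData}
variable {x : ↥(laurentBaseChange L F₀)} {hx : IsGen L x}
variable {S : ChartSpec A hx ↥(D.FC (kA A))}

/-- compatibility with `q`-expansions from a `CoeffChart`. -/
theorem compat_of_coeffChart (hS : CoeffChart (F₀ := F₀) S) :
    Compat A F₀ (D.FC (kA A)) S := by
  intro b
  obtain ⟨Y, hY⟩ := hS.exists_series b
  exact ⟨Y, hY, hS.red_eq b Y hY⟩

/-- integrality of the reductions from a `CoeffChart`. -/
theorem int_of_coeffChart (hS : CoeffChart (F₀ := F₀) S) (b : ↥S.B) :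
    IsIntegral (Algebra.adjoin (kA A) {S.red S.sB}) (S.red b) :=
  isIntegral_red_of_mem_chart A (resA A) S.B S.red S.sB
    (fun c hc => (hS.mem_iff c).mpr (adjoin_le_chart S.s hc))
    (fun a _ => S.red_const a) b ((hS.mem_iff b).mp b.2)

/-- the norm property from a `CoeffChart`. -/
theorem norm_of_coeffChart (hS : CoeffChart (F₀ := F₀) S)
    (hs : IsGen L S.s) (z : ↥S.B) (hz : z ≠ 0) :
    ∃ z' : ↥S.B, z' ≠ 0 ∧ ∃ p : L[X],
      ((z : ↥(laurentBaseChange L F₀)) *
        (z' : ↥(laurentBaseChange L F₀))) = aeval S.s p := by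
  have hzF : (z : ↥(laurentBaseChange L F₀)) ≠ 0 :=
    fun h0 => hz (Subtype.ext h0)
  obtain ⟨z', hz', hz'0, p, e⟩ :=
    Fermat.Agent.ES.RED.NormFrac18.norm_chart A hs.transcendental ((hS.mem_iff z).mp z.2) hzF
  exact ⟨⟨z', (hS.mem_iff z').mpr hz'⟩, fun h0 => hz'0 (congrArg Subtype.val h0), p, e⟩

/-- **`ChartInputs` for a coefficientwise chart.** -/
theorem chartInputs_of_coeffChart (hS : CoeffChart (F₀ := F₀) S)
    (gen : IsGen L S.s) (gent : IsGen (kA A) (S.red S.sB))
    (sep : Algebra.IsSeparable (kA A)⟮S.red S.sB⟯ ↥(D.FC (kA A)))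
    (peel : ∀ (P : Place L ↥(laurentBaseChange L F₀))
      (hP : S.InChart P), S.PeelA P hP)
    (deg : Module.finrank L⟮S.s⟯ ↥(laurentBaseChange L F₀) =
      Module.finrank (kA A)⟮S.red S.sB⟯ ↥(D.FC (kA A))) :
    ChartInputs A F₀ (D.FC (kA A)) S where
  compat := compat_of_coeffChart hS
  gen := gen
  gent := gent
  sep := sep
  peel := peel
  int := int_of_coeffChart hS
  norm := norm_of_coeffChart hS gen
  deg := deg

end Fermat.Agent.DS.G.ES.RED.ChartInputsOf15
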