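/-
Programme DS (S48), chapter G-ESRED, brick E05 (helper13): generic twin of `ES/RED/ResidueUnion1`
(helper1) for a generator datum `D : GenData` (`DS/G/ES/RED/Iface.lean`): **the residue field of
`A ≤ ℚ̄` and the special-fibre function field are unions over the number fields.**

`k := ResidueField A`, `κ_K := ResidueField (A ∩ K)`, `ρ_K := resMap A K : κ_K →+* k`.
* `exists_residue_descent` : every `c : k` lies in the image of `ρ_K` for all large number fields `K`
  (generic, copied);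
* `exists_fullC_descent`   : every `y ∈ D.FC k` is `coeffMap ρ_K y₀` with `y₀ ∈ D.FC κ_K`, for all
  large number fields `K`;
* `coeffMap_resMap_mem_fullC` : conversely `coeffMap ρ_K` maps `D.FC κ_K` into `D.FC k`;
* `coeffMap_mem_fullC` : `coeffMap ρ` maps `D.FC κ` into `D.FC k` (= `GenData.coeffMap_mem_FC`).

Same names as in the original file, `(M : ℕ)` replaced by `(D : GenData)`,
`modularFunctionFieldFullC k M` by `D.FC k`.
-/
import Mathlib
import Fermat.Agent.DS.G.ES.RED.Iface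
import Fermat.Agent.RED.DESC.NumberFieldDVR27

set_option autoImplicit false

open HahnSeries ModularCurve IntermediateField

noncomputable section

namespace Fermat.Agent.DS.G.ES.RED.ResidueUnion1

open Fermat.Agent.RED.Interface4 Fermat.Agent.RED.DESC Fermat.Agent.DS.G.ES.RED.Iface

section Functoriality

variable {κ k : Type*} [Field κ] [Field k] (ρ : κ →+* k) (D : GenData)

/-- `coeffMap ρ` maps `D.FC κ` into `D.FC k`. -/
theorem coeffMap_mem_fullC {x : LaurentSeries κ} (hx : x ∈ D.FC κ) :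
    coeffMap ρ x ∈ D.FC k :=
  D.coeffMap_mem_FC ρ hx

end Functoriality

variable (A : ValuationSubring Qbar)

/-- Every element of the residue field of `A` comes from `A ∩ K` for all large number fields. -/
theorem exists_residue_descent (K₀ : IntermediateField ℚ Qbar) [FiniteDimensional ℚ K₀]
    (c : IsLocalRing.ResidueField A) :
    ∃ K₁ : IntermediateField ℚ Qbar, FiniteDimensional ℚ K₁ ∧ K₀ ≤ K₁ ∧
      ∀ K : IntermediateField ℚ Qbar, K₁ ≤ K → c ∈ Set.range (NumberFieldDVR27.resMap A K) := by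
  obtain ⟨a, rfl⟩ := IsLocalRing.residue_surjective c
  obtain ⟨K₁, hfin, hK₀, hS⟩ := NumberFieldDVR27.exists_numberField K₀ {(a : Qbar)}
  refine ⟨K₁, hfin, hK₀, fun K hK => ?_⟩
  have h1 : (a : Qbar) ∈ K := hK (hS _ (Finset.mem_singleton_self _))
  have h2 : (⟨(a : Qbar), h1⟩ : K) ∈ AK A K := by
    rw [NumberFieldDVR27.mem_AK_iff]
    exact a.2
  refine ⟨IsLocalRing.residue _ ⟨⟨(a : Qbar), h1⟩, h2⟩, ?_⟩
  rw [NumberFieldDVR27.resMap_residue]
  congr 1

/-- **The special-fibre function field over `k` is the union of those over the `κ_K`.** -/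
theorem exists_fullC_descent (D : GenData) (K₀ : IntermediateField ℚ Qbar)
    [FiniteDimensional ℚ K₀] {y : LaurentSeries (IsLocalRing.ResidueField A)}
    (hy : y ∈ D.FC (IsLocalRing.ResidueField A)) :
    ∃ K₁ : IntermediateField ℚ Qbar, FiniteDimensional ℚ K₁ ∧ K₀ ≤ K₁ ∧
      ∀ K : IntermediateField ℚ Qbar, K₁ ≤ K →
        ∃ y₀ ∈ D.FC (IsLocalRing.ResidueField (AK A K)),
          coeffMap (NumberFieldDVR27.resMap A K) y₀ = y := by
  unfold GenData.FC at hy
  induction hy using IntermediateField.adjoin_induction with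
  | mem y hy =>
      obtain ⟨g, hg, rfl⟩ := hy
      refine ⟨K₀, inferInstance, le_rfl, fun K _ => ?_⟩
      exact ⟨coeffMap (Int.castRingHom _) g, D.gen_mem_FC hg, coeffMap_intCast_comp _ g⟩
  | algebraMap c =>
      obtain ⟨K₁, hfin, hK₀, H⟩ := exists_residue_descent A K₀ c
      refine ⟨K₁, hfin, hK₀, fun K hK => ?_⟩
      obtain ⟨c₀, hc₀⟩ := H K hK
      refine ⟨algebraMap _ _ c₀, IntermediateField.algebraMap_mem _ _, ?_⟩
      rw [coeffMap_algebraMap', hc₀]
  | add x y _ _ hx hy =>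
      obtain ⟨K₁, hfin₁, hK₁, H₁⟩ := hx
      obtain ⟨K₂, hfin₂, hK₂, H₂⟩ := hy
      have := hfin₁
      have := hfin₂
      refine ⟨K₁ ⊔ K₂, inferInstance, hK₁.trans le_sup_left, fun K hK => ?_⟩
      obtain ⟨x₀, hx₀, hx₀'⟩ := H₁ K (le_sup_left.trans hK)
      obtain ⟨y₀, hy₀, hy₀'⟩ := H₂ K (le_sup_right.trans hK)
      exact ⟨x₀ + y₀, add_mem hx₀ hy₀, by rw [map_add, hx₀', hy₀']⟩
  | inv x _ hx =>
      obtain ⟨K₁, hfin₁, hK₁, H₁⟩ := hx
      refine ⟨K₁, hfin₁, hK₁, fun K hK => ?_⟩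
      obtain ⟨x₀, hx₀, hx₀'⟩ := H₁ K hK
      exact ⟨x₀⁻¹, inv_mem hx₀, by rw [map_inv₀, hx₀']⟩
  | mul x y _ _ hx hy =>
      obtain ⟨K₁, hfin₁, hK₁, H₁⟩ := hx
      obtain ⟨K₂, hfin₂, hK₂, H₂⟩ := hy
      have := hfin₁
      have := hfin₂
      refine ⟨K₁ ⊔ K₂, inferInstance, hK₁.trans le_sup_left, fun K hK => ?_⟩
      obtain ⟨x₀, hx₀, hx₀'⟩ := H₁ K (le_sup_left.trans hK)
      obtain ⟨y₀, hy₀, hy₀'⟩ := H₂ K (le_sup_right.trans hK)
      exact ⟨x₀ * y₀, mul_mem hx₀ hy₀, by rw [map_mul, hx₀', hy₀']⟩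

/-- `coeffMap ρ_K` maps `D.FC κ_K` into `D.FC k`. -/
theorem coeffMap_resMap_mem_fullC (D : GenData) (K : IntermediateField ℚ Qbar)
    {x : LaurentSeries (IsLocalRing.ResidueField (AK A K))}
    (hx : x ∈ D.FC (IsLocalRing.ResidueField (AK A K))) :
    coeffMap (NumberFieldDVR27.resMap A K) x ∈ D.FC (IsLocalRing.ResidueField A) :=
  coeffMap_mem_fullC _ D hx

end Fermat.Agent.DS.G.ES.RED.ResidueUnion1
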