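/-
Programme DS (S48), chapter G-ESRED, brick E05 (helper13): generic twin of `ES/RED/ChartIntegralA1`
(helper1) for a generator datum `D : GenData` (`DS/G/ES/RED/Iface.lean`): **the chart ring over `A`
consists of `A`-integral `q`-expansions, and reduces into `F~ = D.FC k`.**

`A ≤ ℚ̄` a valuation subring over `ℓ`, `k = A/𝔪_A`; the hypothesis `hℓM : ¬ ℓ ∣ M` of the original
is replaced by `hGB2 : GB2Step D A` (the Igusa input (GB2) at all large number fields, `GaussUnit25`).
* `intF A D : Subring D.Fbar`: the elements of `ℚ̄·F` whose `q`-expansion has coefficients in `A`;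
  `seriesHom A D : intF A D →+* A((q))` (the `q`-expansion over `A`);
* `redF : intF A D →+* ↥(D.FC k)`: coefficientwise reduction (lands in `F~` by (GB2) at finite
  level + union);
* `chart_le_intF`: if `t ∈ intF` then `chart A t ⊂ intF` (union over `K` of `IntegralQExp1`);
* `redChart`: the reduction of the chart ring, in the shape of `Contract8.ChartSpec.red`;
* `LevelSat`, `exists_content` (strong saturation (R-4)).

Same names and argument order as in the original file, with `(M : ℕ) [NeZero M]` replaced by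
`(D : GenData)` and `hℓM` by `hGB2`.
-/
import Mathlib
import Fermat.Agent.ES.RED.IntegralQExp1
import Fermat.Agent.DS.G.ES.RED.Base79
import Fermat.Agent.DS.G.ES.RED.ChartUnion1
import Fermat.Agent.DS.G.ES.RED.ResidueUnion1
import Fermat.Agent.DS.G.ES.RED.GaussUnit25

set_option autoImplicit false
set_option linter.unusedSectionVars false

open HahnSeries ModularCurve Polynomial

noncomputable section

namespace Fermat.Agent.DS.G.ES.RED.ChartIntegralA1

open Fermat.Agent.RED.Interface4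
  Fermat.Agent.RED.DESC Fermat.Agent.RED.PUR.ChartGeneric22 Fermat.Agent.RED.NumInst4
  Fermat.Agent.RED.PUR.GaussGen8 Fermat.Agent.RED.DESC.NumberFieldDVR27
  Fermat.Agent.DS.G.ES.RED.Iface Fermat.Agent.DS.G.ES.RED.Base79

variable (A : ValuationSubring Qbar) (D : GenData)

/-- `k = A / 𝔪_A`. -/
abbrev kA : Type := IsLocalRing.ResidueField ↥A

theorem coeffMap_subtype_injective : Function.Injective (coeffMap (A.subtype : ↥A →+* Qbar)) :=
  CoeffDescent1.coeffMap_injective_of_injective _ Subtype.val_injective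

/-- The elements of `ℚ̄·F_M` with `A`-integral `q`-expansion. -/
def intF : Subring ↥(D.Fbar) :=
  (coeffMap (A.subtype : ↥A →+* Qbar)).range.comap (algebraMap ↥(D.Fbar) (LaurentSeries Qbar))

theorem mem_intF_iff {y : D.Fbar} :
    y ∈ intF A D ↔ ∃ Y : LaurentSeries ↥A, coeffMap A.subtype Y = ((y : D.Fbar) : LaurentSeries Qbar) :=
  Iff.rfl

/-- The `q`-expansion over `A` of an element of `intF`. -/
def series (y : intF A D) : LaurentSeries ↥A := Classical.choose ((mem_intF_iff A D).mp y.2)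

theorem coeffMap_series (y : intF A D) :
    coeffMap A.subtype (series A D y) = (((y : intF A D) : D.Fbar) : LaurentSeries Qbar) :=
  Classical.choose_spec ((mem_intF_iff A D).mp y.2)

variable {A D} in
theorem series_eq_of {y : intF A D} {Y : LaurentSeries ↥A}
    (h : coeffMap A.subtype Y = (((y : intF A D) : D.Fbar) : LaurentSeries Qbar)) :
    series A D y = Y :=
  coeffMap_subtype_injective A (by rw [coeffMap_series, h])

/-- The `q`-expansion over `A`, as a ring homomorphism. -/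
def seriesHom : ↥(intF A D) →+* LaurentSeries ↥A where
  toFun := series A D
  map_one' := series_eq_of (by rw [map_one]; rfl)
  map_mul' a b := series_eq_of (by rw [map_mul, coeffMap_series, coeffMap_series]; rfl)
  map_zero' := series_eq_of (by rw [map_zero]; rfl)
  map_add' a b := series_eq_of (by rw [map_add, coeffMap_series, coeffMap_series]; rfl)

@[simp] theorem coeffMap_seriesHom (y : intF A D) :
    coeffMap A.subtype (seriesHom A D y) = (((y : intF A D) : D.Fbar) : LaurentSeries Qbar) :=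
  coeffMap_series A D y

variable {A D} in
theorem seriesHom_eq_of {y : intF A D} {Y : LaurentSeries ↥A}
    (h : coeffMap A.subtype Y = (((y : intF A D) : D.Fbar) : LaurentSeries Qbar)) :
    seriesHom A D y = Y := series_eq_of h

theorem seriesHom_injective : Function.Injective (seriesHom A D) := by
  intro a b h
  apply Subtype.ext
  apply Subtype.ext
  rw [← coeffMap_seriesHom, ← coeffMap_seriesHom, h]

/-- Coefficientwise reduction `intF → k((q))`. -/
def redSeries : ↥(intF A D) →+* LaurentSeries (kA A) :=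
  (coeffMap (IsLocalRing.residue ↥A)).comp (seriesHom A D)

theorem redSeries_apply (y : intF A D) :
    redSeries A D y = coeffMap (IsLocalRing.residue ↥A) (seriesHom A D y) := rfl

variable {A D} in
theorem redSeries_eq_of {y : intF A D} {Y : LaurentSeries ↥A}
    (h : coeffMap A.subtype Y = (((y : intF A D) : D.Fbar) : LaurentSeries Qbar)) :
    redSeries A D y = coeffMap (IsLocalRing.residue ↥A) Y := by
  rw [redSeries_apply, seriesHom_eq_of h]

/-! ### descent of integral elements to number fields -/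

/-- If `f x = y` with `y` integral over `A`, then `x` is integral over `A ∩ K`. -/
theorem exists_embK_of_baseChangeHom (K : IntermediateField ℚ Qbar) (x : FKG D K)
    (Y : LaurentSeries ↥A)
    (h : coeffMap A.subtype Y = ((baseChangeHom D K x : D.Fbar) : LaurentSeries Qbar)) :
    ∃ Y₀ : LaurentSeries ↥(AK A K), embK (AK A K) Y₀ = ((x : FKG D K) : LaurentSeries K) ∧
      coeffMap (incl A K) Y₀ = Y := by
  have hc : ∀ n : ℤ, ((x : FKG D K) : LaurentSeries K).coeff n ∈
      Set.range ((AK A K).subtype : ↥(AK A K) →+* K) := by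
    intro n
    have h1 := congrArg (fun z => HahnSeries.coeff z n) h
    simp only [coe_baseChangeHom, coeffMap_coeff] at h1
    refine ⟨⟨((x : FKG D K) : LaurentSeries K).coeff n, ?_⟩, rfl⟩
    rw [mem_AK_iff]
    have h2 : (algebraMap ↥K Qbar) (((x : FKG D K) : LaurentSeries K).coeff n) =
        ((Y.coeff n : ↥A) : Qbar) := h1.symm
    show algebraMap ↥K Qbar _ ∈ A
    rw [h2]
    exact (Y.coeff n).2
  obtain ⟨Y₀, hY₀⟩ := UnifDescent14.exists_coeffMap_eq ((AK A K).subtype : ↥(AK A K) →+* K)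
    Subtype.val_injective _ hc
  refine ⟨Y₀, hY₀, ?_⟩
  apply coeffMap_subtype_injective A
  rw [Fermat.Agent.DS.G.ES.RED.GaussUnit25.coeffMap_subtype_incl, h, coe_baseChangeHom]
  congr 1

/-! ### the reduction lands in `F~` -/

section Red

variable (ℓ : ℕ) [Fact ℓ.Prime] (hA : A.LiesOverPrime ℓ) (hGB2 : GaussUnit25.GB2Step D A)

include hA hGB2 in
/-- **(R0a) over `A`**: the reduction of an `A`-integral element of `ℚ̄·F_M` lies in
`F~ = D.FC k`. -/
theorem redSeries_mem_fullC (y : intF A D) :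
    redSeries A D y ∈ D.FC (kA A) := by
  obtain ⟨K₀, hK₀fin, hK₀⟩ := hGB2
  have := hK₀fin
  obtain ⟨K, hfin, hK₀K, HK⟩ := exists_descent_ge D K₀ ((y : intF A D) : D.Fbar)
  have := hfin
  obtain ⟨x, hx⟩ := HK K le_rfl
  obtain ⟨Y₀, hY₀, hY⟩ := exists_embK_of_baseChangeHom A D K x (seriesHom A D y)
    (by rw [coeffMap_seriesHom, hx])
  rw [redSeries_apply, ← hY, Fermat.Agent.DS.G.ES.RED.GaussUnit25.coeffMap_residue_incl]
  apply Fermat.Agent.DS.G.ES.RED.ResidueUnion1.coeffMap_resMap_mem_fullC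
  rw [← Fermat.Agent.DS.G.ES.RED.GaussUnit25.resField_FKG_eq D A K (hK₀ K hfin hK₀K)]
  refine ⟨embK (AK A K) Y₀, embK_mem (AK A K) Y₀, ?_, gaussRed_embK (AK A K) Y₀⟩
  rw [hY₀]
  exact x.2

/-- **The reduction map** `intF → F~`. -/
def redF : ↥(intF A D) →+* ↥(D.FC (kA A)) :=
  (redSeries A D).codRestrict (D.FC (kA A))
    (redSeries_mem_fullC A D ℓ hA hGB2)

@[simp] theorem coe_redF (y : intF A D) :
    ((redF A D ℓ hA hGB2 y : ↥(D.FC (kA A))) : LaurentSeries (kA A)) =
      coeffMap (IsLocalRing.residue ↥A) (seriesHom A D y) := rfl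

variable {A D} in
theorem coe_redF_eq_of {y : intF A D} {Y : LaurentSeries ↥A}
    (h : coeffMap A.subtype Y = (((y : intF A D) : D.Fbar) : LaurentSeries Qbar)) :
    ((redF A D ℓ hA hGB2 y : ↥(D.FC (kA A))) : LaurentSeries (kA A)) =
      coeffMap (IsLocalRing.residue ↥A) Y := by
  rw [coe_redF, seriesHom_eq_of h]

theorem redF_eq_zero_iff (y : intF A D) :
    redF A D ℓ hA hGB2 y = 0 ↔ coeffMap (IsLocalRing.residue ↥A) (seriesHom A D y) = 0 := by
  rw [← coe_redF A D ℓ hA hGB2]
  exact ⟨fun h => by rw [h]; rfl, fun h => Subtype.ext h⟩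

/-- constants lie in `intF`. -/
theorem algebraMap_mem_intF (a : ↥A) : algebraMap Qbar ↥(D.Fbar) (a : Qbar) ∈ intF A D := by
  refine ⟨HahnSeries.C a, ?_⟩
  rw [Fermat.Agent.RED.PUR.GaussGen8.coeffMap_C]
  exact (algebraMap_eq_C _).symm

theorem seriesHom_algebraMap (a : ↥A) :
    seriesHom A D ⟨algebraMap Qbar ↥(D.Fbar) (a : Qbar), algebraMap_mem_intF A D a⟩ =
      HahnSeries.C a := by
  apply seriesHom_eq_of
  rw [Fermat.Agent.RED.PUR.GaussGen8.coeffMap_C]
  exact (algebraMap_eq_C _).symm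

theorem redF_algebraMap (a : ↥A) :
    redF A D ℓ hA hGB2 ⟨algebraMap Qbar ↥(D.Fbar) (a : Qbar), algebraMap_mem_intF A D a⟩ =
      algebraMap (kA A) ↥(D.FC (kA A)) (IsLocalRing.residue ↥A a) := by
  apply Subtype.ext
  rw [coe_redF, seriesHom_algebraMap, Fermat.Agent.RED.PUR.GaussGen8.coeffMap_C]
  exact (algebraMap_eq_C _).symm

end Red

/-! ### the chart ring lies in `intF` -/

section Chart

variable (ℓ : ℕ) [Fact ℓ.Prime] (hA : A.LiesOverPrime ℓ)

include hA in
/-- **(MA1) over `A`**: if `t` has an `A`-integral `q`-expansion, so has every element of the chart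
ring `chart A t` (integral closure of `A[t]` in `ℚ̄·F_M`). -/
theorem chart_le_intF {t : D.Fbar} (ht : t ∈ intF A D) {y : D.Fbar} (hy : y ∈ chart ↥A t) :
    y ∈ intF A D := by
  obtain ⟨K₁, hfin₁, -, Ht⟩ := exists_descent_ge D
    (⊥ : IntermediateField ℚ Qbar) t
  have := hfin₁
  obtain ⟨K, hfin, hK₁, Hy⟩ := Fermat.Agent.DS.G.ES.RED.ChartUnion1.exists_chart_descent A D K₁ t y hy
  have := hfin
  obtain ⟨tK, htK⟩ := Ht K hK₁
  obtain ⟨x, hx, hxy⟩ := Hy K le_rfl tK htK
  obtain ⟨T, hT⟩ := (mem_intF_iff A D).mp ht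
  obtain ⟨T₀, hT₀, -⟩ := exists_embK_of_baseChangeHom A D K tK T (by rw [hT, htK])
  have : IsDiscreteValuationRing ↥(AK A K) :=
    isDiscreteValuationRing_AK A K (Fact.out : ℓ.Prime).ne_zero hA
  obtain ⟨Y₀, hY₀⟩ := Fermat.Agent.ES.RED.IntegralQExp1.exists_embK_of_mem_chart (AK A K) (FKG D K)
    (FKG_le_fracField D A K) ⟨T₀, hT₀⟩ hx
  refine ⟨coeffMap (incl A K) Y₀, ?_⟩
  rw [Fermat.Agent.DS.G.ES.RED.GaussUnit25.coeffMap_subtype_incl, hY₀, ← hxy]
  exact (coe_baseChangeHom D K x).symm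

end Chart

/-! ### the reduction of the chart ring, and strong saturation (R-4) -/

section Sat

open Fermat.Agent.RED.PUR.GaussBridge10

variable (ℓ : ℕ) [Fact ℓ.Prime] (hA : A.LiesOverPrime ℓ) (hGB2 : GaussUnit25.GB2Step D A)

/-- shortcut instance (typeclass search takes 4 s to find it). -/
local instance (priority := high) algebraAKFK (K : IntermediateField ℚ Qbar) :
    Algebra ↥(AK A K) ↥(FKG D K) := algebraAKFKG D A K

/-- The chart ring over `A` as a subring of `ℚ̄·F_M`. -/
def chartRing (t : D.Fbar) : Subring ↥(D.Fbar) := (chart ↥A t).toSubring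

theorem mem_chartRing_iff {t y : D.Fbar} : y ∈ chartRing A D t ↔ y ∈ chart ↥A t := Iff.rfl

/-- **The reduction of the chart ring** `chart A t →+* F~` (shape of `Contract8.ChartSpec.red`). -/
def redChart {t : D.Fbar} (ht : t ∈ intF A D) :
    ↥(chartRing A D t) →+* ↥(D.FC (kA A)) :=
  (redF A D ℓ hA hGB2).comp
    (Subring.inclusion (S := chartRing A D t) (T := intF A D)
      (fun _ hy => chart_le_intF A D ℓ hA ht hy))

theorem coe_redChart_eq_of {t : D.Fbar} (ht : t ∈ intF A D) (b : chartRing A D t)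
    {Y : LaurentSeries ↥A}
    (h : coeffMap A.subtype Y = (((b : chartRing A D t) : D.Fbar) : LaurentSeries Qbar)) :
    ((redChart A D ℓ hA hGB2 ht b : ↥(D.FC (kA A))) :
      LaurentSeries (kA A)) = coeffMap (IsLocalRing.residue ↥A) Y :=
  coe_redF_eq_of ℓ hA hGB2 (y := Subring.inclusion (S := chartRing A D t) (T := intF A D)
      (fun _ hy => chart_le_intF A D ℓ hA ht hy) b) h

/-- Level-`K` `π`-saturation of the chart ring in the Gauss valuation ring, for all large number
fields `K` (field `sat0` / `sat1` of `CoreIface24.TwoChartModel`). -/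
def LevelSat (t : D.Fbar) : Prop :=
  ∃ K₀ : IntermediateField ℚ Qbar, FiniteDimensional ℚ K₀ ∧
    ∀ K : IntermediateField ℚ Qbar, FiniteDimensional ℚ K → K₀ ≤ K →
      ∀ (ϖ : ↥(AK A K)) (_ : Irreducible ϖ) (hu : IsUnif (AK A K) ϖ) (tK : FKG D K),
        baseChangeHom D K tK = t →
        ∀ b ∈ chart ↥(AK A K) tK, ∀ c ∈ OvK D A K hu,
          b = algebraMap ↥(AK A K) ↥(FKG D K) ϖ * c → c ∈ chart ↥(AK A K) tK

theorem algebraMap_mem_OvK (K : IntermediateField ℚ Qbar) {ϖ : ↥(AK A K)}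
    (hu : IsUnif (AK A K) ϖ) (a : ↥(AK A K)) :
    algebraMap ↥(AK A K) ↥(FKG D K) a ∈ OvK D A K hu := by
  rw [Base79.mem_OvK_iff, coe_algebraMap_OE]
  exact C_mem (AK A K) a

/-- iterated saturation. -/
theorem mem_chart_of_pow_mul_mem (K : IntermediateField ℚ Qbar) {ϖ : ↥(AK A K)}
    (hu : IsUnif (AK A K) ϖ) (tK : FKG D K)
    (hsat : ∀ b ∈ chart ↥(AK A K) tK, ∀ c ∈ OvK D A K hu,
      b = algebraMap ↥(AK A K) ↥(FKG D K) ϖ * c → c ∈ chart ↥(AK A K) tK)
    (i : ℕ) (c : FKG D K) (hc : c ∈ OvK D A K hu)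
    (h : (algebraMap ↥(AK A K) ↥(FKG D K) ϖ) ^ i * c ∈ chart ↥(AK A K) tK) :
    c ∈ chart ↥(AK A K) tK := by
  induction i with
  | zero => simpa using h
  | succ i ih =>
    apply ih
    refine hsat _ h _ (mul_mem (pow_mem (algebraMap_mem_OvK A D K hu ϖ) i) hc) ?_
    rw [pow_succ]
    ring

include hA in
/-- **(R-4) strong saturation over `A`**: every nonzero element of the chart ring is a constant of
`A` times an element of the chart ring with nonzero reduction. -/
theorem exists_content {t : D.Fbar} (ht : t ∈ intF A D) (hsat : LevelSat A D t)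
    (b : chartRing A D t) (hb0 : b ≠ 0) :
    ∃ (c : ↥A) (b' : chartRing A D t),
      ((b : chartRing A D t) : D.Fbar) =
        algebraMap Qbar ↥(D.Fbar) (c : Qbar) * ((b' : chartRing A D t) : D.Fbar) ∧
      redChart A D ℓ hA hGB2 ht b' ≠ 0 := by
  have hℓ : ℓ.Prime := Fact.out
  obtain ⟨K₁, hfin₁, -, Ht⟩ := exists_descent_ge D
    (⊥ : IntermediateField ℚ Qbar) t
  obtain ⟨K₂, hfin₂, Hsat⟩ := hsat
  have := hfin₁
  have := hfin₂
  obtain ⟨K, hfin, hK₁₂, Hb⟩ :=
    Fermat.Agent.DS.G.ES.RED.ChartUnion1.exists_chart_descent A D (K₁ ⊔ K₂) t b b.2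
  have := hfin
  have hK₁ : K₁ ≤ K := le_sup_left.trans hK₁₂
  have hK₂ : K₂ ≤ K := le_sup_right.trans hK₁₂
  obtain ⟨tK, htK⟩ := Ht K hK₁
  obtain ⟨x, hx, hxb⟩ := Hb K le_rfl tK htK
  have hdvr : IsDiscreteValuationRing ↥(AK A K) := isDiscreteValuationRing_AK A K hℓ.ne_zero hA
  obtain ⟨ϖ, hϖ⟩ := IsDiscreteValuationRing.exists_irreducible ↥(AK A K)
  have hu : IsUnif (AK A K) ϖ := isUnif_of_irreducible (AK A K) hϖ
  have hsatK := Hsat K hfin hK₂ ϖ hϖ hu tK htK
  -- integral expansions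
  obtain ⟨T, hT⟩ := (mem_intF_iff A D).mp ht
  obtain ⟨T₀, hT₀, -⟩ := exists_embK_of_baseChangeHom A D K tK T (by rw [hT, htK])
  obtain ⟨Y₀, hY₀⟩ := Fermat.Agent.ES.RED.IntegralQExp1.exists_embK_of_mem_chart (AK A K) (FKG D K)
    (FKG_le_fracField D A K) ⟨T₀, hT₀⟩ hx
  have hx0 : x ≠ 0 := by
    rintro rfl
    apply hb0
    apply Subtype.ext
    rw [← hxb, map_zero]
    rfl
  have hY₀0 : Y₀ ≠ 0 := by
    rintro rfl
    rw [map_zero] at hY₀
    exact hx0 (Subtype.ext hY₀.symm)
  obtain ⟨i, a₀, ha₀, hred⟩ := exists_eq_pow_mul hu Y₀ hY₀0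
  -- the primitive part, as an element of `K·F_M`
  set p : FKG D K := algebraMap ↥(AK A K) ↥(FKG D K) ϖ with hp
  have hp0 : p ≠ 0 := by
    intro h0
    have h1 := congrArg (fun z : FKG D K => (z : LaurentSeries K)) h0
    simp only [hp, coe_algebraMap_OE] at h1
    have h2 : ((ϖ : ↥(AK A K)) : K) = 0 := by
      have := congrArg (fun z : LaurentSeries K => z.coeff 0) h1
      simpa using this
    exact hu.ne_zero (Subtype.ext h2)
  set x' : FKG D K := x * (p ^ i)⁻¹ with hx'
  have hxx' : p ^ i * x' = x := by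
    rw [hx', mul_comm x, ← mul_assoc, mul_inv_cancel₀ (pow_ne_zero i hp0), one_mul]
  have hcoe_p : ((p : FKG D K) : LaurentSeries K) = embK (AK A K) (HahnSeries.C ϖ) := by
    rw [hp, coe_algebraMap_OE, embK_C]
  have hx'coe : ((x' : FKG D K) : LaurentSeries K) = embK (AK A K) a₀ := by
    have h1 : ((p : FKG D K) : LaurentSeries K) ^ i * ((x' : FKG D K) : LaurentSeries K) =
        ((p : FKG D K) : LaurentSeries K) ^ i * embK (AK A K) a₀ := by
      have h2 := congrArg (fun z : FKG D K => (z : LaurentSeries K)) hxx'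
      simp only [MulMemClass.coe_mul, SubmonoidClass.coe_pow] at h2
      rw [h2, ← hY₀, ha₀, map_mul, map_pow, hcoe_p]
    have hp0' : ((p : FKG D K) : LaurentSeries K) ^ i ≠ 0 := by
      apply pow_ne_zero
      intro h0
      exact hp0 (Subtype.ext h0)
    exact mul_left_cancel₀ hp0' h1
  have hx'Ov : x' ∈ OvK D A K hu := by
    rw [Base79.mem_OvK_iff, hx'coe]
    exact embK_mem (AK A K) a₀
  have hx'chart : x' ∈ chart ↥(AK A K) tK :=
    mem_chart_of_pow_mul_mem A D K hu tK hsatK i x' hx'Ov (by rw [hxx']; exact hx)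
  -- push to `ℚ̄`
  have hb' : baseChangeHom D K x' ∈ chart ↥A t := by
    have := Fermat.Agent.DS.G.ES.RED.ChartUnion1.baseChangeHom_mem_chart A D K tK x' hx'chart
    rwa [htK] at this
  refine ⟨incl A K (ϖ ^ i), ⟨baseChangeHom D K x', hb'⟩, ?_, ?_⟩
  · show ((b : chartRing A D t) : D.Fbar) = _ * baseChangeHom D K x'
    have h3 : algebraMap Qbar ↥(D.Fbar) ((incl A K ϖ ^ i : ↥A) : Qbar) =
        (algebraMap ↥A ↥(D.Fbar)) (incl A K ϖ) ^ i :=
      map_pow (algebraMap ↥A ↥(D.Fbar)) (incl A K ϖ) i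
    rw [← hxb, ← hxx', map_mul, map_pow, map_pow, hp,
      Fermat.Agent.DS.G.ES.RED.ChartUnion1.baseChangeHom_algebraMap_AK, h3]
  · intro h0
    have h1 : ((redChart A D ℓ hA hGB2 ht ⟨baseChangeHom D K x', hb'⟩ :
        ↥(D.FC (kA A))) : LaurentSeries (kA A)) = 0 := by
      rw [h0]
      rfl
    have hser : coeffMap A.subtype (coeffMap (incl A K) a₀) =
        ((baseChangeHom D K x' : D.Fbar) : LaurentSeries Qbar) := by
      rw [Fermat.Agent.DS.G.ES.RED.GaussUnit25.coeffMap_subtype_incl, ← hx'coe, coe_baseChangeHom]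
    have h2 := coe_redChart_eq_of A D ℓ hA hGB2 ht ⟨baseChangeHom D K x', hb'⟩ hser
    rw [h2, Fermat.Agent.DS.G.ES.RED.GaussUnit25.coeffMap_residue_incl] at h1
    apply hred
    apply CoeffDescent1.coeffMap_injective_of_injective (resMap A K) (resMap_injective A K)
    rw [h1]
    exact (map_zero _).symm

end Sat

end Fermat.Agent.DS.G.ES.RED.ChartIntegralA1
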