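/-
Programme DS (S48), chapter G-ESRED, brick E05 (helper99, for helper13): generic twin of
`ES/RED/ChartInstGen4` (helper4) for a generator datum `D : GenData` (`DS/G/ES/RED/Iface.lean`):
**a `Contract8.ChartSpec` over `A ≤ ℚ̄` from a coordinate `t ∈ ℚ̄·F` with `A`-integral
`q`-expansion** (helper13's twin of `ChartIntegralA1` packaged by helper18's generic
`chartSpecOfChart`), with the interface facts used downstream:

* `chartSpecA A D ℓ hA hGB2 hx t ht hgen hsat : ChartSpec A hx ↥(D.FC (kA A))` with `.s = t`,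
  `.B = (chart A t).toSubring`, `.red = redChart` (all by `rfl`);
* `exists_series_chartSpecA`, `red_eq_chartSpecA` : every element of the chart ring has an `A`-series,
  and the reduction is its coefficientwise reduction;
* `coeffChart_chartSpecA` : `GaloisInst21.CoeffChart` (twin; for `t` with rational coefficients);
* `compat_chartSpecA`     : `RedCharts15.Compat A D.FQ (D.FC (kA A))` (twin).

Same names as in the original file; `(A M ℓ hA hℓM)` becomes `(A D ℓ hA hGB2)` with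
`hGB2 : GaussUnit25.GB2Step D A` (the Igusa input replacing `hℓM : ¬ ℓ ∣ M`).
-/
import Mathlib
import Fermat.Agent.DS.G.ES.RED.ChartIntegralA1
import Fermat.Agent.ES.RED.ChartSpecOfChart18
import Fermat.Agent.DS.G.ES.RED.GaloisInst21
import Fermat.Agent.DS.G.ES.RED.RedCharts15

set_option autoImplicit false
set_option linter.unusedSectionVars false

open HahnSeries ModularCurve AlgebraicCurve

noncomputable section

namespace Fermat.Agent.DS.G.ES.RED.ChartInstGen4

open Fermat.Agent.RED.Interface4 Fermat.Agent.RED.PUR.ChartGeneric22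
  Fermat.Agent.DS.G.ES.RED.ChartIntegralA1 Fermat.Agent.ES.RED.Contract8
  Fermat.Agent.ES.RED.ChartSpecOfChart18 Fermat.Agent.X0.FF
  Fermat.Agent.DS.G.ES.RED.Iface

variable (A : ValuationSubring Qbar) (D : GenData) (ℓ : ℕ) [Fact ℓ.Prime]
  (hA : A.LiesOverPrime ℓ) (hGB2 : GaussUnit25.GB2Step D A)
variable {x : ↥(D.Fbar)} (hx : IsGen Qbar x)

/-- **The chart over `A` with coordinate `t`.** -/
def chartSpecA (t : ↥(D.Fbar)) (ht : t ∈ intF A D) (hgen : IsGen Qbar t)
    (hsat : LevelSat A D t) :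
    ChartSpec A hx ↥(D.FC (Fermat.Agent.ES.RED.Contract8.kA A)) :=
  chartSpecOfChart A hx t hgen (redChart A D ℓ hA hGB2 ht)
    (fun a => redF_algebraMap A D ℓ hA hGB2 a)
    (fun b hb0 => exists_content A D ℓ hA hGB2 ht hsat b hb0)

@[simp] theorem chartSpecA_s (t : ↥(D.Fbar)) (ht : t ∈ intF A D) (hgen : IsGen Qbar t)
    (hsat : LevelSat A D t) : (chartSpecA A D ℓ hA hGB2 hx t ht hgen hsat).s = t := rfl

@[simp] theorem chartSpecA_B (t : ↥(D.Fbar)) (ht : t ∈ intF A D) (hgen : IsGen Qbar t)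
    (hsat : LevelSat A D t) :
    (chartSpecA A D ℓ hA hGB2 hx t ht hgen hsat).B = (chart ↥A t).toSubring := rfl

@[simp] theorem chartSpecA_red (t : ↥(D.Fbar)) (ht : t ∈ intF A D) (hgen : IsGen Qbar t)
    (hsat : LevelSat A D t) :
    (chartSpecA A D ℓ hA hGB2 hx t ht hgen hsat).red = redChart A D ℓ hA hGB2 ht := rfl

/-- every element of the chart ring has an `A`-series. -/
theorem exists_series_chartSpecA (t : ↥(D.Fbar)) (ht : t ∈ intF A D) (hgen : IsGen Qbar t)
    (hsat : LevelSat A D t) (b : ↥(chartSpecA A D ℓ hA hGB2 hx t ht hgen hsat).B) :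
    ∃ Y : LaurentSeries ↥A,
      coeffMap A.subtype Y = ((b : ↥(D.Fbar)) : LaurentSeries Qbar) :=
  (mem_intF_iff A D).mp (chart_le_intF A D ℓ hA ht b.2)

/-- the reduction is the coefficientwise reduction of the `A`-series. -/
theorem red_eq_chartSpecA (t : ↥(D.Fbar)) (ht : t ∈ intF A D) (hgen : IsGen Qbar t)
    (hsat : LevelSat A D t) (b : ↥(chartSpecA A D ℓ hA hGB2 hx t ht hgen hsat).B)
    (Y : LaurentSeries ↥A)
    (hY : coeffMap A.subtype Y = ((b : ↥(D.Fbar)) : LaurentSeries Qbar)) :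
    (((chartSpecA A D ℓ hA hGB2 hx t ht hgen hsat).red b :
        ↥(D.FC (Fermat.Agent.ES.RED.Contract8.kA A))) : LaurentSeries (Fermat.Agent.ES.RED.Contract8.kA A)) =
      coeffMap (resA A) Y :=
  coe_redChart_eq_of A D ℓ hA hGB2 ht b hY

/-- the chart ring is the integral closure of `A[t]` (field `mem_iff` of `CoeffChart`). -/
theorem mem_iff_chartSpecA (t : ↥(D.Fbar)) (ht : t ∈ intF A D) (hgen : IsGen Qbar t)
    (hsat : LevelSat A D t) (b : ↥(D.Fbar)) :
    b ∈ (chartSpecA A D ℓ hA hGB2 hx t ht hgen hsat).B ↔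
      b ∈ chart ↥A (chartSpecA A D ℓ hA hGB2 hx t ht hgen hsat).s := Iff.rfl

/-- the coordinate is fixed by the coefficientwise Galois action (field `smul_s` of `CoeffChart`),
for `t` with rational coefficients. -/
theorem smul_s_chartSpecA (t : ↥(D.Fbar)) (ht : t ∈ intF A D) (hgen : IsGen Qbar t)
    (hsat : LevelSat A D t)
    (hsσ : ∀ σ : Qbar ≃ₐ[ℚ] Qbar, coeffMap ((σ : Qbar ≃+* Qbar) : Qbar →+* Qbar)
      ((t : ↥(D.Fbar)) : LaurentSeries Qbar) = ((t : ↥(D.Fbar)) : LaurentSeries Qbar))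
    (σ : Qbar ≃ₐ[ℚ] Qbar) :
    arithmeticGalois D.FQ σ • (chartSpecA A D ℓ hA hGB2 hx t ht hgen hsat).s =
      (chartSpecA A D ℓ hA hGB2 hx t ht hgen hsat).s :=
  Subtype.ext (hsσ σ)

/-- **(R3) interface**: the chart is coefficientwise (for `t` with rational coefficients). -/
theorem coeffChart_chartSpecA (t : ↥(D.Fbar)) (ht : t ∈ intF A D) (hgen : IsGen Qbar t)
    (hsat : LevelSat A D t)
    (hsσ : ∀ σ : Qbar ≃ₐ[ℚ] Qbar, coeffMap ((σ : Qbar ≃+* Qbar) : Qbar →+* Qbar)
      ((t : ↥(D.Fbar)) : LaurentSeries Qbar) = ((t : ↥(D.Fbar)) : LaurentSeries Qbar)) :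
    GaloisInst21.CoeffChart (F₀ := D.FQ)
      (chartSpecA A D ℓ hA hGB2 hx t ht hgen hsat) where
  mem_iff _ := Iff.rfl
  smul_s σ := Subtype.ext (hsσ σ)
  exists_series b := exists_series_chartSpecA A D ℓ hA hGB2 hx t ht hgen hsat b
  red_eq b Y hY := red_eq_chartSpecA A D ℓ hA hGB2 hx t ht hgen hsat b Y hY

/-- **RED-Z interface**: compatibility with `q`-expansions. -/
theorem compat_chartSpecA (t : ↥(D.Fbar)) (ht : t ∈ intF A D) (hgen : IsGen Qbar t)
    (hsat : LevelSat A D t) :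
    RedCharts15.Compat A D.FQ (D.FC (Fermat.Agent.ES.RED.Contract8.kA A))
      (chartSpecA A D ℓ hA hGB2 hx t ht hgen hsat) := by
  intro b
  obtain ⟨Y, hY⟩ := exists_series_chartSpecA A D ℓ hA hGB2 hx t ht hgen hsat b
  exact ⟨Y, hY, red_eq_chartSpecA A D ℓ hA hGB2 hx t ht hgen hsat b Y hY⟩

end Fermat.Agent.DS.G.ES.RED.ChartInstGen4
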