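/-
DS programme (S48), chapter G-ESRED, brick DIAPLACE (helper95), addendum: the reduced diamond of the
inverse automorphism is the inverse of the reduced diamond.

* `DiaPlace` level: `redDia_symm : redDia S δ.symm h' hfrac = (redDia S δ h hfrac).symm`;
* `GenData` level: `reducedDia_symm : reducedDia T h0 δ.symm hs' hfrac = (reducedDia T h0 δ hs hfrac)⁻¹`.
-/
import Mathlib
import Fermat.Agent.DS.G.ES.RED.DiaPlaceInst

set_option autoImplicit false
set_option linter.unusedSectionVars false

noncomputable section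

open AlgebraicCurve ModularCurve HahnSeries

namespace Fermat.Agent.DS.G.ES.RED.DiaPlaceSymm

open Fermat.Agent.X0.FF Fermat.Agent.ES.RED.Contract8 Fermat.Agent.ES.RED.TwoCharts8
  Fermat.Agent.DS.G.ES.RED.Iface Fermat.Agent.DS.G.ES.RED.GaloisInst21
  Fermat.Agent.DS.G.ES.RED.DiaPlace Fermat.Agent.DS.G.ES.RED.DiaPlaceInst

section Abstract

variable {L : Type*} [Field L] [IsAlgClosed L] {A : ValuationSubring L}
variable {F : Type*} [Field F] [Algebra L F] {x : F} {hx : IsGen L x}
variable {Ft : Type*} [Field Ft] [Algebra (kA A) Ft]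

/-- the reduction of `δ⁻¹` is the inverse of the reduction of `δ`. -/
theorem redDia_symm (S : ChartSpec A hx Ft) (δ : F ≃ₐ[L] F) (h : ChartAut S δ)
    (h' : ChartAut S δ.symm) (hfrac : FracRed S) :
    redDia S δ.symm h' hfrac = (redDia S δ h hfrac).symm := by
  symm
  apply redDia_unique
  intro b
  rw [redDia_symm_red]

end Abstract

section Inst

/-- cached instance. -/
local instance (priority := 5000) algkFC' {L : Type*} [Field L] [IsAlgClosed L]
    (A : ValuationSubring L) (D : GenData) : Algebra (kA A) ↥(D.FC (kA A)) := inferInstance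

variable {L : Type*} [Field L] [Algebra ℚ L] [IsAlgClosed L] {A : ValuationSubring L}
  {D : GenData}
  {x : ↥(laurentBaseChange L D.FQ)} {hx : IsGen L x}
  (T : TwoCharts A hx ↥(D.FC (kA A)))
  (h0 : CoeffChart (F₀ := D.FQ) T.S0)
  (δ : ↥(laurentBaseChange L D.FQ) ≃ₐ[L] ↥(laurentBaseChange L D.FQ))
  (hs : δ T.S0.s = T.S0.s) (hs' : δ.symm T.S0.s = T.S0.s)
  (hfrac : FracRed T.S0)

/-- **the reduced diamond of `δ⁻¹` is the inverse of the reduced diamond of `δ`.** -/
theorem reducedDia_symm :
    reducedDia T h0 δ.symm hs' hfrac = (reducedDia T h0 δ hs hfrac)⁻¹ := by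
  show SemilinearAut.ofAlgAut (reducedDiaAlg T h0 δ.symm hs' hfrac) =
    (SemilinearAut.ofAlgAut (reducedDiaAlg T h0 δ hs hfrac))⁻¹
  rw [← map_inv]
  exact congrArg _ (redDia_symm T.S0 δ (chartAut₀ T h0 δ hs) (chartAut₀ T h0 δ.symm hs') hfrac)

include hs in
/-- `δ.symm` fixes the coordinate as soon as `δ` does. -/
theorem symm_s_of_s : δ.symm T.S0.s = T.S0.s := by
  conv_lhs => rw [← hs]
  exact δ.symm_apply_apply T.S0.s

end Inst

end Fermat.Agent.DS.G.ES.RED.DiaPlaceSymm
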