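/-
Programme DS (S48), chapter G-ESRED, brick E06 (helper79): GENERIC TWIN of
`Fermat/Agent/ES/RED/FracRed16.lean` (helper16), with `(M : ℕ) [NeZero M]` replaced by a generator
datum `D : GenData` (`DS/G/ES/RED/Iface`); same theorem names.  Leaf B1 (3) = (L4): the reductions of
the chart rings over `A` fill the special-fibre function field, as FRACTIONS.

`A ≤ ℚ̄` over `ℓ`, `k = ResidueField A`, `F̃ = D.FC k`, `t = tF D h` the Hauptmodul in `D.Fbar`.  For
every `y ∈ F̃` there are Laurent series `Ya, Yb ∈ A((q))` whose images in `ℚ̄((q))` lie in the chart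
ring `chart A t` (integral closure of `A[t]` in `D.Fbar`), with `red Yb ≠ 0` and
`y · red Yb = red Ya`: `exists_frac_red` (chart `t`), `exists_frac_red_inv` (chart `t⁻¹`).

Differences with the original:
* the Gauss package (DEG)+(IRR) at the large number fields, a THEOREM for `X₀(M)`
  (`GaussInst25.exists_degLe_irr_FK`), is the INPUT `hirr : DegIrrStep D A` (`Base79`, chapter IGU);
* (GB2) is NOT needed here: only the easy inclusion (RES) `Base79.FC_le_resField_FKG` is used;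
* `hmem : TMem n e D` is `Base79.TMem` (`tq ℚ̄ n e ∈ D.Fbar`).
-/
import Fermat.Agent.ES.RED.FibreSurj17
import Fermat.Agent.ES.RED.IntegralQExp1
import Fermat.Agent.ES.RED.Setup8
import Fermat.Agent.RED.BASE.JInKt25
import Fermat.Agent.RED.ModelTargets4
import Fermat.Agent.DS.G.ES.RED.Base79
import Fermat.Agent.DS.G.ES.RED.ChartUnion1
import Fermat.Agent.DS.G.ES.RED.ResidueUnion1

set_option autoImplicit false
set_option linter.unusedSectionVars false
set_option linter.style.haveILetI false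

noncomputable section

namespace Fermat.Agent.DS.G.ES.RED.FracRed16

open Polynomial HahnSeries ModularCurve

section LevelK

open Fermat.Agent.RED.PUR.GaussGen8 Fermat.Agent.RED.PUR.KtGauss8 Fermat.Agent.RED.PUR.G1Package8
  Fermat.Agent.RED.PUR.GaussBridge10 Fermat.Agent.RED.PUR.ChartGeneric22
  Fermat.Agent.ES.RED.FibreSurj17

variable {K : Type*} [Field K] [CharZero K] {O : ValuationSubring K} [IsDiscreteValuationRing ↥O]
  {π : ↥O} (hπ : Irreducible π)
  {E : IntermediateField K (LaurentSeries K)} (hE : E ≤ fracField O)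
  (t : ↥E) (ht : (t : LaurentSeries K) ∈ gaussRing O)
  (htr : Transcendental (Res O) (gaussRed O ⟨(t : LaurentSeries K), ht⟩))
  {n : ℕ} (hdeg : DegLe O E ⟨(t : LaurentSeries K), ht⟩ n)
  (hirr : Irr O E ⟨(t : LaurentSeries K), ht⟩ n)

include hπ hE ht htr hdeg hirr in
/-- **Level `K`.**  Every element of the residue field of the Gauss valuation of `E` is a quotient of
reductions of elements of the chart `chart O t`. -/
theorem exists_frac_chartRed {y : LaurentSeries (Res O)} (hy : y ∈ resField O E) :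
    ∃ a b : ↥(chart ↥O t), chartRed hπ hE t ht b ≠ 0 ∧
      y * chartRed hπ hE t ht b = chartRed hπ hE t ht a := by
  obtain ⟨f, hf, hfE, rfl⟩ := hy
  set x : ↥E := ⟨f, hfE⟩ with hxdef
  have hx : x ∈ OvE O hπ E hE := (mem_OvE_iff O hπ E hE x).mpr hf
  obtain ⟨h, hh, hb⟩ := exists_aeval_mul_mem_chart hπ hE t ht htr hdeg hirr hx
  let bd : ↥(chart ↥O t) :=
    ⟨aeval t h, adjoin_le_chart t (Polynomial.aeval_mem_adjoin_singleton _ _)⟩
  let bn : ↥(chart ↥O t) := ⟨aeval t h * x, hb⟩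
  have hred_bd : chartRed hπ hE t ht bd = gaussRed O (polyG O ⟨(t : LaurentSeries K), ht⟩ h) := by
    rw [chartRed_apply]
    congr 1
    apply Subtype.ext
    rw [coe_polyG]
    exact coe_aeval t h
  have hred_bn : chartRed hπ hE t ht bn = chartRed hπ hE t ht bd * gaussRed O ⟨f, hf⟩ := by
    rw [chartRed_apply, chartRed_apply, ← map_mul]
    rfl
  have hbd0 : chartRed hπ hE t ht bd ≠ 0 := by
    rw [hred_bd]
    exact gaussRed_polyG_ne_zero htr hh
  exact ⟨bn, bd, hbd0, by rw [hred_bn, mul_comm]⟩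

end LevelK

section Concrete

open Fermat.Agent.DS.G.ES.RED.Iface Fermat.Agent.DS.G.ES.RED.Base79
open Fermat.Agent.RED.Interface4 Fermat.Agent.RED.DESC Fermat.Agent.RED.DESC.NumberFieldDVR27
open Fermat.Agent.RED.PUR.GaussGen8 Fermat.Agent.RED.PUR.KtGauss8 Fermat.Agent.RED.PUR.G1Package8
  Fermat.Agent.RED.PUR.ChartGeneric22
  Fermat.Agent.ES.RED.FibreSurj17
open Fermat.Agent.RED.PUR.GaussBridge10 (resField)
open Fermat.Agent.RED.BASE.EtaQuot12
open Fermat.Agent.RED.BASE.Interface12 (TGenBase)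
open Fermat.Agent.ES.RED.Setup8 (gaussA redA ofSeries redA_ofSeries)
open Fermat.Agent.X0

/-- The formal Hauptmodul is a unit of `R((q))`, over any coefficient ring. -/
theorem exists_tq_mul_eq_one (R : Type*) [CommRing R] (n e : ℕ) [NeZero n] :
    ∃ T : LaurentSeries R, tq R n e * T = 1 := by
  refine ⟨HahnSeries.single (1 : ℤ) (1 : R) *
    HahnSeries.ofPowerSeries ℤ R (PowerSeries.invOfUnit (tNum R n e) 1), ?_⟩
  rw [tq_eq_laurentOf, laurentOf]
  have h1 : tNum R n e * PowerSeries.invOfUnit (tNum R n e) 1 = 1 :=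
    PowerSeries.mul_invOfUnit _ _ (by rw [constantCoeff_tNum]; rfl)
  have h2 : (HahnSeries.single (-(1 : ℕ) : ℤ) (1 : R)) * HahnSeries.single (1 : ℤ) (1 : R) = 1 := by
    rw [HahnSeries.single_mul_single]
    simp
  calc HahnSeries.single (-(1 : ℕ) : ℤ) (1 : R) * HahnSeries.ofPowerSeries ℤ R (tNum R n e) *
        (HahnSeries.single (1 : ℤ) (1 : R) *
          HahnSeries.ofPowerSeries ℤ R (PowerSeries.invOfUnit (tNum R n e) 1))
      = (HahnSeries.single (-(1 : ℕ) : ℤ) (1 : R) * HahnSeries.single (1 : ℤ) (1 : R)) *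
        (HahnSeries.ofPowerSeries ℤ R (tNum R n e) *
          HahnSeries.ofPowerSeries ℤ R (PowerSeries.invOfUnit (tNum R n e) 1)) := by ring
    _ = 1 := by rw [h2, ← map_mul, h1, map_one, one_mul]

variable (A : ValuationSubring Qbar) {D : GenData} (K : IntermediateField ℚ Qbar)

/-- **From level `K` to `A`.**  For a coordinate `s ∈ K·F_M` with integral `q`-expansion and the Gauss
package at level `K`: every `y₀ ∈ κ_K·F̃_M` is, after base change to `k`, a quotient of reductions of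
`A`-integral series lying in the chart `chart A (emb s)`. -/
theorem exists_frac_of_level [FiniteDimensional ℚ K]
    [IsDiscreteValuationRing ↥(AK A K)] {π : ↥(AK A K)} (hπ : Irreducible π)
    (s : ↥(FKG D K)) (hs : (s : LaurentSeries K) ∈ gaussRing (AK A K))
    (htr : Transcendental (Res (AK A K)) (gaussRed (AK A K) ⟨(s : LaurentSeries K), hs⟩))
    {n : ℕ} (hdeg : DegLe (AK A K) (FKG D K) ⟨(s : LaurentSeries K), hs⟩ n)
    (hirr : Irr (AK A K) (FKG D K) ⟨(s : LaurentSeries K), hs⟩ n)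
    (hsT : ∃ T : LaurentSeries ↥(AK A K), embK (AK A K) T = (s : LaurentSeries K))
    {y₀ : LaurentSeries (Res (AK A K))}
    (hy₀ : y₀ ∈ D.FC (Res (AK A K))) :
    ∃ (Ya Yb : LaurentSeries ↥A) (ha : coeffMap A.subtype Ya ∈ D.Fbar)
      (hb : coeffMap A.subtype Yb ∈ D.Fbar),
      (⟨_, ha⟩ : ↥D.Fbar) ∈ chart ↥A (baseChangeHom D K s) ∧
      (⟨_, hb⟩ : ↥D.Fbar) ∈ chart ↥A (baseChangeHom D K s) ∧
      coeffMap (IsLocalRing.residue ↥A) Yb ≠ 0 ∧
      coeffMap (resMap A K) y₀ * coeffMap (IsLocalRing.residue ↥A) Yb =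
        coeffMap (IsLocalRing.residue ↥A) Ya := by
  have hE : FKG D K ≤ fracField (AK A K) := FKG_le_fracField D A K
  have hres : y₀ ∈ resField (AK A K) (FKG D K) := FC_le_resField_FKG D A K hy₀
  obtain ⟨a, b, hb0, hab⟩ := exists_frac_chartRed hπ hE s hs htr hdeg hirr hres
  -- integral series of the elements of the chart
  have key : ∀ x : ↥(chart ↥(AK A K) s), ∃ (Y : LaurentSeries ↥A)
      (hY : coeffMap A.subtype Y ∈ D.Fbar),
      (⟨_, hY⟩ : ↥D.Fbar) ∈ chart ↥A (baseChangeHom D K s) ∧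
      coeffMap (IsLocalRing.residue ↥A) Y = coeffMap (resMap A K) (chartRed hπ hE s hs x) := by
    intro x
    obtain ⟨Y₀, hY₀⟩ := Fermat.Agent.ES.RED.IntegralQExp1.exists_embK_of_mem_chart (AK A K) (FKG D K) hE hsT x.2
    have h1 : coeffMap A.subtype (coeffMap (incl A K) Y₀) =
        ((baseChangeHom D K (x : ↥(FKG D K)) : ↥D.Fbar) : LaurentSeries Qbar) := by
      rw [GaussUnit25.coeffMap_subtype_incl, hY₀, coe_baseChangeHom]
    refine ⟨coeffMap (incl A K) Y₀, by rw [h1]; exact (baseChangeHom D K (x : ↥(FKG D K))).2, ?_, ?_⟩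
    · have h2 : (⟨coeffMap A.subtype (coeffMap (incl A K) Y₀),
          by rw [h1]; exact (baseChangeHom D K (x : ↥(FKG D K))).2⟩ : ↥D.Fbar) =
          baseChangeHom D K (x : ↥(FKG D K)) := Subtype.ext h1
      rw [h2]
      exact ChartUnion1.baseChangeHom_mem_chart A D K s x x.2
    · rw [GaussUnit25.coeffMap_residue_incl]
      congr 1
      have h3 : chartRed hπ hE s hs x =
          gaussRed (AK A K) ⟨embK (AK A K) Y₀, embK_mem (AK A K) Y₀⟩ := by
        rw [chartRed_apply]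
        congr 1
        exact Subtype.ext hY₀.symm
      rw [h3, gaussRed_embK]
  obtain ⟨Ya, ha, hac, hared⟩ := key a
  obtain ⟨Yb, hb, hbc, hbred⟩ := key b
  refine ⟨Ya, Yb, ha, hb, hac, hbc, ?_, ?_⟩
  · rw [hbred]
    intro h0
    apply hb0
    exact CoeffDescent1.coeffMap_injective_of_injective (resMap A K) (resMap_injective A K)
      (h0.trans (map_zero _).symm)
  · rw [hbred, hared, ← map_mul, hab]

/-- The Gauss package at a large number field `K`, for the Hauptmodul and its inverse, plus a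
prescribed descent of `y`. -/
theorem exists_level (n e : ℕ) [NeZero n] (ℓ : ℕ) [Fact ℓ.Prime] (hirr : DegIrrStep D A)
    (hmem : TMem n e D) (hgen : TGenBase n e) (hA : A.LiesOverPrime ℓ)
    {y : LaurentSeries (IsLocalRing.ResidueField ↥A)}
    (hy : y ∈ D.FC (IsLocalRing.ResidueField ↥A)) :
    ∃ (K : IntermediateField ℚ Qbar) (_ : FiniteDimensional ℚ K)
      (_ : IsDiscreteValuationRing ↥(AK A K)) (π : ↥(AK A K)) (_ : Irreducible π)
      (t : ↥(FKG D K)) (_ : (t : LaurentSeries K) = tq K n e)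
      (ht : (t : LaurentSeries K) ∈ gaussRing (AK A K))
      (_ : Transcendental (Res (AK A K)) (gaussRed (AK A K) ⟨(t : LaurentSeries K), ht⟩))
      (m : ℕ) (_ : DegLe (AK A K) (FKG D K) ⟨(t : LaurentSeries K), ht⟩ m)
      (_ : Irr (AK A K) (FKG D K) ⟨(t : LaurentSeries K), ht⟩ m),
      ∃ y₀ ∈ D.FC (Res (AK A K)), coeffMap (resMap A K) y₀ = y := by
  have hℓ : ℓ.Prime := Fact.out
  obtain ⟨K₁, hK₁, hT⟩ := exists_tq_mem n e D hmem
  obtain ⟨K₂, hK₂, hJ⟩ := Fermat.Agent.RED.BASE.JInKt25.exists_j_mem_adjoin n e hgen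
  obtain ⟨K₃, hK₃, hI⟩ := hirr
  haveI := hK₁
  haveI := hK₂
  haveI := hK₃
  obtain ⟨K, hKfd, hle, hdesc⟩ := ResidueUnion1.exists_fullC_descent A D (K₁ ⊔ K₂ ⊔ K₃) hy
  haveI := hKfd
  have hle1 : K₁ ≤ K := le_trans (le_trans le_sup_left le_sup_left) hle
  have hle2 : K₂ ≤ K := le_trans (le_trans le_sup_right le_sup_left) hle
  have hle3 : K₃ ≤ K := le_trans le_sup_right hle
  have hdvr : IsDiscreteValuationRing ↥(AK A K) := isDiscreteValuationRing_AK A K hℓ.ne_zero hA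
  obtain ⟨ϖ, hϖ⟩ := IsDiscreteValuationRing.exists_irreducible ↥(AK A K)
  haveI : CharP (Res (AK A K)) ℓ := charP_residueField_AK A K hℓ hA
  have htE : tq K n e ∈ FKG D K := hT K hle1
  have ht : tq K n e ∈ gaussRing (AK A K) :=
    Fermat.Agent.RED.ModelTargets4.tq_mem_gaussRing (AK A K) n e
  have htr : Transcendental (Res (AK A K)) (gaussRed (AK A K) ⟨tq K n e, ht⟩) :=
    Fermat.Agent.RED.ModelTargets4.transcendental_gaussRed_tq (AK A K) n e
  have hjt : jqModC K ∈ Kt (AK A K) ⟨tq K n e, ht⟩ := hJ K hle2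
  obtain ⟨m, -, hdeg, hirr⟩ := @hI K hKfd hle3 hdvr ⟨tq K n e, ht⟩ htE hjt htr
  exact ⟨K, hKfd, hdvr, ϖ, hϖ, ⟨tq K n e, htE⟩, rfl, ht, htr, m, hdeg, hirr, hdesc K le_rfl⟩

/-- **(L4), chart `t`.**  Every element of `F̃ = k·F̃_M` is a quotient of reductions of `A`-integral
series lying in the chart `chart A t` (`t` the Hauptmodul). -/
theorem exists_frac_red (n e : ℕ) [NeZero n] (ℓ : ℕ) [Fact ℓ.Prime] (hirr : DegIrrStep D A)
    (hmem : TMem n e D) (hgen : TGenBase n e) (hA : A.LiesOverPrime ℓ)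
    {y : LaurentSeries (IsLocalRing.ResidueField ↥A)}
    (hy : y ∈ D.FC (IsLocalRing.ResidueField ↥A)) :
    ∃ (Ya Yb : LaurentSeries ↥A) (ha : coeffMap A.subtype Ya ∈ D.Fbar)
      (hb : coeffMap A.subtype Yb ∈ D.Fbar),
      (⟨_, ha⟩ : ↥D.Fbar) ∈ chart ↥A (tF D hmem) ∧
      (⟨_, hb⟩ : ↥D.Fbar) ∈ chart ↥A (tF D hmem) ∧
      coeffMap (IsLocalRing.residue ↥A) Yb ≠ 0 ∧
      y * coeffMap (IsLocalRing.residue ↥A) Yb = coeffMap (IsLocalRing.residue ↥A) Ya := by
  obtain ⟨K, hKfd, hdvr, ϖ, hϖ, t, htq, ht, htr, m, hdeg, hirr, y₀, hy₀, rfl⟩ :=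
    exists_level A n e ℓ hirr hmem hgen hA hy
  haveI := hKfd
  haveI := hdvr
  have hsT : ∃ T : LaurentSeries ↥(AK A K), embK (AK A K) T = (t : LaurentSeries K) :=
    ⟨tq ↥(AK A K) n e, by rw [htq]; exact coeffMap_tq ↥(AK A K) (AK A K).subtype n e⟩
  have hbc : baseChangeHom D K t = tF D hmem :=
    baseChangeHom_eq_tF D K hmem t htq
  have := exists_frac_of_level A K hϖ t ht htr hdeg hirr hsT hy₀
  rwa [hbc] at this

/-- **(L4), chart `t⁻¹`.** -/
theorem exists_frac_red_inv (n e : ℕ) [NeZero n] (ℓ : ℕ) [Fact ℓ.Prime] (hirr : DegIrrStep D A)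
    (hmem : TMem n e D) (hgen : TGenBase n e) (hA : A.LiesOverPrime ℓ)
    {y : LaurentSeries (IsLocalRing.ResidueField ↥A)}
    (hy : y ∈ D.FC (IsLocalRing.ResidueField ↥A)) :
    ∃ (Ya Yb : LaurentSeries ↥A) (ha : coeffMap A.subtype Ya ∈ D.Fbar)
      (hb : coeffMap A.subtype Yb ∈ D.Fbar),
      (⟨_, ha⟩ : ↥D.Fbar) ∈ chart ↥A (tF D hmem)⁻¹ ∧
      (⟨_, hb⟩ : ↥D.Fbar) ∈ chart ↥A (tF D hmem)⁻¹ ∧
      coeffMap (IsLocalRing.residue ↥A) Yb ≠ 0 ∧
      y * coeffMap (IsLocalRing.residue ↥A) Yb = coeffMap (IsLocalRing.residue ↥A) Ya := by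
  obtain ⟨K, hKfd, hdvr, ϖ, hϖ, t, htq, ht, htr, m, hdeg, hirr, y₀, hy₀, rfl⟩ :=
    exists_level A n e ℓ hirr hmem hgen hA hy
  haveI := hKfd
  haveI := hdvr
  have hsT : ∃ T : LaurentSeries ↥(AK A K),
      embK (AK A K) T = ((t⁻¹ : ↥(FKG D K)) : LaurentSeries K) := by
    obtain ⟨T, hT⟩ := exists_tq_mul_eq_one ↥(AK A K) n e
    refine ⟨T, ?_⟩
    have h1 : tq K n e * embK (AK A K) T = 1 := by
      have := congrArg (embK (AK A K)) hT
      rw [map_mul, map_one] at this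
      rw [← this]
      congr 1
      exact (coeffMap_tq ↥(AK A K) (AK A K).subtype n e).symm
    show embK (AK A K) T = ((t : LaurentSeries K))⁻¹
    rw [htq]
    exact eq_inv_of_mul_eq_one_right h1
  have hbc : baseChangeHom D K t⁻¹ = (tF D hmem)⁻¹ := by
    rw [map_inv₀, baseChangeHom_eq_tF D K hmem t htq]
  have := exists_frac_of_level A K hϖ t⁻¹ (tinv_mem_gaussRing t ht htr)
    (transcendental_inv t ht htr) (degLe_inv t ht htr hdeg) (irr_inv t ht htr hirr) hsT hy₀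
  rwa [hbc] at this

/-- (L4) for both charts in terms of `Setup8.gaussA` / `Setup8.redA`. -/
theorem exists_frac_redA (n e : ℕ) [NeZero n] (ℓ : ℕ) [Fact ℓ.Prime] (hirr : DegIrrStep D A)
    (hmem : TMem n e D) (hgen : TGenBase n e) (hA : A.LiesOverPrime ℓ)
    {y : LaurentSeries (IsLocalRing.ResidueField ↥A)}
    (hy : y ∈ D.FC (IsLocalRing.ResidueField ↥A)) :
    (∃ a b : ↥(gaussA A D.Fbar),
      (a : ↥D.Fbar) ∈ chart ↥A (tF D hmem) ∧ (b : ↥D.Fbar) ∈ chart ↥A (tF D hmem) ∧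
      redA A D.Fbar b ≠ 0 ∧
      y * redA A D.Fbar b = redA A D.Fbar a) ∧
    (∃ a b : ↥(gaussA A D.Fbar),
      (a : ↥D.Fbar) ∈ chart ↥A (tF D hmem)⁻¹ ∧ (b : ↥D.Fbar) ∈ chart ↥A (tF D hmem)⁻¹ ∧
      redA A D.Fbar b ≠ 0 ∧
      y * redA A D.Fbar b = redA A D.Fbar a) := by
  constructor
  · obtain ⟨Ya, Yb, ha, hb, hac, hbc, hb0, hab⟩ := exists_frac_red A n e ℓ hirr hmem hgen hA hy
    refine ⟨ofSeries A D.Fbar Ya ha, ofSeries A D.Fbar Yb hb, hac, hbc, ?_, ?_⟩
    · rw [redA_ofSeries]; exact hb0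
    · rw [redA_ofSeries, redA_ofSeries]; exact hab
  · obtain ⟨Ya, Yb, ha, hb, hac, hbc, hb0, hab⟩ := exists_frac_red_inv A n e ℓ hirr hmem hgen hA hy
    refine ⟨ofSeries A D.Fbar Ya ha, ofSeries A D.Fbar Yb hb, hac, hbc, ?_, ?_⟩
    · rw [redA_ofSeries]; exact hb0
    · rw [redA_ofSeries, redA_ofSeries]; exact hab

end Concrete

end Fermat.Agent.DS.G.ES.RED.FracRed16
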