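/-
Programme DS (S48), chapter G-ESRED, brick E04 (helper80): generic twin of
`Fermat/Agent/ES/RED/FrobPoles13.lean` (original: Program I (S37), chapter RED, helper13, **B3**).

Stability of the zeros/poles of the Hauptmodul `t~ = tq k n e` on the special fibre under the
coefficientwise automorphisms (in particular the Frobenius `Fr`): `t~` has prime-field
coefficients, so `cψ t~ = t~` for every `ψ ∈ Aut k`, hence `ord_{g_ψ • Q} t~ = ord_Q t~` for every
place `Q` of `F~ = D.FC k`, `D : GenData`.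

Same theorem names as the original, with `(M : ℕ) [NeZero M]` replaced by `(D : GenData)` and
`modularFunctionFieldFullC k M` by `D.FC k`.
-/
import Mathlib
import Fermat.Agent.DS.G.ES.KRON.FrobPlace13
import Fermat.Agent.RED.BASE.EtaQuot12

set_option autoImplicit false
set_option linter.unusedSectionVars false

noncomputable section

namespace Fermat.Agent.DS.G.ES.RED.FrobPoles13

open ModularCurve AlgebraicCurve
open Fermat.Agent.DS.G.ES.KRON.FrobPlace13 Fermat.Agent.RED.BASE.EtaQuot12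
open Fermat.Agent.DS.G.ES.RED.Iface

section Generic

variable (k : Type*) [Field k] (D : GenData)

/-- an element of `F~` whose Laurent series is fixed by `coeffMap ψ` is fixed by `g_ψ`. -/
theorem coeffSemi_smul_eq_self (ψ : k ≃+* k) {t : ↥(D.FC k)}
    (ht : coeffMap (ψ : k →+* k) (t : LaurentSeries k) = (t : LaurentSeries k)) :
    coeffSemi k D ψ • t = t :=
  Subtype.ext (by rw [coe_coeffSemi_smul, ht])

/-- orders of a `g_ψ`-fixed element are `g_ψ`-invariant. -/
theorem ord_coeffSemi_smul_of_fixed (ψ : k ≃+* k) {t : ↥(D.FC k)}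
    (ht : coeffSemi k D ψ • t = t) (Q : Place k ↥(D.FC k)) :
    (coeffSemi k D ψ • Q).ord t = Q.ord t := by
  conv_lhs => rw [← ht]
  exact SemilinearAut.ord_smul (coeffSemi k D ψ) Q t

/-- the same for `t - c` with `c` a `ψ`-fixed constant. -/
theorem ord_coeffSemi_smul_sub_of_fixed (ψ : k ≃+* k) {t : ↥(D.FC k)}
    (ht : coeffSemi k D ψ • t = t) (c : k) (Q : Place k ↥(D.FC k)) :
    (coeffSemi k D ψ • Q).ord (t - algebraMap k _ (ψ c)) = Q.ord (t - algebraMap k _ c) := by
  have h := SemilinearAut.ord_smul (coeffSemi k D ψ) Q (t - algebraMap k _ c)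
  rw [smul_sub, ht, coeffSemi_smul_algebraMap] at h
  exact h

variable (n e : ℕ) [NeZero n]

/-- **`cψ t~ = t~`** for the Hauptmodul `t~ = tq k n e`. -/
theorem coeffSemi_smul_tq (ψ : k ≃+* k) {t : ↥(D.FC k)}
    (ht : (t : LaurentSeries k) = tq k n e) : coeffSemi k D ψ • t = t :=
  coeffSemi_smul_eq_self k D ψ (by rw [ht, coeffMap_tq])

/-- **`ord_{g_ψ • Q} t~ = ord_Q t~`**. -/
theorem ord_coeffSemi_smul_tq (ψ : k ≃+* k) {t : ↥(D.FC k)}
    (ht : (t : LaurentSeries k) = tq k n e) (Q : Place k ↥(D.FC k)) :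
    (coeffSemi k D ψ • Q).ord t = Q.ord t :=
  ord_coeffSemi_smul_of_fixed k D ψ (coeffSemi_smul_tq k D n e ψ ht) Q

theorem ord_coeffSemi_smul_tq_inv (ψ : k ≃+* k) {t : ↥(D.FC k)}
    (ht : (t : LaurentSeries k) = tq k n e) (Q : Place k ↥(D.FC k)) :
    (coeffSemi k D ψ • Q).ord t⁻¹ = Q.ord t⁻¹ := by
  rw [Place.ord_inv, Place.ord_inv, ord_coeffSemi_smul_tq k D n e ψ ht Q]

end Generic

section Frobenius

variable (k : Type*) [Field k] (l : ℕ) [ExpChar k l] [PerfectField k] (D : GenData)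
  (n e : ℕ) [NeZero n]

/-- `cφ t~ = t~`. -/
theorem frobSemi_smul_tq {t : ↥(D.FC k)}
    (ht : (t : LaurentSeries k) = tq k n e) : frobSemi k l D • t = t :=
  coeffSemi_smul_tq k D n e (frobeniusEquiv k l) ht

/-- **`ord_{Fr Q} t~ = ord_Q t~`.** -/
theorem ord_frobPlace_tq {t : ↥(D.FC k)}
    (ht : (t : LaurentSeries k) = tq k n e) (Q : Place k ↥(D.FC k)) :
    (frobPlace k l D Q).ord t = Q.ord t :=
  ord_coeffSemi_smul_tq k D n e (frobeniusEquiv k l) ht Q

theorem ord_frobPlace_symm_tq {t : ↥(D.FC k)}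
    (ht : (t : LaurentSeries k) = tq k n e) (Q : Place k ↥(D.FC k)) :
    ((frobPlace k l D).symm Q).ord t = Q.ord t := by
  have h := ord_frobPlace_tq k l D n e ht ((frobPlace k l D).symm Q)
  rw [Equiv.apply_symm_apply] at h
  exact h.symm

/-- **the poles of `t~` are `Fr`-stable.** -/
theorem pole_frobPlace_iff {t : ↥(D.FC k)}
    (ht : (t : LaurentSeries k) = tq k n e) (Q : Place k ↥(D.FC k)) :
    (frobPlace k l D Q).ord t < 0 ↔ Q.ord t < 0 := by
  rw [ord_frobPlace_tq k l D n e ht Q]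

/-- the chart `t~ ∈ O_Q` is `Fr`-stable. -/
theorem mem_frobPlace_iff_tq {t : ↥(D.FC k)}
    (ht : (t : LaurentSeries k) = tq k n e) (Q : Place k ↥(D.FC k)) :
    t ∈ (frobPlace k l D Q).toValuationSubring ↔ t ∈ Q.toValuationSubring := by
  have h := mem_frobPlace_iff k l D Q t
  rwa [frobSemi_smul_tq k l D n e ht] at h

/-- **`Fr`-stability of a pole divisor**: a divisor `Δ` with `Δ Q = max (-ord_Q t~) 0`
(the pole divisor of `t~`) satisfies `Δ (Fr Q) = Δ Q`; in particular its support is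
`Fr`-stable. -/
theorem poleDivisor_frobPlace {t : ↥(D.FC k)}
    (ht : (t : LaurentSeries k) = tq k n e)
    (Δ : Place k ↥(D.FC k) →₀ ℤ)
    (hΔ : ∀ Q, Δ Q = max (-(Q.ord t)) 0) (Q : Place k ↥(D.FC k)) :
    Δ (frobPlace k l D Q) = Δ Q := by
  rw [hΔ, hΔ, ord_frobPlace_tq k l D n e ht Q]

theorem mem_support_poleDivisor_frobPlace_iff {t : ↥(D.FC k)}
    (ht : (t : LaurentSeries k) = tq k n e)
    (Δ : Place k ↥(D.FC k) →₀ ℤ)
    (hΔ : ∀ Q, Δ Q = max (-(Q.ord t)) 0) (Q : Place k ↥(D.FC k)) :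
    Q ∈ Δ.support ↔ frobPlace k l D Q ∈ Δ.support := by
  rw [Finsupp.mem_support_iff, Finsupp.mem_support_iff,
    poleDivisor_frobPlace k l D n e ht Δ hΔ Q]

/-- value form of the stability of zeros: `ord_{Fr Q} (t~ - c ^ l) = ord_Q (t~ - c)`. -/
theorem ord_frobPlace_tq_sub (c : k) {t : ↥(D.FC k)}
    (ht : (t : LaurentSeries k) = tq k n e) (Q : Place k ↥(D.FC k)) :
    (frobPlace k l D Q).ord (t - algebraMap k _ (c ^ l)) = Q.ord (t - algebraMap k _ c) := by
  have h := ord_sub_const_frobPlace k l D Q t c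
  rwa [frobSemi_smul_tq k l D n e ht] at h

end Frobenius

end Fermat.Agent.DS.G.ES.RED.FrobPoles13
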