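/-
Programme DS (S48), chapter G-ESRED, brick E07 (helper55): BASE CHANGE OF CONSTANTS PRESERVES
DEGREES, for subfields of `k((q))` generated by sets of series (Mathlib + Prelude `coeffMap` only).

For a field homomorphism `φ : k → κ` and `Φ = coeffMap φ : k((q)) → κ((q))`:

* `linearIndependent_coeffMap` : a family `c` of series which is linearly independent over `k(T)` stays
  linearly independent over `κ(Φ T)` (linear disjointness of `k((q))` and `κ` over `k`, which is
  trivial coefficientwise);
* `family_bound_map` (copy of `RED/PUR/DegBaseChange25.family_bound_map`, to keep imports light) :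
  the other inequality;
* `relfinrank_coeffMap_eq` : `[κ(Φ S) : κ(Φ T)] = [k(S) : k(T)]` as soon as the latter is finite.

No hypothesis on the characteristic, on `φ` or on `k ⊂ κ` (algebraic or not).
-/
import Mathlib
import Fermat.Prelude.Def_ModularCurve_LaurentCoeff
import Fermat.Agent.IG.PR.FamilyForm20

set_option autoImplicit false

noncomputable section

open HahnSeries IntermediateField ModularCurve

namespace Fermat.Agent.DS.G.ES.RED.LinDisjoint

open Fermat.Agent.IG.PR

/-! ### family forms -/

section Generic

variable {F E : Type*} [Field F] [Field E] [Algebra F E] {A B : IntermediateField F E}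

/-- If every `A`-independent family of elements of `B` has at most `m` members, then `B` is finite
over `A` (stated as `relfinrank A B ≠ 0`). -/
theorem relfinrank_ne_zero_of_family_bound (h : A ≤ B) (m : ℕ)
    (hub : ∀ (n : ℕ) (c : Fin n → E), (∀ i, c i ∈ B) → LinearIndependent ↥A c → n ≤ m) :
    relfinrank A B ≠ 0 := by
  classical
  rw [relfinrank_eq_finrank_of_le h]
  have hrank : Module.rank ↥A ↥(extendScalars h) ≤ (m : Cardinal) := by
    refine rank_le fun s hs => ?_
    let e := s.equivFin
    let c : Fin s.card → E := fun i => (((e.symm i : ↥s) : ↥(extendScalars h)) : E)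
    have hc : ∀ i, c i ∈ B := fun i =>
      (mem_extendScalars h).mp ((e.symm i : ↥s) : ↥(extendScalars h)).2
    have hli : LinearIndependent ↥A c := by
      have h1 : LinearIndependent ↥A
          (fun i : Fin s.card => ((e.symm i : ↥s) : ↥(extendScalars h))) :=
        hs.comp _ e.symm.injective
      exact h1.map' (extendScalars h).val.toLinearMap
        (LinearMap.ker_eq_bot.mpr (extendScalars h).val.injective)
    exact hub _ c hc hli
  have hfin : Module.Finite ↥A ↥(extendScalars h) := by
    rw [← Module.rank_lt_aleph0_iff]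
    exact lt_of_le_of_lt hrank Cardinal.natCast_lt_aleph0
  exact Module.finrank_pos.ne'

end Generic

/-! ### ring homs over a hom of the constants -/

section General

variable {k κ E E' : Type*} [Field k] [Field κ] [Field E] [Field E'] [Algebra k E] [Algebra κ E']
  (φ : k →+* κ) (Φ : E →+* E')

/-- A ring hom `Φ : E → E'` lying over `φ : k → κ` maps `k(S)` into `κ(Φ S)`. -/
theorem map_mem_adjoin (hΦ : ∀ c : k, Φ (algebraMap k E c) = algebraMap κ E' (φ c))
    (S : Set E) {x : E} (hx : x ∈ adjoin k S) : Φ x ∈ adjoin κ (Φ '' S) := by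
  have h : Subfield.closure (Set.range (algebraMap k E) ∪ S) ≤
      (adjoin κ (Φ '' S)).toSubfield.comap Φ := by
    rw [Subfield.closure_le]
    rintro y (⟨c, rfl⟩ | hy)
    · show Φ _ ∈ adjoin κ (Φ '' S)
      rw [hΦ]
      exact IntermediateField.algebraMap_mem _ _
    · exact subset_adjoin κ _ ⟨y, hy, rfl⟩
  exact h hx

/-- **Base change of constants, family form.**  If every `k(T)`-linearly independent family of
elements of `k(S)` has at most `m` members, then every `κ(Φ T)`-linearly independent family of
elements of `κ(Φ S)` has at most `m` members. -/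
theorem family_bound_map (hΦ : ∀ c : k, Φ (algebraMap k E c) = algebraMap κ E' (φ c))
    (T S : Set E) (hTS : adjoin k T ≤ adjoin k S) (m : ℕ)
    (hub : ∀ (n : ℕ) (c : Fin n → E), (∀ i, c i ∈ adjoin k S) →
      LinearIndependent ↥(adjoin k T) c → n ≤ m)
    (n : ℕ) (c : Fin n → E') (hc : ∀ i, c i ∈ adjoin κ (Φ '' S))
    (hli : LinearIndependent ↥(adjoin κ (Φ '' T)) c) : n ≤ m := by
  classical
  -- `B₁ = k(S)` as an intermediate field over `A = k(T)`; it is finite of dimension `≤ m`
  have hrank : Module.rank ↥(adjoin k T) ↥(extendScalars hTS) ≤ m := by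
    apply rank_le
    intro s hs
    have h1 : LinearIndependent ↥(adjoin k T)
        (fun i : Fin s.card => (((s.equivFin.symm i : ↥s) : ↥(extendScalars hTS)) : E)) := by
      have h2 : LinearIndependent ↥(adjoin k T)
          (fun i : Fin s.card => ((s.equivFin.symm i : ↥s) : ↥(extendScalars hTS))) :=
        hs.comp _ s.equivFin.symm.injective
      exact h2.map' (extendScalars hTS).val.toLinearMap
        (LinearMap.ker_eq_bot.mpr (extendScalars hTS).val.injective)
    exact hub s.card _ (fun i => (mem_extendScalars hTS).mp (s.equivFin.symm i : ↥s).1.2) h1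
  have hfin : Module.Finite ↥(adjoin k T) ↥(extendScalars hTS) := by
    rw [← Module.rank_lt_aleph0_iff]
    exact lt_of_le_of_lt hrank Cardinal.natCast_lt_aleph0
  have hd : Module.finrank ↥(adjoin k T) ↥(extendScalars hTS) ≤ m :=
    Module.finrank_le_of_rank_le hrank
  have : Module.Free ↥(adjoin k T) ↥(extendScalars hTS) := Module.Free.of_divisionRing _ _
  let bb := Module.finBasis ↥(adjoin k T) ↥(extendScalars hTS)
  -- the images of the basis
  let v : Fin (Module.finrank ↥(adjoin k T) ↥(extendScalars hTS)) → E' :=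
    fun i => Φ ((bb i : ↥(extendScalars hTS)) : E)
  let W : Submodule ↥(adjoin κ (Φ '' T)) E' := Submodule.span _ (Set.range v)
  have hA_map : ∀ a ∈ adjoin k T, Φ a ∈ adjoin κ (Φ '' T) :=
    fun a ha => map_mem_adjoin φ Φ hΦ T ha
  -- `Φ (k(S)) ⊆ W`
  have hB_W : ∀ y ∈ adjoin k S, Φ y ∈ W := by
    intro y hy
    let y' : ↥(extendScalars hTS) := ⟨y, (mem_extendScalars hTS).mpr hy⟩
    have h1 : y' = ∑ i, bb.repr y' i • bb i := (bb.sum_repr y').symm
    have h2 : y = ∑ i, ((bb.repr y' i : ↥(adjoin k T)) : E) *
        ((bb i : ↥(extendScalars hTS)) : E) := by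
      have := congrArg (fun z : ↥(extendScalars hTS) => (z : E)) h1
      simpa [Algebra.smul_def] using this
    rw [h2, map_sum]
    refine Submodule.sum_mem _ fun i _ => ?_
    rw [map_mul]
    have h3 : Φ ((bb.repr y' i : ↥(adjoin k T)) : E) * Φ ((bb i : ↥(extendScalars hTS)) : E) =
        (⟨Φ ((bb.repr y' i : ↥(adjoin k T)) : E), hA_map _ (bb.repr y' i).2⟩ :
          ↥(adjoin κ (Φ '' T))) • v i := by
      rw [Algebra.smul_def]
      rfl
    rw [h3]
    exact Submodule.smul_mem _ _ (Submodule.subset_span ⟨i, rfl⟩)
  have h1W : (1 : E') ∈ W := by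
    have := hB_W 1 (one_mem _)
    rwa [map_one] at this
  have hW_mul : ∀ x y : E', x ∈ W → y ∈ W → x * y ∈ W := by
    have hle : W * W ≤ W := by
      show Submodule.span _ (Set.range v) * Submodule.span _ (Set.range v) ≤ W
      rw [Submodule.span_mul_span, Submodule.span_le]
      rintro _ ⟨_, ⟨i, rfl⟩, _, ⟨j, rfl⟩, rfl⟩
      show Φ _ * Φ _ ∈ W
      rw [← map_mul]
      exact hB_W _ (mul_mem ((mem_extendScalars hTS).mp (bb i).2)
        ((mem_extendScalars hTS).mp (bb j).2))
    intro x y hx hy
    exact hle (Submodule.mul_mem_mul hx hy)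
  let Wa : Subalgebra ↥(adjoin κ (Φ '' T)) E' := W.toSubalgebra h1W hW_mul
  have hfg : Wa.toSubmodule.FG := by
    have : Wa.toSubmodule = W := Submodule.toSubalgebra_toSubmodule _ _ _
    rw [this]
    exact Submodule.fg_span (Set.finite_range v)
  have hW_inv : ∀ x : E', x ∈ W → x⁻¹ ∈ W := by
    intro x hx
    have hint : IsIntegral ↥(adjoin κ (Φ '' T)) x := IsIntegral.of_mem_of_fg Wa hfg x hx
    exact Subalgebra.inv_mem_of_algebraic (A := Wa) (x := ⟨x, hx⟩) hint.isAlgebraic
  -- `W` as a subfield
  let Wf : Subfield E' :=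
    { carrier := W
      mul_mem' := fun {x y} hx hy => hW_mul x y hx hy
      one_mem' := h1W
      add_mem' := fun {x y} hx hy => W.add_mem hx hy
      zero_mem' := W.zero_mem
      neg_mem' := fun {x} hx => W.neg_mem hx
      inv_mem' := hW_inv }
  have hB'W : ∀ y ∈ adjoin κ (Φ '' S), y ∈ W := by
    have h : Subfield.closure (Set.range (algebraMap κ E') ∪ Φ '' S) ≤ Wf := by
      rw [Subfield.closure_le]
      rintro y (⟨a, rfl⟩ | ⟨s, hs, rfl⟩)
      · show algebraMap κ E' a ∈ W
        have h4 : algebraMap κ E' a =
            (algebraMap κ ↥(adjoin κ (Φ '' T)) a) • (1 : E') := by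
          rw [Algebra.smul_def, mul_one]
          rfl
        rw [h4]
        exact Submodule.smul_mem _ _ h1W
      · exact hB_W s (subset_adjoin k S hs)
    exact fun y hy => h hy
  -- count
  have hcard := linearIndependent_le_span_aux' c hli (Set.range v)
    (by rintro _ ⟨i, rfl⟩; exact hB'W _ (hc i))
  rw [Fintype.card_fin] at hcard
  calc n ≤ Fintype.card ↥(Set.range v) := hcard
    _ ≤ Fintype.card (Fin (Module.finrank ↥(adjoin k T) ↥(extendScalars hTS))) :=
        Fintype.card_range_le v
    _ = Module.finrank ↥(adjoin k T) ↥(extendScalars hTS) := Fintype.card_fin _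
    _ ≤ m := hd

end General

/-! ### coefficientwise linear disjointness -/

section Series

variable {k κ : Type*} [Field k] [Field κ] (φ : k →+* κ)

theorem coeffMap_algebraMap' (c : k) :
    coeffMap φ (algebraMap k (LaurentSeries k) c) = algebraMap κ (LaurentSeries κ) (φ c) := by
  rw [algebraMap_laurentSeries_eq_single, algebraMap_laurentSeries_eq_single, coeffMap_single]

theorem coeff_algebraMap_mul (c : κ) (y : LaurentSeries κ) (n : ℤ) :
    (algebraMap κ (LaurentSeries κ) c * y).coeff n = c * y.coeff n := by
  rw [algebraMap_laurentSeries_eq_single, HahnSeries.coeff_single_zero_mul]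

/-- **(LD), coefficientwise.**  If the family `b : ι → κ` is linearly independent over `k` (through
`φ`), then `∑ β, b β · Φ (x β) = 0` forces `x = 0`. -/
theorem ld_series {ι : Type*} (b : ι → κ)
    (hb : ∀ c : ι →₀ k, (c.sum fun β a => b β * φ a) = 0 → c = 0)
    (x : ι →₀ LaurentSeries k)
    (h : (x.sum fun β y => algebraMap κ (LaurentSeries κ) (b β) * coeffMap φ y) = 0) : x = 0 := by
  classical
  ext β n
  have hn : (x.sum fun β y => b β * φ (y.coeff n)) = 0 := by
    have := congrArg (fun s => HahnSeries.coeff s n) h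
    simp only [Finsupp.sum, HahnSeries.coeff_zero] at this
    rw [HahnSeries.coeff_sum] at this
    simp only [coeff_algebraMap_mul, coeffMap_coeff] at this
    exact this
  set c : ι →₀ k := x.mapRange (fun y => y.coeff n) (by simp) with hc
  have hc0 : c = 0 := by
    apply hb
    rw [hc, Finsupp.sum_mapRange_index (by intro i; simp)]
    exact hn
  have := DFunLike.congr_fun hc0 β
  simpa [hc] using this

variable (A : IntermediateField k (LaurentSeries k))

/-- the `κ`-span of `Φ A` (as an additive submonoid, to stay clear of the two scalar actions of `κ`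
on `κ((q))`). -/
def spanImage : AddSubmonoid (LaurentSeries κ) :=
  AddSubmonoid.closure {r | ∃ (l : κ) (a : LaurentSeries k), a ∈ A ∧
    r = algebraMap κ (LaurentSeries κ) l * coeffMap φ a}

theorem mul_coeffMap_mem_spanImage (l : κ) {a : LaurentSeries k} (ha : a ∈ A) :
    algebraMap κ (LaurentSeries κ) l * coeffMap φ a ∈ spanImage φ A :=
  AddSubmonoid.subset_closure ⟨l, a, ha, rfl⟩

theorem coeffMap_mem_spanImage {a : LaurentSeries k} (ha : a ∈ A) :
    coeffMap φ a ∈ spanImage φ A := by
  have := mul_coeffMap_mem_spanImage φ A 1 ha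
  rwa [map_one, one_mul] at this

theorem mul_mem_spanImage {x y : LaurentSeries κ} (hx : x ∈ spanImage φ A)
    (hy : y ∈ spanImage φ A) : x * y ∈ spanImage φ A := by
  unfold spanImage at hx
  induction hx using AddSubmonoid.closure_induction with
  | mem x hx =>
    obtain ⟨l, a, ha, rfl⟩ := hx
    unfold spanImage at hy
    induction hy using AddSubmonoid.closure_induction with
    | mem y hy =>
      obtain ⟨l', a', ha', rfl⟩ := hy
      have : algebraMap κ (LaurentSeries κ) l * coeffMap φ a *
          (algebraMap κ (LaurentSeries κ) l' * coeffMap φ a') =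
          algebraMap κ (LaurentSeries κ) (l * l') * coeffMap φ (a * a') := by
        rw [map_mul, map_mul]; ring
      rw [this]
      exact mul_coeffMap_mem_spanImage φ A _ (mul_mem ha ha')
    | zero => rw [mul_zero]; exact zero_mem _
    | add y z _ _ hy hz => rw [mul_add]; exact add_mem hy hz
  | zero => rw [zero_mul]; exact zero_mem _
  | add x z _ _ hx hz => rw [add_mul]; exact add_mem hx hz

/-- every element of the `κ`-span of `Φ A` is `∑ β, b β · Φ (x β)` with `x β ∈ A`, for a basis `b` of
`κ` over `k`. -/
theorem exists_repr_of_mem_spanImage {ι : Type*} (b : ι → κ)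
    (hb : ∀ l : κ, ∃ c : ι →₀ k, (c.sum fun β a => b β * φ a) = l)
    {r : LaurentSeries κ} (hr : r ∈ spanImage φ A) :
    ∃ x : ι →₀ LaurentSeries k, (∀ β, x β ∈ A) ∧
      (x.sum fun β y => algebraMap κ (LaurentSeries κ) (b β) * coeffMap φ y) = r := by
  classical
  unfold spanImage at hr
  induction hr using AddSubmonoid.closure_induction with
  | zero => exact ⟨0, fun β => by simp, by simp⟩
  | add r s _ _ hr hs =>
    obtain ⟨x, hxA, rfl⟩ := hr
    obtain ⟨y, hyA, rfl⟩ := hs
    refine ⟨x + y, fun β => by rw [Finsupp.add_apply]; exact add_mem (hxA β) (hyA β), ?_⟩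
    rw [Finsupp.sum_add_index']
    · intro β; simp
    · intro β y₁ y₂; rw [map_add, mul_add]
  | mem r hr =>
    obtain ⟨l, a, ha, rfl⟩ := hr
    obtain ⟨c, hc⟩ := hb l
    refine ⟨c.mapRange (fun u => algebraMap k (LaurentSeries k) u * a) (by simp), fun β => ?_, ?_⟩
    · rw [Finsupp.mapRange_apply]
      exact mul_mem (A.algebraMap_mem _) ha
    · rw [Finsupp.sum_mapRange_index (by intro i; simp)]
      have h1 : ∀ β u, algebraMap κ (LaurentSeries κ) (b β) *
          coeffMap φ (algebraMap k (LaurentSeries k) u * a) =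
          algebraMap κ (LaurentSeries κ) (b β * φ u) * coeffMap φ a := by
        intro β u
        rw [map_mul, coeffMap_algebraMap', map_mul, mul_assoc]
      simp only [h1]
      rw [Finsupp.sum, ← Finset.sum_mul, ← map_sum]
      congr 2

/-- **(LD) for a family.**  If `c` is linearly independent over the subfield `A ⊆ k((q))`, then a
relation `∑ i, r i · Φ (c i) = 0` with coefficients `r i` in the `κ`-span of `Φ A` is trivial. -/
theorem eq_zero_of_sum_mul_coeffMap_eq_zero {m : ℕ} (c : Fin m → LaurentSeries k)
    (hli : LinearIndependent ↥A c) (r : Fin m → LaurentSeries κ)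
    (hr : ∀ i, r i ∈ spanImage φ A) (h : ∑ i, r i * coeffMap φ (c i) = 0) : ∀ i, r i = 0 := by
  classical
  let _ : Algebra k κ := φ.toAlgebra
  let b := Module.Basis.ofVectorSpace k κ
  have hsm : ∀ (a : k) (l : κ), a • l = l * φ a := fun a l => by
    rw [Algebra.smul_def, mul_comm]; rfl
  have hb1 : ∀ c : (Module.Basis.ofVectorSpaceIndex k κ) →₀ k,
      (c.sum fun β a => b β * φ a) = 0 → c = 0 := by
    intro c hc
    have hli := b.linearIndependent
    rw [linearIndependent_iff] at hli
    apply hli
    rw [Finsupp.linearCombination_apply, ← hc]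
    refine Finsupp.sum_congr fun β _ => ?_
    exact hsm (c β) (b β)
  have hb2 : ∀ l : κ, ∃ c : (Module.Basis.ofVectorSpaceIndex k κ) →₀ k,
      (c.sum fun β a => b β * φ a) = l := by
    intro l
    refine ⟨b.repr l, ?_⟩
    have := b.linearCombination_repr l
    rw [Finsupp.linearCombination_apply] at this
    refine Eq.trans ?_ this
    refine Finsupp.sum_congr fun β _ => ?_
    exact (hsm (b.repr l β) (b β)).symm
  choose x hxA hx using fun i => exists_repr_of_mem_spanImage φ A b hb2 (hr i)
  -- the relation, regrouped along the basis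
  let y : (Module.Basis.ofVectorSpaceIndex k κ) →₀ LaurentSeries k :=
    ∑ i, (x i).mapRange (fun u => u * c i) (by simp)
  have hy : (y.sum fun β u => algebraMap κ (LaurentSeries κ) (b β) * coeffMap φ u) = 0 := by
    have hadd : ∀ (s : Finset (Fin m)),
        ((∑ i ∈ s, (x i).mapRange (fun u => u * c i) (by simp) :
          (Module.Basis.ofVectorSpaceIndex k κ) →₀ LaurentSeries k).sum
            fun β u => algebraMap κ (LaurentSeries κ) (b β) * coeffMap φ u) =
        ∑ i ∈ s, r i * coeffMap φ (c i) := by
      intro s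
      induction s using Finset.induction_on with
      | empty => simp
      | insert i s hi ih =>
        rw [Finset.sum_insert hi, Finset.sum_insert hi, Finsupp.sum_add_index', ih]
        · congr 1
          rw [Finsupp.sum_mapRange_index (by intro i; simp), ← hx i, Finsupp.sum, Finsupp.sum,
            Finset.sum_mul]
          refine Finset.sum_congr rfl fun β _ => ?_
          rw [map_mul, mul_assoc]
        · intro β; simp
        · intro β y₁ y₂; rw [map_add, mul_add]
    rw [hadd Finset.univ, h]
  have hy0 := ld_series φ b hb1 y hy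
  -- each coordinate relation is trivial
  have hcoord : ∀ β, ∑ i, x i β * c i = 0 := by
    intro β
    have := DFunLike.congr_fun hy0 β
    simpa [y, Finsupp.finsetSum_apply] using this
  have hx0 : ∀ i β, x i β = 0 := by
    intro i β
    have hrel : ∑ i, (⟨x i β, hxA i β⟩ : ↥A) • c i = 0 := by
      rw [← hcoord β]
      refine Finset.sum_congr rfl fun i _ => ?_
      rw [Algebra.smul_def]
      rfl
    have := Fintype.linearIndependent_iff.mp hli _ hrel i
    exact congrArg Subtype.val this
  intro i
  rw [← hx i]
  have : x i = 0 := Finsupp.ext fun β => hx0 i β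
  rw [this]
  simp

/-- `κ[Φ T] ⊆` the `κ`-span of `Φ (k(T))`. -/
theorem algebraAdjoin_le_spanImage (T : Set (LaurentSeries k)) {r : LaurentSeries κ}
    (hr : r ∈ Algebra.adjoin κ (⇑(coeffMap φ) '' T)) : r ∈ spanImage φ (adjoin k T) := by
  induction hr using Algebra.adjoin_induction with
  | mem x hx =>
    obtain ⟨t, ht, rfl⟩ := hx
    exact coeffMap_mem_spanImage φ _ (subset_adjoin k T ht)
  | algebraMap l =>
    have := mul_coeffMap_mem_spanImage φ (adjoin k T) l (one_mem _)
    rwa [map_one, mul_one] at this
  | add x y _ _ hx hy => exact add_mem hx hy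
  | mul x y _ _ hx hy => exact mul_mem_spanImage φ _ hx hy

open scoped IntermediateField.algebraAdjoinAdjoin in
/-- **Linear independence is preserved by base change of the constants.** -/
theorem linearIndependent_coeffMap (T : Set (LaurentSeries k)) {m : ℕ}
    (c : Fin m → LaurentSeries k) (hli : LinearIndependent ↥(adjoin k T) c) :
    LinearIndependent ↥(adjoin κ (⇑(coeffMap φ) '' T)) (fun i => coeffMap φ (c i)) := by
  rw [← LinearIndependent.iff_fractionRing (Algebra.adjoin κ (⇑(coeffMap φ) '' T))
    (adjoin κ (⇑(coeffMap φ) '' T))]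
  rw [Fintype.linearIndependent_iff]
  intro g hg i
  have h0 : ∑ i, ((g i : ↥(Algebra.adjoin κ (⇑(coeffMap φ) '' T))) : LaurentSeries κ) *
      coeffMap φ (c i) = 0 := by
    rw [← hg]
    refine Finset.sum_congr rfl fun i _ => ?_
    rw [Algebra.smul_def]
    rfl
  have := eq_zero_of_sum_mul_coeffMap_eq_zero φ (adjoin k T) c hli
    (fun i => ((g i : ↥(Algebra.adjoin κ (⇑(coeffMap φ) '' T))) : LaurentSeries κ))
    (fun i => algebraAdjoin_le_spanImage φ T (g i).2) h0 i
  exact Subtype.ext this

/-- **Base change of the constants preserves degrees.** -/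
theorem relfinrank_coeffMap_eq (T S : Set (LaurentSeries k)) (hTS : adjoin k T ≤ adjoin k S)
    (hfin : relfinrank (adjoin k T) (adjoin k S) ≠ 0) :
    relfinrank (adjoin κ (⇑(coeffMap φ) '' T)) (adjoin κ (⇑(coeffMap φ) '' S)) =
      relfinrank (adjoin k T) (adjoin k S) := by
  have hTS' : adjoin κ (⇑(coeffMap φ) '' T) ≤ adjoin κ (⇑(coeffMap φ) '' S) := by
    rw [adjoin_le_iff]
    rintro _ ⟨t, ht, rfl⟩
    exact map_mem_adjoin φ (coeffMap φ) (coeffMap_algebraMap' φ) S (hTS (subset_adjoin k T ht))
  have hbound : ∀ (n : ℕ) (c : Fin n → LaurentSeries κ),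
      (∀ i, c i ∈ adjoin κ (⇑(coeffMap φ) '' S)) →
      LinearIndependent ↥(adjoin κ (⇑(coeffMap φ) '' T)) c →
      n ≤ relfinrank (adjoin k T) (adjoin k S) := fun n c hc hli =>
    family_bound_map φ (coeffMap φ) (coeffMap_algebraMap' φ) T S hTS _
      (fun n c hc hli => FamilyForm20.le_relfinrank_of_family hTS n hfin c hc hli) n c hc hli
  apply le_antisymm
  · exact FamilyForm20.relfinrank_le_of_family_bound hTS' _ hbound
  · obtain ⟨c, hc, hli⟩ := FamilyForm20.exists_basis_family hTS
    refine FamilyForm20.le_relfinrank_of_family hTS' _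
      (relfinrank_ne_zero_of_family_bound hTS' _ hbound) (fun i => coeffMap φ (c i)) ?_ ?_
    · intro i
      exact map_mem_adjoin φ (coeffMap φ) (coeffMap_algebraMap' φ) S (hc i)
    · exact linearIndependent_coeffMap φ T c hli

end Series

end Fermat.Agent.DS.G.ES.RED.LinDisjoint
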