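/-
Programme DS (S48), chapter G-ESRED, brick E07 (helper55): generic twin of `ES/RED/SpecialDegree25`
= the DEGREE half of (MA4) for a generator datum `D : GenData`:

  `[D.FC k : k(t̃)] = [D.Fbar : Qbar(t)]`,  `k = ResidueField A`, `t = tq · n e` the Hauptmodul.

For `X₀(M)` both sides were pinned to `ψ(M)` by the modular-polynomial theorems (sandwich).  For a
general datum the constant-field base changes `K → Qbar`, `Res (A ∩ K) → Res A` preserve degrees
UNCONDITIONALLY (`LinDisjoint.relfinrank_coeffMap_eq`), and the Gauss step needs exactly the Igusa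
inputs of chapter IGU at the Hauptmodul `t`, packaged as `IgusaStep D n e A`: for all large number
fields `K`, with `O = A ∩ K`, `E = D.FC K`:
  (GB2)  `resField O E ≤ D.FC (Res O)`,   (FIN) `[E : K(t)] ≠ 0`,   (IRR) `Irr O E t [E : K(t)]`.

* `baseChange_degrees` (generic): base change of constants `φ : k → κ` preserves `[D.FC · : ·(t)]`;
* `gauss_degrees` (generic DVR `O ⊂ K`): `[F̃_κ : κ(t̃)] = [F_K : K(t)]` ((LI) + (IRR) + (GB2));
* `relfinrank_tq_residueField` : the concrete statement;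
* `finite_separable_FC_over_tq` : the separability half.
-/
import Mathlib
import Fermat.Agent.DS.G.ES.RED.GaussUnit25
import Fermat.Agent.DS.G.ES.RED.LinDisjoint
import Fermat.Agent.RED.BASE.TBridge15
import Fermat.Agent.RED.BASE.JInKt25
import Fermat.Agent.RED.PUR.SepLaurent25
import Fermat.Agent.RED.PUR.TqOrder26
import Fermat.Agent.RED.PUR.GaussDeg25
import Fermat.Agent.RED.PUR.G1Package8

set_option autoImplicit false
set_option linter.style.haveILetI false
set_option linter.unusedSectionVars false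

noncomputable section

open HahnSeries ModularCurve IntermediateField

namespace Fermat.Agent.DS.G.ES.RED.SpecialDegree25

open Fermat.Agent.DS.G.ES.RED.Iface Fermat.Agent.DS.G.ES.RED.GaussUnit25
open Fermat.Agent.RED.PUR.GaussGen8 Fermat.Agent.RED.PUR.KtGauss8 Fermat.Agent.RED.PUR.G1Package8
open Fermat.Agent.RED.PUR.GaussBridge10
open Fermat.Agent.RED.PUR Fermat.Agent.IG.PR

section BaseChange

variable (D : GenData) {k κ : Type*} [Field k] [Field κ] (φ : k →+* κ)

/-- **Base change of constants** for a tower `k(j) ⊂ k(t) ⊂ D.FC k`: unconditional. -/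
theorem baseChange_degrees (t : LaurentSeries k) (htE : t ∈ D.FC k) (hjt : jqModC k ∈ k⟮t⟯)
    (hfin : relfinrank k⟮t⟯ (D.FC k) ≠ 0) :
    coeffMap φ t ∈ D.FC κ ∧ jqModC κ ∈ κ⟮coeffMap φ t⟯ ∧
    relfinrank κ⟮coeffMap φ t⟯ (D.FC κ) = relfinrank k⟮t⟯ (D.FC k) := by
  have hΦ := LinDisjoint.coeffMap_algebraMap' φ
  have ht'E : coeffMap φ t ∈ D.FC κ := D.coeffMap_mem_FC φ htE
  have hjt' : jqModC κ ∈ κ⟮coeffMap φ t⟯ := by
    have := LinDisjoint.map_mem_adjoin φ (coeffMap φ) hΦ {t} hjt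
    rwa [Set.image_singleton, coeffMap_jqModC] at this
  refine ⟨ht'E, hjt', ?_⟩
  have h2 : adjoin k {t} ≤ adjoin k (D.gensC k) := adjoin_simple_le_iff.mpr htE
  have := LinDisjoint.relfinrank_coeffMap_eq φ {t} (D.gensC k) h2 hfin
  rwa [Set.image_singleton, D.image_gensC φ] at this

end BaseChange

section Gauss

variable (D : GenData) {K : Type*} [Field K] (O : ValuationSubring K)
  [IsDiscreteValuationRing ↥O] {π : ↥O}

/-- `j` in the Gauss ring. -/
def jG : ↥(gaussRing O) := ⟨jqModC K, by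
  have := gen_mem_gaussRing O (jqModC ℤ)
  rwa [coeffMap_jqModC] at this⟩

theorem coe_jG : ((jG O : ↥(gaussRing O)) : LaurentSeries K) = jqModC K := rfl

theorem gaussRed_jG : gaussRed O (jG O) = jqModC (Res O) := by
  have h := gaussRed_gen O (jqModC ℤ)
  have h2 : (jG O) = ⟨coeffMap (Int.castRingHom K) (jqModC ℤ), gen_mem_gaussRing O (jqModC ℤ)⟩ :=
    Subtype.ext (coeffMap_jqModC (Int.castRingHom K)).symm
  rw [h2, h, coeffMap_jqModC]

/-- **Degrees under the Gauss reduction**: `[F̃_κ : κ(t̃)] = [F_K : K(t)]`, from (GB2), finiteness and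
(IRR) at `t`. -/
theorem gauss_degrees (hπ : Irreducible π) (tG : ↥(gaussRing O))
    (htE : (tG : LaurentSeries K) ∈ D.FC K)
    (hjt : jqModC K ∈ Kt O tG) (htr : Transcendental (Res O) (gaussRed O tG))
    (hGB2 : resField O (D.FC K) ≤ D.FC (Res O))
    (hn0 : relfinrank (Kt O tG) (D.FC K) ≠ 0)
    (hirr : Irr O (D.FC K) tG (relfinrank (Kt O tG) (D.FC K))) :
    gaussRed O tG ∈ D.FC (Res O) ∧ jqModC (Res O) ∈ kt O tG ∧
    relfinrank (kt O tG) (D.FC (Res O)) = relfinrank (Kt O tG) (D.FC K) := by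
  have ht'E : gaussRed O tG ∈ D.FC (Res O) := hGB2 ⟨tG, tG.2, htE, rfl⟩
  have hjt' : jqModC (Res O) ∈ kt O tG := by
    have := gaussRed_mem_kt hπ htr hjt (jG O).2
    rwa [show (⟨jqModC K, (jG O).2⟩ : ↥(gaussRing O)) = jG O from rfl, gaussRed_jG] at this
  refine ⟨ht'E, hjt', ?_⟩
  obtain ⟨b, hbE, hbli⟩ := hirr
  have hTF : Kt O tG ≤ D.FC K := adjoin_simple_le_iff.mpr htE
  have hTF' : kt O tG ≤ D.FC (Res O) := adjoin_simple_le_iff.mpr ht'E
  -- every residually independent family lifts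
  have hbound : ∀ (m : ℕ) (c : Fin m → LaurentSeries (Res O)), (∀ i, c i ∈ D.FC (Res O)) →
      LinearIndependent ↥(kt O tG) c → m ≤ relfinrank (Kt O tG) (D.FC K) := by
    intro m c hc hli
    have hres : ∀ i, ∃ x : ↥(gaussRing O),
        (x : LaurentSeries K) ∈ D.FC K ∧ gaussRed O x = c i := by
      intro i
      obtain ⟨f, hf, hfE, hfy⟩ := FC_le_resField D O (hc i)
      exact ⟨⟨f, hf⟩, hfE, hfy⟩
    choose x hxE hx using hres
    have hliK := GaussDeg25.linearIndependent_of_gaussRed hπ htr x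
      (by
        have : (fun i => gaussRed O (x i)) = c := funext hx
        rw [this]; exact hli)
    exact FamilyForm20.le_relfinrank_of_family hTF m hn0 _ hxE hliK
  have hn'0 : relfinrank (kt O tG) (D.FC (Res O)) ≠ 0 :=
    LinDisjoint.relfinrank_ne_zero_of_family_bound hTF' _ hbound
  apply le_antisymm
  · exact FamilyForm20.relfinrank_le_of_family_bound hTF' _ hbound
  · -- (IRR)
    refine FamilyForm20.le_relfinrank_of_family hTF' _ hn'0 (fun i => gaussRed O (b i)) ?_ hbli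
    intro i
    exact hGB2 ⟨b i, (b i).2, hbE i, rfl⟩

end Gauss

section Separable

/-- A finite extension `E / k(x)` inside `k((q))` is finite-dimensional and separable when `x` has
order `-1` (`k` perfect of characteristic `ℓ`). -/
theorem finite_and_separable_of_order {k : Type*} [Field k] (ℓ : ℕ) [Fact ℓ.Prime] [CharP k ℓ]
    [PerfectField k] {x : LaurentSeries k} (hx : x.order = -1)
    (E : IntermediateField k (LaurentSeries k)) (h : k⟮x⟯ ≤ E) (hfin : relfinrank k⟮x⟯ E ≠ 0) :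
    FiniteDimensional ↥(k⟮x⟯) ↥(extendScalars h) ∧
      Algebra.IsSeparable ↥(k⟮x⟯) ↥(extendScalars h) := by
  rw [relfinrank_eq_finrank_of_le h] at hfin
  haveI : Module.Free ↥(k⟮x⟯) ↥(extendScalars h) := Module.Free.of_divisionRing _ _
  have hfd : FiniteDimensional ↥(k⟮x⟯) ↥(extendScalars h) :=
    Module.finite_of_finrank_pos (Nat.pos_of_ne_zero hfin)
  haveI : Algebra.IsAlgebraic ↥(k⟮x⟯) ↥(extendScalars h) := Algebra.IsAlgebraic.of_finite _ _
  refine ⟨hfd, ?_⟩
  have hx0 : x ≠ 0 := by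
    rintro rfl
    rw [HahnSeries.order_zero] at hx
    omega
  have hcop : IsCoprime x.order (ℓ : ℤ) := by
    rw [hx]
    exact (isCoprime_one_left (x := (ℓ : ℤ))).neg_left
  exact SepLaurent25.isSeparable_intermediateField ℓ hx0 hcop (extendScalars h)

end Separable

section Concrete

open Fermat.Agent.RED.Interface4 Fermat.Agent.RED.DESC.NumberFieldDVR27
open Fermat.Agent.RED.BASE Fermat.Agent.RED.BASE.EtaQuot12 Fermat.Agent.RED.DESC

variable (D : GenData)

/-- **(T1)** if `tq ℚbar n e ∈ D.Fbar` then `tq K n e ∈ D.FC K` for every number field `K ⊂ ℚbar`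
containing a suitable number field `K₁`. -/
theorem exists_tq_mem (n e : ℕ) [NeZero n] (h : tq Qbar n e ∈ D.Fbar) :
    ∃ K₁ : IntermediateField ℚ Qbar, FiniteDimensional ℚ K₁ ∧
      ∀ K : IntermediateField ℚ Qbar, K₁ ≤ K → tq ↥K n e ∈ D.FC ↥K := by
  have : Algebra.IsAlgebraic ℚ Qbar := AlgebraicClosure.isAlgebraic ℚ
  obtain ⟨K₁, -, hfin, x', hx', hx⟩ :=
    CoeffDescent1.exists_finite_descent (F₀ := D.FQ) (⊥ : IntermediateField ℚ Qbar) h
  refine ⟨K₁, hfin, fun K hK => ?_⟩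
  obtain ⟨x'', hx'', h''⟩ := CoeffDescent1.exists_lift_of_le hK hx'
  have hcm : coeffMap (algebraMap ↥K Qbar) x'' = coeffMap (algebraMap ↥K Qbar) (tq ↥K n e) := by
    rw [h'', hx, coeffMap_tq]
  have : x'' = tq ↥K n e := CoeffDescent1.coeffMap_injective (algebraMap ↥K Qbar) hcm
  rw [← this, ← FKG_eq]
  exact hx''

/-- **The Igusa inputs at the Hauptmodul `t = tq · n e`**, over all large number fields `K`
(`O = A ∩ K`, `E = D.FC K = K·F`): (GB2) the residue field of the Gauss valuation on `E` is generated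
by the reductions of the generators; `E / K(t)` is finite; (IRR) the residue degree over `κ(t̃)` is
the full degree `[E : K(t)]`.  This is the output of chapter IGU (`degLe_irr` + GB2). -/
def IgusaStep (n e : ℕ) [NeZero n] (A : ValuationSubring Qbar) : Prop :=
  ∃ K₀ : IntermediateField ℚ Qbar, FiniteDimensional ℚ K₀ ∧
    ∀ K : IntermediateField ℚ Qbar, FiniteDimensional ℚ K → K₀ ≤ K →
      resField (AK A K) (D.FC ↥K) ≤ D.FC (Res (AK A K)) ∧
      relfinrank (Kt (AK A K) (TBridge15.tG (AK A K) n e)) (D.FC ↥K) ≠ 0 ∧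
      Irr (AK A K) (D.FC ↥K) (TBridge15.tG (AK A K) n e)
        (relfinrank (Kt (AK A K) (TBridge15.tG (AK A K) n e)) (D.FC ↥K))

variable {D} in
/-- the (GB2) part of the Igusa inputs. -/
theorem IgusaStep.gb2Step {n e : ℕ} [NeZero n] {A : ValuationSubring Qbar}
    (h : IgusaStep D n e A) : GB2Step D A := by
  obtain ⟨K₀, hfin, hK₀⟩ := h
  exact ⟨K₀, hfin, fun K hK hle => (hK₀ K hK hle).1⟩

/-- **(MA4), degree half.**  For `A` over `ℓ`, `k = ResidueField A`, `t = tq · n e` a Hauptmodul at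
level `n` (BASE: `TGenBase n e`) lying in `D.Fbar`, and the Igusa inputs `IgusaStep D n e A`:
`t̃ ∈ D.FC k`, `j̃ ∈ k(t̃)`, and `[D.FC k : k(t̃)] = [D.Fbar : Qbar(t)]`. -/
theorem relfinrank_tq_residueField (n e : ℕ) [NeZero n] (ℓ : ℕ) [Fact ℓ.Prime]
    (hmem : tq Qbar n e ∈ D.Fbar) (hgen : Interface12.TGenBase n e)
    (A : ValuationSubring Qbar) (hA : A.LiesOverPrime ℓ) (hig : IgusaStep D n e A) :
    tq (IsLocalRing.ResidueField ↥A) n e ∈ D.FC (IsLocalRing.ResidueField ↥A) ∧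
    jqModC (IsLocalRing.ResidueField ↥A) ∈
        (IsLocalRing.ResidueField ↥A)⟮tq (IsLocalRing.ResidueField ↥A) n e⟯ ∧
    relfinrank (IsLocalRing.ResidueField ↥A)⟮tq (IsLocalRing.ResidueField ↥A) n e⟯
        (D.FC (IsLocalRing.ResidueField ↥A)) =
      relfinrank Qbar⟮tq Qbar n e⟯ D.Fbar ∧
    relfinrank Qbar⟮tq Qbar n e⟯ D.Fbar ≠ 0 := by
  obtain ⟨K₁, hfin₁, hK₁⟩ := exists_tq_mem D n e hmem
  obtain ⟨K₂, hfin₂, hK₂⟩ := JInKt25.exists_j_mem_adjoin (n := n) (e := e) hgen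
  obtain ⟨K₀, hfin₀, hK₀⟩ := hig
  haveI := hfin₁
  haveI := hfin₂
  haveI := hfin₀
  set K : IntermediateField ℚ Qbar := K₀ ⊔ (K₁ ⊔ K₂) with hK
  haveI : FiniteDimensional ℚ K := by rw [hK]; infer_instance
  have htK : tq ↥K n e ∈ D.FC ↥K := hK₁ K (le_sup_left.trans le_sup_right)
  have hjK : jqModC ↥K ∈ (↥K)⟮tq ↥K n e⟯ := hK₂ K (le_sup_right.trans le_sup_right)
  obtain ⟨hGB2, hn0, hirr⟩ := hK₀ K inferInstance le_sup_left
  haveI : IsDiscreteValuationRing ↥(AK A K) :=
    isDiscreteValuationRing_AK A K (Fact.out : ℓ.Prime).ne_zero hA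
  obtain ⟨π, hπ⟩ := IsDiscreteValuationRing.exists_irreducible ↥(AK A K)
  -- Gauss step
  obtain ⟨g1, g2, g3⟩ := gauss_degrees D (AK A K) hπ (TBridge15.tG (AK A K) n e) htK hjK
    (TBridge15.transcendental_gaussRed_tG (AK A K) n e) hGB2 hn0 hirr
  rw [TBridge15.gaussRed_tG] at g1
  have g2' : jqModC (Res (AK A K)) ∈ (Res (AK A K))⟮tq (Res (AK A K)) n e⟯ := by
    have := g2
    rwa [show kt (AK A K) (TBridge15.tG (AK A K) n e) =
      (Res (AK A K))⟮gaussRed (AK A K) (TBridge15.tG (AK A K) n e)⟯ from rfl,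
      TBridge15.gaussRed_tG] at this
  have hn0' : relfinrank (↥K)⟮tq ↥K n e⟯ (D.FC ↥K) ≠ 0 := hn0
  have g3' : relfinrank (Res (AK A K))⟮tq (Res (AK A K)) n e⟯ (D.FC (Res (AK A K))) =
      relfinrank (↥K)⟮tq ↥K n e⟯ (D.FC ↥K) := by
    have := g3
    rwa [show kt (AK A K) (TBridge15.tG (AK A K) n e) =
      (Res (AK A K))⟮gaussRed (AK A K) (TBridge15.tG (AK A K) n e)⟯ from rfl,
      TBridge15.gaussRed_tG] at this
  -- `K → Qbar`
  obtain ⟨-, -, b3⟩ := baseChange_degrees D (algebraMap ↥K Qbar) (tq ↥K n e) htK hjK hn0'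
  rw [coeffMap_tq] at b3
  -- `κ → k`
  obtain ⟨c1, c2, c3⟩ := baseChange_degrees D (resMap A K) (tq (Res (AK A K)) n e) g1 g2'
    (by rw [g3']; exact hn0')
  rw [coeffMap_tq] at c1 c2 c3
  have hbar : relfinrank Qbar⟮tq Qbar n e⟯ D.Fbar = relfinrank (↥K)⟮tq ↥K n e⟯ (D.FC ↥K) := by
    rw [D.Fbar_eq]; exact b3
  refine ⟨c1, c2, ?_, ?_⟩
  · rw [c3, g3', hbar]
  · rw [hbar]; exact hn0'

/-- **(MA4), separability half**, over any perfect field `k` of characteristic `ℓ`: if `t̃ ∈ D.FC k`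
and `[D.FC k : k(t̃)] ≠ 0` then `D.FC k / k(t̃)` is finite and separable. -/
theorem finite_separable_FC_over_tq {k : Type*} [Field k] (ℓ : ℕ) [Fact ℓ.Prime] [CharP k ℓ]
    [PerfectField k] (n e : ℕ) [NeZero n]
    (h : k⟮tq k n e⟯ ≤ D.FC k)
    (hfin : relfinrank k⟮tq k n e⟯ (D.FC k) ≠ 0) :
    FiniteDimensional ↥(k⟮tq k n e⟯) ↥(extendScalars h) ∧
      Algebra.IsSeparable ↥(k⟮tq k n e⟯) ↥(extendScalars h) :=
  finite_and_separable_of_order ℓ (Fermat.Agent.RED.PUR.TqOrder26.order_tq k n e) _ h hfin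

end Concrete

end Fermat.Agent.DS.G.ES.RED.SpecialDegree25
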