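/-
Programme DS (S48), chapter G-ESRED, brick E08 (helper55), complement of `GaussUnit25`:
**(GB2) from the degree bound in characteristic `ℓ`** (twin of the proof of
`ES/RED/GaussUnit25.resField_fullC_eq`).

For a DVR `O ⊂ K` with residue field `κ`, a generator datum `D`, `E = D.FC K`, `Ẽ = D.FC κ`:
if `[E : K(j)] = d ≠ 0` and `d ≤ [Ẽ : κ(j̃)]` then the residue field of the Gauss valuation on `E`
is `Ẽ`:  `resField O E ≤ Ẽ`  (an element of the residue field outside `Ẽ` would give `d + 1`
residually independent elements, hence `d + 1` elements of `E` independent over `K(j)`).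

So the Igusa chapter only has to deliver the BOUND `[E : K(j)] ≤ [κ(j̃, g̃ens) : κ(j̃)]`.
-/
import Mathlib
import Fermat.Agent.DS.G.ES.RED.SpecialDegree25

set_option autoImplicit false
set_option linter.style.haveILetI false

noncomputable section

open HahnSeries ModularCurve IntermediateField

namespace Fermat.Agent.DS.G.ES.RED.GB2OfDeg

open Fermat.Agent.DS.G.ES.RED.Iface Fermat.Agent.DS.G.ES.RED.GaussUnit25
open Fermat.Agent.DS.G.ES.RED.SpecialDegree25
open Fermat.Agent.RED.PUR.GaussGen8 Fermat.Agent.RED.PUR.KtGauss8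
open Fermat.Agent.RED.PUR.GaussBridge10
open Fermat.Agent.RED.PUR Fermat.Agent.IG.PR

variable (D : GenData) {K : Type*} [Field K] (O : ValuationSubring K)
  [IsDiscreteValuationRing ↥O] {π : ↥O}

/-- The subfield `κ(j̃)` of the residue side, in both spellings. -/
theorem kt_jG_eq : kt O (jG O) = (Res O)⟮jqModC (Res O)⟯ := by
  show (Res O)⟮gaussRed O (jG O)⟯ = _
  rw [gaussRed_jG]

/-- **(GB2) from the degree bound.** -/
theorem resField_FC_le_of_deg (hπ : Irreducible π)
    (hjtr : Transcendental (Res O) (jqModC (Res O)))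
    (d : ℕ) (hd0 : d ≠ 0)
    (hψ : relfinrank K⟮jqModC K⟯ (D.FC K) = d)
    (hψ' : d ≤ relfinrank (Res O)⟮jqModC (Res O)⟯ (D.FC (Res O))) :
    resField O (D.FC K) ≤ D.FC (Res O) := by
  classical
  intro y hy
  by_contra hny
  have hjtr' : Transcendental (Res O) (gaussRed O (jG O)) := by
    rw [gaussRed_jG]; exact hjtr
  have hψK : relfinrank (Kt O (jG O)) (D.FC K) = d := hψ
  have hψκ : d ≤ relfinrank (kt O (jG O)) (D.FC (Res O)) := by
    rw [kt_jG_eq]; exact hψ'
  have hle : kt O (jG O) ≤ D.FC (Res O) := by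
    rw [kt_jG_eq, adjoin_simple_le_iff]
    exact D.jqModC_mem_FC
  have hTF : Kt O (jG O) ≤ D.FC K := by
    rw [adjoin_simple_le_iff]
    exact D.jqModC_mem_FC
  -- `d` residually independent elements of `F̃`
  obtain ⟨c, hc, hli⟩ := FamilyForm20.exists_family_of_le_relfinrank hle d hψκ
  -- `y` is not in their span
  have hspan : ∀ z ∈ Submodule.span ↥(kt O (jG O)) (Set.range c), z ∈ D.FC (Res O) := by
    intro z hz
    induction hz using Submodule.span_induction with
    | mem z hz =>
      obtain ⟨i, rfl⟩ := hz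
      exact hc i
    | zero => exact zero_mem _
    | add z w _ _ hz hw => exact add_mem hz hw
    | smul a z _ hz =>
      rw [Algebra.smul_def]
      exact mul_mem (hle a.2) hz
  have hli' : LinearIndependent ↥(kt O (jG O)) (Fin.cons y c : Fin (d + 1) → _) := by
    rw [linearIndependent_finCons]
    exact ⟨hli, fun h => hny (hspan y h)⟩
  -- lift to the Gauss ring inside `F`
  have hres : ∀ i, ∃ b : ↥(gaussRing O), (b : LaurentSeries K) ∈ D.FC K ∧
      gaussRed O b = (Fin.cons y c : Fin (d + 1) → _) i := by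
    intro i
    have hi : (Fin.cons y c : Fin (d + 1) → _) i ∈ resField O (D.FC K) := by
      refine Fin.cases ?_ (fun j => ?_) i
      · simpa using hy
      · simpa using FC_le_resField D O (hc j)
    obtain ⟨f, hf, hfE, hfy⟩ := hi
    exact ⟨⟨f, hf⟩, hfE, hfy⟩
  choose b hbE hb using hres
  have hliK := GaussDeg25.linearIndependent_of_gaussRed hπ hjtr' b
    (by
      have : (fun i => gaussRed O (b i)) = (Fin.cons y c : Fin (d + 1) → _) := funext hb
      rw [this]
      exact hli')
  have := FamilyForm20.le_relfinrank_of_family hTF (d + 1) (by rw [hψK]; exact hd0)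
    _ hbE hliK
  rw [hψK] at this
  omega

/-- **(GB2)**, equality form. -/
theorem resField_FC_eq_of_deg (hπ : Irreducible π)
    (hjtr : Transcendental (Res O) (jqModC (Res O)))
    (d : ℕ) (hd0 : d ≠ 0)
    (hψ : relfinrank K⟮jqModC K⟯ (D.FC K) = d)
    (hψ' : d ≤ relfinrank (Res O)⟮jqModC (Res O)⟯ (D.FC (Res O))) :
    resField O (D.FC K) = D.FC (Res O) :=
  resField_FC_eq_of_le D O (resField_FC_le_of_deg D O hπ hjtr d hd0 hψ hψ')

end Fermat.Agent.DS.G.ES.RED.GB2OfDeg
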