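/-
Programme DS (S48), chapter G-ESRED / IGUSA, brick IGU-GB2-X1 (helper55), part 1:
**the RELATIVE Dedekind bound for residue fields of the Gauss valuation.**

`O ⊂ K` a DVR with uniformiser `π`, residue field `κ`; `E₀ ≤ E₁` subfields of `K((q))`;
`F₀' ≤ F'` subfields of `κ((q))` with `F₀' ≤ resField O E₀` (every element of `F₀'` lifts to a
Gauss-integral element of `E₀`), `F' ≤ resField O E₁`, `[F' : F₀'] < ∞`.
If `ρ i : E₁ → K((q))`, `i ∈ ι`, are ring homs which preserve Gauss-integrality, fix `π`, agree on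
`E₀`, and have pairwise distinct reductions on the elements of `E₁` with residue in `F'`, then

  `#ι ≤ [F' : F₀']`     (`card_le_relfinrank_of_conjugates`).

This is helper31's `ResGen31.resField_le_of_conjugates` with the base `K(t)` replaced by an arbitrary
subfield `E₀` whose residue field is under control (think `E₀ = K·F₀(M)`, `E₁ = K·F₁(M)`,
`ρ` = the diamond automorphisms): only the conjugates over `E₀` are needed.
-/
import Mathlib
import Fermat.Agent.DS.G.RED.Igusa.ResGen31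

set_option autoImplicit false
set_option linter.unusedSectionVars false

noncomputable section

namespace Fermat.Agent.DS.G.ES.RED.GB2Rel

open HahnSeries ModularCurve IntermediateField
open Fermat.Agent.RED.PUR.GaussGen8 Fermat.Agent.RED.PUR.KtGauss8
  Fermat.Agent.RED.PUR.G1Package8 Fermat.Agent.RED.PUR.GaussBridge10
  Fermat.Agent.RED.PUR Fermat.Agent.IG.PR
open Fermat.Agent.DS.G.RED.Igusa.ResGen31

variable {K : Type*} [Field K] {O : ValuationSubring K} [IsDiscreteValuationRing ↥O] {π : ↥O}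

/-- **Relative Dedekind bound.** -/
theorem card_le_relfinrank_of_conjugates (hπ : Irreducible π)
    (E0 E1 : IntermediateField K (LaurentSeries K)) (hE01 : E0 ≤ E1)
    (F0' F' : IntermediateField (Res O) (LaurentSeries (Res O))) (h0 : F0' ≤ F')
    (hF0 : F0' ≤ resField O E0) (hF'1 : F' ≤ resField O E1)
    (hr0 : relfinrank F0' F' ≠ 0)
    {ι : Type*} [Fintype ι]
    (ρ : ι → ↥E1 →+* LaurentSeries K)
    (hρg : ∀ i (x : ↥E1), (x : LaurentSeries K) ∈ gaussRing O → ρ i x ∈ gaussRing O)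
    (hρπ : ∀ i, ρ i (algebraMap K ↥E1 ((π : ↥O) : K)) =
      algebraMap K (LaurentSeries K) ((π : ↥O) : K))
    (hρ0 : ∀ i j (x : ↥E1), (x : LaurentSeries K) ∈ E0 → ρ i x = ρ j x)
    (hdist : ∀ i j, i ≠ j → ∃ (x : ↥E1) (hx : (x : LaurentSeries K) ∈ gaussRing O),
      gaussRed O ⟨(x : LaurentSeries K), hx⟩ ∈ F' ∧
        gaussRed O ⟨ρ i x, hρg i x hx⟩ ≠ gaussRed O ⟨ρ j x, hρg j x hx⟩) :
    Fintype.card ι ≤ relfinrank F0' F' := by
  classical
  have hu := isUnif_of_irreducible O hπ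
  have hex := FamilyForm20.exists_basis_family h0
  have hle_r : ∀ (m : ℕ) (c : Fin m → LaurentSeries (Res O)), (∀ i, c i ∈ F') →
      LinearIndependent ↥F0' c → m ≤ relfinrank F0' F' := fun m c hc hli =>
    FamilyForm20.le_relfinrank_of_family h0 m hr0 c hc hli
  generalize relfinrank F0' F' = r at hex hle_r
  obtain ⟨c, hc, hli⟩ := hex
  -- `c` spans `F'`
  have hspan : ∀ z ∈ F', ∃ a : Fin r → ↥F0', z = ∑ k, (a k : LaurentSeries (Res O)) * c k := by
    intro z hz
    have hzs : z ∈ Submodule.span ↥F0' (Set.range c) := by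
      by_contra hns
      have hli' : LinearIndependent ↥F0' (Fin.cons z c : Fin (r + 1) → _) := by
        rw [linearIndependent_finCons]
        exact ⟨hli, hns⟩
      have hmem : ∀ i, (Fin.cons z c : Fin (r + 1) → LaurentSeries (Res O)) i ∈ F' := by
        intro i
        refine Fin.cases ?_ (fun j => ?_) i
        · simpa using hz
        · simpa using hc j
      have := hle_r (r + 1) _ hmem hli'
      omega
    obtain ⟨a, ha⟩ := (Submodule.mem_span_range_iff_exists_fun _).mp hzs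
    refine ⟨a, ?_⟩
    rw [← ha]
    refine Finset.sum_congr rfl fun k _ => ?_
    rw [Algebra.smul_def]
    rfl
  rcases isEmpty_or_nonempty ι with hemp | ⟨⟨i0⟩⟩
  · rw [Fintype.card_eq_zero]
    exact Nat.zero_le _
  -- lifts of the basis
  have hlift : ∀ k, ∃ y : ↥(R1 (O := O) E1), red1 E1 y = c k := by
    intro k
    obtain ⟨f, hf, hfE, hfy⟩ := hF'1 (hc k)
    exact ⟨⟨⟨f, hfE⟩, hf⟩, hfy⟩
  choose y hy using hlift
  have hyF : ∀ k, y k ∈ R1F E1 F' := fun k => by
    rw [mem_R1F, hy k]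
    exact hc k
  let yG : Fin r → ↥(R1F E1 F') := fun k => ⟨y k, hyF k⟩
  let χ : ι → ↥(R1F E1 F') →* LaurentSeries (Res O) := fun i =>
    ((chi E1 (ρ i) (hρg i)).comp (R1F E1 F').subtype : ↥(R1F E1 F') →+* LaurentSeries (Res O))
  have hχ : ∀ i (x : ↥(R1F E1 F')), χ i x = chi E1 (ρ i) (hρg i) (x : ↥(R1 (O := O) E1)) :=
    fun _ _ => rfl
  have hinj : Function.Injective χ := by
    intro i j hij
    by_contra hne
    obtain ⟨x, hx, hxF, hxne⟩ := hdist i j hne
    let xG : ↥(R1F E1 F') := ⟨⟨x, hx⟩, hxF⟩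
    have := congrArg (fun f : ↥(R1F E1 F') →* LaurentSeries (Res O) => f xG) hij
    exact hxne this
  refine card_le_of_characters χ hinj r yG ?_
  intro x
  -- expand the residue of `x` in the basis
  obtain ⟨a, ha⟩ := hspan (red1 E1 (x : ↥(R1 (O := O) E1))) x.2
  have hlifta : ∀ k, ∃ c' : ↥(R1 (O := O) E1), ((c' : ↥E1) : LaurentSeries K) ∈ E0 ∧
      red1 E1 c' = (a k : LaurentSeries (Res O)) := by
    intro k
    obtain ⟨f, hf, hfE, hfy⟩ := hF0 (a k).2
    exact ⟨⟨⟨f, hE01 hfE⟩, hf⟩, hfE, hfy⟩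
  choose c' hc'E0 hc' using hlifta
  refine ⟨fun k => chi E1 (ρ i0) (hρg i0) (c' k), fun i => ?_⟩
  -- the difference has zero residue
  let z : ↥(R1 (O := O) E1) := (x : ↥(R1 (O := O) E1)) - ∑ k, c' k * y k
  have hz : red1 E1 z = 0 := by
    show red1 E1 ((x : ↥(R1 (O := O) E1)) - ∑ k, c' k * y k) = 0
    rw [map_sub, map_sum, ha, sub_eq_zero]
    refine Finset.sum_congr rfl fun k _ => ?_
    rw [map_mul, hc', hy]
  have hz0 := chi_eq_zero_of_red1_eq_zero E1 hu (ρ i) (hρg i) (hρπ i) z hz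
  have hz1 : chi E1 (ρ i) (hρg i) (x : ↥(R1 (O := O) E1)) =
      ∑ k, chi E1 (ρ i) (hρg i) (c' k) * chi E1 (ρ i) (hρg i) (y k) := by
    have : chi E1 (ρ i) (hρg i) ((x : ↥(R1 (O := O) E1)) - ∑ k, c' k * y k) = 0 := hz0
    rw [map_sub, map_sum, sub_eq_zero] at this
    rw [this]
    refine Finset.sum_congr rfl fun k _ => ?_
    rw [map_mul]
  rw [hχ, hz1]
  refine Finset.sum_congr rfl fun k _ => ?_
  have hck : chi E1 (ρ i) (hρg i) (c' k) = chi E1 (ρ i0) (hρg i0) (c' k) := by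
    rw [chi_apply, chi_apply]
    congr 1
    exact Subtype.ext (hρ0 i i0 _ (hc'E0 k))
  rw [hck]
  rfl

end Fermat.Agent.DS.G.ES.RED.GB2Rel
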