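/-
Programme DS (S48), chapter G-ESRED, brick E07/E08 glue (helper55).

`IgusaStep D n e A` (the Igusa inputs at the Hauptmodul `t = tq · n e`, consumed by
`SpecialDegree25.relfinrank_tq_residueField`) from the two deliverables of the Igusa chapter:

* `ModelMain4.GaussInputs D.FQ A`   ((DEG)+(IRR) for every admissible `t`, helper77), and
* `GaussUnit25.GB2Step D A`         ((GB2), the residue field of the Gauss valuation).

The number `n'` of `degLe_irr` is recovered as `[K·F : K(t)]`: `DegLe n'` gives `≤ n'` and finiteness,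
`Irr n'` + (LI) of `GaussDeg25` gives `≥ n'`.

Also the bridge of `GaussUnit25.integralPrincipalDivisorsFC` / `principalGeneratedByIntegral` to the
generic definitions `DS.G.RED.Defs.integralPrincipalDivisorsG`, `PrincipalGeneratedByIntegralG` of
helper28 (definitional).
-/
import Mathlib
import Fermat.Agent.DS.G.ES.RED.SpecialDegree25
import Fermat.Agent.DS.G.RED.ModelMain4
import Fermat.Agent.DS.G.RED.Defs

set_option autoImplicit false
set_option linter.style.haveILetI false

noncomputable section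

open HahnSeries ModularCurve IntermediateField

namespace Fermat.Agent.DS.G.ES.RED.IgusaStepOf

open Fermat.Agent.DS.G.ES.RED.Iface Fermat.Agent.DS.G.ES.RED.GaussUnit25
open Fermat.Agent.DS.G.ES.RED.SpecialDegree25
open Fermat.Agent.RED.PUR.GaussGen8 Fermat.Agent.RED.PUR.KtGauss8 Fermat.Agent.RED.PUR.G1Package8
open Fermat.Agent.RED.PUR.GaussBridge10
open Fermat.Agent.RED.PUR Fermat.Agent.IG.PR
open Fermat.Agent.RED.Interface4 Fermat.Agent.RED.DESC.NumberFieldDVR27
open Fermat.Agent.RED.BASE Fermat.Agent.RED.BASE.EtaQuot12 Fermat.Agent.RED.DESC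
open Fermat.Agent.DS.G.RED

section Generic

variable {K : Type*} [Field K] (O : ValuationSubring K) [IsDiscreteValuationRing ↥O] {π : ↥O}
  (E : IntermediateField K (LaurentSeries K)) (tG : ↥(gaussRing O))

/-- **The number of (DEG)+(IRR) is the degree.**  If `DegLe n'` and `Irr n'` hold for `t ∈ E` with
transcendental reduction then `[E : K(t)] = n'`. -/
theorem relfinrank_eq_of_degLe_irr (hπ : Irreducible π)
    (htE : (tG : LaurentSeries K) ∈ E) (htr : Transcendental (Res O) (gaussRed O tG))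
    (n' : ℕ) (hdeg : DegLe O E tG n') (hirr : Irr O E tG n') :
    relfinrank (Kt O tG) E = n' ∧ relfinrank (Kt O tG) E ≠ 0 := by
  have hTF : Kt O tG ≤ E := adjoin_simple_le_iff.mpr htE
  have hn0 : relfinrank (Kt O tG) E ≠ 0 :=
    LinDisjoint.relfinrank_ne_zero_of_family_bound hTF n' hdeg
  refine ⟨le_antisymm (FamilyForm20.relfinrank_le_of_family_bound hTF n' hdeg) ?_, hn0⟩
  obtain ⟨b, hbE, hbli⟩ := hirr
  have hliK := GaussDeg25.linearIndependent_of_gaussRed hπ htr b hbli
  exact FamilyForm20.le_relfinrank_of_family hTF n' hn0 _ hbE hliK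

end Generic

section Concrete

variable (D : GenData)

/-- **`IgusaStep` from `GaussInputs` + (GB2).** -/
theorem igusaStep_of_gaussInputs (n e : ℕ) [NeZero n] (ℓ : ℕ) [Fact ℓ.Prime]
    (A : ValuationSubring Qbar) (hA : A.LiesOverPrime ℓ)
    (hmem : tq Qbar n e ∈ D.Fbar) (hgen : Interface12.TGenBase n e)
    (hG : ModelMain4.GaussInputs D.FQ A) (hGB2 : GB2Step D A) : IgusaStep D n e A := by
  obtain ⟨K₁, hfin₁, hK₁⟩ := exists_tq_mem D n e hmem
  obtain ⟨K₂, hfin₂, hK₂⟩ := JInKt25.exists_j_mem_adjoin (n := n) (e := e) hgen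
  obtain ⟨K₃, hfin₃, hK₃⟩ := hG
  obtain ⟨K₄, hfin₄, hK₄⟩ := hGB2
  haveI := hfin₁
  haveI := hfin₂
  haveI := hfin₃
  haveI := hfin₄
  refine ⟨(K₁ ⊔ K₂) ⊔ (K₃ ⊔ K₄), inferInstance, fun K hKfd hle => ?_⟩
  have hle1 : K₁ ≤ K := (le_sup_left.trans le_sup_left).trans hle
  have hle2 : K₂ ≤ K := (le_sup_right.trans le_sup_left).trans hle
  have hle3 : K₃ ≤ K := (le_sup_left.trans le_sup_right).trans hle
  have hle4 : K₄ ≤ K := (le_sup_right.trans le_sup_right).trans hle
  have htK : tq ↥K n e ∈ D.FC ↥K := hK₁ K hle1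
  have hjK : jqModC ↥K ∈ (↥K)⟮tq ↥K n e⟯ := hK₂ K hle2
  have hGK := hK₃ K hKfd hle3
  have hgb2 := hK₄ K hKfd hle4
  haveI : IsDiscreteValuationRing ↥(AK A K) :=
    isDiscreteValuationRing_AK A K (Fact.out : ℓ.Prime).ne_zero hA
  obtain ⟨π, hπ⟩ := IsDiscreteValuationRing.exists_irreducible ↥(AK A K)
  have htr := TBridge15.transcendental_gaussRed_tG (AK A K) n e
  have hFK : ModelTargets4.FK D.FQ K = D.FC ↥K := FKG_eq D K
  have htK' : ((TBridge15.tG (AK A K) n e : ↥(gaussRing (AK A K))) : LaurentSeries ↥K) ∈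
      ModelTargets4.FK D.FQ K := by
    rw [hFK]; exact htK
  obtain ⟨n', -, hdeg, hirr⟩ := hGK.degLe_irr (TBridge15.tG (AK A K) n e) htK' hjK htr
  rw [hFK] at hdeg hirr
  obtain ⟨heq, hn0⟩ := relfinrank_eq_of_degLe_irr (AK A K) (D.FC ↥K) (TBridge15.tG (AK A K) n e)
    hπ htK htr n' hdeg hirr
  refine ⟨hgb2, hn0, ?_⟩
  rw [heq]
  exact hirr

end Concrete

section Bridge28

variable (D : GenData) (A : ValuationSubring Qbar)

/-- `integralPrincipalDivisorsFC` IS the generic set of `DS.G.RED.Defs` at `Ft = D.FC (Res A)`. -/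
theorem integralPrincipalDivisorsFC_eq :
    integralPrincipalDivisorsFC D A =
      Defs.integralPrincipalDivisorsG A (IsLocalRing.residue ↥A) D.FQ
        (D.FC (IsLocalRing.ResidueField ↥A)) :=
  rfl

/-- **(Rgen)** in the vocabulary of `DS.G.RED.Defs`. -/
theorem principalGeneratedByIntegralG (ℓ : ℕ) [Fact ℓ.Prime] (hA : A.LiesOverPrime ℓ)
    (hpd : AlgebraicCurve.HasPrincipalDivisors Qbar ↥D.Fbar) (hGB2 : GB2Step D A) :
    Defs.PrincipalGeneratedByIntegralG A (IsLocalRing.residue ↥A) D.FQ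
      (D.FC (IsLocalRing.ResidueField ↥A)) :=
  principalGeneratedByIntegral D A ℓ hA hpd hGB2

end Bridge28

end Fermat.Agent.DS.G.ES.RED.IgusaStepOf
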