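/-
Programme DS (S48), chapter G-ESRED / IGUSA, brick IGU-GB2-X1 (helper55), part 2:
**(GB2) for the generators of `X₁(M)/±`, by the RELATIVE diamond route.**

`E₀ = K(j(q^d) : d ∣ M) ≤ E = K(j(q^d), G_{a,b})`, `Ẽ₀ ≤ Ẽ` the fields generated by the reduced
generators over `κ`.  The degree of `Ẽ₀ / κ(j̃)` is `ψ(M)` (`DegBaseChange25`, the modular-polynomial
theorem in characteristic `ℓ ∤ M`); the degree of `Ẽ / Ẽ₀` is at least the number of diamond
automorphisms `δ_u` (`δ_u = id` on `E₀`, `δ_u G_{a,b} = G_{au,bu}`) with pairwise distinct reductions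
(`GB2Rel.card_le_relfinrank_of_conjugates`), and

* DistinctMod is ONE coefficient: for `v ≠ ± 1` the coefficient of `q` in `X_1 - X_v` is `1`, in
  `X_v - X_{v²}` it is `0` or `-1`; so `G_{1,v} ≢ G_{v,v²}` mod `ℓ` for every ODD `ℓ`
  (`gABC_one_ne`).  (For `ℓ = 2` (GB2) is false with these generators, e.g. `M = 5`.)
* the diamonds preserve Gauss-integrality because the Gauss valuation of `K(j)` has only one
  extension to `E` (`Abs51Uniq.mem_iff_of_trace`, from (DEG)+(IRR) at `t = j`): `stab_of_degLe_irr`.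

Then `[Ẽ : κ(j̃)] ≥ #T · ψ(M) ≥ [E : K(j)]` and `GB2OfDeg.resField_FC_le_of_deg` gives (GB2):
`resField_X1_le_of_dist` (one DVR, DistinctMod as a hypothesis), `resField_X1_le` (one DVR, residue
characteristic `ℓ ∤ M` with `ℓ ≠ 2 ∨ 6 ≤ M`, DistinctMod from helper31's `GabDistMod31.exists_gABC_ne`
/ `GabDistModAny31.exists_gABC_ne_any`), `gb2Step_X1gens` (`GB2Step (X1gens M) A`).

Inputs left to the instance layer: `HasDiamonds M u K` for all large number fields `K` (descent of the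
diamond automorphisms of chapter G-HECKE from `ℚbar` to `K`), and the numerical bound
`[K·F₁(M) : K(j)] ≤ #T · ψ(M)` (`= [SL₂(ℤ) : ±Γ₁(M)]`, `T = (ℤ/M)ˣ/±1`).
-/
import Mathlib
import Fermat.Agent.DS.G.ES.RED.GB2Rel
import Fermat.Agent.DS.G.ES.RED.GB2OfDeg
import Fermat.Agent.DS.G.ES.RED.IgusaStepOf
import Fermat.Agent.DS.G.RED.Igusa.Abs51Uniq
import Fermat.Agent.DS.X1.Level1
import Fermat.Agent.DS.X1.GabDistMod31
import Fermat.Agent.DS.X1.GabDistModAny31
import Fermat.Agent.RED.PUR.DegBaseChange25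
import Fermat.Agent.IG.VAL.OvBasics22

set_option autoImplicit false
set_option linter.style.haveILetI false
set_option linter.unusedSectionVars false

noncomputable section

open HahnSeries ModularCurve IntermediateField

namespace Fermat.Agent.DS.G.ES.RED.GB2X1

open Fermat.Agent.DS.G.ES.RED.Iface Fermat.Agent.DS.G.ES.RED.GaussUnit25
open Fermat.Agent.DS.G.ES.RED.SpecialDegree25
open Fermat.Agent.RED.PUR.GaussGen8 Fermat.Agent.RED.PUR.KtGauss8 Fermat.Agent.RED.PUR.G1Package8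
open Fermat.Agent.RED.PUR.GaussBridge10
open Fermat.Agent.RED.PUR Fermat.Agent.IG.PR
open Fermat.Agent.DS.X1.Level1
open Fermat.Agent.DS.G.RED.Igusa

/-! ### DistinctMod: one coefficient -/

section Distinct

variable (M : ℕ) [NeZero M]

theorem coeff_one_xAC (R : Type*) [CommRing R] (c : ZMod M) :
    PowerSeries.coeff 1 (xAC M R c) = ((cA M c 1 : ℤ) : R) := by
  rw [coeff_xAC, Nat.divisors_one, Finset.sum_singleton, Nat.div_self one_pos, Nat.cast_one,
    one_mul]

/-- **DistinctMod for the diamonds.** For `v ≠ ± 1` in `ℤ/M` (`M ≥ 3`) and every field `k` of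
characteristic `≠ 2`: `G_{1,v} ≠ G_{v,v²}` over `k`. -/
theorem gABC_one_ne {k : Type*} [Field k] (h2 : (2 : k) ≠ 0) (hM : 3 ≤ M) (v : ZMod M)
    (hv1 : v ≠ 1) (hv2 : v ≠ -1) : gABC M k 1 v ≠ gABC M k v (v * v) := by
  haveI : Fact (2 < M) := ⟨hM⟩
  haveI : Fact (1 < M) := ⟨by omega⟩
  intro h
  unfold gABC at h
  have h1 := mul_left_cancel₀ (wMC_ne_zero k M) h
  have h2' := HahnSeries.ofPowerSeries_injective h1
  have h3 := congrArg (PowerSeries.coeff 1) h2'
  rw [map_sub, map_sub, coeff_one_xAC, coeff_one_xAC, coeff_one_xAC] at h3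
  have hne : (1 : ZMod M) ≠ -1 := fun h => ZMod.neg_one_ne_one h.symm
  have e1 : cA M 1 1 = 1 := by
    unfold cA
    rw [Nat.cast_one, if_pos rfl, if_neg hne, if_neg one_ne_zero]
    ring
  have ev : cA M v 1 = 0 := by
    unfold cA
    rw [Nat.cast_one, if_neg (fun h => hv1 h.symm),
      if_neg (fun h => hv2 (by rw [h, neg_neg])), if_neg one_ne_zero]
    ring
  rw [e1, ev] at h3
  unfold cA at h3
  rw [Nat.cast_one, if_neg (one_ne_zero (α := ZMod M))] at h3
  by_cases hA : (1 : ZMod M) = v * v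
  · by_cases hB : (1 : ZMod M) = -(v * v)
    · exact hne (hB.trans (by rw [← hA]))
    · rw [if_pos hA, if_neg hB] at h3
      push_cast at h3
      apply h2
      linear_combination h3
  · by_cases hB : (1 : ZMod M) = -(v * v)
    · rw [if_neg hA, if_pos hB] at h3
      push_cast at h3
      apply h2
      linear_combination h3
    · rw [if_neg hA, if_neg hB] at h3
      push_cast at h3
      apply one_ne_zero (α := k)
      linear_combination h3

end Distinct

/-! ### the generators `G_{a,b}` in the Gauss ring -/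

section GaussGens

variable {K : Type*} [Field K] (O : ValuationSubring K) (M : ℕ) [NeZero M]

theorem gABC_mem_gaussRing (a b : ZMod M) : gABC M K a b ∈ gaussRing O := by
  have := gen_mem_gaussRing O (gAB M a b)
  rwa [coeffMap_gABC] at this

theorem gaussRed_gABC (a b : ZMod M) (f : LaurentSeries K) (hf : f ∈ gaussRing O)
    (h : f = gABC M K a b) : gaussRed O ⟨f, hf⟩ = gABC M (Res O) a b := by
  subst h
  have h1 : (⟨gABC M K a b, hf⟩ : ↥(gaussRing O)) =
      ⟨coeffMap (Int.castRingHom K) (gAB M a b), gen_mem_gaussRing O _⟩ :=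
    Subtype.ext (coeffMap_gABC M _ a b).symm
  rw [h1, gaussRed_gen, coeffMap_gABC]

end GaussGens

/-! ### stability of the Gauss ring under automorphisms over `K(t)` -/

section Stab

variable {K : Type*} [Field K] {O : ValuationSubring K} [IsDiscreteValuationRing ↥O] {π : ↥O}
  {E : IntermediateField K (LaurentSeries K)} {tG : ↥(gaussRing O)}

/-- **(DEG)+(IRR) ⇒ every ring endomorphism of `E` over `K(t)` preserves Gauss-integrality**
(the Gauss valuation of `K(t)` has only one extension to `E`). -/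
theorem stab_of_degLe_irr (hπ : Irreducible π) (hE : E ≤ fracField O)
    (htr : Transcendental (Res O) (gaussRed O tG)) (htE : (tG : LaurentSeries K) ∈ E) {n : ℕ}
    (hdeg : DegLe O E tG n) (hirr : Irr O E tG n) (δ : ↥E →+* ↥E)
    (hfix : ∀ x : ↥E, (x : LaurentSeries K) ∈ Kt O tG → δ x = x) (x : ↥E) :
    ((δ x : ↥E) : LaurentSeries K) ∈ gaussRing O ↔ (x : LaurentSeries K) ∈ gaussRing O := by
  have h := Abs51Uniq.mem_iff_of_trace hπ hE htr htE hdeg hirr ((OvE O hπ E hE).comap δ)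
    (fun y hy => by
      rw [ValuationSubring.mem_comap, hfix y hy, mem_OvE_iff]) x
  rw [ValuationSubring.mem_comap, mem_OvE_iff] at h
  exact h

end Stab

/-! ### the main theorem at one DVR -/

/-- **Diamond automorphisms over `K`**: ring endomorphisms `δ t` of `K·F₁(M)` which are the identity
on `K·F₀(M)` and satisfy the diamond law `δ t (G_{a,b}) = G_{a u_t, b u_t}`. -/
def HasDiamonds (M : ℕ) [NeZero M] {T : Type*} (u : T → (ZMod M)ˣ) (K : Type*) [Field K] : Prop :=
  ∃ δ : T → ↥((X1gens M).FC K) →+* ↥((X1gens M).FC K),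
    (∀ t (x : ↥((X1gens M).FC K)), (x : LaurentSeries K) ∈ (X0gens M).FC K → δ t x = x) ∧
    ∀ t (a b : ZMod M) (ha : a ≠ 0) (hb : b ≠ 0),
      ((δ t ⟨gABC M K a b, gABC_mem_FC M K ha hb⟩ : ↥((X1gens M).FC K)) : LaurentSeries K) =
        gABC M K (a * (u t : ZMod M)) (b * (u t : ZMod M))

section Main

variable {K : Type} [Field K] (O : ValuationSubring K) [IsDiscreteValuationRing ↥O] {π : ↥O}
  (M : ℕ) [NeZero M]

/-- **(GB2) for `X₁(M)/±` at one DVR**, DistinctMod at `∞` as a hypothesis. -/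
theorem resField_X1_le_of_dist (hπ : Irreducible π) (ℓ : ℕ) [Fact ℓ.Prime] [CharP (Res O) ℓ]
    (hℓM : ¬ ℓ ∣ M)
    (hE : (X1gens M).FC K ≤ fracField O) (n : ℕ)
    (hdeg : DegLe O ((X1gens M).FC K) (jG O) n) (hirr : Irr O ((X1gens M).FC K) (jG O) n)
    {T : Type*} [Fintype T] (u : T → (ZMod M)ˣ)
    (hdistκ : ∀ s t, s ≠ t → ∃ a b : ZMod M, a ≠ 0 ∧ b ≠ 0 ∧
      gABC M (Res O) (a * (u s : ZMod M)) (b * (u s : ZMod M)) ≠
        gABC M (Res O) (a * (u t : ZMod M)) (b * (u t : ZMod M)))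
    (hdia : HasDiamonds M u K)
    (hN : n ≤ Fintype.card T * dedekindPsi M) :
    resField O ((X1gens M).FC K) ≤ (X1gens M).FC (Res O) := by
  classical
  obtain ⟨δ, hδ0, hδg⟩ := hdia
  have hjtr : Transcendental (Res O) (jqModC (Res O)) :=
    Fermat.Agent.IG.VAL.OvBasics22.transcendental_jqModC (Res O)
  have htr : Transcendental (Res O) (gaussRed O (jG O)) := by
    rw [gaussRed_jG]; exact hjtr
  have htE : ((jG O : ↥(gaussRing O)) : LaurentSeries K) ∈ (X1gens M).FC K :=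
    (X1gens M).jqModC_mem_FC
  have hE01 : (X0gens M).FC K ≤ (X1gens M).FC K := FC_X0_le M K
  have hF01 : (X0gens M).FC (Res O) ≤ (X1gens M).FC (Res O) := FC_X0_le M (Res O)
  -- the degree in characteristic `0`
  obtain ⟨hNeq, hN0⟩ := IgusaStepOf.relfinrank_eq_of_degLe_irr O ((X1gens M).FC K) (jG O) hπ htE htr
    n hdeg hirr
  have hn0 : n ≠ 0 := by rw [← hNeq]; exact hN0
  -- the diamonds preserve the Gauss ring
  have hKt0 : Kt O (jG O) ≤ (X0gens M).FC K :=
    adjoin_simple_le_iff.mpr (X0gens M).jqModC_mem_FC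
  have hstab : ∀ t (x : ↥((X1gens M).FC K)), (x : LaurentSeries K) ∈ gaussRing O →
      ((δ t x : ↥((X1gens M).FC K)) : LaurentSeries K) ∈ gaussRing O := fun t x hx =>
    (stab_of_degLe_irr hπ hE htr htE hdeg hirr (δ t)
      (fun y hy => hδ0 t y (hKt0 hy)) x).mpr hx
  -- finiteness on the residue side
  have hkt : kt O (jG O) = (Res O)⟮jqModC (Res O)⟯ := GB2OfDeg.kt_jG_eq O
  have h1 : (Res O)⟮jqModC (Res O)⟯ ≤ (X0gens M).FC (Res O) :=
    adjoin_simple_le_iff.mpr (X0gens M).jqModC_mem_FC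
  have hle : kt O (jG O) ≤ (X1gens M).FC (Res O) := by
    rw [hkt]; exact h1.trans hF01
  have hubF : ∀ (m : ℕ) (c : Fin m → LaurentSeries (Res O)), (∀ i, c i ∈ (X1gens M).FC (Res O)) →
      LinearIndependent ↥(kt O (jG O)) c → m ≤ n := fun m c hc hli =>
    ResGen31.resField_family_bound ((X1gens M).FC K) hπ (jG O) htr n hdeg m c
      (fun i => FC_le_resField (X1gens M) O (hc i)) hli
  have hfin : relfinrank (kt O (jG O)) ((X1gens M).FC (Res O)) ≠ 0 :=
    LinDisjoint.relfinrank_ne_zero_of_family_bound hle n hubF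
  rw [hkt] at hfin
  have hmul := relfinrank_mul_relfinrank h1 hF01
  have hr0 : relfinrank ((X0gens M).FC (Res O)) ((X1gens M).FC (Res O)) ≠ 0 := by
    intro h0
    rw [h0, mul_zero] at hmul
    exact hfin hmul.symm
  have hψ₀ : relfinrank (Res O)⟮jqModC (Res O)⟯ ((X0gens M).FC (Res O)) = dedekindPsi M := by
    rw [X0gens_FC]
    exact DegBaseChange25.relfinrank_fullC_eq_psi_of_charP ℓ (Res O) M hℓM
  -- the relative Dedekind bound
  have hcard : Fintype.card T ≤
      relfinrank ((X0gens M).FC (Res O)) ((X1gens M).FC (Res O)) := by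
    refine GB2Rel.card_le_relfinrank_of_conjugates hπ ((X0gens M).FC K) ((X1gens M).FC K) hE01
      ((X0gens M).FC (Res O)) ((X1gens M).FC (Res O)) hF01 (FC_le_resField (X0gens M) O)
      (FC_le_resField (X1gens M) O) hr0
      (fun t => ((X1gens M).FC K).val.toRingHom.comp (δ t)) (fun t x hx => hstab t x hx)
      (fun t => ?_) (fun s t x hx => ?_) (fun s t hst => ?_)
    · -- `π` is fixed
      have hmem : ((algebraMap K ↥((X1gens M).FC K) ((π : ↥O) : K) : ↥((X1gens M).FC K)) :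
          LaurentSeries K) ∈ (X0gens M).FC K := ((X0gens M).FC K).algebraMap_mem _
      show ((δ t (algebraMap K ↥((X1gens M).FC K) ((π : ↥O) : K)) : ↥((X1gens M).FC K)) :
        LaurentSeries K) = _
      rw [hδ0 t _ hmem]
      rfl
    · -- agreement on `E₀`
      show ((δ s x : ↥((X1gens M).FC K)) : LaurentSeries K) =
        ((δ t x : ↥((X1gens M).FC K)) : LaurentSeries K)
      rw [hδ0 s x hx, hδ0 t x hx]
    · -- DistinctMod
      obtain ⟨a, b, ha, hb, hne⟩ := hdistκ s t hst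
      refine ⟨⟨gABC M K a b, gABC_mem_FC M K ha hb⟩, gABC_mem_gaussRing O M _ _, ?_, ?_⟩
      · rw [gaussRed_gABC O M _ _ _ _ rfl]
        exact gABC_mem_FC M (Res O) ha hb
      · have es : ((((X1gens M).FC K).val.toRingHom.comp (δ s))
            ⟨gABC M K a b, gABC_mem_FC M K ha hb⟩ : LaurentSeries K) =
            gABC M K (a * (u s : ZMod M)) (b * (u s : ZMod M)) := hδg s a b ha hb
        have et : ((((X1gens M).FC K).val.toRingHom.comp (δ t))
            ⟨gABC M K a b, gABC_mem_FC M K ha hb⟩ : LaurentSeries K) =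
            gABC M K (a * (u t : ZMod M)) (b * (u t : ZMod M)) := hδg t a b ha hb
        intro heq
        exact hne (((gaussRed_gABC O M _ _ _ _ es).symm.trans heq).trans
          (gaussRed_gABC O M _ _ _ _ et))
  -- degrees
  refine GB2OfDeg.resField_FC_le_of_deg (X1gens M) O hπ hjtr n hn0 hNeq ?_
  rw [← hmul, hψ₀]
  calc n ≤ Fintype.card T * dedekindPsi M := hN
    _ ≤ relfinrank ((X0gens M).FC (Res O)) ((X1gens M).FC (Res O)) * dedekindPsi M :=
        Nat.mul_le_mul_right _ hcard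
    _ = dedekindPsi M * relfinrank ((X0gens M).FC (Res O)) ((X1gens M).FC (Res O)) :=
        mul_comm _ _

/-- **(GB2) for `X₁(M)/±` at one DVR**, residue characteristic `ℓ ∤ M` with `ℓ ≠ 2` or `6 ≤ M`. -/
theorem resField_X1_le (hπ : Irreducible π) (ℓ : ℕ) [Fact ℓ.Prime] [CharP (Res O) ℓ]
    (hchar : ℓ ≠ 2 ∨ 6 ≤ M) (hℓM : ¬ ℓ ∣ M)
    (hE : (X1gens M).FC K ≤ fracField O) (n : ℕ)
    (hdeg : DegLe O ((X1gens M).FC K) (jG O) n) (hirr : Irr O ((X1gens M).FC K) (jG O) n)
    {T : Type*} [Fintype T] (u : T → (ZMod M)ˣ)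
    (hu : ∀ s t, s ≠ t → u s ≠ u t ∧ u s ≠ -u t)
    (hdia : HasDiamonds M u K)
    (hN : n ≤ Fintype.card T * dedekindPsi M) :
    resField O ((X1gens M).FC K) ≤ (X1gens M).FC (Res O) := by
  refine resField_X1_le_of_dist O M hπ ℓ hℓM hE n hdeg hirr u (fun s t hst => ?_) hdia hN
  obtain ⟨hne1, hne2⟩ := hu s t hst
  have key : ∃ a b : ZMod M, a ≠ 0 ∧ b ≠ 0 ∧
      gABC M (Res O) ((u s : ZMod M) * a) ((u s : ZMod M) * b) ≠
        gABC M (Res O) ((u t : ZMod M) * a) ((u t : ZMod M) * b) := by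
    rcases hchar with hℓ2 | hM
    · have h2κ : (2 : Res O) ≠ 0 := by
        intro h
        have h' : ((2 : ℕ) : Res O) = 0 := by exact_mod_cast h
        rw [CharP.cast_eq_zero_iff (Res O) ℓ] at h'
        exact hℓ2 ((Nat.prime_dvd_prime_iff_eq (Fact.out : ℓ.Prime) Nat.prime_two).mp h')
      exact Fermat.Agent.DS.X1.GabDistMod31.exists_gABC_ne M (Res O) h2κ (u s) (u t) hne1 hne2
    · exact Fermat.Agent.DS.X1.GabDistModAny31.exists_gABC_ne_any M (Res O) hM (u s) (u t) hne1 hne2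
  obtain ⟨a, b, ha, hb, hne⟩ := key
  refine ⟨a, b, ha, hb, ?_⟩
  rw [mul_comm a, mul_comm b, mul_comm a, mul_comm b]
  exact hne

end Main

/-! ### (GB2) for all large number fields -/

section Concrete

open Fermat.Agent.RED.Interface4 Fermat.Agent.RED.DESC.NumberFieldDVR27
open Fermat.Agent.DS.G.RED

/-- **`GB2Step (X1gens M) A`** for `A` over a prime `ℓ ∤ M` (`ℓ ≠ 2` or `6 ≤ M`), from the Igusa inputs
`GaussInputs` ((DEG)+(IRR) at `t = j`), the diamond automorphisms over all large number fields, and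
the degree bound `[K·F₁(M) : K(j)] ≤ #T · ψ(M)` in characteristic `0`. -/
theorem gb2Step_X1gens (M : ℕ) [NeZero M] (ℓ : ℕ) [Fact ℓ.Prime] (hchar : ℓ ≠ 2 ∨ 6 ≤ M)
    (hℓM : ¬ ℓ ∣ M)
    (A : ValuationSubring Qbar) (hA : A.LiesOverPrime ℓ)
    (hG : ModelMain4.GaussInputs (X1gens M).FQ A)
    {T : Type*} [Fintype T] (u : T → (ZMod M)ˣ) (hu : ∀ s t, s ≠ t → u s ≠ u t ∧ u s ≠ -u t)
    (hdia : ∃ K₀ : IntermediateField ℚ Qbar, FiniteDimensional ℚ K₀ ∧
      ∀ K : IntermediateField ℚ Qbar, FiniteDimensional ℚ K → K₀ ≤ K → HasDiamonds M u ↥K)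
    (hN : ∃ K₀ : IntermediateField ℚ Qbar, FiniteDimensional ℚ K₀ ∧
      ∀ K : IntermediateField ℚ Qbar, FiniteDimensional ℚ K → K₀ ≤ K →
        relfinrank (↥K)⟮jqModC ↥K⟯ ((X1gens M).FC ↥K) ≤ Fintype.card T * dedekindPsi M) :
    GB2Step (X1gens M) A := by
  obtain ⟨K₁, hfin₁, hK₁⟩ := hG
  obtain ⟨K₂, hfin₂, hK₂⟩ := hdia
  obtain ⟨K₃, hfin₃, hK₃⟩ := hN
  haveI := hfin₁
  haveI := hfin₂
  haveI := hfin₃
  refine ⟨K₁ ⊔ (K₂ ⊔ K₃), inferInstance, fun K hKfd hle => ?_⟩
  have hle1 : K₁ ≤ K := le_sup_left.trans hle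
  have hle2 : K₂ ≤ K := (le_sup_left.trans le_sup_right).trans hle
  have hle3 : K₃ ≤ K := (le_sup_right.trans le_sup_right).trans hle
  have hℓ : ℓ.Prime := Fact.out
  haveI : IsDiscreteValuationRing ↥(AK A K) := isDiscreteValuationRing_AK A K hℓ.ne_zero hA
  haveI : CharP (Res (AK A K)) ℓ := charP_residueField_AK A K hℓ hA
  obtain ⟨π, hπ⟩ := IsDiscreteValuationRing.exists_irreducible ↥(AK A K)
  have hGK := hK₁ K hKfd hle1
  have hFK : ModelTargets4.FK (X1gens M).FQ K = (X1gens M).FC ↥K := FKG_eq (X1gens M) K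
  have hE : (X1gens M).FC ↥K ≤ fracField (AK A K) := by
    rw [← hFK]; exact hGK.le_fracField
  have hjtr : Transcendental (Res (AK A K)) (gaussRed (AK A K) (jG (AK A K))) := by
    rw [gaussRed_jG]
    exact Fermat.Agent.IG.VAL.OvBasics22.transcendental_jqModC (Res (AK A K))
  have htE : ((jG (AK A K) : ↥(gaussRing (AK A K))) : LaurentSeries ↥K) ∈ (X1gens M).FC ↥K :=
    (X1gens M).jqModC_mem_FC
  obtain ⟨n, -, hdeg, hirr⟩ := hGK.degLe_irr (jG (AK A K)) (by rw [hFK]; exact htE)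
    (mem_adjoin_simple_self _ _) hjtr
  rw [hFK] at hdeg hirr
  obtain ⟨hNeq, -⟩ := IgusaStepOf.relfinrank_eq_of_degLe_irr (AK A K) ((X1gens M).FC ↥K)
    (jG (AK A K)) hπ htE hjtr n hdeg hirr
  have hNK := hK₃ K hKfd hle3
  have hn : n ≤ Fintype.card T * dedekindPsi M := by
    rw [← hNeq]; exact hNK
  exact resField_X1_le (AK A K) M hπ ℓ hchar hℓM hE n hdeg hirr u hu (hK₂ K hKfd hle2) hn

end Concrete

end Fermat.Agent.DS.G.ES.RED.GB2X1
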