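/-
Programme DS (S48), chapter G-ESRED / IGUSA (helper31): **(GB2) for the generators of `X₁(M)/±` in
EVERY residue characteristic `ℓ ∤ M` (including `ℓ = 2`), for `6 ≤ M`.**

Twin of helper55's `DS/G/ES/RED/GB2X1.{resField_X1_le, gb2Step_X1gens}` (which need `ℓ ≠ 2`) with the
DistinctMod step replaced by `DS/X1/GabDistModAny31.exists_gABC_ne_any`: for units `u ≠ ±u'` of `ℤ/M`,
`6 ≤ M`, there are `a, b ≠ 0` with `G_{ua,ub} ≠ G_{u'a,u'b}` over every field (take `b ∉ {0, ±1, ±d⁻¹}`;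
the `q¹`-coefficients are `1` and `0`).  Everything else (relative Dedekind bound `GB2Rel`, stability
of the Gauss ring `stab_of_degLe_irr`, degree count `GB2OfDeg`) is helper55's, verbatim.

Needed because `HeckeModLReps 9` asks for the Frobenius relation at `p = 2` for odd levels `9 ∣ M`.
Same instance inputs: `HasDiamonds M u K` for all large `K`, and `[K·F₁(M) : K(j)] ≤ #T · ψ(M)`.
-/
import Mathlib
import Fermat.Agent.DS.G.ES.RED.GB2X1
import Fermat.Agent.DS.X1.GabDistModAny31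

set_option autoImplicit false
set_option linter.style.haveILetI false
set_option linter.unusedSectionVars false

noncomputable section

open HahnSeries ModularCurve IntermediateField

namespace Fermat.Agent.DS.G.ES.RED.GB2X1Any31

open Fermat.Agent.DS.G.ES.RED.Iface Fermat.Agent.DS.G.ES.RED.GaussUnit25
open Fermat.Agent.DS.G.ES.RED.SpecialDegree25
open Fermat.Agent.RED.PUR.GaussGen8 Fermat.Agent.RED.PUR.KtGauss8 Fermat.Agent.RED.PUR.G1Package8
open Fermat.Agent.RED.PUR.GaussBridge10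
open Fermat.Agent.RED.PUR Fermat.Agent.IG.PR
open Fermat.Agent.DS.X1.Level1
open Fermat.Agent.DS.G.RED.Igusa
open Fermat.Agent.DS.G.ES.RED.GB2X1

section Main

variable {K : Type} [Field K] (O : ValuationSubring K) [IsDiscreteValuationRing ↥O] {π : ↥O}
  (M : ℕ) [NeZero M]

/-- **(GB2) for `X₁(M)/±` at one DVR, every residue characteristic `ℓ ∤ M`, `6 ≤ M`.** -/
theorem resField_X1_le_any (hπ : Irreducible π) (ℓ : ℕ) [Fact ℓ.Prime] [CharP (Res O) ℓ]
    (hM6 : 6 ≤ M) (hℓM : ¬ ℓ ∣ M)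
    (hE : (X1gens M).FC K ≤ fracField O) (n : ℕ)
    (hdeg : DegLe O ((X1gens M).FC K) (jG O) n) (hirr : Irr O ((X1gens M).FC K) (jG O) n)
    {T : Type*} [Fintype T] (u : T → (ZMod M)ˣ)
    (hu : ∀ s t, s ≠ t → u s ≠ u t ∧ u s ≠ -u t)
    (hdia : HasDiamonds M u K)
    (hN : n ≤ Fintype.card T * dedekindPsi M) :
    resField O ((X1gens M).FC K) ≤ (X1gens M).FC (Res O) := by
  classical
  obtain ⟨δ, hδ0, hδg⟩ := hdia
  have hjtr : Transcendental (Res O) (jqModC (Res O)) :=
    Fermat.Agent.IG.VAL.OvBasics22.transcendental_jqModC (Res O)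
  have htr : Transcendental (Res O) (gaussRed O (jG O)) := by
    rw [gaussRed_jG]; exact hjtr
  have htE : ((jG O : ↥(gaussRing O)) : LaurentSeries K) ∈ (X1gens M).FC K :=
    (X1gens M).jqModC_mem_FC
  have hE01 : (X0gens M).FC K ≤ (X1gens M).FC K := FC_X0_le M K
  have hF01 : (X0gens M).FC (Res O) ≤ (X1gens M).FC (Res O) := FC_X0_le M (Res O)
  -- the degree in characteristic `0`
  obtain ⟨hNeq, hN0⟩ := IgusaStepOf.relfinrank_eq_of_degLe_irr O ((X1gens M).FC K) (jG O) hπ htE htr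
    n hdeg hirr
  have hn0 : n ≠ 0 := by rw [← hNeq]; exact hN0
  -- the diamonds preserve the Gauss ring
  have hKt0 : Kt O (jG O) ≤ (X0gens M).FC K :=
    adjoin_simple_le_iff.mpr (X0gens M).jqModC_mem_FC
  have hstab : ∀ t (x : ↥((X1gens M).FC K)), (x : LaurentSeries K) ∈ gaussRing O →
      ((δ t x : ↥((X1gens M).FC K)) : LaurentSeries K) ∈ gaussRing O := fun t x hx =>
    (stab_of_degLe_irr hπ hE htr htE hdeg hirr (δ t)
      (fun y hy => hδ0 t y (hKt0 hy)) x).mpr hx
  -- finiteness on the residue side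
  have hkt : kt O (jG O) = (Res O)⟮jqModC (Res O)⟯ := GB2OfDeg.kt_jG_eq O
  have h1 : (Res O)⟮jqModC (Res O)⟯ ≤ (X0gens M).FC (Res O) :=
    adjoin_simple_le_iff.mpr (X0gens M).jqModC_mem_FC
  have hle : kt O (jG O) ≤ (X1gens M).FC (Res O) := by
    rw [hkt]; exact h1.trans hF01
  have hubF : ∀ (m : ℕ) (c : Fin m → LaurentSeries (Res O)), (∀ i, c i ∈ (X1gens M).FC (Res O)) →
      LinearIndependent ↥(kt O (jG O)) c → m ≤ n := fun m c hc hli =>
    ResGen31.resField_family_bound ((X1gens M).FC K) hπ (jG O) htr n hdeg m c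
      (fun i => FC_le_resField (X1gens M) O (hc i)) hli
  have hfin : relfinrank (kt O (jG O)) ((X1gens M).FC (Res O)) ≠ 0 :=
    LinDisjoint.relfinrank_ne_zero_of_family_bound hle n hubF
  rw [hkt] at hfin
  have hmul := relfinrank_mul_relfinrank h1 hF01
  have hr0 : relfinrank ((X0gens M).FC (Res O)) ((X1gens M).FC (Res O)) ≠ 0 := by
    intro h0
    rw [h0, mul_zero] at hmul
    exact hfin hmul.symm
  have hψ₀ : relfinrank (Res O)⟮jqModC (Res O)⟯ ((X0gens M).FC (Res O)) = dedekindPsi M := by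
    rw [X0gens_FC]
    exact DegBaseChange25.relfinrank_fullC_eq_psi_of_charP ℓ (Res O) M hℓM
  -- the relative Dedekind bound
  have hcard : Fintype.card T ≤
      relfinrank ((X0gens M).FC (Res O)) ((X1gens M).FC (Res O)) := by
    refine GB2Rel.card_le_relfinrank_of_conjugates hπ ((X0gens M).FC K) ((X1gens M).FC K) hE01
      ((X0gens M).FC (Res O)) ((X1gens M).FC (Res O)) hF01 (FC_le_resField (X0gens M) O)
      (FC_le_resField (X1gens M) O) hr0
      (fun t => ((X1gens M).FC K).val.toRingHom.comp (δ t)) (fun t x hx => hstab t x hx)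
      (fun t => ?_) (fun s t x hx => ?_) (fun s t hst => ?_)
    · -- `π` is fixed
      have hmem : ((algebraMap K ↥((X1gens M).FC K) ((π : ↥O) : K) : ↥((X1gens M).FC K)) :
          LaurentSeries K) ∈ (X0gens M).FC K := ((X0gens M).FC K).algebraMap_mem _
      show ((δ t (algebraMap K ↥((X1gens M).FC K) ((π : ↥O) : K)) : ↥((X1gens M).FC K)) :
        LaurentSeries K) = _
      rw [hδ0 t _ hmem]
      rfl
    · -- agreement on `E₀`
      show ((δ s x : ↥((X1gens M).FC K)) : LaurentSeries K) =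
        ((δ t x : ↥((X1gens M).FC K)) : LaurentSeries K)
      rw [hδ0 s x hx, hδ0 t x hx]
    · -- DistinctMod
      obtain ⟨hne1, hne2⟩ := hu s t hst
      obtain ⟨a, b, ha, hb, hne⟩ :=
        Fermat.Agent.DS.X1.GabDistModAny31.exists_gABC_ne_any M (Res O) hM6 (u s) (u t) hne1 hne2
      refine ⟨⟨gABC M K a b, gABC_mem_FC M K ha hb⟩, gABC_mem_gaussRing O M _ _, ?_, ?_⟩
      · rw [gaussRed_gABC O M _ _ _ _ rfl]
        exact gABC_mem_FC M (Res O) ha hb
      · have es : ((((X1gens M).FC K).val.toRingHom.comp (δ s))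
            ⟨gABC M K a b, gABC_mem_FC M K ha hb⟩ : LaurentSeries K) =
            gABC M K ((u s : ZMod M) * a) ((u s : ZMod M) * b) := by
          show ((δ s _ : ↥((X1gens M).FC K)) : LaurentSeries K) = _
          rw [hδg s _ _ ha hb, mul_comm a, mul_comm b]
        have et : ((((X1gens M).FC K).val.toRingHom.comp (δ t))
            ⟨gABC M K a b, gABC_mem_FC M K ha hb⟩ : LaurentSeries K) =
            gABC M K ((u t : ZMod M) * a) ((u t : ZMod M) * b) := by
          show ((δ t _ : ↥((X1gens M).FC K)) : LaurentSeries K) = _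
          rw [hδg t _ _ ha hb, mul_comm a, mul_comm b]
        intro heq
        refine hne ?_
        exact ((gaussRed_gABC O M _ _ _ _ es).symm.trans heq).trans
          (gaussRed_gABC O M _ _ _ _ et)
  -- degrees
  refine GB2OfDeg.resField_FC_le_of_deg (X1gens M) O hπ hjtr n hn0 hNeq ?_
  rw [← hmul, hψ₀]
  calc n ≤ Fintype.card T * dedekindPsi M := hN
    _ ≤ relfinrank ((X0gens M).FC (Res O)) ((X1gens M).FC (Res O)) * dedekindPsi M :=
        Nat.mul_le_mul_right _ hcard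
    _ = dedekindPsi M * relfinrank ((X0gens M).FC (Res O)) ((X1gens M).FC (Res O)) :=
        mul_comm _ _

end Main

/-! ### (GB2) for all large number fields -/

section Concrete

open Fermat.Agent.RED.Interface4 Fermat.Agent.RED.DESC.NumberFieldDVR27
open Fermat.Agent.DS.G.RED

/-- **`GB2Step (X1gens M) A`** for `A` over ANY prime `ℓ ∤ M` (including `ℓ = 2`), `6 ≤ M`, from the Igusa inputs
`GaussInputs` ((DEG)+(IRR) at `t = j`), the diamond automorphisms over all large number fields, and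
the degree bound `[K·F₁(M) : K(j)] ≤ #T · ψ(M)` in characteristic `0`. -/
theorem gb2Step_X1gens_any (M : ℕ) [NeZero M] (ℓ : ℕ) [Fact ℓ.Prime] (hM6 : 6 ≤ M) (hℓM : ¬ ℓ ∣ M)
    (A : ValuationSubring Qbar) (hA : A.LiesOverPrime ℓ)
    (hG : ModelMain4.GaussInputs (X1gens M).FQ A)
    {T : Type*} [Fintype T] (u : T → (ZMod M)ˣ) (hu : ∀ s t, s ≠ t → u s ≠ u t ∧ u s ≠ -u t)
    (hdia : ∃ K₀ : IntermediateField ℚ Qbar, FiniteDimensional ℚ K₀ ∧
      ∀ K : IntermediateField ℚ Qbar, FiniteDimensional ℚ K → K₀ ≤ K → HasDiamonds M u ↥K)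
    (hN : ∃ K₀ : IntermediateField ℚ Qbar, FiniteDimensional ℚ K₀ ∧
      ∀ K : IntermediateField ℚ Qbar, FiniteDimensional ℚ K → K₀ ≤ K →
        relfinrank (↥K)⟮jqModC ↥K⟯ ((X1gens M).FC ↥K) ≤ Fintype.card T * dedekindPsi M) :
    GB2Step (X1gens M) A := by
  obtain ⟨K₁, hfin₁, hK₁⟩ := hG
  obtain ⟨K₂, hfin₂, hK₂⟩ := hdia
  obtain ⟨K₃, hfin₃, hK₃⟩ := hN
  haveI := hfin₁
  haveI := hfin₂
  haveI := hfin₃
  refine ⟨K₁ ⊔ (K₂ ⊔ K₃), inferInstance, fun K hKfd hle => ?_⟩
  have hle1 : K₁ ≤ K := le_sup_left.trans hle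
  have hle2 : K₂ ≤ K := (le_sup_left.trans le_sup_right).trans hle
  have hle3 : K₃ ≤ K := (le_sup_right.trans le_sup_right).trans hle
  have hℓ : ℓ.Prime := Fact.out
  haveI : IsDiscreteValuationRing ↥(AK A K) := isDiscreteValuationRing_AK A K hℓ.ne_zero hA
  haveI : CharP (Res (AK A K)) ℓ := charP_residueField_AK A K hℓ hA
  obtain ⟨π, hπ⟩ := IsDiscreteValuationRing.exists_irreducible ↥(AK A K)
  have hGK := hK₁ K hKfd hle1
  have hFK : ModelTargets4.FK (X1gens M).FQ K = (X1gens M).FC ↥K := FKG_eq (X1gens M) K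
  have hE : (X1gens M).FC ↥K ≤ fracField (AK A K) := by
    rw [← hFK]; exact hGK.le_fracField
  have hjtr : Transcendental (Res (AK A K)) (gaussRed (AK A K) (jG (AK A K))) := by
    rw [gaussRed_jG]
    exact Fermat.Agent.IG.VAL.OvBasics22.transcendental_jqModC (Res (AK A K))
  have htE : ((jG (AK A K) : ↥(gaussRing (AK A K))) : LaurentSeries ↥K) ∈ (X1gens M).FC ↥K :=
    (X1gens M).jqModC_mem_FC
  obtain ⟨n, -, hdeg, hirr⟩ := hGK.degLe_irr (jG (AK A K)) (by rw [hFK]; exact htE)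
    (mem_adjoin_simple_self _ _) hjtr
  rw [hFK] at hdeg hirr
  obtain ⟨hNeq, -⟩ := IgusaStepOf.relfinrank_eq_of_degLe_irr (AK A K) ((X1gens M).FC ↥K)
    (jG (AK A K)) hπ htE hjtr n hdeg hirr
  have hNK := hK₃ K hKfd hle3
  have hn : n ≤ Fintype.card T * dedekindPsi M := by
    rw [← hNeq]; exact hNK
  exact resField_X1_le_any (AK A K) M hπ ℓ hM6 hℓM hE n hdeg hirr u hu (hK₂ K hKfd hle2) hn

end Concrete

end Fermat.Agent.DS.G.ES.RED.GB2X1Any31
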