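/-
Programme DS (S48), chapter G-ESRED / IGUSA, brick IGU-GB2-X1 (helper55), part 3:
the canonical index set `T = (ℤ/M)ˣ / ±1` of the diamonds, and `GB2Step (X1gens M) A` in the shape
consumed by the instance layer:

* `UnitsModSign M`, `repU M : UnitsModSign M → (ZMod M)ˣ` (a section), `repU_ne`;
* `gb2Step_X1gens_canon` : `GB2Step (X1gens M) A` from `GaussInputs`, `HasDiamonds M (repU M) K` for
  all number fields `K` (helper13, `DS/X1/DiamondsK13`), and the degree bound
  `[K·F₁(M) : K(j)] ≤ #((ℤ/M)ˣ/±1) · ψ(M)` for all number fields `K` (helper31, `DS/X1/DegX1_31`).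
-/
import Mathlib
import Fermat.Agent.DS.G.ES.RED.GB2X1

set_option autoImplicit false
set_option linter.style.haveILetI false

noncomputable section

open HahnSeries ModularCurve IntermediateField

namespace Fermat.Agent.DS.G.ES.RED.GB2X1Canon

open Fermat.Agent.DS.G.ES.RED.Iface Fermat.Agent.DS.G.ES.RED.GaussUnit25
open Fermat.Agent.DS.G.ES.RED.GB2X1
open Fermat.Agent.DS.X1.Level1
open Fermat.Agent.RED.Interface4
open Fermat.Agent.DS.G.RED

/-- `(ℤ/M)ˣ / ±1`. -/
abbrev UnitsModSign (M : ℕ) : Type := (ZMod M)ˣ ⧸ Subgroup.zpowers (-1 : (ZMod M)ˣ)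

instance (M : ℕ) [NeZero M] : Finite (UnitsModSign M) := inferInstance

/-- a section of `(ℤ/M)ˣ → (ℤ/M)ˣ / ±1`. -/
def repU (M : ℕ) : UnitsModSign M → (ZMod M)ˣ := Quotient.out

theorem mk_repU (M : ℕ) (s : UnitsModSign M) : (QuotientGroup.mk (repU M s) : UnitsModSign M) = s :=
  Quotient.out_eq s

/-- distinct classes have representatives which differ by more than a sign. -/
theorem repU_ne (M : ℕ) (s t : UnitsModSign M) (h : s ≠ t) :
    repU M s ≠ repU M t ∧ repU M s ≠ -repU M t := by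
  constructor
  · intro h'
    apply h
    rw [← mk_repU M s, ← mk_repU M t, h']
  · intro h'
    apply h
    rw [← mk_repU M s, ← mk_repU M t, eq_comm, QuotientGroup.eq, h']
    have : (repU M t)⁻¹ * -repU M t = -1 := by
      rw [mul_neg, inv_mul_cancel]
    rw [this]
    exact Subgroup.mem_zpowers _

/-- **`GB2Step (X1gens M) A`**, canonical form. -/
theorem gb2Step_X1gens_canon (M : ℕ) [NeZero M] (ℓ : ℕ) [Fact ℓ.Prime] (hchar : ℓ ≠ 2 ∨ 6 ≤ M)
    (hℓM : ¬ ℓ ∣ M) (A : ValuationSubring Qbar) (hA : A.LiesOverPrime ℓ)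
    (hG : ModelMain4.GaussInputs (X1gens M).FQ A)
    (hdia : ∀ K : IntermediateField ℚ Qbar, FiniteDimensional ℚ K → HasDiamonds M (repU M) ↥K)
    (hN : ∀ K : IntermediateField ℚ Qbar, FiniteDimensional ℚ K →
      relfinrank (↥K)⟮jqModC ↥K⟯ ((X1gens M).FC ↥K) ≤
        Nat.card (UnitsModSign M) * dedekindPsi M) :
    GB2Step (X1gens M) A := by
  classical
  haveI : Fintype (UnitsModSign M) := Fintype.ofFinite _
  refine gb2Step_X1gens M ℓ hchar hℓM A hA hG (repU M) (repU_ne M)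
    ⟨⊥, inferInstance, fun K hK _ => hdia K hK⟩
    ⟨⊥, inferInstance, fun K hK _ => ?_⟩
  rw [← Nat.card_eq_fintype_card]
  exact hN K hK

end Fermat.Agent.DS.G.ES.RED.GB2X1Canon
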