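/-
Programme DS (S48), chapter G-ESRED / IGUSA instance layer (helper55):
**`GaussInputs (X1gens M).FQ A`, UNCONDITIONALLY** (`A` over `ℓ ∤ M`), by plugging helper11's
level-free Igusa input `ModRing11.igusaInputOfZeta` (+ `exists_ι_eq_qExpand_L1`) into helper77's
`GaussInputsOfIgusa.gaussInputs_of_igusaInput`:

for every number field `K ⊂ ℚbar` containing `ζ_M` (`K₀ = ℚ(ζ_M)`), with `O = A ∩ K`:
`ζ_M` is a unit of `O` (a root of unity lies in every valuation ring), `ι = (ℚbar → ℂ)|_K`,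
`K·F₁(M) ≤ Frac O((q))` (`GaussUnit25.FC_le_fracField`), `j ∈ K·F₁(M)`.

Consequences (all inputs of the E-chain at `D = X1gens M` which come from IGUSA):
* `gaussInputs_X1gens`;
* `gb2Step_X1gens_of_diamonds` : `GB2Step (X1gens M) A` from `HasDiamonds` alone
  (degree bound = helper31's `DegX1_31.relfinrank_j_le'`);
* `igusaStep_X1gens_of_diamonds` : `IgusaStep (X1gens M) n e A`.
-/
import Mathlib
import Fermat.Agent.DS.G.RED.GaussInputsOfIgusa
import Fermat.Agent.DS.G.RED.Igusa.ModRing11.OfCusp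
import Fermat.Agent.DS.X1.Model1
import Fermat.Agent.DS.X1.DegX1_31
import Fermat.Agent.DS.G.ES.RED.GB2X1Canon

set_option autoImplicit false
set_option linter.style.haveILetI false

noncomputable section

open HahnSeries ModularCurve IntermediateField

namespace Fermat.Agent.DS.G.ES.RED.GaussInputsX1

open Fermat.Agent.DS.G.ES.RED.Iface Fermat.Agent.DS.G.ES.RED.GaussUnit25
open Fermat.Agent.DS.G.ES.RED.SpecialDegree25
open Fermat.Agent.DS.X1.Level1
open Fermat.Agent.RED.Interface4 Fermat.Agent.RED.DESC.NumberFieldDVR27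
open Fermat.Agent.DS.G.RED Fermat.Agent.X0
open Fermat.Agent.DS.G.RED.Igusa.ModRing11

/-- an element `x` with `x ^ m = 1`, `m ≥ 1`, lies in every valuation subring. -/
theorem mem_of_pow_eq_one {F : Type*} [Field F] (V : ValuationSubring F) {x : F} {m : ℕ}
    (hm : m ≠ 0) (hx : x ^ m = 1) : x ∈ V := by
  rcases V.mem_or_inv_mem x with h | h
  · exact h
  · have hx0 : x ≠ 0 := by
      rintro rfl
      rw [zero_pow hm] at hx
      exact zero_ne_one hx
    have : x = x⁻¹ ^ (m - 1) := by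
      have h1 : x ^ m = x ^ (m - 1) * x := by
        rw [← pow_succ, Nat.sub_add_cancel (Nat.pos_of_ne_zero hm)]
      rw [inv_pow]
      apply eq_inv_of_mul_eq_one_left
      rw [mul_comm, ← h1, hx]
    rw [this]
    exact pow_mem h _

variable (M : ℕ) [NeZero M]

theorem zetaK1_pow : (Fermat.Agent.DS.X1.Model1.zetaK1 M) ^ M = 1 := by
  apply iotaK_injective
  rw [map_pow, map_one, Fermat.Agent.DS.X1.Model1.iotaK_zetaK1]
  exact (Complex.isPrimitiveRoot_exp M (NeZero.ne M)).pow_eq_one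

/-- **`GaussInputs` for `X₁(M)/±`**, unconditional. -/
theorem gaussInputs_X1gens (ℓ : ℕ) [Fact ℓ.Prime] (hℓM : ¬ ℓ ∣ M)
    (A : ValuationSubring Qbar) (hA : A.LiesOverPrime ℓ) :
    ModelMain4.GaussInputs (X1gens M).FQ A := by
  have hint : IsIntegral ℚ (Fermat.Agent.DS.X1.Model1.zetaK1 M) :=
    ((AlgebraicClosure.isAlgebraic ℚ).isAlgebraic (Fermat.Agent.DS.X1.Model1.zetaK1 M)).isIntegral
  refine GaussInputsOfIgusa.gaussInputs_of_igusaInput hA M hℓM
    ⟨ℚ⟮Fermat.Agent.DS.X1.Model1.zetaK1 M⟯, adjoin.finiteDimensional hint, fun K _ hle => ?_⟩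
  have hζK : Fermat.Agent.DS.X1.Model1.zetaK1 M ∈ K := hle (mem_adjoin_simple_self ℚ _)
  let ζK : ↥K := ⟨Fermat.Agent.DS.X1.Model1.zetaK1 M, hζK⟩
  have hζpow : ζK ^ M = 1 := Subtype.ext (by
    show (Fermat.Agent.DS.X1.Model1.zetaK1 M) ^ M = 1
    exact zetaK1_pow M)
  have hζinv : ζK ^ (M - 1) * ζK = 1 := by
    rw [← pow_succ, Nat.sub_add_cancel (Nat.pos_of_ne_zero (NeZero.ne M)), hζpow]
  have hmem : ζK ∈ AK A K := mem_of_pow_eq_one _ (NeZero.ne M) hζpow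
  have hmem' : ζK ^ (M - 1) ∈ AK A K := pow_mem hmem _
  let ζ : (↥(AK A K))ˣ :=
    ⟨⟨ζK, hmem⟩, ⟨ζK ^ (M - 1), hmem'⟩, Subtype.ext (by
      show ζK * ζK ^ (M - 1) = 1
      rw [mul_comm]; exact hζinv), Subtype.ext hζinv⟩
  let ι : ↥K →+* ℂ := iotaK.comp (algebraMap ↥K Qbar)
  have hζ : ι (((ζ : ↥(AK A K)) : ↥K)) = Fermat.Agent.DS.G.X0.CuspEquiv.zetaC M :=
    Fermat.Agent.DS.X1.Model1.iotaK_zetaK1 M
  have hFK : ModelTargets4.FK (X1gens M).FQ K = (X1gens M).FC ↥K := FKG_eq (X1gens M) K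
  refine ⟨?_, ?_, igusaInputOfZeta ι (AK A K) M ζ hζ, fun y hy => ?_⟩
  · rw [hFK]
    exact FC_le_fracField (X1gens M) (AK A K)
  · rw [hFK]
    exact (X1gens M).jqModC_mem_FC
  · exact exists_ι_eq_qExpand_L1 M ζ hζ y hy

/-- **`GB2Step (X1gens M) A`** from the diamond automorphisms alone. -/
theorem gb2Step_X1gens_of_diamonds (ℓ : ℕ) [Fact ℓ.Prime] (hchar : ℓ ≠ 2 ∨ 6 ≤ M)
    (hℓM : ¬ ℓ ∣ M) (A : ValuationSubring Qbar) (hA : A.LiesOverPrime ℓ)
    (hdia : ∀ K : IntermediateField ℚ Qbar, FiniteDimensional ℚ K →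
      GB2X1.HasDiamonds M (GB2X1Canon.repU M) ↥K) :
    GB2Step (X1gens M) A :=
  GB2X1Canon.gb2Step_X1gens_canon M ℓ hchar hℓM A hA (gaussInputs_X1gens M ℓ hℓM A hA) hdia
    (fun K _ => Fermat.Agent.DS.X1.DegX1_31.relfinrank_j_le' M K)

/-- **`IgusaStep (X1gens M) n e A`** from the diamond automorphisms alone. -/
theorem igusaStep_X1gens_of_diamonds (n e : ℕ) [NeZero n] (ℓ : ℕ) [Fact ℓ.Prime]
    (hchar : ℓ ≠ 2 ∨ 6 ≤ M) (hℓM : ¬ ℓ ∣ M) (A : ValuationSubring Qbar)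
    (hA : A.LiesOverPrime ℓ)
    (hmem : Fermat.Agent.RED.BASE.EtaQuot12.tq Qbar n e ∈ (X1gens M).Fbar)
    (hgen : Fermat.Agent.RED.BASE.Interface12.TGenBase n e)
    (hdia : ∀ K : IntermediateField ℚ Qbar, FiniteDimensional ℚ K →
      GB2X1.HasDiamonds M (GB2X1Canon.repU M) ↥K) :
    IgusaStep (X1gens M) n e A :=
  IgusaStepOf.igusaStep_of_gaussInputs (X1gens M) n e ℓ A hA hmem hgen
    (gaussInputs_X1gens M ℓ hℓM A hA) (gb2Step_X1gens_of_diamonds M ℓ hchar hℓM A hA hdia)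

end Fermat.Agent.DS.G.ES.RED.GaussInputsX1
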