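/-
Programme DS (S48), chapter G-ESRED / IGUSA instance layer (helper55):
route R closed — `GB2Step (X1gens M) A` and `IgusaStep (X1gens M) n e A` UNCONDITIONALLY
(`A` over `ℓ ∤ M`, `ℓ ≠ 2 ∨ 6 ≤ M`), from `GaussInputsX1` + helper13's `DiamondsK13.hasDiamonds`.
(Hedge of helper27/helper31's route I, `DS/X1/GB2Final27`, `DS/X1/GB2Final31`.)
-/
import Mathlib
import Fermat.Agent.DS.G.ES.RED.GaussInputsX1
import Fermat.Agent.DS.X1.DiamondsK13

set_option autoImplicit false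

noncomputable section

open HahnSeries ModularCurve IntermediateField

namespace Fermat.Agent.DS.G.ES.RED.GB2X1Final

open Fermat.Agent.DS.G.ES.RED.Iface Fermat.Agent.DS.G.ES.RED.GaussUnit25
open Fermat.Agent.DS.G.ES.RED.SpecialDegree25
open Fermat.Agent.DS.X1.Level1
open Fermat.Agent.RED.Interface4 Fermat.Agent.X0

variable (M : ℕ) [NeZero M]

/-- **(GB2) for `X₁(M)/±`**, unconditional (route R). -/
theorem gb2Step_X1gens_R (ℓ : ℕ) [Fact ℓ.Prime] (hchar : ℓ ≠ 2 ∨ 6 ≤ M) (hℓM : ¬ ℓ ∣ M)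
    (A : ValuationSubring Qbar) (hA : A.LiesOverPrime ℓ) : GB2Step (X1gens M) A :=
  GaussInputsX1.gb2Step_X1gens_of_diamonds M ℓ hchar hℓM A hA
    (fun K _ => Fermat.Agent.DS.X1.DiamondsK13.hasDiamonds M _ (algebraMap ↥K Kbar))

/-- **The Igusa inputs at the Hauptmodul for `X₁(M)/±`**, unconditional. -/
theorem igusaStep_X1gens (n e : ℕ) [NeZero n] (ℓ : ℕ) [Fact ℓ.Prime] (hchar : ℓ ≠ 2 ∨ 6 ≤ M)
    (hℓM : ¬ ℓ ∣ M) (A : ValuationSubring Qbar) (hA : A.LiesOverPrime ℓ)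
    (hmem : Fermat.Agent.RED.BASE.EtaQuot12.tq Qbar n e ∈ (X1gens M).Fbar)
    (hgen : Fermat.Agent.RED.BASE.Interface12.TGenBase n e) :
    IgusaStep (X1gens M) n e A :=
  GaussInputsX1.igusaStep_X1gens_of_diamonds M n e ℓ hchar hℓM A hA hmem hgen
    (fun K _ => Fermat.Agent.DS.X1.DiamondsK13.hasDiamonds M _ (algebraMap ↥K Kbar))

end Fermat.Agent.DS.G.ES.RED.GB2X1Final
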