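/-
Programme DS (S48), chapter G-ESRED, brick E06 (helper79): GENERIC TWIN of
`Fermat/Agent/ES/RED/L4Inst16.lean` (helper16), with `(M : ℕ) [NeZero M]` replaced by a generator
datum `D : GenData` (`DS/G/ES/RED/Iface`); same theorem name.

The field `L4` of `LevelContract22.ChartLevels`, literally, for any chart
`S : Contract8.ChartSpec A hx Ft` at `F = ↥D.Fbar`, `Ft = ↥(D.FC k)` whose ring contains the integral
closure of `A[s]` (`s = t` or `t⁻¹`, `t` the Hauptmodul) and whose `red` is the coefficientwise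
reduction of `A`-integral `q`-expansions (the fields `mem_iff`, `red_eq` of `GaloisInst21.CoeffChart`;
the corollary `chartLevels_L4_of_coeffChart` of the original is `chartLevels_L4 S
(fun b hb => (hS.mem_iff b).mpr hb) hS.red_eq …`).  The Igusa input is `hirr : DegIrrStep D A`.
-/
import Fermat.Agent.DS.G.ES.RED.FracRed16
import Fermat.Agent.ES.RED.Contract8

set_option autoImplicit false
set_option linter.unusedSectionVars false
set_option linter.style.haveILetI false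

noncomputable section

namespace Fermat.Agent.DS.G.ES.RED.L4Inst16

open HahnSeries ModularCurve
open Fermat.Agent.X0.FF Fermat.Agent.ES.RED.Contract8
open Fermat.Agent.DS.G.ES.RED.Iface Fermat.Agent.DS.G.ES.RED.Base79
open Fermat.Agent.RED.Interface4 Fermat.Agent.RED.PUR.ChartGeneric22
open Fermat.Agent.RED.BASE.Interface12 (TGenBase)

variable {A : ValuationSubring Qbar} {D : GenData}
  {x : ↥D.Fbar} {hx : IsGen Qbar x}

/-- **`L4`**: every element of `F̃` is a quotient of reductions of elements of the chart ring. -/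
theorem chartLevels_L4 (S : ChartSpec A hx ↥(D.FC (kA A)))
    (hmemB : ∀ b : ↥D.Fbar, b ∈ chart ↥A S.s → b ∈ S.B)
    (hred : ∀ (b : ↥S.B) (Y : LaurentSeries ↥A),
      coeffMap A.subtype Y = ((b : ↥D.Fbar) : LaurentSeries Qbar) →
      ((S.red b : ↥(D.FC (kA A))) : LaurentSeries (kA A)) =
        coeffMap (resA A) Y)
    (n e : ℕ) [NeZero n] (ℓ : ℕ) [Fact ℓ.Prime] (hirr : DegIrrStep D A)
    (hmem : TMem n e D) (hgen : TGenBase n e) (hA : A.LiesOverPrime ℓ)
    (hs : S.s = tF D hmem ∨ S.s = (tF D hmem)⁻¹) :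
    ∀ y : ↥(D.FC (kA A)),
      ∃ a b : ↥S.B, S.red b ≠ 0 ∧ y * S.red b = S.red a := by
  intro y
  have key : ∃ (Ya Yb : LaurentSeries ↥A) (ha : coeffMap A.subtype Ya ∈ D.Fbar)
      (hb : coeffMap A.subtype Yb ∈ D.Fbar),
      (⟨_, ha⟩ : ↥D.Fbar) ∈ chart ↥A S.s ∧ (⟨_, hb⟩ : ↥D.Fbar) ∈ chart ↥A S.s ∧
      coeffMap (IsLocalRing.residue ↥A) Yb ≠ 0 ∧
      (y : LaurentSeries (kA A)) * coeffMap (IsLocalRing.residue ↥A) Yb =
        coeffMap (IsLocalRing.residue ↥A) Ya := by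
    rcases hs with hs | hs
    · rw [hs]
      exact FracRed16.exists_frac_red A n e ℓ hirr hmem hgen hA y.2
    · rw [hs]
      exact FracRed16.exists_frac_red_inv A n e ℓ hirr hmem hgen hA y.2
  obtain ⟨Ya, Yb, ha, hb, hac, hbc, hb0, hab⟩ := key
  refine ⟨⟨⟨_, ha⟩, hmemB _ hac⟩, ⟨⟨_, hb⟩, hmemB _ hbc⟩, ?_, ?_⟩
  · intro h0
    apply hb0
    have := hred ⟨⟨_, hb⟩, hmemB _ hbc⟩ Yb rfl
    rw [h0] at this
    exact this.symm
  · apply Subtype.ext
    rw [MulMemClass.coe_mul, hred ⟨⟨_, hb⟩, hmemB _ hbc⟩ Yb rfl,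
      hred ⟨⟨_, ha⟩, hmemB _ hac⟩ Ya rfl]
    exact hab

end Fermat.Agent.DS.G.ES.RED.L4Inst16
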