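/-
Programme DS (S48), chapter G-ESRED, brick E06 (helper79): GENERIC TWIN of
`Fermat/Agent/ES/RED/LevelSat16.lean` (helper16), with `(M : ℕ) [NeZero M]` replaced by a generator
datum `D : GenData` (`DS/G/ES/RED/Iface`); same theorem names (`exists_package`, `levelSat_t'`,
`levelSat_inv'`; the `Γ₀`-conventions section `Conv` of the original is not twinned).

**Level-`K` `π`-saturation of the two chart rings**, i.e. the hypothesis
`ChartIntegralA1.LevelSat A D t` of `ChartIntegralA1.exists_content` for the Hauptmodul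
`t = tF D hmem` and for `t⁻¹` (fields `sat0` / `sat1` of `CoreIface24.TwoChartModel` at all large
number fields `K`), directly from the Gauss package `G1Package8.isIntegral_of_mul(_inv)` — no
smoothness input.  The Igusa input (DEG)+(IRR) is `hirr : DegIrrStep D A` (`Base79`).
-/
import Fermat.Agent.DS.G.ES.RED.ChartIntegralA1
import Fermat.Agent.DS.G.ES.RED.FracRed16

set_option autoImplicit false
set_option linter.unusedSectionVars false
set_option linter.style.haveILetI false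

noncomputable section

namespace Fermat.Agent.DS.G.ES.RED.LevelSat16

open Polynomial HahnSeries ModularCurve

open Fermat.Agent.DS.G.ES.RED.Iface Fermat.Agent.DS.G.ES.RED.Base79
open Fermat.Agent.RED.Interface4 Fermat.Agent.RED.DESC Fermat.Agent.RED.DESC.NumberFieldDVR27
open Fermat.Agent.RED.PUR.GaussGen8 Fermat.Agent.RED.PUR.KtGauss8 Fermat.Agent.RED.PUR.G1Package8
  Fermat.Agent.RED.PUR.ChartGeneric22
open Fermat.Agent.RED.BASE.EtaQuot12
open Fermat.Agent.RED.BASE.Interface12 (TGenBase)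
open Fermat.Agent.X0 Fermat.Agent.DS.G.ES.RED.ChartIntegralA1

variable (A : ValuationSubring Qbar) {D : GenData}

/-- The Gauss package at every large number field `K`, for the Hauptmodul. -/
theorem exists_package (n e : ℕ) [NeZero n] (ℓ : ℕ) [Fact ℓ.Prime] (hirr : DegIrrStep D A)
    (hmem : TMem n e D) (hgen : TGenBase n e) (hA : A.LiesOverPrime ℓ) :
    ∃ K₀ : IntermediateField ℚ Qbar, FiniteDimensional ℚ K₀ ∧
      ∀ K : IntermediateField ℚ Qbar, FiniteDimensional ℚ K → K₀ ≤ K →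
        ∀ (ϖ : ↥(AK A K)) (_ : Irreducible ϖ),
        ∃ (_ : IsDiscreteValuationRing ↥(AK A K))
          (t : ↥(FKG D K)) (_ : (t : LaurentSeries K) = tq K n e)
          (ht : (t : LaurentSeries K) ∈ gaussRing (AK A K))
          (_ : Transcendental (Res (AK A K)) (gaussRed (AK A K) ⟨(t : LaurentSeries K), ht⟩))
          (m : ℕ) (_ : DegLe (AK A K) (FKG D K) ⟨(t : LaurentSeries K), ht⟩ m),
          Irr (AK A K) (FKG D K) ⟨(t : LaurentSeries K), ht⟩ m := by
  have hℓ : ℓ.Prime := Fact.out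
  obtain ⟨K₁, hK₁, hT⟩ := exists_tq_mem n e D hmem
  obtain ⟨K₂, hK₂, hJ⟩ := Fermat.Agent.RED.BASE.JInKt25.exists_j_mem_adjoin n e hgen
  obtain ⟨K₃, hK₃, hI⟩ := hirr
  haveI := hK₁
  haveI := hK₂
  haveI := hK₃
  refine ⟨K₁ ⊔ K₂ ⊔ K₃, inferInstance, fun K hKfd hle ϖ hϖ => ?_⟩
  haveI := hKfd
  have hle1 : K₁ ≤ K := le_trans (le_trans le_sup_left le_sup_left) hle
  have hle2 : K₂ ≤ K := le_trans (le_trans le_sup_right le_sup_left) hle
  have hle3 : K₃ ≤ K := le_trans le_sup_right hle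
  have hdvr : IsDiscreteValuationRing ↥(AK A K) := isDiscreteValuationRing_AK A K hℓ.ne_zero hA
  haveI : CharP (Res (AK A K)) ℓ := charP_residueField_AK A K hℓ hA
  have htE : tq K n e ∈ FKG D K := hT K hle1
  have ht : tq K n e ∈ gaussRing (AK A K) :=
    Fermat.Agent.RED.ModelTargets4.tq_mem_gaussRing (AK A K) n e
  have htr : Transcendental (Res (AK A K)) (gaussRed (AK A K) ⟨tq K n e, ht⟩) :=
    Fermat.Agent.RED.ModelTargets4.transcendental_gaussRed_tq (AK A K) n e
  have hjt : jqModC K ∈ Kt (AK A K) ⟨tq K n e, ht⟩ := hJ K hle2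
  obtain ⟨m, -, hdeg, hirr⟩ := @hI K hKfd hle3 hdvr ⟨tq K n e, ht⟩ htE hjt htr
  exact ⟨hdvr, ⟨tq K n e, htE⟩, rfl, ht, htr, m, hdeg, hirr⟩

/-- **`LevelSat` for the Hauptmodul chart.** -/
theorem levelSat_t' (n e : ℕ) [NeZero n] (ℓ : ℕ) [Fact ℓ.Prime] (hirr : DegIrrStep D A)
    (hmem : TMem n e D) (hgen : TGenBase n e) (hA : A.LiesOverPrime ℓ) :
    LevelSat A D (tF D hmem) := by
  obtain ⟨K₀, hK₀, H⟩ := exists_package A n e ℓ hirr hmem hgen hA
  refine ⟨K₀, hK₀, fun K hKfd hle ϖ hϖ hu tK htK b hb c hc hbc => ?_⟩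
  obtain ⟨hdvr, t, htq, ht, htr, m, hdeg, hirr⟩ := H K hKfd hle ϖ hϖ
  haveI := hdvr
  have htt : tK = t := by
    apply baseChangeHom_injective D K
    rw [htK, baseChangeHom_eq_tF D K hmem t htq]
  subst htt
  have hE : FKG D K ≤ fracField (AK A K) := FKG_le_fracField D A K
  rw [mem_chart_iff] at hb ⊢
  exact isIntegral_of_mul hϖ hE tK ht htr hdeg hirr hc (hbc ▸ hb)

/-- **`LevelSat` for the chart at infinity.** -/
theorem levelSat_inv' (n e : ℕ) [NeZero n] (ℓ : ℕ) [Fact ℓ.Prime] (hirr : DegIrrStep D A)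
    (hmem : TMem n e D) (hgen : TGenBase n e) (hA : A.LiesOverPrime ℓ) :
    LevelSat A D (tF D hmem)⁻¹ := by
  obtain ⟨K₀, hK₀, H⟩ := exists_package A n e ℓ hirr hmem hgen hA
  refine ⟨K₀, hK₀, fun K hKfd hle ϖ hϖ hu tK htK b hb c hc hbc => ?_⟩
  obtain ⟨hdvr, t, htq, ht, htr, m, hdeg, hirr⟩ := H K hKfd hle ϖ hϖ
  haveI := hdvr
  have htt : tK = t⁻¹ := by
    apply baseChangeHom_injective D K
    rw [htK, map_inv₀, baseChangeHom_eq_tF D K hmem t htq]
  subst htt
  have hE : FKG D K ≤ fracField (AK A K) := FKG_le_fracField D A K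
  rw [mem_chart_iff] at hb ⊢
  exact isIntegral_of_mul_inv hϖ hE t ht htr hdeg hirr hc (hbc ▸ hb)

end Fermat.Agent.DS.G.ES.RED.LevelSat16
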