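/-
Programme DS (S48), chapter G-ESRED, brick E07 (helper55): generic twin of `ES/RED/SpecialGen25`:
the inputs of `SpecialFibre13` / `SumOrdSep15` for the special fibre `F̃ = D.FC k`,
`k = ResidueField A`, `t̃ = tq k n e`, in the literal shapes `X0.FF.IsGen k t̃` and
`Algebra.IsSeparable ↥(k⟮t̃⟯) ↥F̃` (subfield generated INSIDE `F̃`), for a generator datum `D : GenData`.

* generic bridge (`E : IntermediateField k Ω`, `x : ↥E`): `adjoin_simple_eq_comap`,
  `finrank_adjoin_simple_eq_relfinrank`, `isSeparable_adjoin_simple_of_extendScalars`,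
  `isGen_of_relfinrank_ne_zero`  (copies of the originals, which sit behind heavy imports);
* concrete: `tF`, `tRes`, `isGen_tRes`, `isSeparable_tRes`, `finrank_tRes`.

Inputs: `hmem : tq Qbar n e ∈ D.Fbar`, `hgen : TGenBase n e` (level-`n` fact of chapter BASE),
`hig : IgusaStep D n e A` (chapter IGU).
-/
import Mathlib
import Fermat.Agent.DS.G.ES.RED.SpecialDegree25
import Fermat.Agent.X0.FFDefs
import Fermat.Agent.ES.KRON.KronInst10

set_option autoImplicit false
set_option linter.style.haveILetI false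
set_option linter.unusedSectionVars false

noncomputable section

open HahnSeries ModularCurve IntermediateField

namespace Fermat.Agent.DS.G.ES.RED.SpecialGen25

open Fermat.Agent.X0 Fermat.Agent.DS.G.ES.RED.Iface

section Bridge

variable {k Ω : Type*} [Field k] [Field Ω] [Algebra k Ω] (E : IntermediateField k Ω) (x : ↥E)

theorem adjoin_simple_le : k⟮(x : Ω)⟯ ≤ E := adjoin_simple_le_iff.mpr x.2

/-- `k(x)` generated inside `E` is the preimage of `k(x)` generated inside `Ω`. -/
theorem adjoin_simple_eq_comap :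
    (k⟮x⟯ : IntermediateField k ↥E) = (k⟮(x : Ω)⟯).comap E.val := by
  apply le_antisymm
  · rw [adjoin_simple_le_iff]
    exact mem_adjoin_simple_self k (x : Ω)
  · intro y hy
    have h2 : (y : Ω) ∈ IntermediateField.lift (k⟮x⟯ : IntermediateField k ↥E) := by
      rw [IntermediateField.lift_adjoin_simple]
      exact hy
    exact (IntermediateField.mem_lift y).mp h2

theorem mem_adjoin_simple_iff_coe (y : ↥E) :
    y ∈ (k⟮x⟯ : IntermediateField k ↥E) ↔ (y : Ω) ∈ k⟮(x : Ω)⟯ := by
  rw [adjoin_simple_eq_comap]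
  rfl

/-- `[E : k(x)]`, computed inside `E`, is `relfinrank k(x) E`. -/
theorem finrank_adjoin_simple_eq_relfinrank :
    Module.finrank ↥(k⟮x⟯ : IntermediateField k ↥E) ↥E = relfinrank k⟮(x : Ω)⟯ E := by
  rw [adjoin_simple_eq_comap, IntermediateField.finrank_comap, IntermediateField.fieldRange_val]

/-- The comparison isomorphism `k(x) ⊂ Ω` ≃ `k(x) ⊂ E`. -/
def adjoinEquiv : ↥(k⟮(x : Ω)⟯) ≃+* ↥(k⟮x⟯ : IntermediateField k ↥E) where
  toFun y := ⟨⟨y.1, adjoin_simple_le E x y.2⟩,
    (mem_adjoin_simple_iff_coe E x ⟨y.1, adjoin_simple_le E x y.2⟩).mpr y.2⟩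
  invFun z := ⟨(z.1 : Ω), (mem_adjoin_simple_iff_coe E x z.1).mp z.2⟩
  left_inv _ := rfl
  right_inv _ := rfl
  map_mul' _ _ := rfl
  map_add' _ _ := rfl

/-- `E` as an extension of `k(x) ⊂ Ω`, identified with `E`. -/
def extendEquiv : ↥(extendScalars (adjoin_simple_le E x)) ≃+* ↥E where
  toFun y := ⟨y.1, (mem_extendScalars (adjoin_simple_le E x)).mp y.2⟩
  invFun y := ⟨y.1, (mem_extendScalars (adjoin_simple_le E x)).mpr y.2⟩
  left_inv _ := rfl
  right_inv _ := rfl
  map_mul' _ _ := rfl
  map_add' _ _ := rfl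

/-- Separability transfers from the ambient description to the one inside `E`. -/
theorem isSeparable_adjoin_simple_of_extendScalars
    [h : Algebra.IsSeparable ↥(k⟮(x : Ω)⟯) ↥(extendScalars (adjoin_simple_le E x))] :
    Algebra.IsSeparable ↥(k⟮x⟯ : IntermediateField k ↥E) ↥E :=
  Algebra.IsSeparable.of_equiv_equiv (adjoinEquiv E x) (extendEquiv E x) (by ext y; rfl)

/-- `x` is transcendental in `E` if it is so in `Ω`. -/
theorem transcendental_coe (h : Transcendental k (x : Ω)) : Transcendental k x := by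
  intro halg
  exact h (halg.algHom E.val)

/-- `x` generates `E` in the sense of `X0.FF.IsGen`. -/
theorem isGen_of_relfinrank_ne_zero (htr : Transcendental k (x : Ω))
    (hfin : relfinrank k⟮(x : Ω)⟯ E ≠ 0) : FF.IsGen k x := by
  refine ⟨transcendental_coe E x htr, ?_⟩
  apply Module.finite_of_finrank_pos
  rw [finrank_adjoin_simple_eq_relfinrank]
  exact Nat.pos_of_ne_zero hfin

end Bridge

section Concrete

open Fermat.Agent.RED.Interface4 Fermat.Agent.RED.BASE Fermat.Agent.RED.BASE.EtaQuot12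
open Fermat.Agent.DS.G.ES.RED.SpecialDegree25

set_option synthInstance.maxHeartbeats 400000

/-- shortcut for the `k`-algebra structure of `D.FC k`, `k = ResidueField A` (the general instance
search finds the same term `SubalgebraClass.toAlgebra _`, but only after several seconds).  Use it as
`attribute [local instance] SpecialGen25.instAlgebraFCRes`. -/
@[reducible] def instAlgebraFCRes (D : GenData) (A : ValuationSubring Qbar) :
    Algebra (IsLocalRing.ResidueField ↥A) ↥(D.FC (IsLocalRing.ResidueField ↥A)) :=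
  SubalgebraClass.toAlgebra _

attribute [local instance] instAlgebraFCRes

variable (D : GenData) (n e : ℕ) [NeZero n] (ℓ : ℕ) [Fact ℓ.Prime]
  (hmem : tq Qbar n e ∈ D.Fbar) (hgen : Interface12.TGenBase n e)
  (A : ValuationSubring Qbar) (hA : A.LiesOverPrime ℓ) (hig : IgusaStep D n e A)

/-- The Hauptmodul `t = tq ℚbar n e` as an element of `D.Fbar`. -/
def tF : ↥D.Fbar := ⟨tq Qbar n e, hmem⟩

@[simp] theorem coe_tF : ((tF D n e hmem : ↥D.Fbar) : LaurentSeries Qbar) = tq Qbar n e := rfl

/-- The Hauptmodul `t̃ = tq k n e` as an element of the special fibre field `F̃ = D.FC k`,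
`k = ResidueField A`. -/
def tRes : ↥(D.FC (IsLocalRing.ResidueField ↥A)) :=
  ⟨tq (IsLocalRing.ResidueField ↥A) n e,
    (relfinrank_tq_residueField D n e ℓ hmem hgen A hA hig).1⟩

@[simp] theorem coe_tRes :
    ((tRes D n e ℓ hmem hgen A hA hig : ↥(D.FC (IsLocalRing.ResidueField ↥A))) :
      LaurentSeries (IsLocalRing.ResidueField ↥A)) = tq (IsLocalRing.ResidueField ↥A) n e := rfl

/-- `[D.Fbar : Qbar(t)]`, computed inside `D.Fbar`. -/
theorem finrank_tF_eq_relfinrank :
    Module.finrank ↥(Qbar⟮tF D n e hmem⟯ : IntermediateField Qbar ↥D.Fbar) ↥D.Fbar =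
      relfinrank Qbar⟮tq Qbar n e⟯ D.Fbar :=
  finrank_adjoin_simple_eq_relfinrank D.Fbar (tF D n e hmem)

include hmem hgen hA hig in
theorem relfinrank_tq_bar_ne_zero : relfinrank Qbar⟮tq Qbar n e⟯ D.Fbar ≠ 0 :=
  (relfinrank_tq_residueField D n e ℓ hmem hgen A hA hig).2.2.2

include hmem hgen hA hig in
theorem relfinrank_tRes_ne_zero :
    relfinrank (IsLocalRing.ResidueField ↥A)⟮tq (IsLocalRing.ResidueField ↥A) n e⟯
      (D.FC (IsLocalRing.ResidueField ↥A)) ≠ 0 := by
  rw [(relfinrank_tq_residueField D n e ℓ hmem hgen A hA hig).2.2.1]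
  exact relfinrank_tq_bar_ne_zero D n e ℓ hmem hgen A hA hig

include hgen hA hig in
/-- `t` is a transcendental generator of `D.Fbar` (a consequence of the Igusa inputs; also
available analytically from chapter G-X0). -/
theorem isGen_tF : FF.IsGen Qbar (tF D n e hmem) :=
  isGen_of_relfinrank_ne_zero _ _ (TBridge15.transcendental_tq Qbar n e)
    (relfinrank_tq_bar_ne_zero D n e ℓ hmem hgen A hA hig)

/-- **`t̃` is a transcendental generator of the special fibre field.** -/
theorem isGen_tRes :
    FF.IsGen (IsLocalRing.ResidueField ↥A) (tRes D n e ℓ hmem hgen A hA hig) :=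
  isGen_of_relfinrank_ne_zero _ _ (TBridge15.transcendental_tq (IsLocalRing.ResidueField ↥A) n e)
    (relfinrank_tRes_ne_zero D n e ℓ hmem hgen A hA hig)

/-- **`deg t̃ = deg t`**: `[F̃ : k(t̃)] = [D.Fbar : Qbar(t)]`, both computed inside the fields. -/
theorem finrank_tRes :
    Module.finrank
        ↥((IsLocalRing.ResidueField ↥A)⟮tRes D n e ℓ hmem hgen A hA hig⟯ :
          IntermediateField (IsLocalRing.ResidueField ↥A)
            ↥(D.FC (IsLocalRing.ResidueField ↥A)))
        ↥(D.FC (IsLocalRing.ResidueField ↥A)) =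
      Module.finrank ↥(Qbar⟮tF D n e hmem⟯ : IntermediateField Qbar ↥D.Fbar) ↥D.Fbar := by
  rw [finrank_adjoin_simple_eq_relfinrank, finrank_tF_eq_relfinrank]
  exact (relfinrank_tq_residueField D n e ℓ hmem hgen A hA hig).2.2.1

/-- **`F̃ / k(t̃)` is separable.** -/
theorem isSeparable_tRes :
    Algebra.IsSeparable
      ↥((IsLocalRing.ResidueField ↥A)⟮tRes D n e ℓ hmem hgen A hA hig⟯ :
        IntermediateField (IsLocalRing.ResidueField ↥A)
          ↥(D.FC (IsLocalRing.ResidueField ↥A)))
      ↥(D.FC (IsLocalRing.ResidueField ↥A)) := by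
  haveI : IsAlgClosed (IsLocalRing.ResidueField ↥A) :=
    Fermat.Agent.ES.KRON.KronInst10.isAlgClosed_residueField A
  haveI : CharP (IsLocalRing.ResidueField ↥A) ℓ :=
    Fermat.Agent.ES.KRON.KronInst10.charP_residueField A Fact.out hA
  have hsep := (finite_separable_FC_over_tq D (k := IsLocalRing.ResidueField ↥A) ℓ n e
    (adjoin_simple_le _ (tRes D n e ℓ hmem hgen A hA hig))
    (relfinrank_tRes_ne_zero D n e ℓ hmem hgen A hA hig)).2
  exact isSeparable_adjoin_simple_of_extendScalars (h := hsep) _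
    (tRes D n e ℓ hmem hgen A hA hig)

end Concrete

end Fermat.Agent.DS.G.ES.RED.SpecialGen25
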