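/-
Programme DS (S48), chapter G-ESRED, brick E10 (helper93): THE MODEL CONTRACT for a generator datum
`D : GenData` = generic twin of `ES/TOP/SPInputs12.Model`.

`Model D n e A` : a `TwoCharts8.TwoCharts` structure for `F = ℚ̄·D.FQ`, `F̃ = D.FC κ(A)` whose two
charts are coefficientwise (`GaloisInst21.CoeffChart`) with coordinates `t = tF D n e hmem`
(the Hauptmodul of the base level `(n, e)`; hence `t⁻¹` on the second chart) and satisfy (PEEL-a).

PRODUCER: the twin of `ES/TOP/ModelOfInst12.model_of_levels / model_of_hasLevels` (E06, level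
systems).  CONSUMER: `DS/G/ES/RED/RedPack.lean` (everything the GEO-FIN-TG instance needs from the
reduction chapters) and `DS/G/ES/RED/X1Inst.lean` (the instance `D = X1gens M`).
-/
import Mathlib
import Fermat.Agent.DS.G.ES.RED.GaloisInst21
import Fermat.Agent.DS.G.ES.RED.SpecialGen25

set_option autoImplicit false

noncomputable section

open AlgebraicCurve ModularCurve HahnSeries

namespace Fermat.Agent.DS.G.ES.RED.ModelContract

open Fermat.Agent.X0.FF Fermat.Agent.ES.RED.Contract8 Fermat.Agent.ES.RED.TwoCharts8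
  Fermat.Agent.DS.G.ES.RED.GaloisInst21 Fermat.Agent.DS.G.ES.RED.Iface
  Fermat.Agent.DS.G.ES.RED.SpecialGen25 Fermat.Agent.RED.Interface4
  Fermat.Agent.RED.BASE.EtaQuot12

/-- **The two-chart model of `D`** over the place `A`, for the Hauptmodul base `(n, e)`: a
`TwoCharts` structure whose charts are coefficientwise with coordinates `t = tF D n e hmem`
(hence `t⁻¹`) and satisfy (PEEL-a). -/
def Model (D : GenData) (n e : ℕ) [NeZero n] (A : ValuationSubring Qbar) : Prop :=
  ∃ (hmem : tq Qbar n e ∈ D.Fbar) (x : ↥D.Fbar) (hx : IsGen Qbar x)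
    (T : TwoCharts A hx ↥(D.FC (kA A))),
    CoeffChart (F₀ := D.FQ) T.S0 ∧
    CoeffChart (F₀ := D.FQ) T.S1 ∧
    T.S0.s = tF D n e hmem ∧
    (∀ (P : Place Qbar ↥D.Fbar) (hP : T.S0.InChart P), T.S0.PeelA P hP) ∧
    (∀ (P : Place Qbar ↥D.Fbar) (hP : T.S1.InChart P), T.S1.PeelA P hP)

/-- constructor. -/
theorem Model.intro {D : GenData} {n e : ℕ} [NeZero n] {A : ValuationSubring Qbar}
    (hmem : tq Qbar n e ∈ D.Fbar) {x : ↥D.Fbar} {hx : IsGen Qbar x}
    (T : TwoCharts A hx ↥(D.FC (kA A)))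
    (c0 : CoeffChart (F₀ := D.FQ) T.S0) (c1 : CoeffChart (F₀ := D.FQ) T.S1)
    (hs0 : T.S0.s = tF D n e hmem)
    (peel0 : ∀ (P : Place Qbar ↥D.Fbar) (hP : T.S0.InChart P), T.S0.PeelA P hP)
    (peel1 : ∀ (P : Place Qbar ↥D.Fbar) (hP : T.S1.InChart P), T.S1.PeelA P hP) :
    Model D n e A :=
  ⟨hmem, x, hx, T, c0, c1, hs0, peel0, peel1⟩

end Fermat.Agent.DS.G.ES.RED.ModelContract
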