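/-
Programme DS (S48), chapter G-ESRED, brick E06 (helper79): GENERIC TWIN of
`Fermat/Agent/ES/RED/ModelExplicit26.lean` (helper26), with `(M : ℕ) [NeZero M]` replaced by a
generator datum `D : GenData` (`DS/G/ES/RED/Iface`).  Same theorem names.
**The two-chart model at the EXPLICIT charts.**

`NumInst4.HasModel O E` (Program H) is existential in the charts.  The reduction map needs the
model at the explicit charts `chart O t`, `chart O t⁻¹` (integral closures of `O[t^{±1}]` in `E`)
and the explicit Gauss valuation ring `OvE O hπ E hE`: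

* `twoChartModel_of_g1`, `twoChartModel_of_split` : generic `(O, E)` — verbatim copies of the
  originals (copied, not imported, to keep the import closure of the twins free of the `Γ₀`-specific
  degree theory `RED/PUR/GaussInst25`);
* `relfinrank_ne_zero_of_degLe` (new): `[E : K(t)] ≠ 0` from (DEG) alone (for `X₀(M)` the original
  uses `[K·F_M : K(j)] = ψ(M)`);
* `explicitModelStep_of_targets` : at `(AK A K, FKG D K)`, `t = tq K n e`, for all number fields
  `K ⊇ K₀`, from the five concrete targets in UNFOLDED form (the bodies of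
  `ModelTargets4.TTarget / JTarget / OffTarget / OverTarget / InfTarget` with `FK M K ↦ FKG D K`)
  and the Igusa input `hirr : DegIrrStep D A` (`Base79`).
-/
import Mathlib
import Fermat.Agent.RED.ModelIface4
import Fermat.Agent.RED.ModelTargets4
import Fermat.Agent.RED.DESC.NumberFieldDVR27
import Fermat.Agent.DS.G.ES.RED.Base79

set_option autoImplicit false

open HahnSeries ModularCurve IntermediateField
open scoped MatrixGroups

noncomputable section

namespace Fermat.Agent.DS.G.ES.RED.ModelExplicit26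

open Fermat.Agent.RED.CORE.CoreIface24 Fermat.Agent.RED.PUR.GaussGen8
  Fermat.Agent.RED.PUR.KtGauss8 Fermat.Agent.RED.PUR.G1Package8
  Fermat.Agent.RED.PUR.ChartGeneric22 Fermat.Agent.RED.NumInst4
  Fermat.Agent.RED.ModelAsm4 Fermat.Agent.RED.ModelIface4

section Generic

variable {K : Type*} [Field K] {O : ValuationSubring K} [IsDiscreteValuationRing ↥O]
  {E : IntermediateField K (LaurentSeries K)}

/-- **MODEL at the explicit charts**, generic assembly (`ModelAsm4.hasModel_of_g1` with the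
witnesses exposed). -/
theorem twoChartModel_of_g1 [CharZero K] {π : ↥O} (hπ : Irreducible π) (hE : E ≤ fracField O)
    (t : ↥E) (ht : (t : LaurentSeries K) ∈ gaussRing O)
    (htr : Transcendental (Res O) (gaussRed O ⟨(t : LaurentSeries K), ht⟩))
    {n : ℕ} (hn : relfinrank (Kt O ⟨(t : LaurentSeries K), ht⟩) E ≠ 0)
    (hdeg : DegLe O E ⟨(t : LaurentSeries K), ht⟩ n)
    (hirr : Irr O E ⟨(t : LaurentSeries K), ht⟩ n)
    (hsm0 : SmoothChart O E π t) (hsm1 : SmoothChart O E π t⁻¹) :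
    TwoChartModel ↥O K ↥E π t (chart ↥O t) (chart ↥O t⁻¹) (OvE O hπ E hE) := by
  have : IsScalarTower ↥O K ↥E := isScalarTower_OE O E
  have : FiniteDimensional ↥(IntermediateField.adjoin K {t}) ↥E := finiteDimensional_adjoin t hn
  have htrK : Transcendental K t :=
    transcendental_of_coe t (transcendental_t (tG := ⟨(t : LaurentSeries K), ht⟩) hπ htr)
  refine twoChartModel_of (R := ↥O) (K := K) (F := ↥E) (π := π) (t := t) (OvE O hπ E hE) htrK
    (dvr_factor hπ) ?_ (t_mem hπ hE t ht) (t_inv_mem hπ hE t ht htr)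
    (algebraMap_pi_ne_zero hπ) (pi_inv_not_mem hπ hE)
    (fun x hx hxi => exists_eq_pi_mul hπ hE hx hxi) ?_ ?_ hsm0 hsm1
  · intro r
    exact (mem_OvE_iff O hπ E hE _).mpr (algebraMap_O_mem r)
  · intro b hb c hc hbc
    rw [mem_chart_iff] at hb ⊢
    exact isIntegral_of_mul hπ hE t ht htr hdeg hirr hc (hbc ▸ hb)
  · intro b hb c hc hbc
    rw [mem_chart_iff] at hb ⊢
    exact isIntegral_of_mul_inv hπ hE t ht htr hdeg hirr hc (hbc ▸ hb)

/-- **MODEL at the explicit charts from the split (LOC)** (`ModelIface4.hasModel_of_split` with the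
witnesses exposed). -/
theorem twoChartModel_of_split [CharZero K] {π : ↥O} (hπ : Irreducible π)
    [Finite (↥O ⧸ (Ideal.span {π} : Ideal ↥O))] (hE : E ≤ fracField O) (t : ↥E)
    (ht : (t : LaurentSeries K) ∈ gaussRing O)
    (htr : Transcendental (Res O) (gaussRed O ⟨(t : LaurentSeries K), ht⟩))
    {n : ℕ} (hn : relfinrank (Kt O ⟨(t : LaurentSeries K), ht⟩) E ≠ 0)
    (hdeg : DegLe O E ⟨(t : LaurentSeries K), ht⟩ n)
    (hirr : Irr O E ⟨(t : LaurentSeries K), ht⟩ n)
    (S : Set ↥O) (hoff : SmoothOff O E π t S) (hover : ∀ c ∈ S, SmoothOver O E π t c)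
    (hinf : SmoothOver O E π t⁻¹ 0) :
    TwoChartModel ↥O K ↥E π t (chart ↥O t) (chart ↥O t⁻¹) (OvE O hπ E hE) := by
  have hfd : FiniteDimensional ↥(IntermediateField.adjoin K {t}) ↥E := finiteDimensional_adjoin t hn
  have htrK : Transcendental K t :=
    transcendental_of_coe t (transcendental_t (tG := ⟨(t : LaurentSeries K), ht⟩) hπ htr)
  have h0 : SmoothChart O E π t := smoothChart_of_split hoff hover
  exact twoChartModel_of_g1 hπ hE t ht htr hn hdeg hirr h0
    (smoothChart_inv_of_split hπ htrK h0 hinf)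

omit [IsDiscreteValuationRing ↥O] in
/-- **`[E : K(t)] ≠ 0` from (DEG).**  If every `K(t)`-linearly independent family of elements of `E`
has at most `n` members and `t ∈ E`, then `E` is finite over `K(t)`. -/
theorem relfinrank_ne_zero_of_degLe (tG : ↥(gaussRing O)) (htE : (tG : LaurentSeries K) ∈ E)
    {n : ℕ} (hdeg : DegLe O E tG n) : relfinrank (Kt O tG) E ≠ 0 := by
  have hle : Kt O tG ≤ E := adjoin_simple_le_iff.mpr htE
  rw [relfinrank_eq_finrank_of_le hle]
  have hrank : Module.rank ↥(Kt O tG) ↥(extendScalars hle) ≤ n := by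
    apply rank_le
    intro s hs
    classical
    -- transport the family to `Fin s.card → LaurentSeries K`
    let c : Fin s.card → LaurentSeries K := fun i => ((s.equivFin.symm i : ↥(extendScalars hle)) :
      LaurentSeries K)
    have hc : ∀ i, c i ∈ E := fun i => ((s.equivFin.symm i : ↥(extendScalars hle))).2
    have hli : LinearIndependent ↥(Kt O tG) c := by
      have h1 : LinearIndependent ↥(Kt O tG)
          (fun i : Fin s.card => ((s.equivFin.symm i : ↥s) : ↥(extendScalars hle))) :=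
        hs.comp _ s.equivFin.symm.injective
      have h2 := h1.map' ((extendScalars hle).val.toLinearMap)
        (LinearMap.ker_eq_bot.mpr (extendScalars hle).val.injective)
      exact h2
    exact hdeg s.card c hc hli
  have hfin : Module.Finite ↥(Kt O tG) ↥(extendScalars hle) := by
    rw [← Module.rank_lt_aleph0_iff]
    exact lt_of_le_of_lt hrank (Cardinal.natCast_lt_aleph0)
  exact (Module.finrank_pos).ne'

end Generic

section Concrete

open Fermat.Agent.DS.G.ES.RED.Iface Fermat.Agent.DS.G.ES.RED.Base79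
open Fermat.Agent.RED.Interface4 Fermat.Agent.RED.ModelTargets4
  Fermat.Agent.RED.BASE.EtaQuot12 Fermat.Agent.X0
  Fermat.Agent.RED.DESC.NumberFieldDVR27

variable {n e : ℕ} [NeZero n] {D : GenData} {A : ValuationSubring Qbar}

/-- **The explicit model over all large number fields.**  For `K ⊇ K₀`: `AK A K` is a DVR, every
uniformiser `ϖ` and the Hauptmodul `t = tq K n e ∈ FKG D K` give the two-chart model at the charts
`chart (AK A K) t^{±1}` with the Gauss valuation ring of `FKG D K`.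

The hypotheses `hT hJ hoff hover hinf` are the bodies of `ModelTargets4.TTarget`, `JTarget`,
`OffTarget`, `OverTarget`, `InfTarget` with `FK M K` replaced by `FKG D K`. -/
theorem explicitModelStep_of_targets {ℓ : ℕ} [Fact ℓ.Prime] (hirr : DegIrrStep D A)
    (hA : A.LiesOverPrime ℓ) (cv : SL(2, ℤ) → Option Kbar)
    (hT : ∃ K₁ : IntermediateField ℚ Qbar, FiniteDimensional ℚ K₁ ∧
      ∀ K : IntermediateField ℚ Qbar, FiniteDimensional ℚ K → K₁ ≤ K → tq ↥K n e ∈ FKG D K)
    (hJ : JTarget n e)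
    (hoff : ∃ K₀ : IntermediateField ℚ Qbar, FiniteDimensional ℚ K₀ ∧
      ∀ K : IntermediateField ℚ Qbar, FiniteDimensional ℚ K → K₀ ≤ K →
        ∀ ϖ : ↥(AK A K), Irreducible ϖ →
          ∀ t : ↥(FKG D K), (t : LaurentSeries ↥K) = tq ↥K n e →
            SmoothOff (AK A K) (FKG D K) ϖ t (cuspSet A K cv))
    (hover : ∃ K₀ : IntermediateField ℚ Qbar, FiniteDimensional ℚ K₀ ∧
      ∀ K : IntermediateField ℚ Qbar, FiniteDimensional ℚ K → K₀ ≤ K →
        ∀ ϖ : ↥(AK A K), Irreducible ϖ →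
          ∀ t : ↥(FKG D K), (t : LaurentSeries ↥K) = tq ↥K n e →
            ∀ c ∈ cuspSet A K cv, SmoothOver (AK A K) (FKG D K) ϖ t c)
    (hinf : ∃ K₀ : IntermediateField ℚ Qbar, FiniteDimensional ℚ K₀ ∧
      ∀ K : IntermediateField ℚ Qbar, FiniteDimensional ℚ K → K₀ ≤ K →
        ∀ ϖ : ↥(AK A K), Irreducible ϖ →
          ∀ t : ↥(FKG D K), (t : LaurentSeries ↥K) = tq ↥K n e →
            SmoothOver (AK A K) (FKG D K) ϖ t⁻¹ 0) :
    ∃ K₀ : IntermediateField ℚ Qbar, FiniteDimensional ℚ K₀ ∧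
      ∀ K : IntermediateField ℚ Qbar, FiniteDimensional ℚ K → K₀ ≤ K →
        IsDiscreteValuationRing ↥(AK A K) ∧
        ∀ (ϖ : ↥(AK A K)) (_ : Irreducible ϖ) (hu : IsUnif (AK A K) ϖ) (t : ↥(FKG D K)),
          (t : LaurentSeries ↥K) = tq ↥K n e →
          TwoChartModel ↥(AK A K) ↥K ↥(FKG D K) ϖ t (chart ↥(AK A K) t) (chart ↥(AK A K) t⁻¹)
            (OvK D A K hu) := by
  have hℓ : ℓ.Prime := Fact.out
  obtain ⟨K₁, hK₁, hT⟩ := hT
  obtain ⟨K₂, hK₂, hJ⟩ := hJ
  obtain ⟨K₃, hK₃, hoff⟩ := hoff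
  obtain ⟨K₄, hK₄, hover⟩ := hover
  obtain ⟨K₅, hK₅, hinf⟩ := hinf
  obtain ⟨K₆, hK₆, hI⟩ := hirr
  refine ⟨K₁ ⊔ K₂ ⊔ K₃ ⊔ K₄ ⊔ K₅ ⊔ K₆, inferInstance, fun K hKfd hle => ?_⟩
  have hle1 : K₁ ≤ K := le_trans (le_trans (le_trans (le_trans (le_trans le_sup_left le_sup_left)
    le_sup_left) le_sup_left) le_sup_left) hle
  have hle2 : K₂ ≤ K := le_trans (le_trans (le_trans (le_trans (le_trans le_sup_right le_sup_left)
    le_sup_left) le_sup_left) le_sup_left) hle
  have hle3 : K₃ ≤ K := le_trans (le_trans (le_trans (le_trans le_sup_right le_sup_left)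
    le_sup_left) le_sup_left) hle
  have hle4 : K₄ ≤ K := le_trans (le_trans (le_trans le_sup_right le_sup_left) le_sup_left) hle
  have hle5 : K₅ ≤ K := le_trans (le_trans le_sup_right le_sup_left) hle
  have hle6 : K₆ ≤ K := le_trans le_sup_right hle
  have hdvr : IsDiscreteValuationRing ↥(AK A K) := isDiscreteValuationRing_AK A K hℓ.ne_zero hA
  refine ⟨hdvr, fun ϖ hϖ hu t htq => ?_⟩
  have hfin : Finite (↥(AK A K) ⧸ (Ideal.span {ϖ} : Ideal ↥(AK A K))) := by
    have h1 : Finite (IsLocalRing.ResidueField ↥(AK A K)) :=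
      finite_residueField_AK A K hℓ.ne_zero hA
    rw [← hϖ.maximalIdeal_eq]
    exact h1
  have hE : FKG D K ≤ fracField (AK A K) := FKG_le_fracField D A K
  have htE : tq ↥K n e ∈ FKG D K := hT K hKfd hle1
  have ht : ((t : ↥(FKG D K)) : LaurentSeries ↥K) ∈ gaussRing (AK A K) := by
    rw [htq]; exact tq_mem_gaussRing (AK A K) n e
  have htr : Transcendental (Res (AK A K))
      (gaussRed (AK A K) ⟨((t : ↥(FKG D K)) : LaurentSeries ↥K), ht⟩) := by
    have h1 : (⟨((t : ↥(FKG D K)) : LaurentSeries ↥K), ht⟩ : ↥(gaussRing (AK A K))) =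
        ⟨tq ↥K n e, tq_mem_gaussRing (AK A K) n e⟩ := Subtype.ext htq
    rw [h1]
    exact transcendental_gaussRed_tq (AK A K) n e
  have htE' : ((t : ↥(FKG D K)) : LaurentSeries ↥K) ∈ FKG D K := t.2
  have hjt : jqModC ↥K ∈ Kt (AK A K) ⟨((t : ↥(FKG D K)) : LaurentSeries ↥K), ht⟩ := by
    have h1 : (⟨((t : ↥(FKG D K)) : LaurentSeries ↥K), ht⟩ : ↥(gaussRing (AK A K))) =
        ⟨tq ↥K n e, tq_mem_gaussRing (AK A K) n e⟩ := Subtype.ext htq
    rw [h1]
    exact hJ K hKfd hle2
  obtain ⟨nn, -, hdeg, hirr⟩ := @hI K hKfd hle6 hdvr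
    ⟨((t : ↥(FKG D K)) : LaurentSeries ↥K), ht⟩ htE' hjt htr
  have hn : relfinrank (Kt (AK A K) ⟨((t : ↥(FKG D K)) : LaurentSeries ↥K), ht⟩) (FKG D K) ≠ 0 :=
    relfinrank_ne_zero_of_degLe _ htE' hdeg
  exact twoChartModel_of_split hϖ hE t ht htr hn hdeg hirr (cuspSet A K cv)
    (hoff K hKfd hle3 ϖ hϖ t htq) (hover K hKfd hle4 ϖ hϖ t htq) (hinf K hKfd hle5 ϖ hϖ t htq)

end Concrete

end Fermat.Agent.DS.G.ES.RED.ModelExplicit26
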