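/-
Programme DS (S48), chapter G-ESRED, brick E06 (helper36, for helper79's chapter): generic twin of
`ES/RED/PIRInst13` for a generator datum `D : GenData`.

* `pirHyp_FC` : **(PIR) for the special fibre** `F̃ = D.FC k`, `k = A / 𝔪_A`, `A` a valuation ring
  of `ℚ̄` over `ℓ`, given the Igusa step (generator `t̃ = tq k n e`, `SpecialGen25` twin).

The generic part `PIRInst13.pirHyp_of_isGen` of the original is reused as is.
-/
import Mathlib
import Fermat.Agent.ES.RED.PIRInst13
import Fermat.Agent.DS.G.ES.RED.SpecialGen25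

set_option autoImplicit false

noncomputable section

open AlgebraicCurve IntermediateField ModularCurve

namespace Fermat.Agent.DS.G.ES.RED.PIRInst13

open Fermat.Agent.X0.FF Fermat.Agent.ES.RED.Contract8 Fermat.Agent.ES.RED.ModelInstGen4
open Fermat.Agent.RED.Interface4 Fermat.Agent.RED.BASE Fermat.Agent.RED.BASE.EtaQuot12
open Fermat.Agent.DS.G.ES.RED.Iface Fermat.Agent.DS.G.ES.RED.SpecialDegree25

attribute [local instance] Fermat.Agent.DS.G.ES.RED.SpecialGen25.instAlgebraFCRes

variable (D : GenData) (n e : ℕ) [NeZero n] (ℓ : ℕ) [Fact ℓ.Prime]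
  (hmem : tq Qbar n e ∈ D.Fbar) (hgen : Interface12.TGenBase n e)
  (A : ValuationSubring Qbar) (hA : A.LiesOverPrime ℓ) (hig : IgusaStep D n e A)

include hmem hgen hA hig in
/-- **(PIR) for the special fibre** `F̃ = D.FC k`, `k = A / 𝔪_A`. -/
theorem pirHyp_FC : PIRHyp A ↥(D.FC (kA A)) := by
  have := SpecialGen25.isSeparable_tRes D n e ℓ hmem hgen A hA hig
  exact Fermat.Agent.ES.RED.PIRInst13.pirHyp_of_isGen
    (SpecialGen25.isGen_tRes D n e ℓ hmem hgen A hA hig)

end Fermat.Agent.DS.G.ES.RED.PIRInst13
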