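/-
Programme DS (S48), chapter G-ESRED, brick E07 (helper55): generic twin of `ES/RED/SpecialInv25`
(leaf T1g): the generator / separability / degree facts for BOTH coordinates `t` and `t⁻¹`, upstairs
(`D.Fbar` over `Qbar`) and on the special fibre (`F̃ = D.FC k` over `k = ResidueField A`), in the
literal shapes consumed by `X0.FFSum.sum_ord_fibre` / `SumOrdSep15.sum_ord_fibre_sep`, together with
the resulting fundamental identities with ONE common degree `degT`  (fields `fi`, `fit`, `fint`,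
`red_x_ne` of `R2Abstract14.ChartHyp`, field `tr0` of `TwoCharts8.TwoCharts`).

Also: the formal inverse `tqInv R n e` of the Hauptmodul `tq R n e` over any commutative ring, so that
`t⁻¹` has the `A`-integral expansion `tqInv ↥A n e`, reducing to `t̃⁻¹`  (copy of the original, which
sits behind heavy imports).

The upstairs section takes `hgenF : FF.IsGen Qbar (tF D n e hmem)` (chapter G-X0 `TIsGen`, or
`SpecialGen25.isGen_tF` from the Igusa inputs); the special-fibre section takes the Igusa inputs.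
-/
import Mathlib
import Fermat.Agent.DS.G.ES.RED.SpecialGen25
import Fermat.Agent.ES.RED.SumOrdSep15
import Fermat.Agent.X0.FFSum

set_option autoImplicit false
set_option linter.style.haveILetI false
set_option linter.unusedSectionVars false

noncomputable section

open HahnSeries ModularCurve IntermediateField AlgebraicCurve

namespace Fermat.Agent.DS.G.ES.RED.SpecialInv25

open Fermat.Agent.X0 Fermat.Agent.RED.Interface4 Fermat.Agent.RED.BASE
  Fermat.Agent.RED.BASE.EtaQuot12 Fermat.Agent.DS.G.ES.RED.SpecialGen25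
  Fermat.Agent.ES.RED.SumOrdSep15 Fermat.Agent.DS.G.ES.RED.Iface
  Fermat.Agent.DS.G.ES.RED.SpecialDegree25

/-! ### the formal inverse of the Hauptmodul -/

section Formal

variable (R : Type*) [CommRing R]

/-- the formal inverse `q (η(q^n)/η(q))^e` of `tq R n e`. -/
def tqInv (n e : ℕ) [NeZero n] : LaurentSeries R :=
  HahnSeries.single (1 : ℤ) 1 * etaqInv R ^ e * qExpand R n (etaq R) ^ e

theorem tq_mul_tqInv (n e : ℕ) [NeZero n] : tq R n e * tqInv R n e = 1 := by
  have h1 : (HahnSeries.single (-1 : ℤ) (1 : R)) * HahnSeries.single (1 : ℤ) 1 = 1 := by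
    rw [HahnSeries.single_mul_single]
    simp
  have h2 : etaq R ^ e * etaqInv R ^ e = 1 := by
    rw [← mul_pow, etaq_mul_etaqInv, one_pow]
  have h3 : qExpand R n (etaqInv R) ^ e * qExpand R n (etaq R) ^ e = 1 := by
    rw [← mul_pow, ← map_mul, mul_comm, etaq_mul_etaqInv, map_one, one_pow]
  calc tq R n e * tqInv R n e
      = (HahnSeries.single (-1 : ℤ) (1 : R) * HahnSeries.single (1 : ℤ) 1)
          * (etaq R ^ e * etaqInv R ^ e)
          * (qExpand R n (etaqInv R) ^ e * qExpand R n (etaq R) ^ e) := by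
        rw [tq, tqInv]; ring
    _ = 1 := by rw [h1, h2, h3, one_mul, one_mul]

theorem coeffMap_tqInv {S : Type*} [CommRing S] (φ : R →+* S) (n e : ℕ) [NeZero n] :
    coeffMap φ (tqInv R n e) = tqInv S n e := by
  rw [tqInv, tqInv, map_mul, map_mul, map_pow, map_pow, coeffMap_single,
    ModularCurve.coeffMap_qExpand, coeffMap_etaq, coeffMap_etaqInv, map_one]

end Formal

theorem tqInv_eq_inv (K : Type*) [Field K] (n e : ℕ) [NeZero n] :
    tqInv K n e = (tq K n e)⁻¹ :=
  eq_inv_of_mul_eq_one_right (tq_mul_tqInv K n e)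

/-! ### upstairs: `D.Fbar / Qbar` -/

section Upstairs

variable (D : GenData) (n e : ℕ) [NeZero n] (hmem : tq Qbar n e ∈ D.Fbar)
  (hgenF : FF.IsGen Qbar (tF D n e hmem))

/-- the common degree `[D.Fbar : Qbar(t)]`. -/
def degT : ℕ :=
  Module.finrank ↥(Qbar⟮tF D n e hmem⟯ : IntermediateField Qbar ↥D.Fbar) ↥D.Fbar

include hgenF in
theorem isGen_tF_inv : FF.IsGen Qbar (tF D n e hmem)⁻¹ := hgenF.inv

theorem finrank_tF_inv :
    Module.finrank ↥(Qbar⟮(tF D n e hmem)⁻¹⟯ : IntermediateField Qbar ↥D.Fbar) ↥D.Fbar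
      = degT D n e hmem := by
  rw [FF.adjoin_inv]
  rfl

include hgenF in
/-- `fi` for the coordinate `t`. -/
theorem sum_ord_fibre_tF (a : Qbar) :
    ∑ᶠ (P : Place Qbar ↥D.Fbar)
        (_ : 0 < P.ord (tF D n e hmem - algebraMap Qbar ↥D.Fbar a)),
      P.ord (tF D n e hmem - algebraMap Qbar ↥D.Fbar a) = (degT D n e hmem : ℤ) :=
  FF.sum_ord_fibre hgenF a

include hgenF in
/-- `fi` for the coordinate `t⁻¹`. -/
theorem sum_ord_fibre_tF_inv (a : Qbar) :
    ∑ᶠ (P : Place Qbar ↥D.Fbar)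
        (_ : 0 < P.ord ((tF D n e hmem)⁻¹ - algebraMap Qbar ↥D.Fbar a)),
      P.ord ((tF D n e hmem)⁻¹ - algebraMap Qbar ↥D.Fbar a) = (degT D n e hmem : ℤ) := by
  rw [FF.sum_ord_fibre (isGen_tF_inv D n e hmem hgenF) a, finrank_tF_inv]

/-- the `q`-expansion of `t` is `A`-integral: it is `coeffMap A.subtype (tq ↥A n e)`. -/
theorem coe_tF_eq (A : ValuationSubring Qbar) :
    ((tF D n e hmem : ↥D.Fbar) : LaurentSeries Qbar) = coeffMap A.subtype (tq ↥A n e) := by
  rw [coeffMap_tq]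
  rfl

/-- the `q`-expansion of `t⁻¹` is `A`-integral: it is `coeffMap A.subtype (tqInv ↥A n e)`. -/
theorem coe_tF_inv (A : ValuationSubring Qbar) :
    (((tF D n e hmem)⁻¹ : ↥D.Fbar) : LaurentSeries Qbar)
      = coeffMap A.subtype (tqInv ↥A n e) := by
  rw [coeffMap_tqInv, tqInv_eq_inv]
  rfl

end Upstairs

/-! ### the special fibre -/

section Special

set_option synthInstance.maxHeartbeats 400000

attribute [local instance] instAlgebraFCRes

variable (D : GenData) (n e : ℕ) [NeZero n] (ℓ : ℕ) [Fact ℓ.Prime]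
  (hmem : tq Qbar n e ∈ D.Fbar) (hgen : Interface12.TGenBase n e)
  (A : ValuationSubring Qbar) (hA : A.LiesOverPrime ℓ) (hig : IgusaStep D n e A)

/-- `tr0`: `t̃` is transcendental over `k`. -/
theorem transcendental_tRes :
    Transcendental (IsLocalRing.ResidueField ↥A) (tRes D n e ℓ hmem hgen A hA hig) :=
  (isGen_tRes D n e ℓ hmem hgen A hA hig).transcendental

/-- `red_x_ne`: `t̃` is not a constant. -/
theorem tRes_ne_algebraMap (c : (IsLocalRing.ResidueField ↥A)) :
    (tRes D n e ℓ hmem hgen A hA hig) ≠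
      algebraMap (IsLocalRing.ResidueField ↥A) ↥(D.FC (IsLocalRing.ResidueField ↥A)) c := by
  intro h
  exact (isGen_tRes D n e ℓ hmem hgen A hA hig).sub_algebraMap_ne_zero c (by rw [h, sub_self])

theorem isGen_tRes_inv :
    FF.IsGen (IsLocalRing.ResidueField ↥A) (tRes D n e ℓ hmem hgen A hA hig)⁻¹ :=
  (isGen_tRes D n e ℓ hmem hgen A hA hig).inv

theorem tRes_inv_ne_algebraMap (c : (IsLocalRing.ResidueField ↥A)) :
    (tRes D n e ℓ hmem hgen A hA hig)⁻¹ ≠
      algebraMap (IsLocalRing.ResidueField ↥A) ↥(D.FC (IsLocalRing.ResidueField ↥A)) c := by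
  intro h
  exact (isGen_tRes_inv D n e ℓ hmem hgen A hA hig).sub_algebraMap_ne_zero c (by rw [h, sub_self])

theorem isSeparable_tRes_inv :
    Algebra.IsSeparable
      ↥((IsLocalRing.ResidueField ↥A)⟮(tRes D n e ℓ hmem hgen A hA hig)⁻¹⟯ :
        IntermediateField (IsLocalRing.ResidueField ↥A) ↥(D.FC (IsLocalRing.ResidueField ↥A)))
      ↥(D.FC (IsLocalRing.ResidueField ↥A)) := by
  haveI := isSeparable_tRes D n e ℓ hmem hgen A hA hig
  exact isSeparable_inv (K := (IsLocalRing.ResidueField ↥A)) (tRes D n e ℓ hmem hgen A hA hig)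

/-- `[F̃ : k(t̃)] = degT`. -/
theorem finrank_tRes_eq_degT :
    Module.finrank
      ↥((IsLocalRing.ResidueField ↥A)⟮(tRes D n e ℓ hmem hgen A hA hig)⟯ :
        IntermediateField (IsLocalRing.ResidueField ↥A) ↥(D.FC (IsLocalRing.ResidueField ↥A)))
      ↥(D.FC (IsLocalRing.ResidueField ↥A)) = degT D n e hmem :=
  finrank_tRes D n e ℓ hmem hgen A hA hig

/-- `[F̃ : k(t̃⁻¹)] = degT`. -/
theorem finrank_tRes_inv :
    Module.finrank
      ↥((IsLocalRing.ResidueField ↥A)⟮(tRes D n e ℓ hmem hgen A hA hig)⁻¹⟯ :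
        IntermediateField (IsLocalRing.ResidueField ↥A) ↥(D.FC (IsLocalRing.ResidueField ↥A)))
      ↥(D.FC (IsLocalRing.ResidueField ↥A)) = degT D n e hmem := by
  rw [FF.adjoin_inv]
  exact finrank_tRes D n e ℓ hmem hgen A hA hig

/-- `[F̃ : k(t̃⁻¹)] = [D.Fbar : Qbar(t⁻¹)]`. -/
theorem finrank_tRes_inv_eq :
    Module.finrank
      ↥((IsLocalRing.ResidueField ↥A)⟮(tRes D n e ℓ hmem hgen A hA hig)⁻¹⟯ :
        IntermediateField (IsLocalRing.ResidueField ↥A) ↥(D.FC (IsLocalRing.ResidueField ↥A)))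
      ↥(D.FC (IsLocalRing.ResidueField ↥A)) =
      Module.finrank ↥(Qbar⟮(tF D n e hmem)⁻¹⟯ : IntermediateField Qbar ↥D.Fbar) ↥D.Fbar := by
  rw [finrank_tRes_inv, finrank_tF_inv]

theorem isAlgClosed_kk : IsAlgClosed (IsLocalRing.ResidueField ↥A) :=
  Fermat.Agent.ES.KRON.KronInst10.isAlgClosed_residueField A

/-- `fit` for the coordinate `t̃`. -/
theorem sum_ord_fibre_tRes (c : (IsLocalRing.ResidueField ↥A)) :
    ∑ᶠ (Q : Place (IsLocalRing.ResidueField ↥A) ↥(D.FC (IsLocalRing.ResidueField ↥A)))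
        (_ : 0 < Q.ord ((tRes D n e ℓ hmem hgen A hA hig) -
          algebraMap (IsLocalRing.ResidueField ↥A) ↥(D.FC (IsLocalRing.ResidueField ↥A)) c)),
      Q.ord ((tRes D n e ℓ hmem hgen A hA hig) -
        algebraMap (IsLocalRing.ResidueField ↥A) ↥(D.FC (IsLocalRing.ResidueField ↥A)) c) =
      (degT D n e hmem : ℤ) := by
  haveI := isAlgClosed_kk A
  haveI := isSeparable_tRes D n e ℓ hmem hgen A hA hig
  rw [sum_ord_fibre_sep (isGen_tRes D n e ℓ hmem hgen A hA hig) c, finrank_tRes_eq_degT]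

/-- `fit` for the coordinate `t̃⁻¹`. -/
theorem sum_ord_fibre_tRes_inv (c : (IsLocalRing.ResidueField ↥A)) :
    ∑ᶠ (Q : Place (IsLocalRing.ResidueField ↥A) ↥(D.FC (IsLocalRing.ResidueField ↥A)))
        (_ : 0 < Q.ord ((tRes D n e ℓ hmem hgen A hA hig)⁻¹ -
          algebraMap (IsLocalRing.ResidueField ↥A) ↥(D.FC (IsLocalRing.ResidueField ↥A)) c)),
      Q.ord ((tRes D n e ℓ hmem hgen A hA hig)⁻¹ -
        algebraMap (IsLocalRing.ResidueField ↥A) ↥(D.FC (IsLocalRing.ResidueField ↥A)) c) =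
      (degT D n e hmem : ℤ) := by
  haveI := isAlgClosed_kk A
  haveI := isSeparable_tRes_inv D n e ℓ hmem hgen A hA hig
  rw [sum_ord_fibre_sep (isGen_tRes_inv D n e ℓ hmem hgen A hA hig) c, finrank_tRes_inv]

/-- `fint` for `t̃`. -/
theorem finite_fibre_tRes (c : (IsLocalRing.ResidueField ↥A)) :
    {Q : Place (IsLocalRing.ResidueField ↥A) ↥(D.FC (IsLocalRing.ResidueField ↥A)) |
      0 < Q.ord ((tRes D n e ℓ hmem hgen A hA hig) -
        algebraMap (IsLocalRing.ResidueField ↥A)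
          ↥(D.FC (IsLocalRing.ResidueField ↥A)) c)}.Finite := by
  haveI := isAlgClosed_kk A
  haveI := isSeparable_tRes D n e ℓ hmem hgen A hA hig
  exact finite_fibre_sep (isGen_tRes D n e ℓ hmem hgen A hA hig) c

/-- `fint` for `t̃⁻¹`. -/
theorem finite_fibre_tRes_inv (c : (IsLocalRing.ResidueField ↥A)) :
    {Q : Place (IsLocalRing.ResidueField ↥A) ↥(D.FC (IsLocalRing.ResidueField ↥A)) |
      0 < Q.ord ((tRes D n e ℓ hmem hgen A hA hig)⁻¹ -
        algebraMap (IsLocalRing.ResidueField ↥A)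
          ↥(D.FC (IsLocalRing.ResidueField ↥A)) c)}.Finite := by
  haveI := isAlgClosed_kk A
  haveI := isSeparable_tRes_inv D n e ℓ hmem hgen A hA hig
  exact finite_fibre_sep (isGen_tRes_inv D n e ℓ hmem hgen A hA hig) c

/-- the reduction of the `A`-expansion `tq ↥A n e` of `t` is `t̃`. -/
theorem coe_tRes_eq :
    (((tRes D n e ℓ hmem hgen A hA hig) : ↥(D.FC (IsLocalRing.ResidueField ↥A))) :
      LaurentSeries (IsLocalRing.ResidueField ↥A)) =
      coeffMap (IsLocalRing.residue ↥A) (tq ↥A n e) := by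
  rw [coeffMap_tq]
  rfl

/-- the reduction of the `A`-expansion `tqInv ↥A n e` of `t⁻¹` is `t̃⁻¹`. -/
theorem coe_tRes_inv :
    (((tRes D n e ℓ hmem hgen A hA hig)⁻¹ : ↥(D.FC (IsLocalRing.ResidueField ↥A))) :
      LaurentSeries (IsLocalRing.ResidueField ↥A)) =
      coeffMap (IsLocalRing.residue ↥A) (tqInv ↥A n e) := by
  rw [coeffMap_tqInv, tqInv_eq_inv]
  rfl

end Special

end Fermat.Agent.DS.G.ES.RED.SpecialInv25
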