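/-
Programme DS (S48), chapter G-ESRED, brick E07 (helper55): generic twin of `ES/RED/Tr0Inst18`: the
field `tr0` of `TwoCharts8.TwoCharts` for the concrete charts of a generator datum `D : GenData`.

For any field `k`, an element `y` of an intermediate field of `k((q))` whose `q`-expansion is
the Hauptmodul series `tq k n e` is transcendental over `k`; hence
`Transcendental (kA A) (S0.red S0.sB)` as soon as `red₀ s = tRes` (coercion `= tq k n e`).
-/
import Mathlib
import Fermat.Agent.ES.RED.TwoCharts8
import Fermat.Agent.DS.G.ES.RED.SpecialGen16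
import Fermat.Agent.DS.G.ES.RED.SpecialGen25

set_option autoImplicit false

open ModularCurve

noncomputable section

namespace Fermat.Agent.DS.G.ES.RED.Tr0Inst18

open Fermat.Agent.ES.RED.Contract8 Fermat.Agent.DS.G.ES.RED.Iface

set_option synthInstance.maxHeartbeats 400000

attribute [local instance] SpecialGen25.instAlgebraFCRes

/-- An element of an intermediate field of `k((q))` whose expansion is `tq k n e` (resp. its
inverse) is transcendental over `k`. -/
theorem transcendental_of_coe_eq_tq {k : Type*} [Field k] (n e : ℕ) [NeZero n]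
    (E : IntermediateField k (LaurentSeries k)) (y : ↥E)
    (hy : (y : LaurentSeries k) = Fermat.Agent.RED.BASE.EtaQuot12.tq k n e) :
    Transcendental k y :=
  SpecialGen16.transcendental_coe E y
    (hy ▸ Fermat.Agent.RED.BASE.TBridge15.transcendental_tq k n e)

/-- **`tr0`** for a chart into `F~ = D.FC k` whose reduced coordinate has the Hauptmodul
expansion. -/
theorem tr0_of_coe {L : Type*} [Field L] [IsAlgClosed L] {A : ValuationSubring L}
    {F : Type*} [Field F] [Algebra L F] {x : F} {hx : Fermat.Agent.X0.FF.IsGen L x}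
    (D : GenData) (n e : ℕ) [NeZero n]
    (S0 : ChartSpec A hx ↥(D.FC (kA A)))
    (h : ((S0.red S0.sB : ↥(D.FC (kA A))) : LaurentSeries (kA A)) =
      Fermat.Agent.RED.BASE.EtaQuot12.tq (kA A) n e) :
    Transcendental (kA A) (S0.red S0.sB) :=
  transcendental_of_coe_eq_tq n e _ _ h

/-- `tr0` when the reduced coordinate is `SpecialGen25.tRes`. -/
theorem tr0_of_eq_tRes {F : Type*} [Field F] [Algebra (AlgebraicClosure ℚ) F] {x : F}
    {hx : Fermat.Agent.X0.FF.IsGen (AlgebraicClosure ℚ) x}
    (D : GenData) (n e : ℕ) [NeZero n] (ℓ : ℕ) [Fact ℓ.Prime]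
    (hmem : Fermat.Agent.RED.BASE.EtaQuot12.tq (AlgebraicClosure ℚ) n e ∈ D.Fbar)
    (hgen : Fermat.Agent.RED.BASE.Interface12.TGenBase n e)
    (A : ValuationSubring (AlgebraicClosure ℚ)) (hA : A.LiesOverPrime ℓ)
    (hig : SpecialDegree25.IgusaStep D n e A)
    (S0 : ChartSpec A hx ↥(D.FC (kA A)))
    (h : S0.red S0.sB = SpecialGen25.tRes D n e ℓ hmem hgen A hA hig) :
    Transcendental (kA A) (S0.red S0.sB) := by
  rw [h]
  exact (SpecialGen25.isGen_tRes D n e ℓ hmem hgen A hA hig).transcendental

end Fermat.Agent.DS.G.ES.RED.Tr0Inst18
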