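/-
Programme DS (S48), chapter G-ESRED, brick E06 tail (helper52, hedge for the `ModelInst4` +
`PIRInst13` twins): generic twin of `ES/RED/ModelInst4` (helper4) + `ES/RED/PIRInst13` (helper13) for
a generator datum `D : GenData` (`DS/G/ES/RED/Iface.lean`).

**The concrete two-chart structure over `A ≤ ℚ̄`** for the Hauptmodul `t = tF D n e hmem` of the base
level `(n, e)`: charts `S0` (coordinate `t`) and `S1` (coordinate `t⁻¹`) of
`ChartInstGen4.chartSpecA`, glued by `ModelInstGen4.twoChartsOf`.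

Inputs taken as hypotheses (as in the original):
* `hGB2 : GaussUnit25.GB2Step D A` (replaces `hℓM : ¬ ℓ ∣ M`), `hig : SpecialDegree25.IgusaStep D n e A`
  (degree of the special fibre; gives `isGen_tF`, `isGen_tRes`, separability);
* `hsat0 : LevelSat A D t`, `hsat1 : LevelSat A D t⁻¹` (`LevelSat16` twin);
* `hlev0 : HasLevels S0`, `hlev1 : HasLevels S1`      (`TOP/LevelsHyp12` twin).

Outputs (same names as the original): `S0`, `S1`, `coeffChart0/1`, `compat0/1`, `coe_red_s0/1`, `tr0`,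
`red_s0_eq_tRes`, `red_s_mul`, `ov0`, `twoCharts` (`.S0 = S0`, `.S1 = S1` by `rfl`), `peelA0`,
`peelA1`, `pirHyp_FC`.
-/
import Mathlib
import Fermat.Agent.DS.G.ES.RED.ChartInstGen4
import Fermat.Agent.ES.RED.ModelInstGen4
import Fermat.Agent.ES.RED.Overlap23
import Fermat.Agent.ES.RED.PlacePIR13
import Fermat.Agent.DS.G.ES.RED.Tr0Inst18
import Fermat.Agent.DS.G.ES.RED.SpecialInv25

set_option autoImplicit false
set_option linter.unusedSectionVars false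
set_option linter.style.haveILetI false

open HahnSeries ModularCurve AlgebraicCurve

noncomputable section

namespace Fermat.Agent.DS.G.ES.RED.ModelInst52

open Fermat.Agent.RED.Interface4 Fermat.Agent.RED.PUR.ChartGeneric22
  Fermat.Agent.RED.BASE.Interface12 Fermat.Agent.RED.BASE.EtaQuot12
  Fermat.Agent.ES.RED.Contract8
  Fermat.Agent.ES.RED.TwoCharts8 Fermat.Agent.ES.RED.ModelInstGen4
  Fermat.Agent.DS.G.ES.RED.ChartInstGen4 Fermat.Agent.DS.G.ES.RED.SpecialInv25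
  Fermat.Agent.DS.G.ES.RED.SpecialGen25 Fermat.Agent.DS.G.ES.RED.SpecialDegree25
  Fermat.Agent.DS.G.ES.RED.Iface Fermat.Agent.X0.FF
open Fermat.Agent.DS.G.ES.RED.ChartIntegralA1 hiding kA

variable (D : GenData) (n e : ℕ) [NeZero n] (ℓ : ℕ) [Fact ℓ.Prime]
  (hmem : tq Qbar n e ∈ D.Fbar) (hgen : TGenBase n e) (A : ValuationSubring Qbar)
  (hA : A.LiesOverPrime ℓ) (hGB2 : GaussUnit25.GB2Step D A) (hig : IgusaStep D n e A)

include hmem hgen hA hig in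
/-- **(PIR) for the special fibre** `F̃ = D.FC k`, `k = A / 𝔪_A` (twin of
`PIRInst13.pirHyp_fullC`). -/
theorem pirHyp_FC : PIRHyp A ↥(D.FC (kA A)) := by
  have hsep := SpecialGen25.isSeparable_tRes D n e ℓ hmem hgen A hA hig
  intro O hK hO
  exact Fermat.Agent.ES.RED.PlacePIR13.isPrincipalIdealRing_of_algebraMap_mem
    (SpecialGen25.isGen_tRes D n e ℓ hmem hgen A hA hig) O hK hO

/-- `t` has the `A`-integral expansion `tq A n e`. -/
theorem tF_mem_intF : tF D n e hmem ∈ intF A D :=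
  (mem_intF_iff A D).mpr ⟨tq ↥A n e, coeffMap_tq ↥A A.subtype n e⟩

/-- `t⁻¹` has the `A`-integral expansion `tqInv A n e`. -/
theorem tF_inv_mem_intF : (tF D n e hmem)⁻¹ ∈ intF A D := by
  refine (mem_intF_iff A D).mpr ⟨tqInv ↥A n e, ?_⟩
  rw [coeffMap_tqInv, tqInv_eq_inv]
  rfl

variable (hsat0 : LevelSat A D (tF D n e hmem)) (hsat1 : LevelSat A D (tF D n e hmem)⁻¹)

/-- **Chart 0**: coordinate `t`. -/
def S0 : ChartSpec A (isGen_tF D n e ℓ hmem hgen A hA hig) ↥(D.FC (kA A)) :=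
  chartSpecA A D ℓ hA hGB2 (isGen_tF D n e ℓ hmem hgen A hA hig) (tF D n e hmem)
    (tF_mem_intF D n e hmem A) (isGen_tF D n e ℓ hmem hgen A hA hig) hsat0

/-- **Chart 1**: coordinate `t⁻¹`. -/
def S1 : ChartSpec A (isGen_tF D n e ℓ hmem hgen A hA hig) ↥(D.FC (kA A)) :=
  chartSpecA A D ℓ hA hGB2 (isGen_tF D n e ℓ hmem hgen A hA hig) (tF D n e hmem)⁻¹
    (tF_inv_mem_intF D n e hmem A)
    (isGen_tF_inv D n e hmem (isGen_tF D n e ℓ hmem hgen A hA hig)) hsat1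

@[simp] theorem S0_s : (S0 D n e ℓ hmem hgen A hA hGB2 hig hsat0).s = tF D n e hmem := rfl

@[simp] theorem S1_s : (S1 D n e ℓ hmem hgen A hA hGB2 hig hsat1).s = (tF D n e hmem)⁻¹ := rfl

theorem S0_B :
    (S0 D n e ℓ hmem hgen A hA hGB2 hig hsat0).B = (chart ↥A (tF D n e hmem)).toSubring := rfl

theorem S1_B :
    (S1 D n e ℓ hmem hgen A hA hGB2 hig hsat1).B = (chart ↥A (tF D n e hmem)⁻¹).toSubring := rfl

/-- the coordinates have rational coefficients. -/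
theorem coeffMap_sigma_tF (σ : Qbar ≃ₐ[ℚ] Qbar) :
    coeffMap ((σ : Qbar ≃+* Qbar) : Qbar →+* Qbar)
      ((tF D n e hmem : ↥D.Fbar) : LaurentSeries Qbar) =
        ((tF D n e hmem : ↥D.Fbar) : LaurentSeries Qbar) :=
  coeffMap_tq Qbar ((σ : Qbar ≃+* Qbar) : Qbar →+* Qbar) n e

theorem coeffMap_sigma_tF_inv (σ : Qbar ≃ₐ[ℚ] Qbar) :
    coeffMap ((σ : Qbar ≃+* Qbar) : Qbar →+* Qbar)
      (((tF D n e hmem)⁻¹ : ↥D.Fbar) : LaurentSeries Qbar) =
        (((tF D n e hmem)⁻¹ : ↥D.Fbar) : LaurentSeries Qbar) := by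
  have h : (((tF D n e hmem)⁻¹ : ↥D.Fbar) : LaurentSeries Qbar) = (tq Qbar n e)⁻¹ := rfl
  rw [h, map_inv₀, coeffMap_tq]

/-- (R3) interface, chart 0. -/
theorem coeffChart0 :
    GaloisInst21.CoeffChart (F₀ := D.FQ) (S0 D n e ℓ hmem hgen A hA hGB2 hig hsat0) :=
  coeffChart_chartSpecA A D ℓ hA hGB2 (isGen_tF D n e ℓ hmem hgen A hA hig) (tF D n e hmem)
    (tF_mem_intF D n e hmem A) (isGen_tF D n e ℓ hmem hgen A hA hig) hsat0
    (coeffMap_sigma_tF D n e hmem)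

/-- (R3) interface, chart 1. -/
theorem coeffChart1 :
    GaloisInst21.CoeffChart (F₀ := D.FQ) (S1 D n e ℓ hmem hgen A hA hGB2 hig hsat1) :=
  coeffChart_chartSpecA A D ℓ hA hGB2 (isGen_tF D n e ℓ hmem hgen A hA hig) (tF D n e hmem)⁻¹
    (tF_inv_mem_intF D n e hmem A)
    (isGen_tF_inv D n e hmem (isGen_tF D n e ℓ hmem hgen A hA hig)) hsat1
    (coeffMap_sigma_tF_inv D n e hmem)

/-- RED-Z interface. -/
theorem compat0 :
    RedCharts15.Compat A D.FQ (D.FC (kA A)) (S0 D n e ℓ hmem hgen A hA hGB2 hig hsat0) :=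
  compat_chartSpecA A D ℓ hA hGB2 (isGen_tF D n e ℓ hmem hgen A hA hig) (tF D n e hmem)
    (tF_mem_intF D n e hmem A) (isGen_tF D n e ℓ hmem hgen A hA hig) hsat0

theorem compat1 :
    RedCharts15.Compat A D.FQ (D.FC (kA A)) (S1 D n e ℓ hmem hgen A hA hGB2 hig hsat1) :=
  compat_chartSpecA A D ℓ hA hGB2 (isGen_tF D n e ℓ hmem hgen A hA hig) (tF D n e hmem)⁻¹
    (tF_inv_mem_intF D n e hmem A)
    (isGen_tF_inv D n e hmem (isGen_tF D n e ℓ hmem hgen A hA hig)) hsat1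

/-- **`red₀ t = t̃`**, on expansions. -/
theorem coe_red_s0 :
    (((S0 D n e ℓ hmem hgen A hA hGB2 hig hsat0).red
        (S0 D n e ℓ hmem hgen A hA hGB2 hig hsat0).sB : ↥(D.FC (kA A))) :
      LaurentSeries (kA A)) = tq (kA A) n e := by
  have h := red_eq_chartSpecA A D ℓ hA hGB2 (isGen_tF D n e ℓ hmem hgen A hA hig) (tF D n e hmem)
    (tF_mem_intF D n e hmem A) (isGen_tF D n e ℓ hmem hgen A hA hig) hsat0
    (S0 D n e ℓ hmem hgen A hA hGB2 hig hsat0).sB (tq ↥A n e) (coeffMap_tq ↥A A.subtype n e)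
  exact h.trans (coeffMap_tq ↥A (resA A) n e)

/-- **`red₁ t⁻¹ = t̃⁻¹`**, on expansions. -/
theorem coe_red_s1 :
    (((S1 D n e ℓ hmem hgen A hA hGB2 hig hsat1).red
        (S1 D n e ℓ hmem hgen A hA hGB2 hig hsat1).sB : ↥(D.FC (kA A))) :
      LaurentSeries (kA A)) = (tq (kA A) n e)⁻¹ := by
  have h : coeffMap A.subtype (tqInv ↥A n e) =
      ((((S1 D n e ℓ hmem hgen A hA hGB2 hig hsat1).sB :
        ↥(S1 D n e ℓ hmem hgen A hA hGB2 hig hsat1).B) : ↥D.Fbar) : LaurentSeries Qbar) := by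
    rw [coeffMap_tqInv, tqInv_eq_inv]
    rfl
  have h2 := red_eq_chartSpecA A D ℓ hA hGB2 (isGen_tF D n e ℓ hmem hgen A hA hig)
    (tF D n e hmem)⁻¹ (tF_inv_mem_intF D n e hmem A)
    (isGen_tF_inv D n e hmem (isGen_tF D n e ℓ hmem hgen A hA hig)) hsat1
    (S1 D n e ℓ hmem hgen A hA hGB2 hig hsat1).sB (tqInv ↥A n e) h
  refine h2.trans ?_
  rw [coeffMap_tqInv, tqInv_eq_inv]

/-- **`tr0`**. -/
theorem tr0 : Transcendental (kA A)
    ((S0 D n e ℓ hmem hgen A hA hGB2 hig hsat0).red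
      (S0 D n e ℓ hmem hgen A hA hGB2 hig hsat0).sB) :=
  Tr0Inst18.tr0_of_coe D n e _ (coe_red_s0 D n e ℓ hmem hgen A hA hGB2 hig hsat0)

/-- `red₀ t = t̃` as elements of `F̃`. -/
theorem red_s0_eq_tRes :
    (S0 D n e ℓ hmem hgen A hA hGB2 hig hsat0).red
        (S0 D n e ℓ hmem hgen A hA hGB2 hig hsat0).sB =
      SpecialGen25.tRes D n e ℓ hmem hgen A hA hig :=
  Subtype.ext (coe_red_s0 D n e ℓ hmem hgen A hA hGB2 hig hsat0)

/-- the overlap: `red₀ t · red₁ t⁻¹ = 1`. -/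
theorem red_s_mul :
    (S0 D n e ℓ hmem hgen A hA hGB2 hig hsat0).red
        (S0 D n e ℓ hmem hgen A hA hGB2 hig hsat0).sB *
      (S1 D n e ℓ hmem hgen A hA hGB2 hig hsat1).red
        (S1 D n e ℓ hmem hgen A hA hGB2 hig hsat1).sB = 1 :=
  Fermat.Agent.ES.RED.Overlap23.red_s_mul_of_series A D.Fbar (D.FC (kA A))
    (tF D n e hmem) _ _
    (fun b hb => exists_series_chartSpecA A D ℓ hA hGB2 (isGen_tF D n e ℓ hmem hgen A hA hig)
      (tF D n e hmem) (tF_mem_intF D n e hmem A) (isGen_tF D n e ℓ hmem hgen A hA hig) hsat0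
      ⟨b, hb⟩)
    (fun b hb => exists_series_chartSpecA A D ℓ hA hGB2 (isGen_tF D n e ℓ hmem hgen A hA hig)
      (tF D n e hmem)⁻¹ (tF_inv_mem_intF D n e hmem A)
      (isGen_tF_inv D n e hmem (isGen_tF D n e ℓ hmem hgen A hA hig)) hsat1 ⟨b, hb⟩)
    (fun b Y hY => red_eq_chartSpecA A D ℓ hA hGB2 (isGen_tF D n e ℓ hmem hgen A hA hig)
      (tF D n e hmem) (tF_mem_intF D n e hmem A) (isGen_tF D n e ℓ hmem hgen A hA hig) hsat0
      b Y hY)
    (fun b Y hY => red_eq_chartSpecA A D ℓ hA hGB2 (isGen_tF D n e ℓ hmem hgen A hA hig)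
      (tF D n e hmem)⁻¹ (tF_inv_mem_intF D n e hmem A)
      (isGen_tF_inv D n e hmem (isGen_tF D n e ℓ hmem hgen A hA hig)) hsat1 b Y hY)
    (isGen_tF D n e ℓ hmem hgen A hA hig).ne_zero

/-- the overlap: `B₁ ⊆ B₀[1/t]`, compatibly with the reductions. -/
theorem ov0 (b : ↥(S1 D n e ℓ hmem hgen A hA hGB2 hig hsat1).B) :
    ∃ (m : ℕ) (b0 : ↥(S0 D n e ℓ hmem hgen A hA hGB2 hig hsat0).B),
      (b0 : ↥D.Fbar) = (S0 D n e ℓ hmem hgen A hA hGB2 hig hsat0).s ^ m * (b : ↥D.Fbar) ∧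
      (S0 D n e ℓ hmem hgen A hA hGB2 hig hsat0).red b0 =
        (S0 D n e ℓ hmem hgen A hA hGB2 hig hsat0).red
            (S0 D n e ℓ hmem hgen A hA hGB2 hig hsat0).sB ^ m *
          (S1 D n e ℓ hmem hgen A hA hGB2 hig hsat1).red b :=
  Fermat.Agent.ES.RED.Overlap23.ov0_of_series A D.Fbar (D.FC (kA A))
    (tF D n e hmem) _ _
    (fun b hb => exists_series_chartSpecA A D ℓ hA hGB2 (isGen_tF D n e ℓ hmem hgen A hA hig)
      (tF D n e hmem) (tF_mem_intF D n e hmem A) (isGen_tF D n e ℓ hmem hgen A hA hig) hsat0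
      ⟨b, hb⟩)
    (fun b hb => exists_series_chartSpecA A D ℓ hA hGB2 (isGen_tF D n e ℓ hmem hgen A hA hig)
      (tF D n e hmem)⁻¹ (tF_inv_mem_intF D n e hmem A)
      (isGen_tF_inv D n e hmem (isGen_tF D n e ℓ hmem hgen A hA hig)) hsat1 ⟨b, hb⟩)
    (fun b Y hY => red_eq_chartSpecA A D ℓ hA hGB2 (isGen_tF D n e ℓ hmem hgen A hA hig)
      (tF D n e hmem) (tF_mem_intF D n e hmem A) (isGen_tF D n e ℓ hmem hgen A hA hig) hsat0
      b Y hY)
    (fun b Y hY => red_eq_chartSpecA A D ℓ hA hGB2 (isGen_tF D n e ℓ hmem hgen A hA hig)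
      (tF D n e hmem)⁻¹ (tF_inv_mem_intF D n e hmem A)
      (isGen_tF_inv D n e hmem (isGen_tF D n e ℓ hmem hgen A hA hig)) hsat1 b Y hY)
    (isGen_tF D n e ℓ hmem hgen A hA hig).ne_zero b

variable (hlev0 : HasLevels (S0 D n e ℓ hmem hgen A hA hGB2 hig hsat0))
  (hlev1 : HasLevels (S1 D n e ℓ hmem hgen A hA hGB2 hig hsat1))

/-- **The two-chart structure over `A`.** -/
def twoCharts : TwoCharts A (isGen_tF D n e ℓ hmem hgen A hA hig) ↥(D.FC (kA A)) :=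
  twoChartsOf (S0 D n e ℓ hmem hgen A hA hGB2 hig hsat0) (S1 D n e ℓ hmem hgen A hA hGB2 hig hsat1)
    (isGen_tF D n e ℓ hmem hgen A hA hig).ne_zero rfl
    (red_s_mul D n e ℓ hmem hgen A hA hGB2 hig hsat0 hsat1)
    (ov0 D n e ℓ hmem hgen A hA hGB2 hig hsat0 hsat1) hlev0 hlev1
    (tr0 D n e ℓ hmem hgen A hA hGB2 hig hsat0)
    (pirHyp_FC D n e ℓ hmem hgen A hA hig)

@[simp] theorem twoCharts_S0 :
    (twoCharts D n e ℓ hmem hgen A hA hGB2 hig hsat0 hsat1 hlev0 hlev1).S0 =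
      S0 D n e ℓ hmem hgen A hA hGB2 hig hsat0 := rfl

@[simp] theorem twoCharts_S1 :
    (twoCharts D n e ℓ hmem hgen A hA hGB2 hig hsat0 hsat1 hlev0 hlev1).S1 =
      S1 D n e ℓ hmem hgen A hA hGB2 hig hsat1 := rfl

include hlev0 in
/-- **(PEEL-a)** on chart 0. -/
theorem peelA0 (P : Place Qbar ↥D.Fbar)
    (hP : (S0 D n e ℓ hmem hgen A hA hGB2 hig hsat0).InChart P) :
    (S0 D n e ℓ hmem hgen A hA hGB2 hig hsat0).PeelA P hP :=
  peelA_of_levels hlev0 (tr0 D n e ℓ hmem hgen A hA hGB2 hig hsat0)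
    (pirHyp_FC D n e ℓ hmem hgen A hA hig) P hP

include hsat0 hlev1 in
/-- **(PEEL-a)** on chart 1. -/
theorem peelA1 (P : Place Qbar ↥D.Fbar)
    (hP : (S1 D n e ℓ hmem hgen A hA hGB2 hig hsat1).InChart P) :
    (S1 D n e ℓ hmem hgen A hA hGB2 hig hsat1).PeelA P hP :=
  peelA_of_levels hlev1
    (transcendental_of_mul_eq_one (tr0 D n e ℓ hmem hgen A hA hGB2 hig hsat0)
      (red_s_mul D n e ℓ hmem hgen A hA hGB2 hig hsat0 hsat1))
    (pirHyp_FC D n e ℓ hmem hgen A hA hig) P hP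

end Fermat.Agent.DS.G.ES.RED.ModelInst52
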