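/-
Programme DS (S48), chapter G-ESRED, brick E07 (helper55), last file: generic twin of
`ES/RED/RedInst15` (helper15) for a generator datum `D : GenData`:
the CONCRETE `RedMain15.ChartInputs` for a two-chart model whose charts are coefficientwise
(`GaloisInst21.CoeffChart`) with coordinates `T.S0.s = tF D n e hmem` (the Hauptmodul `t = tq · n e`),
`T.S1.s = t⁻¹`, and the resulting

  `IsPlaceReductionAlongG A (resA A) D.FQ (D.FC (kA A)) T.r`,
  `ReductionInputsAlongG A (resA A) D.FQ (D.FC (kA A))`.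

Everything is discharged from `SpecialGen25` / `SpecialInv25` (generators, separability, degrees
for `t^{±1}`, `t̃^{±1}`), i.e. from the Igusa inputs `IgusaStep D n e A`; (Rgen) is
`GaussUnit25.principalGeneratedByIntegral` (from (GB2), part of `IgusaStep`).

The first section is the twin of `ES/RED/ChartInputsOf15` (`chartInputs_of_coeffChart`: the fields
`compat`, `int`, `norm` of `ChartInputs` are automatic for a coefficientwise chart).
-/
import Mathlib
import Fermat.Agent.DS.G.ES.RED.RedMain15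
import Fermat.Agent.DS.G.ES.RED.GaloisInst21
import Fermat.Agent.DS.G.ES.RED.SpecialInv25
import Fermat.Agent.DS.G.ES.RED.IgusaStepOf
import Fermat.Agent.ES.RED.ChartFacts9
import Fermat.Agent.ES.RED.NormFrac18

set_option autoImplicit false
set_option linter.unusedSectionVars false
set_option linter.style.haveILetI false

open AlgebraicCurve ModularCurve HahnSeries Polynomial IntermediateField

noncomputable section

namespace Fermat.Agent.DS.G.ES.RED.RedInst15

open Fermat.Agent.ES.RED.Contract8 Fermat.Agent.DS.G.ES.RED.RedCharts15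
open Fermat.Agent.DS.G.ES.RED.RedMain15 Fermat.Agent.DS.G.ES.RED.GaloisInst21
open Fermat.Agent.ES.RED.ChartFacts9 Fermat.Agent.RED.PUR.ChartGeneric22
open Fermat.Agent.ES.RED.TwoCharts8
open Fermat.Agent.DS.G.ES.RED.SpecialGen25 Fermat.Agent.DS.G.ES.RED.SpecialInv25
open Fermat.Agent.DS.G.ES.RED.SpecialDegree25 Fermat.Agent.DS.G.ES.RED.GaussUnit25
open Fermat.Agent.DS.G.ES.RED.Iface Fermat.Agent.DS.G.RED.Defs
open Fermat.Agent.X0 Fermat.Agent.X0.FF Fermat.Agent.RED.Interface4 Fermat.Agent.RED.BASE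
open Fermat.Agent.RED.BASE.EtaQuot12

/-! ### `ChartInputs` for a coefficientwise chart (twin of `ChartInputsOf15`) -/

section ChartInputsOf

variable {L : Type*} [Field L] [Algebra ℚ L] [IsAlgClosed L] {A : ValuationSubring L}
  {F₀ : IntermediateField ℚ (LaurentSeries ℚ)} {D : GenData}
variable {x : ↥(laurentBaseChange L F₀)} {hx : IsGen L x}
variable {S : ChartSpec A hx ↥(D.FC (kA A))}

/-- compatibility with `q`-expansions from a `CoeffChart`. -/
theorem compat_of_coeffChart (hS : CoeffChart (F₀ := F₀) S) :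
    Compat A F₀ (D.FC (kA A)) S := by
  intro b
  obtain ⟨Y, hY⟩ := hS.exists_series b
  exact ⟨Y, hY, hS.red_eq b Y hY⟩

/-- integrality of the reductions from a `CoeffChart`. -/
theorem int_of_coeffChart (hS : CoeffChart (F₀ := F₀) S) (b : ↥S.B) :
    IsIntegral (Algebra.adjoin (kA A) {S.red S.sB}) (S.red b) :=
  isIntegral_red_of_mem_chart A (resA A) S.B S.red S.sB
    (fun c hc => (hS.mem_iff c).mpr (adjoin_le_chart S.s hc))
    (fun a _ => S.red_const a) b ((hS.mem_iff b).mp b.2)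

/-- the norm property from a `CoeffChart`. -/
theorem norm_of_coeffChart (hS : CoeffChart (F₀ := F₀) S)
    (hs : IsGen L S.s) (z : ↥S.B) (hz : z ≠ 0) :
    ∃ z' : ↥S.B, z' ≠ 0 ∧ ∃ p : L[X],
      ((z : ↥(laurentBaseChange L F₀)) * (z' : ↥(laurentBaseChange L F₀))) = aeval S.s p := by
  have hzF : (z : ↥(laurentBaseChange L F₀)) ≠ 0 := fun h0 => hz (Subtype.ext h0)
  obtain ⟨z', hz', hz'0, p, e⟩ :=
    Fermat.Agent.ES.RED.NormFrac18.norm_chart A hs.transcendental ((hS.mem_iff z).mp z.2) hzF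
  exact ⟨⟨z', (hS.mem_iff z').mpr hz'⟩, fun h0 => hz'0 (congrArg Subtype.val h0), p, e⟩

/-- **`ChartInputs` for a coefficientwise chart.** -/
theorem chartInputs_of_coeffChart (hS : CoeffChart (F₀ := F₀) S)
    (gen : IsGen L S.s) (gent : IsGen (kA A) (S.red S.sB))
    (sep : Algebra.IsSeparable (kA A)⟮S.red S.sB⟯ ↥(D.FC (kA A)))
    (peel : ∀ (P : Place L ↥(laurentBaseChange L F₀)) (hP : S.InChart P), S.PeelA P hP)
    (deg : Module.finrank L⟮S.s⟯ ↥(laurentBaseChange L F₀) =
      Module.finrank (kA A)⟮S.red S.sB⟯ ↥(D.FC (kA A))) :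
    ChartInputs A F₀ (D.FC (kA A)) S where
  compat := compat_of_coeffChart hS
  gen := gen
  gent := gent
  sep := sep
  peel := peel
  int := int_of_coeffChart hS
  norm := norm_of_coeffChart hS gen
  deg := deg

end ChartInputsOf

/-! ### the concrete charts -/

section Concrete

set_option synthInstance.maxHeartbeats 400000

variable (D : GenData) (n e : ℕ) [NeZero n] (ℓ : ℕ) [Fact ℓ.Prime]
  (hmem : tq Qbar n e ∈ D.Fbar) (hgen : Interface12.TGenBase n e)
  (A : ValuationSubring Qbar) (hA : A.LiesOverPrime ℓ) (hig : IgusaStep D n e A)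
variable {x : ↥(laurentBaseChange Qbar D.FQ)} {hx : IsGen Qbar x}

include hgen hA hig

/-- In a coefficientwise chart with coordinate `t`, the reduced coordinate is `t̃`. -/
theorem red_sB_eq_tRes (S : ChartSpec A hx ↥(D.FC (kA A)))
    (hS : CoeffChart (F₀ := D.FQ) S) (hs : S.s = tF D n e hmem) :
    S.red S.sB = tRes D n e ℓ hmem hgen A hA hig := by
  apply Subtype.ext
  have hY : coeffMap A.subtype (tq ↥A n e) =
      (((S.sB : ↥S.B) : ↥(laurentBaseChange Qbar D.FQ)) : LaurentSeries Qbar) := by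
    rw [← coe_tF_eq D n e hmem A, ← hs]
    rfl
  rw [hS.red_eq S.sB _ hY, coe_tRes_eq]

/-- In a coefficientwise chart with coordinate `t⁻¹`, the reduced coordinate is `t̃⁻¹`. -/
theorem red_sB_eq_tRes_inv (S : ChartSpec A hx ↥(D.FC (kA A)))
    (hS : CoeffChart (F₀ := D.FQ) S) (hs : S.s = (tF D n e hmem)⁻¹) :
    S.red S.sB = (tRes D n e ℓ hmem hgen A hA hig)⁻¹ := by
  apply Subtype.ext
  have hY : coeffMap A.subtype (tqInv ↥A n e) =
      (((S.sB : ↥S.B) : ↥(laurentBaseChange Qbar D.FQ)) : LaurentSeries Qbar) := by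
    rw [← coe_tF_inv D n e hmem A, ← hs]
    rfl
  rw [hS.red_eq S.sB _ hY, coe_tRes_inv]

/-- **`ChartInputs` for the chart with coordinate `t`.** -/
theorem chartInputs_t (S : ChartSpec A hx ↥(D.FC (kA A)))
    (hS : CoeffChart (F₀ := D.FQ) S) (hs : S.s = tF D n e hmem)
    (peel : ∀ (P : Place Qbar ↥(laurentBaseChange Qbar D.FQ)) (hP : S.InChart P), S.PeelA P hP) :
    ChartInputs A D.FQ (D.FC (kA A)) S := by
  have hred := red_sB_eq_tRes D n e ℓ hmem hgen A hA hig S hS hs
  refine chartInputs_of_coeffChart hS ?_ ?_ ?_ peel ?_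
  · rw [hs]; exact isGen_tF D n e ℓ hmem hgen A hA hig
  · rw [hred]; exact isGen_tRes D n e ℓ hmem hgen A hA hig
  · rw [hred]; exact isSeparable_tRes D n e ℓ hmem hgen A hA hig
  · rw [hred, hs, finrank_tRes_eq_degT]
    rfl

/-- **`ChartInputs` for the chart with coordinate `t⁻¹`.** -/
theorem chartInputs_t_inv (S : ChartSpec A hx ↥(D.FC (kA A)))
    (hS : CoeffChart (F₀ := D.FQ) S) (hs : S.s = (tF D n e hmem)⁻¹)
    (peel : ∀ (P : Place Qbar ↥(laurentBaseChange Qbar D.FQ)) (hP : S.InChart P), S.PeelA P hP) :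
    ChartInputs A D.FQ (D.FC (kA A)) S := by
  have hred := red_sB_eq_tRes_inv D n e ℓ hmem hgen A hA hig S hS hs
  refine chartInputs_of_coeffChart hS ?_ ?_ ?_ peel ?_
  · rw [hs]; exact isGen_tF_inv D n e hmem (isGen_tF D n e ℓ hmem hgen A hA hig)
  · rw [hred]; exact isGen_tRes_inv D n e ℓ hmem hgen A hA hig
  · rw [hred]; exact isSeparable_tRes_inv D n e ℓ hmem hgen A hA hig
  · rw [hred, hs, finrank_tRes_inv, finrank_tF_inv]

variable (T : TwoCharts A hx ↥(D.FC (kA A)))

/-- Both `ChartInputs` for a concrete `TwoCharts`. -/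
theorem chartInputs_both
    (hS0 : CoeffChart (F₀ := D.FQ) T.S0) (hS1 : CoeffChart (F₀ := D.FQ) T.S1)
    (hs0 : T.S0.s = tF D n e hmem)
    (peel0 : ∀ (P : Place Qbar ↥(laurentBaseChange Qbar D.FQ)) (hP : T.S0.InChart P),
      T.S0.PeelA P hP)
    (peel1 : ∀ (P : Place Qbar ↥(laurentBaseChange Qbar D.FQ)) (hP : T.S1.InChart P),
      T.S1.PeelA P hP) :
    ChartInputs A D.FQ (D.FC (kA A)) T.S0 ∧ ChartInputs A D.FQ (D.FC (kA A)) T.S1 :=
  ⟨chartInputs_t D n e ℓ hmem hgen A hA hig T.S0 hS0 hs0 peel0,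
    chartInputs_t_inv D n e ℓ hmem hgen A hA hig T.S1 hS1 (by rw [T.s_inv, hs0]) peel1⟩

/-- **RED-Z, concrete**: the global reduction map of the two-chart model is a place reduction in the
sense of `DS/G/RED/Defs`. -/
theorem isPlaceReductionModL_main
    (hS0 : CoeffChart (F₀ := D.FQ) T.S0) (hS1 : CoeffChart (F₀ := D.FQ) T.S1)
    (hs0 : T.S0.s = tF D n e hmem)
    (peel0 : ∀ (P : Place Qbar ↥(laurentBaseChange Qbar D.FQ)) (hP : T.S0.InChart P),
      T.S0.PeelA P hP)
    (peel1 : ∀ (P : Place Qbar ↥(laurentBaseChange Qbar D.FQ)) (hP : T.S1.InChart P),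
      T.S1.PeelA P hP) :
    IsPlaceReductionAlongG A (resA A) D.FQ (D.FC (kA A)) T.r :=
  isPlaceReductionModL_twoCharts T
    (chartInputs_both D n e ℓ hmem hgen A hA hig T hS0 hS1 hs0 peel0 peel1).1
    (chartInputs_both D n e ℓ hmem hgen A hA hig T hS0 hS1 hs0 peel0 peel1).2

/-- **RED-Z, concrete**, packaged as `ReductionInputsAlongG A (resA A) D.FQ (D.FC (kA A))`;
(Rgen) from (GB2) (`IgusaStep.gb2Step`). -/
theorem reductionInputsModL_main
    (hS0 : CoeffChart (F₀ := D.FQ) T.S0) (hS1 : CoeffChart (F₀ := D.FQ) T.S1)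
    (hs0 : T.S0.s = tF D n e hmem)
    (peel0 : ∀ (P : Place Qbar ↥(laurentBaseChange Qbar D.FQ)) (hP : T.S0.InChart P),
      T.S0.PeelA P hP)
    (peel1 : ∀ (P : Place Qbar ↥(laurentBaseChange Qbar D.FQ)) (hP : T.S1.InChart P),
      T.S1.PeelA P hP) :
    ReductionInputsAlongG A (resA A) D.FQ (D.FC (kA A)) :=
  reductionInputsModL_twoCharts T
    (chartInputs_both D n e ℓ hmem hgen A hA hig T hS0 hS1 hs0 peel0 peel1).1
    (chartInputs_both D n e ℓ hmem hgen A hA hig T hS0 hS1 hs0 peel0 peel1).2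
    (IgusaStepOf.principalGeneratedByIntegralG D A ℓ hA (FFGenus.hasPrincipalDivisors hx)
      hig.gb2Step)

end Concrete

end Fermat.Agent.DS.G.ES.RED.RedInst15
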