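/-
Programme DS (S48), chapter G-ESRED, brick E10 (helper93): **THE REDUCTION PACKAGE** `Pack D n e ℓ A`
= everything the GEO-FIN-TG instance (`DS/G/Top/TorsionGaloisQ.LocalInputs`, fields `k Ft r red hred
hI hFr inj`) and the chapters KRON / DIAPLACE need from the reduction chapters, for a generator datum
`D : GenData`, a Hauptmodul base `(n, e)`, a prime `ℓ` and a place `A` of `ℚ̄` over `ℓ`.

DATA (fields): the generator `x`, the two charts `T : TwoCharts A hx ↥(D.FC (kA A))`, coefficientwise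
(`c0 c1 : CoeffChart`), with coordinate `T.S0.s = tF D n e hmem`, the analytic inputs `h0 h1 :
ChartInputs`, `(Rgen)` and `(Φ3)`.

DERIVED (namespace `RedPack.Pack`):
* `P.r := P.T.r`, `P.hr : IsPlaceReductionAlongG A (resA A) D.FQ (D.FC (kA A)) P.r`,
  `P.reductionInputs : ReductionInputsAlongG …`;
* `P.red := reductionPic0AlongG P.r P.hr P.hgen`, `P.hred : TorsionGalois.RedHom P.r P.red`;
* `P.hI`, `P.hFr` : (R3) for inertia and Frobenius elements (`Fr = frobSemi (kA A) ℓ D`);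
* `P.inj'` : (Φ3) for `P.red`;
* `P.hs1`, `P.coe_red_s0`, `P.coe_red_s1`, `P.hfix0`, `P.hfix1` : the chart coordinates and their
  reductions (`t̃ = tq (kA A) n e`, fixed by the coefficientwise Frobenius);
* `P.gent`, `P.isAlgClosed_kA`, `P.charP_kA`.

CONSTRUCTOR: `ofModel` : from `ModelContract.Model D n e A` (two-chart model; E06), `GaussInputs D.FQ A`
(IGU), `GB2Step D A` (IGU/GB2), `ModelStepG D.FQ A` (MODEL, for (Φ3)), `TGenBase n e` (BASE).
-/
import Mathlib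
import Fermat.Agent.DS.G.ES.RED.ModelContract
import Fermat.Agent.DS.G.ES.RED.ChartInputsOf15
import Fermat.Agent.DS.G.ES.RED.SpecialInv25
import Fermat.Agent.DS.G.ES.RED.IgusaStepOf
import Fermat.Agent.DS.G.ES.RED.FrobPoles13
import Fermat.Agent.DS.G.RED.Rgen
import Fermat.Agent.DS.G.Top.TorsionGalois

set_option autoImplicit false
set_option linter.unusedSectionVars false
set_option linter.style.haveILetI false

noncomputable section

open AlgebraicCurve ModularCurve HahnSeries IntermediateField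

namespace Fermat.Agent.DS.G.ES.RED.RedPack

open Fermat.Agent.X0 Fermat.Agent.X0.FF Fermat.Agent.ES.RED.Contract8 Fermat.Agent.ES.RED.TwoCharts8
  Fermat.Agent.DS.G.ES.RED.GaloisInst21 Fermat.Agent.DS.G.ES.RED.Iface
  Fermat.Agent.DS.G.ES.RED.SpecialGen25 Fermat.Agent.DS.G.ES.RED.SpecialInv25
  Fermat.Agent.DS.G.ES.RED.SpecialDegree25 Fermat.Agent.DS.G.ES.RED.GaussUnit25
  Fermat.Agent.DS.G.ES.RED.RedMain15 Fermat.Agent.DS.G.ES.RED.ChartInputsOf15
  Fermat.Agent.DS.G.ES.RED.ModelContract Fermat.Agent.DS.G.ES.KRON.FrobPlace13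
  Fermat.Agent.DS.G.RED.Defs Fermat.Agent.DS.G.RED.Num
  Fermat.Agent.RED.Interface4 Fermat.Agent.RED.BASE Fermat.Agent.RED.BASE.EtaQuot12
  Fermat.Agent.DS.G.Top.TorsionGalois

attribute [local instance] instAlgebraFCRes

/-- **The reduction package** of `D` at the place `A` (over `ℓ`), on the Hauptmodul base `(n, e)`. -/
structure Pack (D : GenData) (n e : ℕ) [NeZero n] (ℓ : ℕ) (A : ValuationSubring Qbar) where
  /-- the Hauptmodul lies in `ℚ̄·D.FQ` -/
  hmem : tq Qbar n e ∈ D.Fbar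
  /-- the generator of the `ChartSpec` contract -/
  x : ↥D.Fbar
  hx : IsGen Qbar x
  /-- the two charts -/
  T : TwoCharts A hx ↥(D.FC (kA A))
  c0 : CoeffChart (F₀ := D.FQ) T.S0
  c1 : CoeffChart (F₀ := D.FQ) T.S1
  hs0 : T.S0.s = tF D n e hmem
  h0 : ChartInputs A D.FQ (D.FC (kA A)) T.S0
  h1 : ChartInputs A D.FQ (D.FC (kA A)) T.S1
  /-- (Rgen) -/
  hgen : PrincipalGeneratedByIntegralG A (resA A) D.FQ (D.FC (kA A))
  /-- (Φ3) -/
  inj : ∀ (hr : IsPlaceReductionAlongG A (resA A) D.FQ (D.FC (kA A)) T.r) (m : ℕ)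
    (z : Pic0 Qbar ↥D.Fbar), ¬ ℓ ∣ m → m • z = 0 → reductionPic0AlongG T.r hr hgen z = 0 → z = 0

namespace Pack

variable {D : GenData} {n e : ℕ} [NeZero n] {ℓ : ℕ} {A : ValuationSubring Qbar}

/-- the reduction of places. -/
def r (P : Pack D n e ℓ A) : Place Qbar ↥D.Fbar → Place (kA A) ↥(D.FC (kA A)) := P.T.r

theorem r_def (P : Pack D n e ℓ A) : P.r = P.T.r := rfl

/-- **RED-Z**: `r` is a place reduction. -/
theorem hr (P : Pack D n e ℓ A) : IsPlaceReductionAlongG A (resA A) D.FQ (D.FC (kA A)) P.r :=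
  isPlaceReductionModL_twoCharts P.T P.h0 P.h1

/-- the final statement of the E-chain. -/
theorem reductionInputs (P : Pack D n e ℓ A) : ReductionInputsAlongG A (resA A) D.FQ (D.FC (kA A)) :=
  ⟨P.r, P.hr, P.hgen⟩

/-- the reduction of divisor classes. -/
def red (P : Pack D n e ℓ A) : Pic0 Qbar ↥D.Fbar →+ Pic0 (kA A) ↥(D.FC (kA A)) :=
  reductionPic0AlongG P.r P.hr P.hgen

/-- `red` is induced by `r` (field `hred` of `LocalInputs`). -/
theorem hred (P : Pack D n e ℓ A) : RedHom P.r P.red := fun E =>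
  ⟨(reductionDegZeroAlongG P.r P.hr.1 E).2, rfl⟩

/-- **(Φ3)** (field `inj` of `LocalInputs`). -/
theorem inj' (P : Pack D n e ℓ A) (m : ℕ) (z : Pic0 Qbar ↥D.Fbar) (hm : ¬ ℓ ∣ m) (hmz : m • z = 0)
    (hz : P.red z = 0) : z = 0 :=
  P.inj P.hr m z hm hmz hz

/-- the residue field is algebraically closed. -/
theorem isAlgClosed_kA (A : ValuationSubring Qbar) : IsAlgClosed (kA A) :=
  Fermat.Agent.ES.KRON.KronInst10.isAlgClosed_residueField A

/-- the residue field has characteristic `ℓ`. -/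
theorem charP_kA {ℓ : ℕ} (A : ValuationSubring Qbar) (hℓ : ℓ.Prime) (hA : A.LiesOverPrime ℓ) :
    CharP (kA A) ℓ :=
  Fermat.Agent.ES.KRON.KronInst10.charP_residueField A hℓ hA

/-- the reduced coordinate generates the special fibre. -/
theorem gent (P : Pack D n e ℓ A) : IsGen (kA A) (P.T.S0.red P.T.S0.sB) := P.h0.gent

/-- **(R3), inertia** (field `hI` of `LocalInputs`). -/
theorem hI (P : Pack D n e ℓ A) (τ : Qbar ≃ₐ[ℚ] Qbar) (hτ : τ ∈ A.inertiaSubgroupIn ℚ) (Q : Place Qbar ↥D.Fbar) :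
    P.r (arithmeticGalois D.FQ τ • Q) = P.r Q := by
  haveI := isAlgClosed_kA A
  exact r_smul_of_mem_inertia' P.T P.gent P.c0 P.c1 hτ Q

/-- **(R3), Frobenius** (field `hFr` of `LocalInputs`, `Fr := frobSemi (kA A) ℓ D`). -/
theorem hFr (P : Pack D n e ℓ A) [ExpChar (kA A) ℓ] [PerfectField (kA A)] (σ : Qbar ≃ₐ[ℚ] Qbar)
    (hσ : A.IsFrobeniusAt σ ℓ) (Q : Place Qbar ↥D.Fbar) :
    P.r (arithmeticGalois D.FQ σ • Q) = frobSemi (kA A) ℓ D • P.r Q := by
  haveI := isAlgClosed_kA A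
  exact r_smul_of_isFrobeniusAt' P.T P.gent P.c0 P.c1 hσ Q

/-- (R3) on `Pic⁰`, inertia. -/
theorem red_smul_of_mem_inertia (P : Pack D n e ℓ A) (τ : Qbar ≃ₐ[ℚ] Qbar) (hτ : τ ∈ A.inertiaSubgroupIn ℚ)
    (y : Pic0 Qbar ↥D.Fbar) : P.red (τ • y) = P.red y := by
  haveI := isAlgClosed_kA A
  exact red_smul_of_mem_inertia' P.T P.gent P.c0 P.c1 P.red P.hred hτ y

/-- (R3) on `Pic⁰`, Frobenius. -/
theorem red_smul_of_isFrobeniusAt (P : Pack D n e ℓ A) [ExpChar (kA A) ℓ] [PerfectField (kA A)]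
    (σ : Qbar ≃ₐ[ℚ] Qbar) (hσ : A.IsFrobeniusAt σ ℓ) (y : Pic0 Qbar ↥D.Fbar) :
    P.red (σ • y) = frobSemi (kA A) ℓ D • P.red y := by
  haveI := isAlgClosed_kA A
  exact red_smul_of_isFrobeniusAt' P.T P.gent P.c0 P.c1 P.red P.hred hσ y

/-! ### the chart coordinates -/

/-- the coordinate of the second chart is `t⁻¹`. -/
theorem hs1 (P : Pack D n e ℓ A) : P.T.S1.s = (tF D n e P.hmem)⁻¹ := by rw [P.T.s_inv, P.hs0]

/-- the reduced coordinate of the first chart is `t̃ = tq (kA A) n e`. -/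
theorem coe_red_s0 (P : Pack D n e ℓ A) :
    ((P.T.S0.red P.T.S0.sB : ↥(D.FC (kA A))) : LaurentSeries (kA A)) = tq (kA A) n e := by
  have hY : coeffMap A.subtype (tq ↥A n e) =
      (((P.T.S0.sB : ↥P.T.S0.B) : ↥D.Fbar) : LaurentSeries Qbar) := by
    rw [← coe_tF_eq D n e P.hmem A, ← P.hs0]
    rfl
  rw [P.c0.red_eq P.T.S0.sB _ hY, coeffMap_tq]

/-- the reduced coordinate of the second chart is `t̃⁻¹`. -/
theorem coe_red_s1 (P : Pack D n e ℓ A) :
    ((P.T.S1.red P.T.S1.sB : ↥(D.FC (kA A))) : LaurentSeries (kA A)) = (tq (kA A) n e)⁻¹ := by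
  have hY : coeffMap A.subtype (tqInv ↥A n e) =
      (((P.T.S1.sB : ↥P.T.S1.B) : ↥D.Fbar) : LaurentSeries Qbar) := by
    rw [← coe_tF_inv D n e P.hmem A, ← P.hs1]
    rfl
  rw [P.c1.red_eq P.T.S1.sB _ hY, coeffMap_tqInv, tqInv_eq_inv]

/-- the coefficientwise Frobenius fixes the reduced coordinate `t̃`. -/
theorem hfix0 (P : Pack D n e ℓ A) [ExpChar (kA A) ℓ] [PerfectField (kA A)] :
    frobSemi (kA A) ℓ D • P.T.S0.red P.T.S0.sB = P.T.S0.red P.T.S0.sB :=
  Fermat.Agent.DS.G.ES.RED.FrobPoles13.frobSemi_smul_tq (kA A) ℓ D n e P.coe_red_s0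

/-- the coefficientwise Frobenius fixes the reduced coordinate `t̃⁻¹`. -/
theorem hfix1 (P : Pack D n e ℓ A) [ExpChar (kA A) ℓ] [PerfectField (kA A)] :
    frobSemi (kA A) ℓ D • P.T.S1.red P.T.S1.sB = P.T.S1.red P.T.S1.sB := by
  rw [P.T.red_s1_eq, smul_inv'', P.hfix0]

end Pack

/-! ### the constructor from the two-chart model -/

section OfModel

variable (D : GenData) (n e : ℕ) [NeZero n] (ℓ : ℕ) [Fact ℓ.Prime]
  (A : ValuationSubring Qbar) (hA : A.LiesOverPrime ℓ)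
  (hmem : tq Qbar n e ∈ D.Fbar) (hgenb : Interface12.TGenBase n e) (hig : IgusaStep D n e A)

include hgenb hA hig

/-- In a coefficientwise chart with coordinate `t`, the reduced coordinate is `t̃`. -/
theorem red_sB_eq_tRes {x : ↥D.Fbar} {hx : IsGen Qbar x} (S : ChartSpec A hx ↥(D.FC (kA A)))
    (hS : CoeffChart (F₀ := D.FQ) S) (hs : S.s = tF D n e hmem) :
    S.red S.sB = tRes D n e ℓ hmem hgenb A hA hig := by
  apply Subtype.ext
  have hY : coeffMap A.subtype (tq ↥A n e) =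
      (((S.sB : ↥S.B) : ↥D.Fbar) : LaurentSeries Qbar) := by
    rw [← coe_tF_eq D n e hmem A, ← hs]
    rfl
  rw [hS.red_eq S.sB _ hY, coe_tRes_eq]

/-- In a coefficientwise chart with coordinate `t⁻¹`, the reduced coordinate is `t̃⁻¹`. -/
theorem red_sB_eq_tRes_inv {x : ↥D.Fbar} {hx : IsGen Qbar x}
    (S : ChartSpec A hx ↥(D.FC (kA A)))
    (hS : CoeffChart (F₀ := D.FQ) S) (hs : S.s = (tF D n e hmem)⁻¹) :
    S.red S.sB = (tRes D n e ℓ hmem hgenb A hA hig)⁻¹ := by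
  apply Subtype.ext
  have hY : coeffMap A.subtype (tqInv ↥A n e) =
      (((S.sB : ↥S.B) : ↥D.Fbar) : LaurentSeries Qbar) := by
    rw [← coe_tF_inv D n e hmem A, ← hs]
    rfl
  rw [hS.red_eq S.sB _ hY, coe_tRes_inv]

/-- **`ChartInputs` for the chart with coordinate `t`.** -/
theorem chartInputs_t {x : ↥D.Fbar} {hx : IsGen Qbar x} (S : ChartSpec A hx ↥(D.FC (kA A)))
    (hS : CoeffChart (F₀ := D.FQ) S) (hs : S.s = tF D n e hmem)
    (peel : ∀ (P : Place Qbar ↥D.Fbar) (hP : S.InChart P), S.PeelA P hP) :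
    ChartInputs A D.FQ (D.FC (kA A)) S := by
  have hred := red_sB_eq_tRes D n e ℓ A hA hmem hgenb hig S hS hs
  refine chartInputs_of_coeffChart hS ?_ ?_ ?_ peel ?_
  · rw [hs]; exact isGen_tF D n e ℓ hmem hgenb A hA hig
  · rw [hred]; exact isGen_tRes D n e ℓ hmem hgenb A hA hig
  · rw [hred]; exact isSeparable_tRes D n e ℓ hmem hgenb A hA hig
  · rw [hred, hs, finrank_tRes_eq_degT]
    rfl

/-- **`ChartInputs` for the chart with coordinate `t⁻¹`.** -/
theorem chartInputs_t_inv {x : ↥D.Fbar} {hx : IsGen Qbar x}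
    (S : ChartSpec A hx ↥(D.FC (kA A)))
    (hS : CoeffChart (F₀ := D.FQ) S) (hs : S.s = (tF D n e hmem)⁻¹)
    (peel : ∀ (P : Place Qbar ↥D.Fbar) (hP : S.InChart P), S.PeelA P hP) :
    ChartInputs A D.FQ (D.FC (kA A)) S := by
  have hred := red_sB_eq_tRes_inv D n e ℓ A hA hmem hgenb hig S hS hs
  have hgenF := isGen_tF D n e ℓ hmem hgenb A hA hig
  refine chartInputs_of_coeffChart hS ?_ ?_ ?_ peel ?_
  · rw [hs]; exact isGen_tF_inv D n e hmem hgenF
  · rw [hred]; exact isGen_tRes_inv D n e ℓ hmem hgenb A hA hig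
  · rw [hred]; exact isSeparable_tRes_inv D n e ℓ hmem hgenb A hA hig
  · rw [hred, hs, finrank_tRes_inv, finrank_tF_inv]

end OfModel

section Constructor

variable (D : GenData) (n e : ℕ) [NeZero n] (ℓ : ℕ) [Fact ℓ.Prime]
  (A : ValuationSubring Qbar) (hA : A.LiesOverPrime ℓ)

include hA

/-- **The reduction package from the chart data** (all inputs explicit). -/
def ofCharts (hgenb : Interface12.TGenBase n e) (hig : IgusaStep D n e A)
    (hModel : ModelStepG D.FQ A)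
    (hmem : tq Qbar n e ∈ D.Fbar) {x : ↥D.Fbar} (hx : IsGen Qbar x)
    (T : TwoCharts A hx ↥(D.FC (kA A)))
    (c0 : CoeffChart (F₀ := D.FQ) T.S0) (c1 : CoeffChart (F₀ := D.FQ) T.S1)
    (hs0 : T.S0.s = tF D n e hmem)
    (peel0 : ∀ (P : Place Qbar ↥D.Fbar) (hP : T.S0.InChart P), T.S0.PeelA P hP)
    (peel1 : ∀ (P : Place Qbar ↥D.Fbar) (hP : T.S1.InChart P), T.S1.PeelA P hP) :
    Pack D n e ℓ A where
  hmem := hmem
  x := x
  hx := hx
  T := T
  c0 := c0
  c1 := c1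
  hs0 := hs0
  h0 := chartInputs_t D n e ℓ A hA hmem hgenb hig T.S0 c0 hs0 peel0
  h1 := chartInputs_t_inv D n e ℓ A hA hmem hgenb hig T.S1 c1 (by rw [T.s_inv, hs0]) peel1
  hgen := Fermat.Agent.DS.G.RED.Rgen.principalGeneratedByIntegralG_of_isGen D A ℓ hA hx
    hig.gb2Step
  inj := fun hr m z hm hmz hz =>
    Fermat.Agent.DS.G.RED.Rgen.phi3_of_gb2 D A hx hA hModel hig.gb2Step T.r hr m hm z hmz hz

/-- **The reduction package from the two-chart model** `ModelContract.Model D n e A`, the Igusa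
inputs `IgusaStep D n e A` and the MODEL deliverable `ModelStepG D.FQ A`. -/
theorem nonempty_of_model (hgenb : Interface12.TGenBase n e) (hig : IgusaStep D n e A)
    (hModel : ModelStepG D.FQ A) (hmodel : Model D n e A) : Nonempty (Pack D n e ℓ A) := by
  obtain ⟨hmem, x, hx, T, c0, c1, hs0, p0, p1⟩ := hmodel
  exact ⟨ofCharts D n e ℓ A hA hgenb hig hModel hmem hx T c0 c1 hs0 p0 p1⟩

/-- the same from `GaussInputs D.FQ A` (IGU) and `GB2Step D A` (GB2). -/
theorem nonempty_of_model_gauss (hgenb : Interface12.TGenBase n e)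
    (hG : Fermat.Agent.DS.G.RED.ModelMain4.GaussInputs D.FQ A) (hGB2 : GB2Step D A)
    (hModel : ModelStepG D.FQ A) (hmodel : Model D n e A) : Nonempty (Pack D n e ℓ A) := by
  obtain ⟨hmem, x, hx, T, c0, c1, hs0, p0, p1⟩ := hmodel
  have hig : IgusaStep D n e A :=
    Fermat.Agent.DS.G.ES.RED.IgusaStepOf.igusaStep_of_gaussInputs D n e ℓ A hA hmem hgenb hG hGB2
  exact ⟨ofCharts D n e ℓ A hA hgenb hig hModel hmem hx T c0 c1 hs0 p0 p1⟩

/-- **The final statement of the E-chain**: `ReductionInputsAlongG A (resA A) D.FQ (D.FC (kA A))`. -/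
theorem reductionInputsAlongG_of_model (hgenb : Interface12.TGenBase n e)
    (hG : Fermat.Agent.DS.G.RED.ModelMain4.GaussInputs D.FQ A) (hGB2 : GB2Step D A)
    (hModel : ModelStepG D.FQ A) (hmodel : Model D n e A) :
    ReductionInputsAlongG A (resA A) D.FQ (D.FC (kA A)) := by
  obtain ⟨P⟩ := nonempty_of_model_gauss D n e ℓ A hA hgenb hG hGB2 hModel hmodel
  exact P.reductionInputs

end Constructor

end Fermat.Agent.DS.G.ES.RED.RedPack
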