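/-
Programme DS (S48), chapter G-ESRED, brick E10 (helper93): **(L4) for the charts of a reduction
package**: every element of the special-fibre field `D.FC (kA A)` is a fraction of reductions of
elements of the chart ring,

  `Pack.fracRed0 : DiaPlace.FracRed P.T.S0`,   `Pack.fracRed1 : DiaPlace.FracRed P.T.S1`

(the hypothesis `hfrac` of `DiaPlaceInst.reducedDia / hdia` and of `KRON/HKGen.hK_of_coeffCharts`),
from helper79's `FracRed16.exists_frac_red(_inv)` (input: `Base79.DegIrrStep D A`, or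
`ModelMain4.GaussInputs D.FQ A` through `Bridge79.degIrrStep_of_gaussInputs`) and the
coefficientwise description of the charts (`CoeffChart.mem_iff`, `CoeffChart.red_eq`).
-/
import Mathlib
import Fermat.Agent.DS.G.ES.RED.RedPack
import Fermat.Agent.DS.G.ES.RED.FracRed16
import Fermat.Agent.DS.G.ES.RED.Bridge79
import Fermat.Agent.DS.G.ES.RED.DiaPlace

set_option autoImplicit false
set_option linter.unusedSectionVars false
set_option linter.style.haveILetI false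

noncomputable section

open AlgebraicCurve ModularCurve HahnSeries IntermediateField

namespace Fermat.Agent.DS.G.ES.RED.RedPack

open Fermat.Agent.X0 Fermat.Agent.X0.FF Fermat.Agent.ES.RED.Contract8 Fermat.Agent.ES.RED.TwoCharts8
  Fermat.Agent.DS.G.ES.RED.GaloisInst21 Fermat.Agent.DS.G.ES.RED.Iface
  Fermat.Agent.DS.G.ES.RED.SpecialGen25 Fermat.Agent.DS.G.ES.RED.Base79
  Fermat.Agent.DS.G.ES.RED.DiaPlace
  Fermat.Agent.RED.Interface4 Fermat.Agent.RED.BASE Fermat.Agent.RED.BASE.EtaQuot12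

namespace Pack

variable {D : GenData} {n e : ℕ} [NeZero n] {ℓ : ℕ} [Fact ℓ.Prime] {A : ValuationSubring Qbar}

/-- **(L4) for the first chart** (coordinate `t`). -/
theorem fracRed0 (P : Pack D n e ℓ A) (hA : A.LiesOverPrime ℓ)
    (hgenb : Interface12.TGenBase n e) (hirr : DegIrrStep D A) : FracRed P.T.S0 := by
  intro y
  obtain ⟨Ya, Yb, ha, hb, hac, hbc, hb0, hab⟩ :=
    Fermat.Agent.DS.G.ES.RED.FracRed16.exists_frac_red A n e ℓ hirr P.hmem hgenb hA y.2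
  have haB : (⟨coeffMap A.subtype Ya, ha⟩ : ↥D.Fbar) ∈ P.T.S0.B := by
    rw [P.c0.mem_iff, P.hs0]; exact hac
  have hbB : (⟨coeffMap A.subtype Yb, hb⟩ : ↥D.Fbar) ∈ P.T.S0.B := by
    rw [P.c0.mem_iff, P.hs0]; exact hbc
  have hra : ((P.T.S0.red ⟨_, haB⟩ : ↥(D.FC (kA A))) : LaurentSeries (kA A)) =
      coeffMap (resA A) Ya := P.c0.red_eq ⟨_, haB⟩ Ya rfl
  have hrb : ((P.T.S0.red ⟨_, hbB⟩ : ↥(D.FC (kA A))) : LaurentSeries (kA A)) =
      coeffMap (resA A) Yb := P.c0.red_eq ⟨_, hbB⟩ Yb rfl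
  refine ⟨⟨_, haB⟩, ⟨_, hbB⟩, ?_, ?_⟩
  · intro h0
    apply hb0
    rw [← hrb, h0]
    rfl
  · apply Subtype.ext
    show (y : LaurentSeries (kA A)) * ((P.T.S0.red ⟨_, hbB⟩ : ↥(D.FC (kA A))) :
      LaurentSeries (kA A)) = _
    rw [hrb, hra]
    exact hab

/-- **(L4) for the second chart** (coordinate `t⁻¹`). -/
theorem fracRed1 (P : Pack D n e ℓ A) (hA : A.LiesOverPrime ℓ)
    (hgenb : Interface12.TGenBase n e) (hirr : DegIrrStep D A) : FracRed P.T.S1 := by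
  intro y
  obtain ⟨Ya, Yb, ha, hb, hac, hbc, hb0, hab⟩ :=
    Fermat.Agent.DS.G.ES.RED.FracRed16.exists_frac_red_inv A n e ℓ hirr P.hmem hgenb hA y.2
  have haB : (⟨coeffMap A.subtype Ya, ha⟩ : ↥D.Fbar) ∈ P.T.S1.B := by
    rw [P.c1.mem_iff, P.hs1]; exact hac
  have hbB : (⟨coeffMap A.subtype Yb, hb⟩ : ↥D.Fbar) ∈ P.T.S1.B := by
    rw [P.c1.mem_iff, P.hs1]; exact hbc
  have hra : ((P.T.S1.red ⟨_, haB⟩ : ↥(D.FC (kA A))) : LaurentSeries (kA A)) =
      coeffMap (resA A) Ya := P.c1.red_eq ⟨_, haB⟩ Ya rfl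
  have hrb : ((P.T.S1.red ⟨_, hbB⟩ : ↥(D.FC (kA A))) : LaurentSeries (kA A)) =
      coeffMap (resA A) Yb := P.c1.red_eq ⟨_, hbB⟩ Yb rfl
  refine ⟨⟨_, haB⟩, ⟨_, hbB⟩, ?_, ?_⟩
  · intro h0
    apply hb0
    rw [← hrb, h0]
    rfl
  · apply Subtype.ext
    show (y : LaurentSeries (kA A)) * ((P.T.S1.red ⟨_, hbB⟩ : ↥(D.FC (kA A))) :
      LaurentSeries (kA A)) = _
    rw [hrb, hra]
    exact hab

/-- (L4) for both charts from `GaussInputs D.FQ A`. -/
theorem fracRed_of_gaussInputs (P : Pack D n e ℓ A) (hA : A.LiesOverPrime ℓ)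
    (hgenb : Interface12.TGenBase n e)
    (hG : Fermat.Agent.DS.G.RED.ModelMain4.GaussInputs D.FQ A) :
    FracRed P.T.S0 ∧ FracRed P.T.S1 :=
  ⟨P.fracRed0 hA hgenb (Fermat.Agent.DS.G.ES.RED.Bridge79.degIrrStep_of_gaussInputs hG),
    P.fracRed1 hA hgenb (Fermat.Agent.DS.G.ES.RED.Bridge79.degIrrStep_of_gaussInputs hG)⟩

end Pack

end Fermat.Agent.DS.G.ES.RED.RedPack
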