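/-
Programme DS (S48), chapter G-ESRED, brick E04 (helper80): generic twin of
`Fermat/Agent/ES/RED/SpecialFibre13.lean`.

The original file is generic (any function field `F / K` with a separating generator `x`) except
for its last section "the modular special fibre: Frobenius value rule", which is written for
`modularFunctionFieldFullC k M`.  This twin imports the original for the generic part (all its
names `chartPoint`, `chartPlace`, `eq_of_chart_values_eq`, `smul_mem_intRing`, `chartPoint_smul`,
... are re-exported into this namespace) and restates the last section for `D.FC k`,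
`D : GenData`.
-/
import Mathlib
import Fermat.Agent.ES.RED.SpecialFibre13
import Fermat.Agent.DS.G.ES.KRON.FrobPlace13

set_option autoImplicit false
set_option linter.unusedSectionVars false
set_option linter.style.haveILetI false

noncomputable section

namespace Fermat.Agent.DS.G.ES.RED.SpecialFibre13

export Fermat.Agent.ES.RED.SpecialFibre13 (not_isField_polyRing not_isField_intRing genB coe_genB
  mem_or_inv_mem isGen_inv chartPoint chartPoint_apply chartPoint_eq_iff chartPlace
  intRing_le_chartPlace mem_chartPlace chartPoint_chartPlace chartPlace_chartPoint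
  eq_of_chart_values_eq exists_chartPlace_eq chartPlace_injective smul_mem_polyRing
  smul_mem_intRing smul_mem_smul_of_mem chartPoint_smul)

open AlgebraicCurve IsLocalRing IsDedekindDomain IntermediateField
open Fermat.Agent.X0.FF Fermat.Agent.X0.FFDedekind
open Fermat.Agent.ES.RED.PlaceValue13 Fermat.Agent.ES.RED.SumOrdSep15
open Fermat.Agent.DS.G.ES.RED.Iface

/-! ### the special fibre of a generator datum: Frobenius value rule -/

section Frobenius

open ModularCurve Fermat.Agent.DS.G.ES.KRON.FrobPlace13

variable (k : Type*) [Field k] [IsAlgClosed k] (l : ℕ) [ExpChar k l] (D : GenData)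

/-- **`(cφ f)(Fr Q) = (f(Q)) ^ l`** for `f ∈ O_Q`. -/
theorem valueHom_frobPlace {t : ↥(D.FC k)} (ht : IsGen k t)
    (Q : Place k ↥(D.FC k)) {f : ↥(D.FC k)}
    (hf : f ∈ Q.toValuationSubring) :
    valueHom ht (frobPlace k l D Q)
        ⟨frobSemi k l D • f, Fermat.Agent.ES.RED.PlaceValue13.smul_mem_smul (frobSemi k l D) Q hf⟩ =
      (valueHom ht Q ⟨f, hf⟩) ^ l :=
  valueHom_smul' ht (frobSemi k l D) Q hf

/-- `cφ` fixes every element of `F~` with coefficients fixed by the Frobenius (e.g. `t~`). -/
theorem frobSemi_smul_eq_self {t : ↥(D.FC k)}
    (ht : ∀ n : ℤ, ((t : LaurentSeries k).coeff n) ^ l = (t : LaurentSeries k).coeff n) :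
    frobSemi k l D • t = t := by
  apply Subtype.ext
  ext n
  rw [coeff_frobSemi_smul, ht]

end Frobenius

end Fermat.Agent.DS.G.ES.RED.SpecialFibre13
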