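/-
Programme DS (S48), chapter G-ESRED, brick E07 (helper55): generic twin of `ES/RED/SpecialGen16`
(leaf B2 = (MA4) final shape) for a generator datum `D : GenData`.

For `A` a valuation subring of `ℚ̄` over `ℓ`, `k := ResidueField A`, `F̃ := ↥(D.FC k)`,
`x̃ := tq k n e ∈ F̃`:

* `FF.IsGen k x̃`,
* `Algebra.IsSeparable k⟮x̃⟯ F̃`,
* `[F̃ : k(x̃)] = [D.Fbar : ℚ̄(t)]`   (`Module.finrank` inside the subtypes),

all for the intermediate field `k⟮x̃⟯ : IntermediateField k F̃` INSIDE the subtype `F̃`.  Inputs: the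
Igusa inputs `IgusaStep D n e A` (see `SpecialDegree25`).  The generic lemmas of the original
(`transcendental_coe`, `isSeparable_adjoin`, `finiteDimensional_adjoin`, `isGen_of_relfinrank`) are
restated on top of `SpecialGen25`'s bridge.
-/
import Fermat.Agent.DS.G.ES.RED.SpecialGen25

set_option autoImplicit false
set_option linter.unusedSectionVars false
set_option linter.style.haveILetI false

noncomputable section

namespace Fermat.Agent.DS.G.ES.RED.SpecialGen16

open ModularCurve HahnSeries IntermediateField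
open Fermat.Agent.X0 Fermat.Agent.RED.Interface4 Fermat.Agent.DS.G.ES.RED.Iface
open Fermat.Agent.RED.BASE.Interface12 Fermat.Agent.RED.BASE.EtaQuot12
open Fermat.Agent.DS.G.ES.RED.SpecialDegree25

section Generic

variable {k : Type*} [Field k] (E : IntermediateField k (LaurentSeries k)) (x : ↥E)

/-- `x` is transcendental in `E` if it is so in `k((q))`. -/
theorem transcendental_coe (h : Transcendental k (x : LaurentSeries k)) : Transcendental k x :=
  SpecialGen25.transcendental_coe E x h

/-- Separability of `E / k(x)`, transported from `k((q))` to the subtype `E`. -/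
theorem isSeparable_adjoin (h : k⟮(x : LaurentSeries k)⟯ ≤ E)
    [hs : Algebra.IsSeparable ↥(k⟮(x : LaurentSeries k)⟯) ↥(extendScalars h)] :
    Algebra.IsSeparable ↥(k⟮x⟯) ↥E :=
  SpecialGen25.isSeparable_adjoin_simple_of_extendScalars (h := hs) E x

/-- `E / k(x)` is finite as soon as the relative rank inside `k((q))` is nonzero. -/
theorem finiteDimensional_adjoin (hn : relfinrank k⟮(x : LaurentSeries k)⟯ E ≠ 0) :
    FiniteDimensional ↥(k⟮x⟯) ↥E := by
  rw [← SpecialGen25.finrank_adjoin_simple_eq_relfinrank] at hn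
  exact FiniteDimensional.of_finrank_pos (Nat.pos_of_ne_zero hn)

/-- `x` is a transcendental generator of `E` (subtype form). -/
theorem isGen_of_relfinrank (htr : Transcendental k (x : LaurentSeries k))
    (hn : relfinrank k⟮(x : LaurentSeries k)⟯ E ≠ 0) : FF.IsGen k x :=
  ⟨transcendental_coe E x htr, finiteDimensional_adjoin E x hn⟩

end Generic

section Concrete

set_option synthInstance.maxHeartbeats 400000

attribute [local instance] SpecialGen25.instAlgebraFCRes

/-- **(MA4), final shape.**  For `A` over `ℓ`, `k = ResidueField A`, `x̃ = tq k n e`: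
`x̃ ∈ F̃ := D.FC k`, `x̃` is a transcendental generator of `F̃ / k`,
`F̃ / k(x̃)` is separable and `[F̃ : k(x̃)] = [D.Fbar : ℚ̄(t)]`. -/
theorem special_gen (D : GenData) (n e : ℕ) [NeZero n] (ℓ : ℕ) [Fact ℓ.Prime]
    (hmem : tq Qbar n e ∈ D.Fbar) (hgen : TGenBase n e)
    (A : ValuationSubring Qbar) (hA : A.LiesOverPrime ℓ) (hig : IgusaStep D n e A) :
    ∃ hx : tq (IsLocalRing.ResidueField ↥A) n e ∈ D.FC (IsLocalRing.ResidueField ↥A),
      FF.IsGen (IsLocalRing.ResidueField ↥A)
        (⟨tq (IsLocalRing.ResidueField ↥A) n e, hx⟩ :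
          ↥(D.FC (IsLocalRing.ResidueField ↥A))) ∧
      Algebra.IsSeparable
        ↥((IsLocalRing.ResidueField ↥A)⟮(⟨tq (IsLocalRing.ResidueField ↥A) n e, hx⟩ :
          ↥(D.FC (IsLocalRing.ResidueField ↥A)))⟯)
        ↥(D.FC (IsLocalRing.ResidueField ↥A)) ∧
      Module.finrank
        ↥((IsLocalRing.ResidueField ↥A)⟮(⟨tq (IsLocalRing.ResidueField ↥A) n e, hx⟩ :
          ↥(D.FC (IsLocalRing.ResidueField ↥A)))⟯)
        ↥(D.FC (IsLocalRing.ResidueField ↥A)) =
      Module.finrank ↥(Qbar⟮SpecialGen25.tF D n e hmem⟯) ↥D.Fbar :=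
  ⟨(relfinrank_tq_residueField D n e ℓ hmem hgen A hA hig).1,
    SpecialGen25.isGen_tRes D n e ℓ hmem hgen A hA hig,
    SpecialGen25.isSeparable_tRes D n e ℓ hmem hgen A hA hig,
    SpecialGen25.finrank_tRes D n e ℓ hmem hgen A hA hig⟩

end Concrete

end Fermat.Agent.DS.G.ES.RED.SpecialGen16
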