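/-
Programme DS (S48), chapter G-ESRED, brick E10 (helper93): **THE INSTANCE `D = X1gens M`** of the
E-chain = twin of `ES/RED/RedInst15` + `ES/TOP/ModelOfInst12` at the level of the final statement

  `ReductionInputsAlongG A (resA A) (X1gens M).FQ ((X1gens M).FC (kA A))`      (`A` over `ℓ ∤ M`)

and of the reduction package `RedPack.Pack (X1gens M) n e ℓ A` consumed by the GEO-FIN-TG instance
(`DS/G/Top/LocalInst`: `(L1 M).F₀ = (X1gens M).FQ` by `rfl`).

* `full_le_FQ`, `tq_mem_X1`, `exists_base` : the Hauptmodul `t = tq · n e` of a base level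
  `(n, e) ∈ {(4, 8), (9, 3)}`, `n ∣ M`, lies in `ℚ̄·F₁(M)`;
* `X1Hyps M ℓ A n e` : the not-yet-instantiated chapter outputs at the datum `X1gens M`, one field per
  chapter: `gauss` (IGU-INST), `gb2` (GB2X1), `modelStep` (MODEL: `modelStep_of_targets`), `model` (E06);
* `nonempty_pack_X1`, `reductionInputsAlongG_X1`, `reductionInputsAlongG_L1`,
  `forall_reductionInputsAlongG_X1` (all `ℓ ∤ M`, all `A` over `ℓ`), `exists_pack_X1` (with the base
  chosen from `4 ∣ M ∨ 9 ∣ M`).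
-/
import Mathlib
import Fermat.Agent.DS.G.ES.RED.RedPack
import Fermat.Agent.DS.X1.Level1
import Fermat.Agent.RED.BASE.Hauptmodul12

set_option autoImplicit false
set_option linter.unusedSectionVars false
set_option linter.style.haveILetI false

noncomputable section

open AlgebraicCurve ModularCurve HahnSeries IntermediateField
open scoped MatrixGroups

namespace Fermat.Agent.DS.G.ES.RED.X1Inst

open Fermat.Agent.X0 Fermat.Agent.X0.FF Fermat.Agent.ES.RED.Contract8
  Fermat.Agent.DS.G.ES.RED.Iface Fermat.Agent.DS.G.ES.RED.GaussUnit25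
  Fermat.Agent.DS.G.ES.RED.SpecialDegree25 Fermat.Agent.DS.G.ES.RED.ModelContract
  Fermat.Agent.DS.G.ES.RED.RedPack Fermat.Agent.DS.G.RED.Defs Fermat.Agent.DS.G.RED.Num
  Fermat.Agent.DS.X1.Level1 Fermat.Agent.DS.G.Level
  Fermat.Agent.RED.Interface4 Fermat.Agent.RED.BASE Fermat.Agent.RED.BASE.EtaQuot12
  Fermat.Agent.RED.BASE.Hauptmodul12

variable (M : ℕ) [NeZero M]

/-! ### the Hauptmodul at the datum `X1gens M` -/

/-- `F₀(M) ⊆ F₁(M)` over `ℚ`. -/
theorem full_le_FQ : modularFunctionFieldFull M ≤ (X1gens M).FQ := by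
  rw [← X0gens_FQ]
  exact FC_X0_le M ℚ

/-- `ℚ̄·F₀(M) ⊆ ℚ̄·F₁(M)`. -/
theorem bar_le_Fbar :
    laurentBaseChange Qbar (modularFunctionFieldFull M) ≤ (X1gens M).Fbar := by
  unfold GenData.Fbar laurentBaseChange
  exact IntermediateField.adjoin.mono _ _ _ (Set.image_mono (full_le_FQ M))

/-- **The Hauptmodul of a base level `n ∣ M` lies in `ℚ̄·F₁(M)`.** -/
theorem tq_mem_X1 {n e : ℕ} [NeZero n] (hb : BaseHyp n e) (hnM : n ∣ M) :
    tq Qbar n e ∈ (X1gens M).Fbar :=
  Fermat.Agent.DS.G.RED.ModelMain4.tq_mem_of_le hb hnM (full_le_FQ M)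

/-- the same from `TMem n e M`. -/
theorem tq_mem_X1_of_tMem {n e : ℕ} [NeZero n] (h : Interface12.TMem n e M) :
    tq Qbar n e ∈ (X1gens M).Fbar :=
  bar_le_Fbar M h

/-- **A Hauptmodul base below `M`** when `4 ∣ M` or `9 ∣ M`. -/
theorem exists_base (hM : 4 ∣ M ∨ 9 ∣ M) :
    ∃ (n e : ℕ) (_ : NeZero n), BaseHyp n e ∧ n ∣ M := by
  rcases hM with h | h
  · exact ⟨4, 8, ⟨by norm_num⟩, baseHyp_four, h⟩
  · exact ⟨9, 3, ⟨by norm_num⟩, baseHyp_nine, h⟩

/-! ### the chapter outputs at `X1gens M` -/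

/-- **The inputs of the reduction package at the datum `X1gens M`**, one field per chapter.
* `gauss` : (DEG)+(IRR) and the Gauss bridge at all large number fields (chapter IGU,
  `GaussInputsOfIgusa.gaussInputs_of_igusaInput` + IGU-INST);
* `gb2` : the residue field of the Gauss valuation is generated by the reduced generators
  (`GB2X1.gb2Step_X1gens`, `GB2X1Any31.gb2Step_X1gens_any`, `GB2X1Canon.gb2Step_X1gens_canon`);
* `modelStep` : two-chart models over `A ∩ K` for all large `K` (chapter MODEL,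
  `ModelMain4.modelStep_of_smooth`; used for (Φ3));
* `model` : the two-chart model over `A` (chapter E06, twin of `ModelOfInst12.model_of_hasLevels`). -/
structure X1Hyps (ℓ : ℕ) (A : ValuationSubring Qbar) (n e : ℕ) [NeZero n] : Prop where
  gauss : Fermat.Agent.DS.G.RED.ModelMain4.GaussInputs (X1gens M).FQ A
  gb2 : GB2Step (X1gens M) A
  modelStep : ModelStepG (X1gens M).FQ A
  model : Model (X1gens M) n e A

/-- `X1Hyps` with `modelStep` from the three smoothness targets of chapter MODEL. -/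
theorem X1Hyps.of_targets {ℓ : ℕ} [Fact ℓ.Prime] {A : ValuationSubring Qbar}
    (hA : A.LiesOverPrime ℓ) {n e : ℕ} [NeZero n] (hb : BaseHyp n e) (hnM : n ∣ M)
    (hG : Fermat.Agent.DS.G.RED.ModelMain4.GaussInputs (X1gens M).FQ A)
    (hGB2 : GB2Step (X1gens M) A)
    (cv : SL(2, ℤ) → Option Fermat.Agent.X0.Kbar)
    (hoff : Fermat.Agent.DS.G.RED.ModelTargets4.OffTarget (X1gens M).FQ n e A cv)
    (hover : Fermat.Agent.DS.G.RED.ModelTargets4.OverTarget (X1gens M).FQ n e A cv)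
    (hinf : Fermat.Agent.DS.G.RED.ModelTargets4.InfTarget (X1gens M).FQ n e A)
    (hmodel : Model (X1gens M) n e A) : X1Hyps M ℓ A n e where
  gauss := hG
  gb2 := hGB2
  modelStep := Fermat.Agent.DS.G.RED.ModelMain4.modelStep_of_smooth (tq_mem_X1 M hb hnM)
    (tGenBase' hb) hA hG cv hoff hover hinf
  model := hmodel

section Main

variable (ℓ : ℕ) [Fact ℓ.Prime] (A : ValuationSubring Qbar) (hA : A.LiesOverPrime ℓ)
  {n e : ℕ} [NeZero n] (hb : BaseHyp n e)

include hA hb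

/-- the Igusa inputs at the Hauptmodul. -/
theorem igusaStep_X1 (hnM : n ∣ M) (H : X1Hyps M ℓ A n e) : IgusaStep (X1gens M) n e A :=
  Fermat.Agent.DS.G.ES.RED.IgusaStepOf.igusaStep_of_gaussInputs (X1gens M) n e ℓ A hA
    (tq_mem_X1 M hb hnM) (tGenBase' hb) H.gauss H.gb2

/-- **The reduction package at `X1gens M`.** -/
theorem nonempty_pack_X1 (H : X1Hyps M ℓ A n e) : Nonempty (Pack (X1gens M) n e ℓ A) :=
  nonempty_of_model_gauss (X1gens M) n e ℓ A hA (tGenBase' hb) H.gauss H.gb2 H.modelStep H.model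

/-- **The final statement of the E-chain at `X1gens M`.** -/
theorem reductionInputsAlongG_X1 (H : X1Hyps M ℓ A n e) :
    ReductionInputsAlongG A (resA A) (X1gens M).FQ ((X1gens M).FC (kA A)) :=
  reductionInputsAlongG_of_model (X1gens M) n e ℓ A hA (tGenBase' hb) H.gauss H.gb2 H.modelStep
    H.model

/-- the same in the vocabulary of the level `L1 M`. -/
theorem reductionInputsAlongG_L1 (H : X1Hyps M ℓ A n e) :
    ReductionInputsAlongG A (resA A) (L1 M).F₀ ((X1gens M).FC (kA A)) :=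
  reductionInputsAlongG_X1 M ℓ A hA hb H

end Main

/-- **The reduction package at `X1gens M`, base chosen from `4 ∣ M ∨ 9 ∣ M`.** -/
theorem exists_pack_X1 (hM : 4 ∣ M ∨ 9 ∣ M) (ℓ : ℕ) [Fact ℓ.Prime] (A : ValuationSubring Qbar)
    (hA : A.LiesOverPrime ℓ)
    (H : ∀ (n e : ℕ) [NeZero n], BaseHyp n e → n ∣ M → X1Hyps M ℓ A n e) :
    ∃ (n e : ℕ) (_ : NeZero n), BaseHyp n e ∧ n ∣ M ∧ Nonempty (Pack (X1gens M) n e ℓ A) := by
  obtain ⟨n, e, hn, hb, hnM⟩ := exists_base M hM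
  exact ⟨n, e, hn, hb, hnM, nonempty_pack_X1 M ℓ A hA hb (H n e hb hnM)⟩

/-- **`ReductionInputsAlongG` at `X1gens M` for all `ℓ ∤ M` and all `A` over `ℓ`.** -/
theorem forall_reductionInputsAlongG_X1 (hM : 4 ∣ M ∨ 9 ∣ M)
    (H : ∀ (ℓ : ℕ) [Fact ℓ.Prime], ¬ ℓ ∣ M → ∀ A : ValuationSubring Qbar, A.LiesOverPrime ℓ →
      ∀ (n e : ℕ) [NeZero n], BaseHyp n e → n ∣ M → X1Hyps M ℓ A n e)
    (ℓ : ℕ) [Fact ℓ.Prime] (hℓM : ¬ ℓ ∣ M) (A : ValuationSubring Qbar) (hA : A.LiesOverPrime ℓ) :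
    ReductionInputsAlongG A (resA A) (X1gens M).FQ ((X1gens M).FC (kA A)) := by
  obtain ⟨n, e, hn, hb, hnM⟩ := exists_base M hM
  exact reductionInputsAlongG_X1 M ℓ A hA hb (H ℓ hℓM A hA n e hb hnM)

end Fermat.Agent.DS.G.ES.RED.X1Inst
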