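/-
Programme DS (S48), chapter G-ESRED, brick E10 (helper93): **`X1Inst` with the Igusa inputs
discharged**.  `GaussInputs (X1gens M).FQ A` (helper55, `GaussInputsX1.gaussInputs_X1gens`) and
`GB2Step (X1gens M) A` (helper31, `GB2Final31.gb2Step_X1gens_of_dvd`) are unconditional, so the
reduction package at `X1gens M` only needs

* `ModelStepG (X1gens M).FQ A`   — two-chart models over `A ∩ K` (chapter MODEL; for (Φ3));
* `ModelContract.Model (X1gens M) n e A` — the two-chart model over `A` (chapter E06).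

* `x1Hyps`, `igusaStep_X1_final`, `nonempty_pack_X1_final`, `exists_pack_X1_final`,
  `reductionInputsAlongG_X1_final`;
* `model_of_def78` : helper78's `ModelDef78.Model n e A D` is `ModelContract.Model D n e A`;
* **UNCONDITIONAL** (END GAME plug (2)): `modelStepG_L1`, `model_X1_of_targets`, `model_X1_four`,
  `model_X1_nine`, `nonempty_pack_L1_four`, `nonempty_pack_L1_nine`, `exists_pack_L1`,
  `reductionInputsAlongG_L1_final` — from helper29's `ModelStep29.modelStep_L1`,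
  `Targets29.targets_L1_four/nine` and helper52's `ModelOf52.model_of_targets'`.
-/
import Mathlib
import Fermat.Agent.DS.G.ES.RED.X1Inst
import Fermat.Agent.DS.G.ES.RED.GaussInputsX1
import Fermat.Agent.DS.X1.GB2Final31
import Fermat.Agent.DS.G.ES.TOP.ModelDef78
import Fermat.Agent.DS.G.ES.TOP.ModelOf52
import Fermat.Agent.DS.X1.Targets29

set_option autoImplicit false
set_option linter.unusedSectionVars false
set_option linter.style.haveILetI false

noncomputable section

open AlgebraicCurve ModularCurve HahnSeries IntermediateField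

namespace Fermat.Agent.DS.G.ES.RED.X1Final

open Fermat.Agent.X0 Fermat.Agent.ES.RED.Contract8
  Fermat.Agent.DS.G.ES.RED.Iface Fermat.Agent.DS.G.ES.RED.GaussUnit25
  Fermat.Agent.DS.G.ES.RED.SpecialDegree25 Fermat.Agent.DS.G.ES.RED.ModelContract
  Fermat.Agent.DS.G.ES.RED.RedPack Fermat.Agent.DS.G.ES.RED.X1Inst
  Fermat.Agent.DS.G.RED.Defs Fermat.Agent.DS.G.RED.Num
  Fermat.Agent.DS.X1.Level1
  Fermat.Agent.RED.Interface4 Fermat.Agent.RED.BASE.Hauptmodul12

/-- helper78's `ModelDef78.Model n e A D` is `ModelContract.Model D n e A`. -/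
theorem model_of_def78 {D : GenData} {n e : ℕ} [NeZero n] {A : ValuationSubring Qbar}
    (h : Fermat.Agent.DS.G.ES.TOP.ModelDef78.Model n e A D) : Model D n e A := by
  obtain ⟨hmem, x, hx, T, c0, c1, hs0, p0, p1⟩ := h
  exact ⟨hmem, x, hx, T, c0, c1, hs0, p0, p1⟩

/-- and conversely. -/
theorem def78_of_model {D : GenData} {n e : ℕ} [NeZero n] {A : ValuationSubring Qbar}
    (h : Model D n e A) : Fermat.Agent.DS.G.ES.TOP.ModelDef78.Model n e A D := by
  obtain ⟨hmem, x, hx, T, c0, c1, hs0, p0, p1⟩ := h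
  exact ⟨hmem, x, hx, T, c0, c1, hs0, p0, p1⟩

variable (M : ℕ) [NeZero M] (hM : 4 ∣ M ∨ 9 ∣ M) (ℓ : ℕ) [Fact ℓ.Prime] (hℓM : ¬ ℓ ∣ M)
  (A : ValuationSubring Qbar) (hA : A.LiesOverPrime ℓ)

include hM hℓM hA

/-- **The inputs of the reduction package at `X1gens M`**, Igusa inputs discharged. -/
theorem x1Hyps {n e : ℕ} [NeZero n] (hmodelStep : ModelStepG (X1gens M).FQ A)
    (hmodel : Model (X1gens M) n e A) : X1Hyps M ℓ A n e where
  gauss := Fermat.Agent.DS.G.ES.RED.GaussInputsX1.gaussInputs_X1gens M ℓ hℓM A hA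
  gb2 := Fermat.Agent.DS.X1.GB2Final31.gb2Step_X1gens_of_dvd M hM ℓ hℓM A hA
  modelStep := hmodelStep
  model := hmodel

/-- **The reduction package at `X1gens M`** from MODEL (over the number fields) and the two-chart
model over `A`. -/
theorem nonempty_pack_X1_final {n e : ℕ} [NeZero n] (hb : BaseHyp n e)
    (hmodelStep : ModelStepG (X1gens M).FQ A) (hmodel : Model (X1gens M) n e A) :
    Nonempty (Pack (X1gens M) n e ℓ A) :=
  nonempty_pack_X1 M ℓ A hA hb (x1Hyps M hM ℓ hℓM A hA hmodelStep hmodel)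

/-- the same with the base chosen from `4 ∣ M ∨ 9 ∣ M`. -/
theorem exists_pack_X1_final (hmodelStep : ModelStepG (X1gens M).FQ A)
    (hmodel : ∀ (n e : ℕ) [NeZero n], BaseHyp n e → n ∣ M → Model (X1gens M) n e A) :
    ∃ (n e : ℕ) (_ : NeZero n), BaseHyp n e ∧ n ∣ M ∧ Nonempty (Pack (X1gens M) n e ℓ A) :=
  exists_pack_X1 M hM ℓ A hA fun n e _ hb hnM =>
    x1Hyps M hM ℓ hℓM A hA hmodelStep (hmodel n e hb hnM)

/-- **The final statement of the E-chain at `X1gens M`.** -/
theorem reductionInputsAlongG_X1_final {n e : ℕ} [NeZero n] (hb : BaseHyp n e)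
    (hmodelStep : ModelStepG (X1gens M).FQ A) (hmodel : Model (X1gens M) n e A) :
    ReductionInputsAlongG A (resA A) (X1gens M).FQ ((X1gens M).FC (kA A)) :=
  reductionInputsAlongG_X1 M ℓ A hA hb (x1Hyps M hM ℓ hℓM A hA hmodelStep hmodel)

/-! ### the unconditional statements -/

/-- **(MODEL) at `X1gens M`**, unconditional (helper29). -/
theorem modelStepG_L1 : ModelStepG (X1gens M).FQ A :=
  Fermat.Agent.DS.X1.ModelStep29.modelStep_L1 M A hM hℓM hA

/-- **The two-chart model over `A` at `X1gens M`** from the three smoothness targets. -/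
theorem model_X1_of_targets {n e : ℕ} [NeZero n] (hb : BaseHyp n e) (hnM : n ∣ M)
    (cv : Matrix.SpecialLinearGroup (Fin 2) ℤ → Option Fermat.Agent.X0.Kbar)
    (hoff : Fermat.Agent.DS.G.RED.ModelTargets4.OffTarget (X1gens M).FQ n e A cv)
    (hover : Fermat.Agent.DS.G.RED.ModelTargets4.OverTarget (X1gens M).FQ n e A cv)
    (hinf : Fermat.Agent.DS.G.RED.ModelTargets4.InfTarget (X1gens M).FQ n e A) :
    Model (X1gens M) n e A :=
  Fermat.Agent.DS.G.ES.TOP.ModelOf52.model_of_targets' (X1gens M) n e ℓ (tq_mem_X1 M hb hnM)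
    (tGenBase' hb) A hA (Fermat.Agent.DS.X1.GB2Final31.gb2Step_X1gens_of_dvd M hM ℓ hℓM A hA)
    (Fermat.Agent.DS.G.ES.RED.GaussInputsX1.gaussInputs_X1gens M ℓ hℓM A hA) cv hoff hover hinf

/-- the two-chart model over `A`, base `(4, 8)`. -/
theorem model_X1_four (hM4 : 4 ∣ M) : Model (X1gens M) 4 8 A := by
  obtain ⟨hoff, hover, hinf⟩ := Fermat.Agent.DS.X1.Targets29.targets_L1_four A M hM4 hℓM hA
  exact model_X1_of_targets M hM ℓ hℓM A hA baseHyp_four hM4 _ hoff hover hinf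

/-- the two-chart model over `A`, base `(9, 3)`. -/
theorem model_X1_nine (hM9 : 9 ∣ M) : Model (X1gens M) 9 3 A := by
  obtain ⟨hoff, hover, hinf⟩ := Fermat.Agent.DS.X1.Targets29.targets_L1_nine A M hM9 hℓM hA
  exact model_X1_of_targets M hM ℓ hℓM A hA baseHyp_nine hM9 _ hoff hover hinf

/-- **The reduction package at `L1 M`, base `(4, 8)`: UNCONDITIONAL** (`4 ∣ M`, `ℓ ∤ M`, `A` over
`ℓ`). -/
theorem nonempty_pack_L1_four (hM4 : 4 ∣ M) : Nonempty (Pack (X1gens M) 4 8 ℓ A) :=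
  nonempty_pack_X1_final M hM ℓ hℓM A hA baseHyp_four (modelStepG_L1 M hM ℓ hℓM A hA)
    (model_X1_four M hM ℓ hℓM A hA hM4)

/-- **The reduction package at `L1 M`, base `(9, 3)`: UNCONDITIONAL** (`9 ∣ M`, `ℓ ∤ M`, `A` over
`ℓ`). -/
theorem nonempty_pack_L1_nine (hM9 : 9 ∣ M) : Nonempty (Pack (X1gens M) 9 3 ℓ A) :=
  nonempty_pack_X1_final M hM ℓ hℓM A hA baseHyp_nine (modelStepG_L1 M hM ℓ hℓM A hA)
    (model_X1_nine M hM ℓ hℓM A hA hM9)

/-- **The reduction package at `L1 M`: UNCONDITIONAL**, base chosen from `4 ∣ M ∨ 9 ∣ M`. -/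
theorem exists_pack_L1 :
    ∃ (n e : ℕ) (_ : NeZero n), BaseHyp n e ∧ n ∣ M ∧ Nonempty (Pack (X1gens M) n e ℓ A) := by
  rcases hM with h4 | h9
  · exact ⟨4, 8, inferInstance, baseHyp_four, h4, nonempty_pack_L1_four M (Or.inl h4) ℓ hℓM A hA h4⟩
  · exact ⟨9, 3, inferInstance, baseHyp_nine, h9, nonempty_pack_L1_nine M (Or.inr h9) ℓ hℓM A hA h9⟩

/-- **The final statement of the E-chain at `L1 M`: UNCONDITIONAL.** -/
theorem reductionInputsAlongG_L1_final :
    ReductionInputsAlongG A (resA A) (L1 M).F₀ ((X1gens M).FC (kA A)) := by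
  obtain ⟨n, e, _, -, -, ⟨P⟩⟩ := exists_pack_L1 M hM ℓ hℓM A hA
  exact P.reductionInputs

end Fermat.Agent.DS.G.ES.RED.X1Final
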